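/-
P-CFT work package Coh/Induced (helper65).

Coinduced modules for a finite group `G`, vanishing of their Tate cohomology (for `G` and for
every subgroup), dimension shifting, and additivity of Tate cohomology.
-/
import Mathlib

universe u w

open CategoryTheory CategoryTheory.Limits groupCohomology groupHomology Rep

namespace Fermat.Agent.Lib.CFT.Coh

/-! ### Low degree Tate cohomology: vanishing criteria -/

namespace Induced

section LowDegree

variable {R G : Type u} [CommRing R] [Group G] [Fintype G]

/-- The short complex `M --N--> M --d₀₁--> Fun(G, M)`. -/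
noncomputable def tateShortComplexZero (M : Rep R G) : ShortComplex (ModuleCat R) :=
  ShortComplex.mk M.norm.toModuleCatHom (d₀₁ M) (Rep.norm_comp_d_eq_zero M)

/-- The short complex `(G →₀ M) --d₁₀--> M --N--> M`. -/
noncomputable def tateShortComplexNegOne (M : Rep R G) : ShortComplex (ModuleCat R) :=
  ShortComplex.mk (d₁₀ M) M.norm.toModuleCatHom (Rep.comp_eq_zero M)

/-- The Tate complex around degree `0` is `M --N--> M --d₀₁--> Fun(G, M)`. -/
noncomputable def tateScZeroIso (M : Rep R G) :
    (tateComplex M).sc' (-1) 0 1 ≅ tateShortComplexZero M :=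
  ShortComplex.isoMk (chainsIso₀ M) (cochainsIso₀ M) (cochainsIso₁ M)
    (by
      change (chainsIso₀ M).hom ≫ M.norm.toModuleCatHom = M.tateNorm ≫ (cochainsIso₀ M).hom
      simp [Rep.tateNorm])
    (by
      change (cochainsIso₀ M).hom ≫ d₀₁ M =
        (inhomogeneousCochains M).d 0 1 ≫ (cochainsIso₁ M).hom
      exact comp_d₀₁_eq M)

/-- The Tate complex around degree `-1` is `(G →₀ M) --d₁₀--> M --N--> M`. -/
noncomputable def tateScNegOneIso (M : Rep R G) :
    (tateComplex M).sc' (-2) (-1) 0 ≅ tateShortComplexNegOne M :=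
  ShortComplex.isoMk (chainsIso₁ M) (chainsIso₀ M) (cochainsIso₀ M)
    (by
      change (chainsIso₁ M).hom ≫ d₁₀ M = (inhomogeneousChains M).d 1 0 ≫ (chainsIso₀ M).hom
      exact comp_d₁₀_eq M)
    (by
      change (chainsIso₀ M).hom ≫ M.norm.toModuleCatHom = M.tateNorm ≫ (cochainsIso₀ M).hom
      simp [Rep.tateNorm])

/-- `Ĥ⁰(G, M) = 0` iff every invariant is a norm. -/
theorem isZero_tateCohomology_zero_iff (M : Rep R G) :
    IsZero (tateCohomology M 0) ↔
      ∀ m : M.V, (∀ g : G, M.ρ g m = m) → ∃ m' : M.V, M.ρ.norm m' = m := by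
  change IsZero ((tateComplex M).homology 0) ↔ _
  rw [← HomologicalComplex.exactAt_iff_isZero_homology,
    HomologicalComplex.exactAt_iff' _ (-1) 0 1 (by simp) (by simp),
    ShortComplex.exact_iff_of_iso (tateScZeroIso M), ShortComplex.moduleCat_exact_iff]
  have key : ∀ m : M.V, (d₀₁ M).hom m = 0 ↔ ∀ g : G, M.ρ g m = m := fun m => by
    rw [← LinearMap.mem_ker, d₀₁_ker_eq_invariants, Representation.mem_invariants]
  constructor
  · intro h m hm
    obtain ⟨x, hx⟩ := h m ((key m).2 hm)
    exact ⟨x, hx⟩
  · intro h m hm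
    obtain ⟨x, hx⟩ := h m ((key m).1 hm)
    exact ⟨x, hx⟩

/-- `Ĥ⁻¹(G, M) = 0` iff every element of norm zero lies in the augmentation submodule
`I_G M` (the span of the `g m - m`). -/
theorem isZero_tateCohomology_neg_one_iff (M : Rep R G) :
    IsZero (tateCohomology M (-1)) ↔
      ∀ m : M.V, M.ρ.norm m = 0 → m ∈ Representation.Coinvariants.ker M.ρ := by
  change IsZero ((tateComplex M).homology (-1)) ↔ _
  rw [← HomologicalComplex.exactAt_iff_isZero_homology,
    HomologicalComplex.exactAt_iff' _ (-2) (-1) 0 (by simp) (by simp),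
    ShortComplex.exact_iff_of_iso (tateScNegOneIso M), ShortComplex.moduleCat_exact_iff,
    ← range_d₁₀_eq_coinvariantsKer]
  constructor
  · intro h m hm
    obtain ⟨x, hx⟩ := h m hm
    exact ⟨x, hx⟩
  · intro h m hm
    obtain ⟨x, hx⟩ := h m hm
    exact ⟨x, hx⟩

end LowDegree

end Induced

/-! ### The coinduced module `Fun(G, B)` -/

section Coind

variable (R G : Type u) [CommRing R] [Group G]

/-- The right-translation representation of `G` on functions `G → B`:
`(g • f) x = f (x * g)`. -/
@[simps]
def coind₁Rep (B : Type u) [AddCommGroup B] [Module R B] : Representation R G (G → B) where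
  toFun g := LinearMap.funLeft R B (· * g)
  map_one' := by ext; simp
  map_mul' g h := by ext; simp [mul_assoc]

/-- The coinduced module `Fun(G, B)`, as an object of `Rep R G`; `G` acts by right
translation, `(g • f) x = f (x * g)`. -/
noncomputable abbrev coind₁ (B : Type u) [AddCommGroup B] [Module R B] : Rep R G :=
  Rep.of (coind₁Rep R G B)

variable {R G}

lemma coind₁_ρ_apply (B : Type u) [AddCommGroup B] [Module R B] (g : G) (f : G → B) (x : G) :
    (coind₁ R G B).ρ g f x = f (x * g) := rfl

/-- The comparison with Mathlib's coinduction from the trivial subgroup. -/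
noncomputable def coind₁IsoCoind (B : Rep R (⊥ : Subgroup G)) :
    coind₁ R G B.V ≅ Rep.coind (⊥ : Subgroup G).subtype B :=
  Rep.mkIso <| .mk
    { toFun := fun f => ⟨f, fun g h => by
        have hg : g = 1 := Subsingleton.elim _ _
        subst hg
        simp⟩
      map_add' := fun _ _ => rfl
      map_smul' := fun _ _ => rfl
      invFun := fun f => f.1
      left_inv := fun _ => rfl
      right_inv := fun _ => rfl } fun g => by ext; rfl

section Restriction

variable {H : Type u} [Group H] (φ : H →* G)

lemma exists_out_mul_eq (x : G) :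
    ∃ h : H, Quotient.out (x : G ⧸ φ.range) * φ h = x := by
  have h1 : ((Quotient.out (x : G ⧸ φ.range) : G) : G ⧸ φ.range) = (x : G ⧸ φ.range) :=
    Quotient.out_eq' _
  rw [QuotientGroup.eq] at h1
  obtain ⟨h, hh⟩ := h1
  exact ⟨h, by rw [hh]; group⟩

/-- The `H`-coordinate of `x : G` with respect to the chosen representatives of `G ⧸ φ(H)`. -/
noncomputable def cosetCoord (x : G) : H := Classical.choose (exists_out_mul_eq φ x)

lemma out_mul_cosetCoord (x : G) :
    Quotient.out (x : G ⧸ φ.range) * φ (cosetCoord φ x) = x :=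
  Classical.choose_spec (exists_out_mul_eq φ x)

lemma mk_mul_map (x : G) (h : H) : ((x * φ h : G) : G ⧸ φ.range) = (x : G ⧸ φ.range) := by
  rw [QuotientGroup.eq]
  exact ⟨h⁻¹, by simp⟩

variable {φ}

lemma cosetCoord_mul (hφ : Function.Injective φ) (x : G) (h : H) :
    cosetCoord φ (x * φ h) = cosetCoord φ x * h := by
  apply hφ
  have h1 := out_mul_cosetCoord φ (x * φ h)
  rw [mk_mul_map] at h1
  have h2 := out_mul_cosetCoord φ x
  rw [map_mul]
  apply mul_left_cancel (a := Quotient.out (x : G ⧸ φ.range))
  rw [h1, ← mul_assoc, h2]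

lemma cosetCoord_out_mul (hφ : Function.Injective φ) (c : G ⧸ φ.range) (h : H) :
    cosetCoord φ (Quotient.out c * φ h) = h := by
  apply hφ
  have h1 := out_mul_cosetCoord φ (Quotient.out c * φ h)
  rw [mk_mul_map] at h1
  have h2 : ((Quotient.out c : G) : G ⧸ φ.range) = c := Quotient.out_eq' _
  rw [h2] at h1
  exact mul_left_cancel h1

/-- The restriction of a coinduced module along an injective group homomorphism is
coinduced: `Fun(G, B) ≅ Fun(H, Fun(G ⧸ φ H, B))`. -/
noncomputable def resCoind₁Iso (hφ : Function.Injective φ) (B : Type u) [AddCommGroup B]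
    [Module R B] : Rep.res φ (coind₁ R G B) ≅ coind₁ R H ((G ⧸ φ.range) → B) :=
  Rep.mkIso <| .mk
    { toFun := fun f h c => f (Quotient.out c * φ h)
      map_add' := fun _ _ => rfl
      map_smul' := fun _ _ => rfl
      invFun := fun F x => F (cosetCoord φ x) (x : G ⧸ φ.range)
      left_inv := fun f => by
        funext x
        simp only [out_mul_cosetCoord]
      right_inv := fun F => by
        funext h c
        simp only [cosetCoord_out_mul hφ, mk_mul_map]
        congr 1
        exact Quotient.out_eq' _ } fun h => by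
    ext f h' c
    change f (Quotient.out c * φ h' * φ h) = f (Quotient.out c * φ (h' * h))
    rw [map_mul, mul_assoc]

end Restriction

/-! ### Vanishing of the Tate cohomology of `Fun(G, B)` -/

section Vanishing

variable [Fintype G]

lemma coind₁_norm_apply (B : Type u) [AddCommGroup B] [Module R B] (f : G → B) (x : G) :
    (coind₁ R G B).ρ.norm f x = ∑ g : G, f g := by
  simp only [Representation.norm, LinearMap.sum_apply, Finset.sum_apply]
  exact Fintype.sum_bijective (x * ·) (Group.mulLeft_bijective x) _ _ fun g => rfl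

theorem isZero_tateCohomology_coind₁_pos (B : Type u) [AddCommGroup B] [Module R B] (n : ℕ) :
    IsZero (tateCohomology (coind₁ R G B) ((n + 1 : ℕ) : ℤ)) := by
  let B' : Rep R (⊥ : Subgroup G) := Rep.trivial R _ B
  have e1 : tateCohomology (coind₁ R G B) ((n + 1 : ℕ) : ℤ) ≅
      groupCohomology (coind₁ R G B) (n + 1) :=
    (TateCohomology.isoGroupCohomology (n + 1)).app _
  have e2 : groupCohomology (coind₁ R G B) (n + 1) ≅
      groupCohomology (Rep.coind (⊥ : Subgroup G).subtype B') (n + 1) :=
    (groupCohomology.functor R G (n + 1)).mapIso (coind₁IsoCoind B')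
  have e3 := groupCohomology.coindIso B' (n + 1)
  exact (isZero_groupCohomology_succ_of_subsingleton B' n).of_iso (e1 ≪≫ e2 ≪≫ e3)

theorem isZero_tateCohomology_coind₁_neg (B : Type u) [AddCommGroup B] [Module R B] (n : ℕ) :
    IsZero (tateCohomology (coind₁ R G B) (-((n + 1 : ℕ) + 1 : ℤ))) := by
  classical
  let B' : Rep R (⊥ : Subgroup G) := Rep.trivial R _ B
  have e1 : tateCohomology (coind₁ R G B) (-((n + 1 : ℕ) + 1 : ℤ)) ≅
      groupHomology (coind₁ R G B) (n + 1) :=
    (TateCohomology.isoGroupHomology _ (n + 1) rfl).app _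
  have e2 : groupHomology (coind₁ R G B) (n + 1) ≅
      groupHomology (Rep.ind (⊥ : Subgroup G).subtype B') (n + 1) :=
    (groupHomology.functor R G (n + 1)).mapIso (coind₁IsoCoind B' ≪≫ (Rep.indCoindIso B').symm)
  have e3 := groupHomology.indIso (⊥ : Subgroup G) B' (n + 1)
  exact (isZero_groupHomology_succ_of_subsingleton B' n).of_iso (e1 ≪≫ e2 ≪≫ e3)

theorem isZero_tateCohomology_coind₁_zero (B : Type u) [AddCommGroup B] [Module R B] :
    IsZero (tateCohomology (coind₁ R G B) 0) := by
  classical
  rw [Induced.isZero_tateCohomology_zero_iff]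
  intro f hf
  refine ⟨(Pi.single 1 (f 1) : G → B), ?_⟩
  funext x
  rw [coind₁_norm_apply, Finset.sum_eq_single 1 (by intro b _ hb; simp [hb]) (by simp)]
  have := congrFun (hf x) 1
  rw [coind₁_ρ_apply, one_mul] at this
  simpa using this.symm

theorem isZero_tateCohomology_coind₁_neg_one (B : Type u) [AddCommGroup B] [Module R B] :
    IsZero (tateCohomology (coind₁ R G B) (-1)) := by
  classical
  rw [Induced.isZero_tateCohomology_neg_one_iff]
  intro f hf
  have hsum : ∑ g : G, f g = 0 := by
    have := congrFun hf 1
    rwa [coind₁_norm_apply] at this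
  have h2 : ∀ (y : G) (b : B), (Pi.single y b : G → B) =
      (coind₁ R G B).ρ y⁻¹ (Pi.single 1 b : G → B) := by
    intro y b
    funext x
    rw [coind₁_ρ_apply]
    by_cases hxy : x = y
    · subst hxy; simp
    · rw [Pi.single_eq_of_ne hxy, Pi.single_eq_of_ne]
      intro h
      exact hxy (by rwa [mul_inv_eq_one] at h)
  have h3 : f = ∑ y : G, ((coind₁ R G B).ρ y⁻¹ (Pi.single 1 (f y) : G → B) -
      (Pi.single 1 (f y) : G → B)) := by
    rw [Finset.sum_sub_distrib]
    have : ∑ y : G, (Pi.single 1 (f y) : G → B) = 0 := by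
      have := map_sum (LinearMap.single R (fun _ : G => B) 1) (fun y => f y) Finset.univ
      simp only [LinearMap.coe_single] at this
      rw [← this, hsum, Pi.single_zero]
    rw [this, sub_zero]
    simp_rw [← h2]
    exact (Finset.univ_sum_single f).symm
  rw [h3]
  exact Submodule.sum_mem _ fun y _ => Representation.Coinvariants.sub_mem_ker _ _

/-- **Coinduced modules have trivial Tate cohomology in every degree.** -/
theorem isZero_tateCohomology_coind₁ (B : Type u) [AddCommGroup B] [Module R B] (n : ℤ) :
    IsZero (tateCohomology (coind₁ R G B) n) := by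
  obtain ⟨k, rfl | rfl⟩ := n.eq_nat_or_neg
  · cases k with
    | zero => exact isZero_tateCohomology_coind₁_zero B
    | succ k => exact isZero_tateCohomology_coind₁_pos B k
  · cases k with
    | zero => simpa using isZero_tateCohomology_coind₁_zero (R := R) (G := G) B
    | succ k =>
      cases k with
      | zero => simpa using isZero_tateCohomology_coind₁_neg_one (R := R) (G := G) B
      | succ k =>
        have := isZero_tateCohomology_coind₁_neg (R := R) (G := G) B k
        convert this using 2
        push_cast
        ring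

omit [Fintype G] in
/-- The restriction of a coinduced module to a subgroup (more generally, along an injective
homomorphism) has trivial Tate cohomology in every degree. -/
theorem isZero_tateCohomology_res_coind₁ {H : Type u} [Group H] [Fintype H] {φ : H →* G}
    (hφ : Function.Injective φ) (B : Type u) [AddCommGroup B] [Module R B] (n : ℤ) :
    IsZero (tateCohomology (Rep.res φ (coind₁ R G B)) n) :=
  (isZero_tateCohomology_coind₁ (R := R) (G := H) ((G ⧸ φ.range) → B) n).of_iso
    ((tateCohomologyFunctor n).mapIso (resCoind₁Iso hφ B))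

end Vanishing

end Coind

section CohTrivial

variable {R G : Type u} [CommRing R] [Group G]

/-! ### Cohomologically trivial modules -/

/-- A `G`-module is cohomologically trivial if its Tate cohomology vanishes in all degrees after
restriction along every injective homomorphism from a finite group (in particular for `G`
itself and for every subgroup). -/
def IsCohTrivial (M : Rep R G) : Prop :=
  ∀ (H : Type u) [Group H] [Fintype H] (φ : H →* G), Function.Injective φ →
    ∀ n : ℤ, IsZero (tateCohomology (Rep.res φ M) n)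

theorem IsCohTrivial.isZero [Fintype G] {M : Rep R G} (hM : IsCohTrivial M) (n : ℤ) :
    IsZero (tateCohomology M n) :=
  hM G (MonoidHom.id G) Function.injective_id n

theorem IsCohTrivial.isZero_res {M : Rep R G} (hM : IsCohTrivial M) (H : Subgroup G)
    [Fintype H] (n : ℤ) : IsZero (tateCohomology (Rep.res H.subtype M) n) :=
  hM H H.subtype H.subtype_injective n

theorem IsCohTrivial.of_iso {M N : Rep R G} (e : M ≅ N) (hM : IsCohTrivial M) :
    IsCohTrivial N := fun H _ _ φ hφ n =>
  (hM H φ hφ n).of_iso ((tateCohomologyFunctor n).mapIso ((Rep.resFunctor φ).mapIso e.symm))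

theorem IsCohTrivial.res {M : Rep R G} (hM : IsCohTrivial M) {H : Type u} [Group H]
    (φ : H →* G) (hφ : Function.Injective φ) : IsCohTrivial (Rep.res φ M) :=
  fun K _ _ ψ hψ n => hM K (φ.comp ψ) (hφ.comp hψ) n

theorem isCohTrivial_coind₁ (B : Type u) [AddCommGroup B] [Module R B] :
    IsCohTrivial (coind₁ R G B) := fun _ _ _ _ hφ n =>
  isZero_tateCohomology_res_coind₁ hφ B n

end CohTrivial

/-! ### The maps `A → Fun(G, A) → A` -/

section Maps

variable {R G : Type u} [CommRing R] [Group G]

/-- Functoriality of `Fun(G, -)` in the coefficient module. -/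
noncomputable def coind₁Map {B B' : Type u} [AddCommGroup B] [Module R B] [AddCommGroup B']
    [Module R B'] (f : B →ₗ[R] B') : coind₁ R G B ⟶ coind₁ R G B' :=
  Rep.ofHom ⟨f.compLeft G, fun g => by ext x y; rfl⟩

@[simp]
lemma coind₁Map_apply {B B' : Type u} [AddCommGroup B] [Module R B] [AddCommGroup B']
    [Module R B'] (f : B →ₗ[R] B') (F : G → B) (x : G) :
    (coind₁Map (G := G) f).hom F x = f (F x) := rfl

lemma coind₁Map_id (B : Type u) [AddCommGroup B] [Module R B] :
    coind₁Map (G := G) (LinearMap.id : B →ₗ[R] B) = 𝟙 _ := rfl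

lemma coind₁Map_comp {B B' B'' : Type u} [AddCommGroup B] [Module R B] [AddCommGroup B']
    [Module R B'] [AddCommGroup B''] [Module R B''] (f : B →ₗ[R] B') (g : B' →ₗ[R] B'') :
    coind₁Map (G := G) (g ∘ₗ f) = coind₁Map f ≫ coind₁Map g := rfl

variable (R G) in
/-- The functor `A ↦ Fun(G, A)` on `Rep R G` (only the underlying module of `A` is used). -/
noncomputable def coind₁Functor : Rep R G ⥤ Rep R G where
  obj A := coind₁ R G A.V
  map f := coind₁Map f.hom.toLinearMap
  map_id _ := by ext; rfl
  map_comp _ _ := by ext; rfl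

lemma coind₁Functor_obj (A : Rep R G) : (coind₁Functor R G).obj A = coind₁ R G A.V := rfl

lemma coind₁Functor_map {A B : Rep R G} (f : A ⟶ B) :
    (coind₁Functor R G).map f = coind₁Map f.hom.toLinearMap := rfl

/-- The canonical embedding `A → Fun(G, A)`, `a ↦ (x ↦ x • a)`. -/
noncomputable def coind₁ι (A : Rep R G) : A ⟶ coind₁ R G A.V :=
  Rep.ofHom (ρ := A.ρ) ⟨LinearMap.pi fun x => A.ρ x, fun g => by
    ext a x
    change A.ρ x (A.ρ g a) = A.ρ (x * g) a
    rw [map_mul]; rfl⟩

lemma coind₁ι_apply (A : Rep R G) (a : A.V) (x : G) : (coind₁ι A).hom a x = A.ρ x a := rfl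

lemma coind₁ι_naturality {A B : Rep R G} (f : A ⟶ B) :
    f ≫ coind₁ι B = coind₁ι A ≫ coind₁Map f.hom.toLinearMap := by
  ext a x
  change B.ρ x (f.hom a) = f.hom (A.ρ x a)
  rw [Rep.hom_comm_apply]

instance (A : Rep R G) : Mono (coind₁ι A) := by
  rw [Rep.mono_iff_injective]
  intro a b hab
  have := congrFun hab 1
  change A.ρ 1 a = A.ρ 1 b at this
  simpa using this

section Fin

variable [Fintype G]

/-- The canonical projection `Fun(G, A) → A`, `f ↦ ∑ x, x⁻¹ • f x`. -/
noncomputable def coind₁π (A : Rep R G) : coind₁ R G A.V ⟶ A :=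
  Rep.ofHom (σ := A.ρ) ⟨∑ x : G, (A.ρ x⁻¹ : A.V →ₗ[R] A.V) ∘ₗ LinearMap.proj x, fun g => by
    ext f
    simp only [LinearMap.coe_comp, Function.comp_apply, LinearMap.sum_apply, LinearMap.proj_apply,
      map_sum]
    refine Fintype.sum_bijective (· * g) (Group.mulRight_bijective g) _ _ fun x => ?_
    change A.ρ x⁻¹ (f (x * g)) = A.ρ g (A.ρ (x * g)⁻¹ (f (x * g)))
    rw [← Module.End.mul_apply, ← map_mul]
    congr 2
    group⟩

lemma coind₁π_apply (A : Rep R G) (f : G → A.V) :
    (coind₁π A).hom f = ∑ x : G, A.ρ x⁻¹ (f x) := by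
  change (∑ x : G, (A.ρ x⁻¹ : A.V →ₗ[R] A.V) ∘ₗ LinearMap.proj x) f = _
  simp

lemma coind₁π_naturality {A B : Rep R G} (f : A ⟶ B) :
    coind₁Map f.hom.toLinearMap ≫ coind₁π B = coind₁π A ≫ f := by
  ext (F : G → A.V)
  change (coind₁π B).hom (fun x => f.hom (F x)) = f.hom ((coind₁π A).hom F)
  rw [coind₁π_apply, coind₁π_apply, map_sum]
  exact Finset.sum_congr rfl fun x _ => (Rep.hom_comm_apply f _ _).symm

instance (A : Rep R G) : Epi (coind₁π A) := by
  classical
  rw [Rep.epi_iff_surjective]
  intro a
  refine ⟨(Pi.single 1 a : G → A.V), ?_⟩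
  change (coind₁π A).hom _ = a
  rw [coind₁π_apply, Finset.sum_eq_single 1 (by intro b _ hb; simp [hb]) (by simp)]
  simp

/-- The composite `A → Fun(G, A) → A` is multiplication by `|G|`. -/
lemma coind₁ι_comp_coind₁π (A : Rep R G) :
    coind₁ι A ≫ coind₁π A = Fintype.card G • 𝟙 A := by
  ext a
  change (coind₁π A).hom (fun x => A.ρ x a) = Fintype.card G • a
  rw [coind₁π_apply]
  simp [← Module.End.mul_apply, ← map_mul]

end Fin

end Maps

section DimensionShifting

variable {R G : Type u} [CommRing R] [Group G]

/-! ### Dimension shifting -/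

section Shift

/-- A connecting homomorphism of Tate cohomology is an isomorphism as soon as the middle term
has vanishing Tate cohomology in the two relevant degrees. -/
theorem isIso_δ_of_isZero [Fintype G] {S : ShortComplex (Rep R G)} (hS : S.ShortExact) (n : ℤ)
    (h0 : IsZero (tateCohomology S.X₂ n)) (h1 : IsZero (tateCohomology S.X₂ (n + 1))) :
    IsIso (TateCohomology.δ hS n) := by
  have hm : Mono (TateCohomology.δ hS n) :=
    (TateCohomology.exact₃ hS n).mono_g (h0.eq_of_src _ _)
  have he : Epi (TateCohomology.δ hS n) :=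
    (TateCohomology.exact₁ hS n).epi_f (h1.eq_of_tgt _ _)
  exact isIso_of_mono_of_epi _

/-- The dimension-shifting isomorphism attached to a short exact sequence whose middle term has
trivial Tate cohomology. -/
noncomputable def δIsoOfIsZero [Fintype G] {S : ShortComplex (Rep R G)} (hS : S.ShortExact)
    (n : ℤ) (h0 : IsZero (tateCohomology S.X₂ n)) (h1 : IsZero (tateCohomology S.X₂ (n + 1))) :
    tateCohomology S.X₃ n ≅ tateCohomology S.X₁ (n + 1) :=
  haveI := isIso_δ_of_isZero hS n h0 h1
  asIso (TateCohomology.δ hS n)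

@[simp]
lemma δIsoOfIsZero_hom [Fintype G] {S : ShortComplex (Rep R G)} (hS : S.ShortExact) (n : ℤ)
    (h0 : IsZero (tateCohomology S.X₂ n)) (h1 : IsZero (tateCohomology S.X₂ (n + 1))) :
    (δIsoOfIsZero hS n h0 h1).hom = TateCohomology.δ hS n := rfl

/-- The restriction of a short exact sequence along a group homomorphism is short exact. -/
lemma shortExact_map_res {H : Type u} [Group H] (φ : H →* G) {S : ShortComplex (Rep R G)}
    (hS : S.ShortExact) : (S.map (Rep.resFunctor φ)).ShortExact :=
  (Rep.shortExact_res φ).2 hS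

/-- Dimension shifting for a short exact sequence with cohomologically trivial middle term,
after restriction along an injective homomorphism `φ : H →* G` (e.g. a subgroup). -/
noncomputable def δIsoOfIsCohTrivial {H : Type u} [Group H] [Fintype H] (φ : H →* G)
    (hφ : Function.Injective φ) {S : ShortComplex (Rep R G)} (hS : S.ShortExact)
    (h : IsCohTrivial S.X₂) (n : ℤ) :
    tateCohomology (Rep.res φ S.X₃) n ≅ tateCohomology (Rep.res φ S.X₁) (n + 1) :=
  δIsoOfIsZero (shortExact_map_res φ hS) n (h H φ hφ n) (h H φ hφ (n + 1))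

/-! #### The module `up A = Fun(G, A) / A` -/

/-- The short exact sequence `0 → A → Fun(G, A) → up A → 0`. -/
noncomputable def upShortComplex (A : Rep R G) : ShortComplex (Rep R G) :=
  ShortComplex.mk (coind₁ι A) (cokernel.π (coind₁ι A)) (cokernel.condition _)

/-- `up A` is the cokernel of the canonical embedding `A → Fun(G, A)`. -/
noncomputable def up (A : Rep R G) : Rep R G := (upShortComplex A).X₃

lemma upShortComplex_shortExact (A : Rep R G) : (upShortComplex A).ShortExact where
  exact := ShortComplex.exact_cokernel _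
  mono_f := inferInstanceAs (Mono (coind₁ι A))
  epi_g := inferInstanceAs (Epi (cokernel.π (coind₁ι A)))

/-- Functoriality of the sequence `0 → A → Fun(G, A) → up A → 0`. -/
noncomputable def upShortComplexMap {A B : Rep R G} (f : A ⟶ B) :
    upShortComplex A ⟶ upShortComplex B where
  τ₁ := f
  τ₂ := coind₁Map f.hom.toLinearMap
  τ₃ := cokernel.map (coind₁ι A) (coind₁ι B) f (coind₁Map f.hom.toLinearMap)
    (coind₁ι_naturality f).symm
  comm₁₂ := (coind₁ι_naturality f)
  comm₂₃ := by simp [upShortComplex]

lemma upShortComplexMap_id (A : Rep R G) : upShortComplexMap (𝟙 A) = 𝟙 _ := by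
  ext1
  · rfl
  · rfl
  · dsimp only [upShortComplexMap, upShortComplex]
    refine coequalizer.hom_ext ?_
    rw [cokernel.π_desc]
    exact (Category.id_comp _).trans (Category.comp_id _).symm

lemma upShortComplexMap_comp {A B C : Rep R G} (f : A ⟶ B) (g : B ⟶ C) :
    upShortComplexMap (f ≫ g) = upShortComplexMap f ≫ upShortComplexMap g := by
  ext1
  · rfl
  · rfl
  · dsimp only [upShortComplexMap, upShortComplex, ShortComplex.comp_τ₃]
    refine coequalizer.hom_ext ?_
    rw [cokernel.π_desc, cokernel.π_desc_assoc, Category.assoc, cokernel.π_desc]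
    rfl

variable (R G) in
/-- `up` as a functor. -/
noncomputable def upFunctor : Rep R G ⥤ Rep R G where
  obj A := up A
  map f := (upShortComplexMap f).τ₃
  map_id A := by rw [upShortComplexMap_id]; rfl
  map_comp f g := by rw [upShortComplexMap_comp]; rfl

/-- **Dimension shifting upwards**: `Ĥⁿ(H, up A) ≅ Ĥⁿ⁺¹(H, A)` for every subgroup `H` (more
generally along any injective `φ : H →* G`). -/
noncomputable def upδIsoRes {H : Type u} [Group H] [Fintype H] (φ : H →* G)
    (hφ : Function.Injective φ) (A : Rep R G) (n : ℤ) :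
    tateCohomology (Rep.res φ (up A)) n ≅ tateCohomology (Rep.res φ A) (n + 1) :=
  δIsoOfIsCohTrivial φ hφ (upShortComplex_shortExact A) (isCohTrivial_coind₁ A.V) n

/-- **Dimension shifting upwards**: `Ĥⁿ(G, up A) ≅ Ĥⁿ⁺¹(G, A)`. -/
noncomputable def upδIso [Fintype G] (A : Rep R G) (n : ℤ) :
    tateCohomology (up A) n ≅ tateCohomology A (n + 1) :=
  δIsoOfIsZero (upShortComplex_shortExact A) n
    (isZero_tateCohomology_coind₁ A.V n) (isZero_tateCohomology_coind₁ A.V (n + 1))

lemma upδIso_hom [Fintype G] (A : Rep R G) (n : ℤ) :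
    (upδIso A n).hom = TateCohomology.δ (upShortComplex_shortExact A) n := rfl

/-- Naturality of the upward dimension shift. -/
lemma upδIso_naturality [Fintype G] {A B : Rep R G} (f : A ⟶ B) (n : ℤ) :
    (upδIso A n).hom ≫ (tateCohomologyFunctor (n + 1)).map f =
      (tateCohomologyFunctor n).map ((upFunctor R G).map f) ≫ (upδIso B n).hom :=
  TateCohomology.δ_naturality (upShortComplex_shortExact A) (upShortComplex_shortExact B)
    (upShortComplexMap f) n

/-! #### The module `down A = ker (Fun(G, A) → A)` -/

section Down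

variable [Fintype G]

/-- The short exact sequence `0 → down A → Fun(G, A) → A → 0`. -/
noncomputable def downShortComplex (A : Rep R G) : ShortComplex (Rep R G) :=
  ShortComplex.mk (kernel.ι (coind₁π A)) (coind₁π A) (kernel.condition _)

/-- `down A` is the kernel of the canonical projection `Fun(G, A) → A`. -/
noncomputable def down (A : Rep R G) : Rep R G := (downShortComplex A).X₁

lemma downShortComplex_shortExact (A : Rep R G) : (downShortComplex A).ShortExact where
  exact := ShortComplex.exact_kernel _
  mono_f := inferInstanceAs (Mono (kernel.ι (coind₁π A)))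
  epi_g := inferInstanceAs (Epi (coind₁π A))

/-- Functoriality of the sequence `0 → down A → Fun(G, A) → A → 0`. -/
noncomputable def downShortComplexMap {A B : Rep R G} (f : A ⟶ B) :
    downShortComplex A ⟶ downShortComplex B where
  τ₁ := kernel.map (coind₁π A) (coind₁π B) (coind₁Map f.hom.toLinearMap) f
    (coind₁π_naturality f).symm
  τ₂ := coind₁Map f.hom.toLinearMap
  τ₃ := f
  comm₁₂ := by simp [downShortComplex]
  comm₂₃ := (coind₁π_naturality f)

lemma downShortComplexMap_id (A : Rep R G) : downShortComplexMap (𝟙 A) = 𝟙 _ := by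
  ext1
  · dsimp only [downShortComplexMap, downShortComplex]
    refine equalizer.hom_ext ?_
    rw [kernel.lift_ι]
    exact (Category.comp_id _).trans (Category.id_comp _).symm
  · rfl
  · rfl

lemma downShortComplexMap_comp {A B C : Rep R G} (f : A ⟶ B) (g : B ⟶ C) :
    downShortComplexMap (f ≫ g) = downShortComplexMap f ≫ downShortComplexMap g := by
  ext1
  · dsimp only [downShortComplexMap, downShortComplex, ShortComplex.comp_τ₁]
    refine equalizer.hom_ext ?_
    rw [kernel.lift_ι, Category.assoc, kernel.lift_ι, kernel.lift_ι_assoc, Category.assoc]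
    rfl
  · rfl
  · rfl

variable (R G) in
/-- `down` as a functor. -/
noncomputable def downFunctor : Rep R G ⥤ Rep R G where
  obj A := down A
  map f := (downShortComplexMap f).τ₁
  map_id A := by rw [downShortComplexMap_id]; rfl
  map_comp f g := by rw [downShortComplexMap_comp]; rfl

/-- **Dimension shifting downwards**: `Ĥⁿ(H, A) ≅ Ĥⁿ⁺¹(H, down A)` for every subgroup `H`
(more generally along any injective `φ : H →* G`). -/
noncomputable def downδIsoRes {H : Type u} [Group H] [Fintype H] (φ : H →* G)
    (hφ : Function.Injective φ) (A : Rep R G) (n : ℤ) :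
    tateCohomology (Rep.res φ A) n ≅ tateCohomology (Rep.res φ (down A)) (n + 1) :=
  δIsoOfIsCohTrivial φ hφ (downShortComplex_shortExact A) (isCohTrivial_coind₁ A.V) n

/-- **Dimension shifting downwards**: `Ĥⁿ(G, A) ≅ Ĥⁿ⁺¹(G, down A)`. -/
noncomputable def downδIso (A : Rep R G) (n : ℤ) :
    tateCohomology A n ≅ tateCohomology (down A) (n + 1) :=
  δIsoOfIsZero (downShortComplex_shortExact A) n
    (isZero_tateCohomology_coind₁ A.V n) (isZero_tateCohomology_coind₁ A.V (n + 1))

lemma downδIso_hom (A : Rep R G) (n : ℤ) :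
    (downδIso A n).hom = TateCohomology.δ (downShortComplex_shortExact A) n := rfl

/-- Naturality of the downward dimension shift. -/
lemma downδIso_naturality {A B : Rep R G} (f : A ⟶ B) (n : ℤ) :
    (downδIso A n).hom ≫ (tateCohomologyFunctor (n + 1)).map ((downFunctor R G).map f) =
      (tateCohomologyFunctor n).map f ≫ (downδIso B n).hom :=
  TateCohomology.δ_naturality (downShortComplex_shortExact A) (downShortComplex_shortExact B)
    (downShortComplexMap f) n

end Down

end Shift

end DimensionShifting

/-! ### Additivity, the long exact sequence, and `|G|` kills Tate cohomology -/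

section Additive

variable {R G : Type u} [CommRing R] [Group G] [Fintype G]

instance tateCohomologyFunctor_additive (n : ℤ) :
    (tateCohomologyFunctor (R := R) (G := G) n).Additive :=
  inferInstanceAs
    (tateComplexFunctor R G ⋙ HomologicalComplex.homologyFunctor _ _ n).Additive

/-- Exactness of the long exact sequence of Tate cohomology at the middle term. -/
lemma tateCohomology_exact₂ {S : ShortComplex (Rep R G)} (hS : S.ShortExact) (n : ℤ) :
    (S.map (tateCohomologyFunctor n)).Exact :=
  (TateCohomology.map_tateComplexFunctor_shortExact hS).homology_exact₂ n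

/-- In a short exact sequence, if the outer terms have vanishing `Ĥⁿ` then so has the middle. -/
lemma isZero_tateCohomology_X₂ {S : ShortComplex (Rep R G)} (hS : S.ShortExact) (n : ℤ)
    (h1 : IsZero (tateCohomology S.X₁ n)) (h3 : IsZero (tateCohomology S.X₃ n)) :
    IsZero (tateCohomology S.X₂ n) :=
  (tateCohomology_exact₂ hS n).isZero_of_both_zeros (h1.eq_zero_of_src _) (h3.eq_zero_of_tgt _)

/-- In a short exact sequence, if `Ĥⁿ(X₂) = 0 = Ĥⁿ⁺¹(X₁)` then `Ĥⁿ(X₃) = 0`. -/
lemma isZero_tateCohomology_X₃ {S : ShortComplex (Rep R G)} (hS : S.ShortExact) (n : ℤ)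
    (h2 : IsZero (tateCohomology S.X₂ n)) (h1 : IsZero (tateCohomology S.X₁ (n + 1))) :
    IsZero (tateCohomology S.X₃ n) :=
  (TateCohomology.exact₃ hS n).isZero_of_both_zeros (h2.eq_zero_of_src _) (h1.eq_zero_of_tgt _)

/-- In a short exact sequence, if `Ĥⁿ(X₃) = 0 = Ĥⁿ⁺¹(X₂)` then `Ĥⁿ⁺¹(X₁) = 0`. -/
lemma isZero_tateCohomology_X₁ {S : ShortComplex (Rep R G)} (hS : S.ShortExact) (n : ℤ)
    (h3 : IsZero (tateCohomology S.X₃ n)) (h2 : IsZero (tateCohomology S.X₂ (n + 1))) :
    IsZero (tateCohomology S.X₁ (n + 1)) :=
  (TateCohomology.exact₁ hS n).isZero_of_both_zeros (h3.eq_zero_of_src _) (h2.eq_zero_of_tgt _)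

/-- Tate cohomology of a retract of a module with vanishing `Ĥⁿ` vanishes. -/
lemma isZero_tateCohomology_of_retract {A M : Rep R G} (i : A ⟶ M) (p : M ⟶ A)
    (h : i ≫ p = 𝟙 A) (n : ℤ) (hM : IsZero (tateCohomology M n)) :
    IsZero (tateCohomology A n) := by
  rw [IsZero.iff_id_eq_zero]
  change 𝟙 ((tateCohomologyFunctor n).obj A) = 0
  rw [← CategoryTheory.Functor.map_id, ← h, Functor.map_comp,
    hM.eq_zero_of_tgt ((tateCohomologyFunctor n).map i), zero_comp]

/-- Multiplication by `|G|` is zero on Tate cohomology, as an endomorphism. -/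
theorem card_nsmul_id_tateCohomology (A : Rep R G) (n : ℤ) :
    Fintype.card G • 𝟙 (tateCohomology A n) = 0 := by
  have h1 : (tateCohomologyFunctor n).map (coind₁ι A ≫ coind₁π A) = 0 := by
    rw [Functor.map_comp, (isZero_tateCohomology_coind₁ A.V n).eq_zero_of_tgt
      ((tateCohomologyFunctor n).map (coind₁ι A)), zero_comp]
  rw [coind₁ι_comp_coind₁π, Functor.map_nsmul, CategoryTheory.Functor.map_id] at h1
  exact h1

/-- **`|G|` kills Tate cohomology.** -/
theorem card_nsmul_tateCohomology (A : Rep R G) (n : ℤ) (x : tateCohomology A n) :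
    Fintype.card G • x = 0 := by
  have := congrArg (fun f => f.hom x) (card_nsmul_id_tateCohomology A n)
  simpa using this

instance tateCohomologyFunctor_preservesBinaryBiproducts (n : ℤ) :
    PreservesBinaryBiproducts (tateCohomologyFunctor (R := R) (G := G) n) :=
  preservesBinaryBiproducts_of_preservesBiproducts _

/-- Tate cohomology commutes with binary direct sums. -/
noncomputable def tateCohomologyBiprodIso (A B : Rep R G) (n : ℤ) :
    tateCohomology (A ⊞ B) n ≅ tateCohomology A n ⊞ tateCohomology B n :=
  (tateCohomologyFunctor n).mapBiprod A B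

instance rep_hasFiniteBiproducts : HasFiniteBiproducts (Rep R G) := Abelian.hasFiniteBiproducts

/-- Tate cohomology commutes with finite direct sums. -/
noncomputable def tateCohomologyBiproductIso {ι : Type} [Finite ι] (f : ι → Rep R G) (n : ℤ) :
    tateCohomology (⨁ f) n ≅ ⨁ fun i => tateCohomology (f i) n :=
  (tateCohomologyFunctor n).mapBiproduct f

end Additive

/-! ### Closure properties of cohomological triviality -/

section Closure

variable {R G : Type u} [CommRing R] [Group G]

theorem IsCohTrivial.of_retract {A M : Rep R G} (i : A ⟶ M) (p : M ⟶ A) (h : i ≫ p = 𝟙 A)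
    (hM : IsCohTrivial M) : IsCohTrivial A := fun H _ _ φ hφ n =>
  isZero_tateCohomology_of_retract ((Rep.resFunctor φ).map i) ((Rep.resFunctor φ).map p)
    (by rw [← Functor.map_comp, h, CategoryTheory.Functor.map_id]) n (hM H φ hφ n)

theorem IsCohTrivial.X₂ {S : ShortComplex (Rep R G)} (hS : S.ShortExact)
    (h1 : IsCohTrivial S.X₁) (h3 : IsCohTrivial S.X₃) : IsCohTrivial S.X₂ :=
  fun H _ _ φ hφ n =>
    isZero_tateCohomology_X₂ (shortExact_map_res φ hS) n (h1 H φ hφ n) (h3 H φ hφ n)

theorem IsCohTrivial.X₃ {S : ShortComplex (Rep R G)} (hS : S.ShortExact)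
    (h1 : IsCohTrivial S.X₁) (h2 : IsCohTrivial S.X₂) : IsCohTrivial S.X₃ :=
  fun H _ _ φ hφ n =>
    isZero_tateCohomology_X₃ (shortExact_map_res φ hS) n (h2 H φ hφ n) (h1 H φ hφ (n + 1))

theorem IsCohTrivial.X₁ {S : ShortComplex (Rep R G)} (hS : S.ShortExact)
    (h2 : IsCohTrivial S.X₂) (h3 : IsCohTrivial S.X₃) : IsCohTrivial S.X₁ :=
  fun H _ _ φ hφ n => by
    have := isZero_tateCohomology_X₁ (shortExact_map_res φ hS) (n - 1) (h3 H φ hφ (n - 1))
      (by simpa using h2 H φ hφ n)
    simpa using this

end Closure

/-! ### Arbitrary products -/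

section Products

/-- An abstract exactness criterion: if a complex of modules maps to a family of complexes,
jointly injectively in degree `n` and jointly surjectively in the previous degree, and every
member of the family is exact at `n`, then so is the complex. -/
theorem exactAt_of_jointly_bijective {R : Type u} [Ring R] {α : Type*} {c : ComplexShape α}
    {ι : Type w} (K : HomologicalComplex (ModuleCat.{u} R) c)
    (L : ι → HomologicalComplex (ModuleCat.{u} R) c) (p : ∀ i, K ⟶ L i) (n : α)
    (hinj : ∀ x y : K.X n, (∀ i, (p i).f n x = (p i).f n y) → x = y)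
    (hsurj : ∀ y : ∀ i, (L i).X (c.prev n), ∃ z : K.X (c.prev n), ∀ i, (p i).f (c.prev n) z = y i)
    (h : ∀ i, (L i).ExactAt n) : K.ExactAt n := by
  have comm : ∀ (i : ι) (a b : α) (x : K.X a),
      (L i).d a b ((p i).f a x) = (p i).f b (K.d a b x) := fun i a b x =>
    congrArg (fun f => f.hom x) ((p i).comm a b)
  rw [HomologicalComplex.exactAt_iff, ShortComplex.moduleCat_exact_iff]
  intro (x : K.X n) (hx : K.d n (c.next n) x = 0)
  have key : ∀ i, ∃ y : (L i).X (c.prev n), (L i).d (c.prev n) n y = (p i).f n x := by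
    intro i
    have hi := h i
    rw [HomologicalComplex.exactAt_iff, ShortComplex.moduleCat_exact_iff] at hi
    apply hi
    change (L i).d n (c.next n) ((p i).f n x) = 0
    rw [comm, hx, map_zero]
  choose y hy using key
  obtain ⟨z, hz⟩ := hsurj y
  refine ⟨z, ?_⟩
  change K.d (c.prev n) n z = x
  apply hinj
  intro i
  rw [← comm, hz, hy]

variable {R G : Type u} [CommRing R] [Group G]

/-- The product of a family of representations, as a representation on the product module. -/
@[simps]
def piRepresentation {ι : Type w} (V : ι → Type*) [∀ i, AddCommGroup (V i)]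
    [∀ i, Module R (V i)] (ρ : ∀ i, Representation R G (V i)) :
    Representation R G (∀ i, V i) where
  toFun g := LinearMap.pi fun i => (ρ i g) ∘ₗ LinearMap.proj i
  map_one' := by ext; simp
  map_mul' g h := by ext; simp

/-- The product of a family of objects of `Rep R G` (componentwise action). -/
noncomputable def piRep {ι : Type u} (f : ι → Rep R G) : Rep R G :=
  Rep.of (piRepresentation (fun i => (f i).V) (fun i => (f i).ρ))

/-- The projections of the product. -/
noncomputable def piRepProj {ι : Type u} (f : ι → Rep R G) (i : ι) : piRep f ⟶ f i :=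
  Rep.ofHom (σ := (f i).ρ) ⟨LinearMap.proj i, fun g => by ext x; rfl⟩

lemma piRepProj_apply {ι : Type u} (f : ι → Rep R G) (i : ι) (x : ∀ i, (f i).V) :
    (piRepProj f i).hom x = x i := rfl

variable [Fintype G]

/-- The Tate complex of a product maps jointly bijectively, in every degree, to the Tate
complexes of the factors. -/
theorem tateComplex_piRep_bij {ι : Type u} (f : ι → Rep R G) (k : ℤ) :
    (∀ x y : (tateComplex (piRep f)).X k,
      (∀ i, (tateComplex.map (piRepProj f i)).f k x = (tateComplex.map (piRepProj f i)).f k y) →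
        x = y) ∧
    (∀ y : ∀ i, (tateComplex (f i)).X k, ∃ z : (tateComplex (piRep f)).X k,
      ∀ i, (tateComplex.map (piRepProj f i)).f k z = y i) := by
  classical
  rcases k with (k | k)
  · constructor
    · intro (x : (Fin k → G) → ∀ i, (f i).V) (y : (Fin k → G) → ∀ i, (f i).V) hxy
      funext g i
      exact congrFun (hxy i) g
    · intro y
      exact ⟨(fun g i => (y i : (Fin k → G) → (f i).V) g : (Fin k → G) → ∀ i, (f i).V),
        fun i => rfl⟩
  · constructor
    · intro (x : (Fin k → G) →₀ ∀ i, (f i).V) (y : (Fin k → G) →₀ ∀ i, (f i).V) hxy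
      refine Finsupp.ext fun g => funext fun i => ?_
      have := hxy i
      change ((chainsMap (MonoidHom.id G) (piRepProj f i)).f k).hom x =
        ((chainsMap (MonoidHom.id G) (piRepProj f i)).f k).hom y at this
      rw [chainsMap_id_f_hom_eq_mapRange] at this
      exact DFunLike.congr_fun this g
    · intro y
      let y' : ∀ i, (Fin k → G) →₀ (f i).V := y
      refine ⟨(Finsupp.equivFunOnFinite.symm
        (fun g i => y' i g) : (Fin k → G) →₀ ∀ i, (f i).V), fun i => ?_⟩
      change ((chainsMap (MonoidHom.id G) (piRepProj f i)).f k).hom _ = y' i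
      rw [chainsMap_id_f_hom_eq_mapRange]
      refine Finsupp.ext fun g => ?_
      rfl

/-- **Tate cohomology of an arbitrary product vanishes if it vanishes for every factor.** -/
theorem isZero_tateCohomology_piRep {ι : Type u} (f : ι → Rep R G) (n : ℤ)
    (h : ∀ i, IsZero (tateCohomology (f i) n)) : IsZero (tateCohomology (piRep f) n) := by
  change IsZero ((tateComplex (piRep f)).homology n)
  rw [← HomologicalComplex.exactAt_iff_isZero_homology]
  refine exactAt_of_jointly_bijective (tateComplex (piRep f)) (fun i => tateComplex (f i))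
    (fun i => tateComplex.map (piRepProj f i)) n (tateComplex_piRep_bij f n).1
    (tateComplex_piRep_bij f _).2 fun i => ?_
  rw [HomologicalComplex.exactAt_iff_isZero_homology]
  exact h i

omit [Fintype G] in
/-- An arbitrary product of cohomologically trivial modules is cohomologically trivial. -/
theorem isCohTrivial_piRep {ι : Type u} (f : ι → Rep R G) (h : ∀ i, IsCohTrivial (f i)) :
    IsCohTrivial (piRep f) := fun H _ _ φ hφ n =>
  isZero_tateCohomology_piRep (fun i => Rep.res φ (f i)) n fun i => h i H φ hφ n

end Products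

/-! ### Explicit description and torsion of `up A`, `down A` -/

section Torsion

variable {R G : Type u} [CommRing R] [Group G]

/-- Elementwise characterisation of exactness in `Rep R G`. -/
lemma rep_exact_iff (S : ShortComplex (Rep R G)) :
    S.Exact ↔ ∀ x : S.X₂.V, S.g.hom x = 0 → ∃ y : S.X₁.V, S.f.hom y = x := by
  rw [← ShortComplex.exact_map_iff_of_faithful S (forget₂ (Rep R G) (ModuleCat R)),
    ShortComplex.moduleCat_exact_iff]
  rfl

/-- The projection `Fun(G, A) → up A`. -/
noncomputable def upπ (A : Rep R G) : coind₁ R G A.V ⟶ up A := (upShortComplex A).g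

/-- The projection `Fun(G, A) → up A` is surjective. -/
lemma upπ_surjective (A : Rep R G) : Function.Surjective (upπ A).hom :=
  (Rep.epi_iff_surjective _).1 (upShortComplex_shortExact A).epi_g

/-- An element of `Fun(G, A)` maps to zero in `up A` iff it comes from `A`. -/
lemma upπ_eq_zero_iff (A : Rep R G) (f : G → A.V) :
    (upπ A).hom f = 0 ↔ ∃ a : A.V, (fun x => A.ρ x a) = f := by
  have h := (rep_exact_iff _).1 (upShortComplex_shortExact A).exact
  constructor
  · intro hf
    exact h f hf
  · rintro ⟨a, rfl⟩
    have := congrArg (fun φ => φ.hom a) (upShortComplex A).zero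
    exact this

/-- If `r` kills `A` then `r` kills `up A`. -/
lemma smul_up_eq_zero {r : R} (A : Rep R G) (h : ∀ a : A.V, r • a = 0) (x : (up A).V) :
    r • x = 0 := by
  obtain ⟨f, rfl⟩ := upπ_surjective A x
  rw [← map_smul]
  have : r • f = 0 := by
    funext y
    exact h (f y)
  rw [this, map_zero]

variable [Fintype G]

/-- The inclusion `down A → Fun(G, A)`. -/
noncomputable def downι (A : Rep R G) : down A ⟶ coind₁ R G A.V := (downShortComplex A).f

/-- The inclusion `down A → Fun(G, A)` is injective. -/
lemma downι_injective (A : Rep R G) : Function.Injective (downι A).hom :=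
  (Rep.mono_iff_injective _).1 (downShortComplex_shortExact A).mono_f

/-- The elements of `down A` are the `f : G → A` with `∑ x, x⁻¹ • f x = 0`. -/
lemma mem_range_downι_iff (A : Rep R G) (f : G → A.V) :
    (∃ y : (down A).V, (downι A).hom y = f) ↔ ∑ x : G, A.ρ x⁻¹ (f x) = 0 := by
  have h := (rep_exact_iff _).1 (downShortComplex_shortExact A).exact
  rw [← coind₁π_apply]
  constructor
  · rintro ⟨y, rfl⟩
    exact congrArg (fun φ => φ.hom y) (downShortComplex A).zero
  · intro hf
    exact h f hf

/-- If `r` kills `A` then `r` kills `down A`. -/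
lemma smul_down_eq_zero {r : R} (A : Rep R G) (h : ∀ a : A.V, r • a = 0) (x : (down A).V) :
    r • x = 0 := by
  apply downι_injective A
  rw [map_smul, map_zero]
  funext y
  exact h _

/-- If `A` has no `r`-torsion then neither has `down A`. -/
lemma down_torsionFree {r : R} (A : Rep R G) (h : ∀ a : A.V, r • a = 0 → a = 0)
    (x : (down A).V) (hx : r • x = 0) : x = 0 := by
  apply downι_injective A
  rw [map_zero]
  have h2 : r • (downι A).hom x = 0 := by rw [← map_smul, hx, map_zero]
  funext y
  exact h _ (congrFun h2 y)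

end Torsion

/-! ### Shapiro's lemma for Tate cohomology -/

section Shapiro

variable {R G : Type u} [CommRing R] [Group G]

/-- Transitivity of coinduction: `Coind_S^G (Fun(S, V)) ≅ Fun(G, V)`. -/
noncomputable def coindCoind₁Iso (S : Subgroup G) (V : Type u) [AddCommGroup V] [Module R V] :
    Rep.coind S.subtype (coind₁ R S V) ≅ coind₁ R G V :=
  Rep.mkIso <| .mk
    { toFun := fun F g => (F.1 g : S → V) 1
      map_add' := fun _ _ => rfl
      map_smul' := fun _ _ => rfl
      invFun := fun f => ⟨fun g t => f (t * g), fun s g => by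
        funext t
        change f (t * (S.subtype s * g)) = f ((t * s : S) * g)
        simp [mul_assoc]⟩
      left_inv := fun F => by
        apply Subtype.ext
        funext g t
        have := congrFun (F.2 t g) 1
        change (F.1 (t * g) : S → V) 1 = (F.1 g : S → V) (1 * t) at this
        rw [one_mul] at this
        exact this
      right_inv := fun f => by
        funext g
        change f ((1 : S) * g) = f g
        simp } fun g => by
    ext F x
    rfl

instance coindFunctor_additive (S : Subgroup G) :
    (Rep.coindFunctor.{u} R S.subtype).Additive where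
  map_add {X Y f g} := by
    ext x
    rfl

lemma shortExact_map_coind (S : Subgroup G) [S.FiniteIndex] {T : ShortComplex (Rep R S)}
    (hT : T.ShortExact) : (T.map (Rep.coindFunctor.{u} R S.subtype)).ShortExact := by
  classical
  exact hT.map_of_exact (Rep.coindFunctor.{u} R S.subtype)

variable [Fintype G]

/-- The coinduction of a coinduced module is acyclic. -/
lemma isZero_tateCohomology_coind_coind₁ (S : Subgroup G) (V : Type u) [AddCommGroup V]
    [Module R V] (n : ℤ) :
    IsZero (tateCohomology (Rep.coind S.subtype (coind₁ R S V)) n) :=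
  (isZero_tateCohomology_coind₁ (R := R) (G := G) V n).of_iso
    ((tateCohomologyFunctor n).mapIso (coindCoind₁Iso S V))

/-- Dimension shifting for coinduced modules: `Ĥⁿ(G, Coind B) ≅ Ĥⁿ⁺¹(G, Coind (down B))`. -/
noncomputable def coindDownδIso (S : Subgroup G) [Fintype S] (B : Rep R S) (n : ℤ) :
    tateCohomology (Rep.coind S.subtype B) n ≅
      tateCohomology (Rep.coind S.subtype (down B)) (n + 1) :=
  δIsoOfIsZero (shortExact_map_coind S (downShortComplex_shortExact B)) n
    (isZero_tateCohomology_coind_coind₁ S B.V n)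
    (isZero_tateCohomology_coind_coind₁ S B.V (n + 1))

/-- Shapiro's lemma for Tate cohomology in positive degrees (from Mathlib's group cohomology
version). -/
noncomputable def tateShapiroIsoPos (S : Subgroup G) [Fintype S] (B : Rep R S) (k : ℕ) :
    tateCohomology (Rep.coind S.subtype B) ((k + 1 : ℕ) : ℤ) ≅
      tateCohomology B ((k + 1 : ℕ) : ℤ) :=
  (TateCohomology.isoGroupCohomology (k + 1)).app _ ≪≫ groupCohomology.coindIso B (k + 1) ≪≫
    ((TateCohomology.isoGroupCohomology (k + 1)).app B).symm

/-- Auxiliary recursion for `tateShapiroIso`: degree `n` with `n + k = 1`. -/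
noncomputable def tateShapiroIsoAux (S : Subgroup G) [Fintype S] :
    ∀ (k : ℕ) (n : ℤ), n + k = 1 → ∀ B : Rep R S,
      (tateCohomology (Rep.coind S.subtype B) n ≅ tateCohomology B n)
  | 0, n, h, B => by
      have hn : n = ((0 + 1 : ℕ) : ℤ) := by simpa using h
      exact hn ▸ tateShapiroIsoPos S B 0
  | k + 1, n, h, B =>
      coindDownδIso S B n ≪≫
        tateShapiroIsoAux S k (n + 1) (by push_cast at h; omega) (down B) ≪≫
        (downδIso B n).symm

/-- **Shapiro's lemma for Tate cohomology**, in all degrees. -/
noncomputable def tateShapiroIso (S : Subgroup G) [Fintype S] (B : Rep R S) :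
    ∀ n : ℤ, tateCohomology (Rep.coind S.subtype B) n ≅ tateCohomology B n
  | .ofNat (k + 1) => tateShapiroIsoPos S B k
  | .ofNat 0 => tateShapiroIsoAux S 1 0 (by simp) B
  | .negSucc k => tateShapiroIsoAux S (k + 2) (.negSucc k) (by
      rw [Int.negSucc_eq]; push_cast; ring) B


lemma tateShapiroIso_ofNat_succ (S : Subgroup G) [Fintype S] (B : Rep R S) (k : ℕ) :
    tateShapiroIso S B ((k + 1 : ℕ) : ℤ) = tateShapiroIsoPos S B k := rfl

/-- Shapiro's lemma, vanishing form. -/
lemma isZero_tateCohomology_coind_iff (S : Subgroup G) [Fintype S] (B : Rep R S) (n : ℤ) :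
    IsZero (tateCohomology (Rep.coind S.subtype B) n) ↔ IsZero (tateCohomology B n) :=
  ⟨fun h => h.of_iso (tateShapiroIso S B n).symm, fun h => h.of_iso (tateShapiroIso S B n)⟩

end Shapiro

end Fermat.Agent.Lib.CFT.Coh
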