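import Mathlib

/-!
# Higher inflation-restriction for group cohomology (P-CFT, work package Coh/InfRes)

For a group `G`, a normal subgroup `N` and `A : Rep k G`: if `Hⁱ(N, A) = 0` for `0 < i < n` then
`0 ⟶ Hⁿ(G ⧸ N, A^N) ⟶ Hⁿ(G, A) ⟶ Hⁿ(N, A)` is exact (`infResExact_of_isZero`,
`infResComplex_exact`, `infResExact_two`, `infResExact_three`).  The proof is by dimension shifting
along `0 ⟶ A ⟶ (G → A) ⟶ A' ⟶ 0` (`shiftSES`), starting from Mathlib's `H1InfRes_exact`.

Also exported: naturality of connecting homomorphisms under change of groups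
(`δ_naturality_map`, `δ_comp_infl`, `δ_comp_rest`), vanishing of maps induced by the trivial
homomorphism (`map_one_succ`), acyclicity of right regular representations
(`isZero_groupCohomology_rightReg`, `..._res_rightReg`, `..._quotientToInvariants_rightReg`,
criterion `isZero_groupCohomology_of_equiv`), and exactness of `N`-invariants on short exact
sequences with `H¹(N, X₁) = 0` (`shortExact_map_quotientToInvariants`).
-/

set_option autoImplicit false

universe u

open CategoryTheory Rep groupCohomology

namespace Fermat.Agent.Lib.CFT.Coh.InfRes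

variable {k : Type u} [CommRing k]

section RightReg

variable (k) (Γ : Type u) [Group Γ] (B : Type u) [AddCommGroup B] [Module k B]

/-- The right regular representation of `Γ` on functions `Γ → B`: `(γ • f) x = f (x * γ)`. -/
def rightRegRepresentation : Representation k Γ (Γ → B) where
  toFun γ := LinearMap.funLeft k B (· * γ)
  map_one' := by ext f x; simp
  map_mul' γ₁ γ₂ := by ext f x; simp [mul_assoc]

@[simp]
lemma rightRegRepresentation_apply (γ : Γ) (f : Γ → B) (x : Γ) :
    rightRegRepresentation k Γ B γ f x = f (x * γ) := rfl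

/-- The right regular representation as an object of `Rep k Γ`. -/
noncomputable abbrev rightReg : Rep k Γ := Rep.of (rightRegRepresentation k Γ B)

/-- The right regular representation is coinduced from the trivial subgroup. -/
noncomputable def rightRegIsoCoind :
    rightReg k Γ B ≅ coind (⊥ : Subgroup Γ).subtype (Rep.trivial k (⊥ : Subgroup Γ) B) :=
  Rep.mkIso <| Representation.Equiv.mk
    { toFun := fun f => ⟨f, fun g h => by
        have : (g : Γ) = 1 := Subgroup.mem_bot.1 g.2
        simp [this]⟩
      map_add' := fun _ _ => rfl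
      map_smul' := fun _ _ => rfl
      invFun := fun f => f.1
      left_inv := fun _ => rfl
      right_inv := fun _ => rfl }
    (fun g => by ext f x; rfl)

theorem isZero_groupCohomology_rightReg (n : ℕ) :
    Limits.IsZero (groupCohomology (rightReg k Γ B) (n + 1)) :=
  (isZero_groupCohomology_succ_of_subsingleton (Rep.trivial k (⊥ : Subgroup Γ) B) n).of_iso <|
    (functor k Γ (n + 1)).mapIso (rightRegIsoCoind k Γ B) ≪≫ coindIso _ (n + 1)

variable {k Γ B}

/-- Acyclicity criterion: a representation which is equivariantly equivalent to a right regular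
representation has vanishing cohomology in positive degrees. -/
theorem isZero_groupCohomology_of_equiv (M : Rep k Γ) (e : M.V ≃ₗ[k] (Γ → B))
    (he : ∀ (γ : Γ) (m : M.V) (x : Γ), e (M.ρ γ m) x = e m (x * γ)) (n : ℕ) :
    Limits.IsZero (groupCohomology M (n + 1)) := by
  let E : M.ρ.Equiv (rightRegRepresentation k Γ B) :=
    Representation.Equiv.mk e (fun γ => by ext m x; exact he γ m x)
  let I : M ≅ rightReg k Γ B := Rep.mkIso E
  exact (isZero_groupCohomology_rightReg k Γ B n).of_iso ((functor k Γ (n + 1)).mapIso I)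

end RightReg

section Subgroup

variable {G : Type u} [Group G] (N : Subgroup G) [N.Normal] (B : Type u) [AddCommGroup B]
  [Module k B]

omit [N.Normal] in
/-- The restriction of the right regular representation of `G` to a subgroup is acyclic. -/
theorem isZero_groupCohomology_res_rightReg (n : ℕ) :
    Limits.IsZero (groupCohomology (res N.subtype (rightReg k G B)) (n + 1)) := by
  have hmem : ∀ x : G, ((x : G ⧸ N).out)⁻¹ * x ∈ N := fun x =>
    QuotientGroup.eq.1 (QuotientGroup.out_eq' (x : G ⧸ N))
  have hmk : ∀ (c : G ⧸ N) (m : N), ((c.out * (m : G) : G) : G ⧸ N) = c := fun c m => by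
    rw [QuotientGroup.mk_mul_of_mem _ m.2, QuotientGroup.out_eq']
  let e : (G → B) ≃ₗ[k] (N → ((G ⧸ N) → B)) :=
    { toFun := fun f m c => f (c.out * m)
      map_add' := fun _ _ => rfl
      map_smul' := fun _ _ => rfl
      invFun := fun F x => F ⟨((x : G ⧸ N).out)⁻¹ * x, hmem x⟩ (x : G ⧸ N)
      left_inv := fun f => by
        funext x
        simp
      right_inv := fun F => by
        funext m c
        have h1 := hmk c m
        simp only
        have h2 : (⟨(((c.out * (m : G) : G) : G ⧸ N).out)⁻¹ * (c.out * m), hmem _⟩ : N) = m := by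
          apply Subtype.ext
          simp only [h1]
          group
        rw [h2, h1] }
  refine isZero_groupCohomology_of_equiv (B := (G ⧸ N) → B) (res N.subtype (rightReg k G B)) e
    (fun γ m x => ?_) n
  funext c
  show m (c.out * (x : G) * (γ : G)) = m (c.out * ((x * γ : N) : G))
  simp [mul_assoc]

/-- The invariants of the right regular representation of `G` under a normal subgroup `N`,
as a representation of `G ⧸ N`, are acyclic. -/
theorem isZero_groupCohomology_quotientToInvariants_rightReg (n : ℕ) :
    Limits.IsZero (groupCohomology ((rightReg k G B).quotientToInvariants N) (n + 1)) := by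
  let M := (rightReg k G B).quotientToInvariants N
  have hinv : ∀ (f : M.V) (x : G) (m : N), (f.1 : G → B) (x * m) = (f.1 : G → B) x :=
    fun f x m => congr_fun (f.2 m) x
  let e : M.V ≃ₗ[k] ((G ⧸ N) → B) :=
    { toFun := fun f c => Quotient.liftOn' c (f.1 : G → B) (fun a b hab => by
        have hab' : a⁻¹ * b ∈ N := QuotientGroup.leftRel_apply.1 hab
        have := hinv f a ⟨a⁻¹ * b, hab'⟩
        simpa using this.symm)
      map_add' := fun f g => by
        funext c
        induction c using QuotientGroup.induction_on with | H x => rfl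
      map_smul' := fun r f => by
        funext c
        induction c using QuotientGroup.induction_on with | H x => rfl
      invFun := fun F => ⟨fun x => F (x : G ⧸ N), fun m => by
        funext x
        show F ((x * (m : G) : G) : G ⧸ N) = F (x : G ⧸ N)
        rw [QuotientGroup.mk_mul_of_mem _ m.2]⟩
      left_inv := fun f => by
        apply Subtype.ext
        funext x
        rfl
      right_inv := fun F => by
        funext c
        induction c using QuotientGroup.induction_on with | H x => rfl }
  refine isZero_groupCohomology_of_equiv (B := B) M e (fun γ m x => ?_) n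
  induction γ using QuotientGroup.induction_on with | H g =>
  induction x using QuotientGroup.induction_on with | H x =>
  rfl

end Subgroup

section Naturality

variable {G H : Type u} [Group G] [Group H]

/-- Naturality of the connecting homomorphism with respect to a change of group. -/
theorem δ_naturality_map (f : G →* H) {X : ShortComplex (Rep k H)} {Y : ShortComplex (Rep k G)}
    (hX : X.ShortExact) (hY : Y.ShortExact)
    (φ₁ : res f X.X₁ ⟶ Y.X₁) (φ₂ : res f X.X₂ ⟶ Y.X₂) (φ₃ : res f X.X₃ ⟶ Y.X₃)
    (h₁₂ : (resFunctor f).map X.f ≫ φ₂ = φ₁ ≫ Y.f)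
    (h₂₃ : (resFunctor f).map X.g ≫ φ₃ = φ₂ ≫ Y.g)
    (i j : ℕ) (hij : i + 1 = j) :
    δ hX i j hij ≫ map f φ₁ j = map f φ₃ i ≫ δ hY i j hij := by
  let F : X.map (cochainsFunctor k H) ⟶ Y.map (cochainsFunctor k G) :=
    { τ₁ := cochainsMap f φ₁
      τ₂ := cochainsMap f φ₂
      τ₃ := cochainsMap f φ₃
      comm₁₂ := by
        show cochainsMap f φ₁ ≫ cochainsMap (MonoidHom.id G) Y.f =
          cochainsMap (MonoidHom.id H) X.f ≫ cochainsMap f φ₂
        rw [← cochainsMap_comp, ← cochainsMap_comp]
        exact cochainsMap_congr rfl (by rw [h₁₂]; rfl)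
      comm₂₃ := by
        show cochainsMap f φ₂ ≫ cochainsMap (MonoidHom.id G) Y.g =
          cochainsMap (MonoidHom.id H) X.g ≫ cochainsMap f φ₃
        rw [← cochainsMap_comp, ← cochainsMap_comp]
        exact cochainsMap_congr rfl (by rw [h₂₃]; rfl) }
  exact HomologicalComplex.HomologySequence.δ_naturality F
    (map_cochainsFunctor_shortExact hX) (map_cochainsFunctor_shortExact hY) i j hij

/-- The map on cohomology induced by the trivial group homomorphism vanishes in positive
degrees. -/
theorem map_one_succ {A : Rep k H} {B : Rep k G} (φ : res (1 : G →* H) A ⟶ B) (n : ℕ) :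
    map (1 : G →* H) φ (n + 1) = 0 := by
  let ι : PUnit.{u + 1} →* H := 1
  let τ : G →* PUnit.{u + 1} := 1
  have h1 : map (ι.comp τ) ((resFunctor τ).map (𝟙 (res ι A)) ≫ φ) (n + 1) =
      map ι (𝟙 (res ι A)) (n + 1) ≫ map τ φ (n + 1) :=
    map_comp (k := k) ι τ (𝟙 (res ι A)) φ (n + 1)
  have h2 : map (1 : G →* H) φ (n + 1) =
      map (ι.comp τ) ((resFunctor τ).map (𝟙 (res ι A)) ≫ φ) (n + 1) :=
    map_congr rfl (by simp) (n + 1)
  rw [h2, h1]
  have h3 : map ι (𝟙 (res ι A)) (n + 1) = 0 :=
    (isZero_groupCohomology_succ_of_subsingleton (res ι A) n).eq_of_tgt _ _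
  rw [h3, Limits.zero_comp]

end Naturality

variable {G : Type u} [Group G]

section ShortExact

variable {X : ShortComplex (Rep k G)}

lemma shortExact_injective (hX : X.ShortExact) : Function.Injective X.f.hom :=
  (Rep.mono_iff_injective X.f).1 hX.mono_f

lemma shortExact_surjective (hX : X.ShortExact) : Function.Surjective X.g.hom :=
  (Rep.epi_iff_surjective X.g).1 hX.epi_g

lemma shortExact_range_eq_ker (hX : X.ShortExact) :
    LinearMap.range X.f.hom.toLinearMap = LinearMap.ker X.g.hom.toLinearMap :=
  (hX.exact.map (forget₂ (Rep k G) (ModuleCat k))).moduleCat_range_eq_ker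

lemma shortExact_exists_of_g_eq_zero (hX : X.ShortExact) (x : X.X₂) (hx : X.g.hom x = 0) :
    ∃ y : X.X₁, X.f.hom y = x := by
  have : x ∈ LinearMap.ker X.g.hom.toLinearMap := hx
  rw [← shortExact_range_eq_ker hX] at this
  exact this

lemma shortExact_g_f (hX : X.ShortExact) (y : X.X₁) : X.g.hom (X.f.hom y) = 0 := by
  have : X.f.hom y ∈ LinearMap.range X.f.hom.toLinearMap := ⟨y, rfl⟩
  rw [shortExact_range_eq_ker hX] at this
  exact this

lemma shortExact_of (hf : Function.Injective X.f.hom) (hg : Function.Surjective X.g.hom)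
    (hex : ∀ x : X.X₂, X.g.hom x = 0 → ∃ y : X.X₁, X.f.hom y = x) : X.ShortExact := by
  have hmono : Mono X.f := (Rep.mono_iff_injective X.f).2 hf
  have hepi : Epi X.g := (Rep.epi_iff_surjective X.g).2 hg
  refine ShortComplex.ShortExact.mk' ?_ hmono hepi
  rw [← ShortComplex.exact_map_iff_of_faithful X (forget₂ (Rep k G) (ModuleCat k)),
    ShortComplex.moduleCat_exact_iff_ker_sub_range]
  intro x hx
  obtain ⟨y, hy⟩ := hex x hx
  exact ⟨y, hy⟩

end ShortExact

section Shift

variable (A : Rep k G)

/-- The embedding of `A` into the right regular representation on `G → A`,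
sending `a` to `x ↦ ρ x a`. -/
noncomputable def coindOneEmb : A ⟶ rightReg k G A.V :=
  Rep.ofHom (ρ := A.ρ) (σ := rightRegRepresentation k G A.V)
    ⟨{ toFun := fun a x => A.ρ x a
       map_add' := fun a b => by funext x; simp
       map_smul' := fun r a => by funext x; simp },
     fun g => by
      ext a x
      simp⟩

@[simp]
lemma coindOneEmb_apply (a : A) (x : G) : (coindOneEmb A).hom a x = A.ρ x a := rfl

lemma coindOneEmb_injective : Function.Injective (coindOneEmb A).hom := by
  intro a b h
  have := congr_fun h 1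
  rw [coindOneEmb_apply, coindOneEmb_apply] at this
  simpa using this

instance : Mono (coindOneEmb A) := (Rep.mono_iff_injective _).2 (coindOneEmb_injective A)

/-- The dimension shifting short complex `A ⟶ (G → A) ⟶ coker`. -/
noncomputable def shiftSES : ShortComplex (Rep k G) :=
  ShortComplex.cokernelSequence (coindOneEmb A)

lemma shiftSES_shortExact : (shiftSES A).ShortExact :=
  ShortComplex.ShortExact.mk' (ShortComplex.cokernelSequence_exact _)
    (inferInstanceAs (Mono (coindOneEmb A)))
    (inferInstanceAs (Epi (ShortComplex.cokernelSequence (coindOneEmb A)).g))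

end Shift

section Invariants

variable (N : Subgroup G) [N.Normal]

instance : (quotientToInvariantsFunctor k N).PreservesZeroMorphisms where
  map_zero X Y := by
    ext x
    rfl

@[simp]
lemma quotientToInvariantsFunctor_map_apply {X Y : Rep k G} (f : X ⟶ Y)
    (x : (X.quotientToInvariants N).V) :
    (((quotientToInvariantsFunctor k N).map f).hom x).1 = f.hom x.1 := rfl

/-- Every `1`-cocycle of a representation with vanishing `H¹` is a coboundary. -/
lemma exists_of_isZero_H1 {Γ : Type u} [Group Γ] (M : Rep k Γ)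
    (h : Limits.IsZero (groupCohomology M 1)) (c : Γ → M.V)
    (hc : ∀ g h : Γ, c (g * h) = M.ρ g (c h) + c g) : ∃ a : M.V, ∀ g : Γ, M.ρ g a - a = c g := by
  have hmem : c ∈ cocycles₁ M := (mem_cocycles₁_iff c).2 hc
  have h0 : H1π M ⟨c, hmem⟩ = 0 := by
    have := (ModuleCat.isZero_iff_subsingleton.1 h)
    exact Subsingleton.elim _ _
  obtain ⟨a, ha⟩ := (H1π_eq_zero_iff (⟨c, hmem⟩ : cocycles₁ M)).1 h0
  exact ⟨a, fun g => congr_fun ha g⟩

/-- Taking `N`-invariants of a short exact sequence whose first term has vanishing `H¹(N, -)`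
yields a short exact sequence of `G ⧸ N`-representations. -/
theorem shortExact_map_quotientToInvariants {X : ShortComplex (Rep k G)} (hX : X.ShortExact)
    (h1 : Limits.IsZero (groupCohomology (res N.subtype X.X₁) 1)) :
    (X.map (quotientToInvariantsFunctor k N)).ShortExact := by
  have hinj := shortExact_injective hX
  have hsurj := shortExact_surjective hX
  refine shortExact_of ?_ ?_ ?_
  · intro x y hxy
    apply Subtype.ext
    apply hinj
    exact congr_arg Subtype.val hxy
  · intro z
    obtain ⟨y, hy⟩ := hsurj z.1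
    have hz : ∀ n : N, X.X₃.ρ n z.1 = z.1 := fun n => z.2 n
    have hex : ∀ n : N, ∃ a : X.X₁, X.f.hom a = X.X₂.ρ n y - y := fun n => by
      apply shortExact_exists_of_g_eq_zero hX
      rw [map_sub, hom_comm_apply, hy, hz n, sub_self]
    choose c hc using hex
    obtain ⟨a, ha⟩ := exists_of_isZero_H1 (res N.subtype X.X₁) h1 c (fun g h => by
      apply hinj
      rw [hc, map_add]
      have : X.f.hom ((res N.subtype X.X₁).ρ g (c h)) = X.X₂.ρ g (X.f.hom (c h)) :=
        hom_comm_apply X.f (g : G) (c h)
      rw [this, hc, hc]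
      simp [map_sub])
    have hinv : ∀ n : N, X.X₂.ρ n (y - X.f.hom a) = y - X.f.hom a := fun n => by
      have h2 : X.f.hom (X.X₁.ρ n a) = X.X₂.ρ n (X.f.hom a) := hom_comm_apply X.f (n : G) a
      have h3 : X.X₁.ρ (n : G) a - a = c n := ha n
      have h4 := hc n
      rw [← h3, map_sub, h2] at h4
      rw [map_sub]
      have : X.X₂.ρ n y - X.X₂.ρ n (X.f.hom a) - (y - X.f.hom a) = 0 := by
        rw [sub_sub_sub_comm, ← h4, sub_self]
      exact sub_eq_zero.1 this
    refine ⟨⟨y - X.f.hom a, hinv⟩, ?_⟩
    apply Subtype.ext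
    show X.g.hom (y - X.f.hom a) = z.1
    rw [map_sub, shortExact_g_f hX, sub_zero, hy]
  · intro x hx
    have hx' : X.g.hom x.1 = 0 := congr_arg Subtype.val hx
    obtain ⟨y, hy⟩ := shortExact_exists_of_g_eq_zero hX x.1 hx'
    refine ⟨⟨y, fun n => ?_⟩, Subtype.ext hy⟩
    apply hinj
    have h2 : X.f.hom (X.X₁.ρ n y) = X.X₂.ρ n (X.f.hom y) := hom_comm_apply X.f (n : G) y
    show X.f.hom (X.X₁.ρ (n : G) y) = X.f.hom y
    rw [h2, hy]
    exact x.2 n

end Invariants

section Main

variable (A : Rep k G) (N : Subgroup G) [N.Normal]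

/-- Inflation `Hⁿ(G ⧸ N, A^N) ⟶ Hⁿ(G, A)`. -/
noncomputable abbrev infl (n : ℕ) :
    groupCohomology (A.quotientToInvariants N) n ⟶ groupCohomology A n :=
  map (QuotientGroup.mk' N) (ofHom <| A.ρ.quotientToInvariants_lift N) n

/-- Restriction `Hⁿ(G, A) ⟶ Hⁿ(N, A)`. -/
noncomputable abbrev rest (n : ℕ) :
    groupCohomology A n ⟶ groupCohomology (res N.subtype A) n :=
  map N.subtype (𝟙 (res N.subtype A)) n

lemma infl_comp_rest (n : ℕ) : infl A N (n + 1) ≫ rest A N (n + 1) = 0 := by
  rw [← map_comp, Category.comp_id,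
    groupCohomology.congr (QuotientGroup.mk'_comp_subtype N) (fun f φ => map f φ (n + 1)), map_one_succ]

/-- The inflation-restriction property in degree `n`: inflation is injective and its image is
the kernel of restriction. -/
def InfResExact (n : ℕ) : Prop :=
  Function.Injective (infl A N n) ∧
    ∀ x : groupCohomology A n, rest A N n x = 0 → ∃ y, infl A N n y = x

end Main

section Ladder

open Limits

variable {X : ShortComplex (Rep k G)} (hX : X.ShortExact) (N : Subgroup G) [N.Normal]

omit [N.Normal] in
include hX in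
/-- Vanishing of `Hⁱ(N, X₃)` from that of `Hⁱ(N, X₂)` and `Hⁱ⁺¹(N, X₁)`. -/
lemma isZero_res_X₃ (i : ℕ) (h2 : IsZero (groupCohomology (res N.subtype X.X₂) i))
    (h1 : IsZero (groupCohomology (res N.subtype X.X₁) (i + 1))) :
    IsZero (groupCohomology (res N.subtype X.X₃) i) := by
  have hY : (X.map (resFunctor N.subtype)).ShortExact := (shortExact_res N.subtype).2 hX
  exact (mapShortComplex₃_exact hY (rfl : i + 1 = i + 1)).isZero_of_both_zeros
    (h2.eq_of_src _ _) (h1.eq_of_tgt _ _)

include hX in
/-- The dimension shifting step for inflation-restriction. -/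
theorem infResExact_succ_of_shortExact (n : ℕ)
    (hN1 : IsZero (groupCohomology (res N.subtype X.X₁) 1))
    (hG : IsZero (groupCohomology X.X₂ n)) (hG' : IsZero (groupCohomology X.X₂ (n + 1)))
    (hN : IsZero (groupCohomology (res N.subtype X.X₂) n))
    (hQ : IsZero (groupCohomology (X.X₂.quotientToInvariants N) n))
    (hQ' : IsZero (groupCohomology (X.X₂.quotientToInvariants N) (n + 1)))
    (h : InfResExact X.X₃ N n) : InfResExact X.X₁ N (n + 1) := by
  have hXQ : (X.map (quotientToInvariantsFunctor k N)).ShortExact :=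
    shortExact_map_quotientToInvariants N hX hN1
  have hXN : (X.map (resFunctor N.subtype)).ShortExact := (shortExact_res N.subtype).2 hX
  have sq1 : δ hXQ n (n + 1) rfl ≫ infl X.X₁ N (n + 1) = infl X.X₃ N n ≫ δ hX n (n + 1) rfl :=
    δ_naturality_map (QuotientGroup.mk' N) hXQ hX
      (ofHom <| X.X₁.ρ.quotientToInvariants_lift N) (ofHom <| X.X₂.ρ.quotientToInvariants_lift N)
      (ofHom <| X.X₃.ρ.quotientToInvariants_lift N) rfl rfl n (n + 1) rfl
  have sq2 : δ hX n (n + 1) rfl ≫ rest X.X₁ N (n + 1) = rest X.X₃ N n ≫ δ hXN n (n + 1) rfl :=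
    δ_naturality_map N.subtype hX hXN (𝟙 _) (𝟙 _) (𝟙 _)
      ((Category.comp_id _).trans (Category.id_comp _).symm)
      ((Category.comp_id _).trans (Category.id_comp _).symm) n (n + 1) rfl
  have isoQ : IsIso (δ hXQ n (n + 1) rfl) := isIso_δ_of_isZero hXQ n hQ hQ'
  have isoG : IsIso (δ hX n (n + 1) rfl) := isIso_δ_of_isZero hX n hG hG'
  have monoN : Mono (δ hXN n (n + 1) rfl) := mono_δ_of_isZero hXN n hN
  have bijQ : Function.Bijective (δ hXQ n (n + 1) rfl) := ConcreteCategory.bijective_of_isIso _
  have bijG : Function.Bijective (δ hX n (n + 1) rfl) := ConcreteCategory.bijective_of_isIso _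
  have injN : Function.Injective (δ hXN n (n + 1) rfl) := (ModuleCat.mono_iff_injective _).1 monoN
  have e1 : ∀ y, infl X.X₁ N (n + 1) (δ hXQ n (n + 1) rfl y) =
      δ hX n (n + 1) rfl (infl X.X₃ N n y) := fun y => by
    exact ConcreteCategory.congr_hom sq1 y
  have e2 : ∀ x, rest X.X₁ N (n + 1) (δ hX n (n + 1) rfl x) =
      δ hXN n (n + 1) rfl (rest X.X₃ N n x) := fun x => by
    exact ConcreteCategory.congr_hom sq2 x
  refine ⟨?_, ?_⟩
  · intro a b hab
    obtain ⟨a', rfl⟩ := bijQ.2 a
    obtain ⟨b', rfl⟩ := bijQ.2 b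
    have hab' : δ hX n (n + 1) rfl (infl X.X₃ N n a') = δ hX n (n + 1) rfl (infl X.X₃ N n b') :=
      (e1 a').symm.trans (hab.trans (e1 b'))
    exact congr_arg _ (h.1 (bijG.1 hab'))
  · intro x hx
    obtain ⟨x', rfl⟩ := bijG.2 x
    have hx2 : δ hXN n (n + 1) rfl (rest X.X₃ N n x') = 0 := (e2 x').symm.trans hx
    have hx' : rest X.X₃ N n x' = 0 := injN (hx2.trans (map_zero _).symm)
    obtain ⟨y', hy'⟩ := h.2 x' hx'
    exact ⟨δ hXQ n (n + 1) rfl y', (e1 y').trans (congr_arg _ hy')⟩

end Ladder

section Final

open Limits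

variable (A : Rep k G) (N : Subgroup G) [N.Normal]

/-- Compatibility of inflation with connecting homomorphisms, whenever taking `N`-invariants
preserves the short exact sequence (e.g. when `H¹(N, X₁) = 0`, see
`shortExact_map_quotientToInvariants`). -/
theorem δ_comp_infl {X : ShortComplex (Rep k G)} (hX : X.ShortExact)
    (hXQ : (X.map (quotientToInvariantsFunctor k N)).ShortExact) (i j : ℕ) (hij : i + 1 = j) :
    δ hXQ i j hij ≫ infl X.X₁ N j = infl X.X₃ N i ≫ δ hX i j hij :=
  δ_naturality_map (QuotientGroup.mk' N) hXQ hX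
    (ofHom <| X.X₁.ρ.quotientToInvariants_lift N) (ofHom <| X.X₂.ρ.quotientToInvariants_lift N)
    (ofHom <| X.X₃.ρ.quotientToInvariants_lift N) rfl rfl i j hij

omit [N.Normal] in
/-- Compatibility of restriction with connecting homomorphisms. -/
theorem δ_comp_rest {X : ShortComplex (Rep k G)} (hX : X.ShortExact)
    (hXN : (X.map (resFunctor N.subtype)).ShortExact) (i j : ℕ) (hij : i + 1 = j) :
    δ hX i j hij ≫ rest X.X₁ N j = rest X.X₃ N i ≫ δ hXN i j hij :=
  δ_naturality_map N.subtype hX hXN (𝟙 _) (𝟙 _) (𝟙 _)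
    ((Category.comp_id _).trans (Category.id_comp _).symm)
    ((Category.comp_id _).trans (Category.id_comp _).symm) i j hij

/-- The inflation-restriction sequence in degree one (from Mathlib). -/
theorem infResExact_one : InfResExact A N 1 := by
  refine ⟨(ModuleCat.mono_iff_injective (H1InfRes A N).f).1 inferInstance, fun x hx => ?_⟩
  have := (ShortComplex.moduleCat_exact_iff_ker_sub_range (H1InfRes A N)).1 (H1InfRes_exact A N)
  exact this hx

/-- **Higher inflation-restriction**: if `Hⁱ(N, A) = 0` for `0 < i < n`, then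
`0 ⟶ Hⁿ(G ⧸ N, A^N) ⟶ Hⁿ(G, A) ⟶ Hⁿ(N, A)` is exact. -/
theorem infResExact_of_isZero (n : ℕ) (hn : 0 < n)
    (h : ∀ i, 0 < i → i < n → IsZero (groupCohomology (res N.subtype A) i)) :
    InfResExact A N n := by
  obtain ⟨m, rfl⟩ : ∃ m, n = m + 1 := ⟨n - 1, by omega⟩
  clear hn
  induction m generalizing A with
  | zero => exact infResExact_one A N
  | succ m ih =>
    have hX := shiftSES_shortExact A
    refine infResExact_succ_of_shortExact hX N (m + 1) (h 1 (by omega) (by omega))
      (isZero_groupCohomology_rightReg k G A.V m) (isZero_groupCohomology_rightReg k G A.V (m + 1))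
      (isZero_groupCohomology_res_rightReg N A.V m)
      (isZero_groupCohomology_quotientToInvariants_rightReg N A.V m)
      (isZero_groupCohomology_quotientToInvariants_rightReg N A.V (m + 1)) ?_
    refine ih (shiftSES A).X₃ (fun i hi hi' => ?_)
    obtain ⟨i', rfl⟩ : ∃ i', i = i' + 1 := ⟨i - 1, by omega⟩
    exact isZero_res_X₃ hX N (i' + 1) (isZero_groupCohomology_res_rightReg N A.V i')
      (h (i' + 1 + 1) (by omega) (by omega))

/-- Injectivity of inflation in degree `n` when `Hⁱ(N, A) = 0` for `0 < i < n`. -/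
theorem infl_injective (n : ℕ) (hn : 0 < n)
    (h : ∀ i, 0 < i → i < n → IsZero (groupCohomology (res N.subtype A) i)) :
    Function.Injective (infl A N n) :=
  (infResExact_of_isZero A N n hn h).1

/-- Exactness at the middle term of the inflation-restriction sequence in degree `n`. -/
theorem exists_infl_eq_of_rest_eq_zero (n : ℕ) (hn : 0 < n)
    (h : ∀ i, 0 < i → i < n → IsZero (groupCohomology (res N.subtype A) i))
    (x : groupCohomology A n) (hx : rest A N n x = 0) : ∃ y, infl A N n y = x :=
  (infResExact_of_isZero A N n hn h).2 x hx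

/-- The short complex `Hⁿ⁺¹(G ⧸ N, A^N) ⟶ Hⁿ⁺¹(G, A) ⟶ Hⁿ⁺¹(N, A)`. -/
noncomputable def infResComplex (n : ℕ) : ShortComplex (ModuleCat k) :=
  ShortComplex.mk (infl A N (n + 1)) (rest A N (n + 1)) (infl_comp_rest A N n)

theorem infResComplex_exact (n : ℕ)
    (h : ∀ i, 0 < i → i < n + 1 → IsZero (groupCohomology (res N.subtype A) i)) :
    (infResComplex A N n).Exact := by
  rw [ShortComplex.moduleCat_exact_iff_ker_sub_range]
  intro x hx
  exact exists_infl_eq_of_rest_eq_zero A N (n + 1) (Nat.succ_pos n) h x hx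

theorem infResComplex_mono_f (n : ℕ)
    (h : ∀ i, 0 < i → i < n + 1 → IsZero (groupCohomology (res N.subtype A) i)) :
    Mono (infResComplex A N n).f :=
  (ModuleCat.mono_iff_injective _).2 (infl_injective A N (n + 1) (Nat.succ_pos n) h)

/-- Inflation-restriction in degree `2`: if `H¹(N, A) = 0` then
`0 ⟶ H²(G ⧸ N, A^N) ⟶ H²(G, A) ⟶ H²(N, A)` is exact. -/
theorem infResExact_two (h1 : IsZero (groupCohomology (res N.subtype A) 1)) :
    InfResExact A N 2 :=
  infResExact_of_isZero A N 2 (by norm_num) (fun i hi hi' => by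
    obtain rfl : i = 1 := by omega
    exact h1)

/-- Inflation-restriction in degree `3`: if `H¹(N, A) = 0` and `H²(N, A) = 0` then
`0 ⟶ H³(G ⧸ N, A^N) ⟶ H³(G, A) ⟶ H³(N, A)` is exact. -/
theorem infResExact_three (h1 : IsZero (groupCohomology (res N.subtype A) 1))
    (h2 : IsZero (groupCohomology (res N.subtype A) 2)) :
    InfResExact A N 3 :=
  infResExact_of_isZero A N 3 (by norm_num) (fun i hi hi' => by
    obtain rfl | rfl : i = 1 ∨ i = 2 := by omega
    · exact h1
    · exact h2)

end Final

end Fermat.Agent.Lib.CFT.Coh.InfRes
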