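/-
Tate's theorem (Tate–Nakayama) for class layers: umbrella file with the statements for a general
`A : Rep ℤ G`.

Setting: `G` a finite group, `A : Rep ℤ G`, `u : G × G → A` a 2-cocycle such that for every
subgroup `H ≤ G`: `H¹(H, A) = 0` and `H²(H, A)` is cyclic of order `|H|` generated by the
restriction of `u` (`IsClassLayer A u`).  Then

* the splitting module `A(u)` is cohomologically trivial,
* `Ĥⁿ(H, ℤ) ≅ Ĥⁿ⁺²(H, A)` for all `n : ℤ` and all subgroups `H`,
* the Nakayama map `G^ab → A^G / N_G A`, `g ↦ Σ_x u(x, g)` is bijective,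
* `H³(H, A) = 0`.
-/
import Mathlib
import Fermat.Agent.Lib.CFT.Coh.TateThm.Main

namespace Fermat.Agent.Lib.CFT.Coh.TateThm

open Representation groupCohomology CategoryTheory CategoryTheory.Limits

variable {G : Type} [Group G] [Fintype G]

/-- **Surjectivity of the Nakayama map** `G^ab → A^G / N_G A`, `g ↦ Σ_x u(x, g)`. -/
theorem nakayama_surjective {A : Rep.{0} ℤ G} {u : G × G → A} (h : IsClassLayer A u) (a : A)
    (ha : ∀ g, A.ρ g a = a) : ∃ (g : G) (c : A), a = (∑ x, u (x, g)) + ∑ x, A.ρ x c := by
  induction A using rep_int_induction with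
  | h A ρ =>
    obtain ⟨g, c, hgc⟩ := h.all.nakayama_surjective a ha
    exact ⟨g, c, by rw [hgc]; simp [Representation.norm, LinearMap.sum_apply]⟩

/-- **Injectivity of the Nakayama map** `G^ab → A^G / N_G A`, `g ↦ Σ_x u(x, g)`. -/
theorem nakayama_injective {A : Rep.{0} ℤ G} {u : G × G → A} (h : IsClassLayer A u) (g : G)
    (c : A) (hg : (∑ x, u (x, g)) = ∑ x, A.ρ x c) : g ∈ commutator G := by
  induction A using rep_int_induction with
  | h A ρ =>
    refine h.all.nakayama_injective g c ?_
    rw [hg]
    simp [Representation.norm, LinearMap.sum_apply]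

/-- **`H³(G, A) = 0`** for a class layer. -/
theorem isZero_H3 {A : Rep.{0} ℤ G} {u : G × G → A} (h : IsClassLayer A u) :
    IsZero (groupCohomology A 3) := by
  induction A using rep_int_induction with
  | h A ρ => exact h.all.isZero_H3

/-- **Tate's theorem**: `Ĥⁿ(H, ℤ) ≅ Ĥⁿ⁺²(H, A)` for every subgroup `H` and every `n : ℤ`. -/
theorem nonempty_tateIso {A : Rep.{0} ℤ G} {u : G × G → A} (h : IsClassLayer A u)
    (H : Subgroup G) [Fintype H] (n : ℤ) :
    Nonempty (tateCohomology (Rep.res H.subtype (Rep.trivial ℤ G ℤ)) n ≅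
      tateCohomology (Rep.res H.subtype A) (n + 2)) := by
  induction A using rep_int_induction with
  | h A ρ => exact ⟨h.all.tateIso H.subtype H.subtype_injective n⟩

section subgroups

variable {A : Type} [AddCommGroup A] {ρ : Representation ℤ G A} {u : G × G → A}

/-- Surjectivity of the Nakayama map for a subgroup. -/
theorem IsClassLayerAll.nakayama_surjective_subgroup (h : IsClassLayerAll ρ u) (S : Subgroup G)
    [Fintype S] (a : A) (ha : ∀ g : S, ρ g a = a) :
    ∃ (g : S) (c : A), a = (∑ x : S, u (x, g)) + ∑ x : S, ρ x c := by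
  obtain ⟨g, c, hgc⟩ := (h.res S.subtype S.subtype_injective).nakayama_surjective a
    (fun g => ha g)
  refine ⟨g, c, ?_⟩
  rw [hgc]
  simp [Representation.norm, LinearMap.sum_apply]

/-- Injectivity of the Nakayama map for a subgroup. -/
theorem IsClassLayerAll.nakayama_injective_subgroup (h : IsClassLayerAll ρ u) (S : Subgroup G)
    [Fintype S] (g : S) (c : A) (hg : (∑ x : S, u (x, g)) = ∑ x : S, ρ x c) :
    g ∈ commutator S := by
  refine (h.res S.subtype S.subtype_injective).nakayama_injective g c ?_
  show ∑ x : S, u ((x : G), (g : G)) = _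
  rw [hg]
  simp [Representation.norm, LinearMap.sum_apply]

/-- `H³(H, A) = 0` for every subgroup. -/
theorem IsClassLayerAll.isZero_H3_subgroup (h : IsClassLayerAll ρ u) (S : Subgroup G) :
    IsZero (groupCohomology (Rep.res S.subtype (Rep.of ρ)) 3) := by
  classical
  let _ : Fintype S := Fintype.ofFinite S
  exact (h.res S.subtype S.subtype_injective).isZero_H3

end subgroups

end Fermat.Agent.Lib.CFT.Coh.TateThm
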