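import Mathlib

/-!
# Restriction and corestriction on Tate cohomology (P-CFT, WP Coh/ResCor, helper29)

For a finite group `G`, a subgroup `S` and `A : Rep R G` we construct morphisms of Tate complexes
`tateRes S A : tateComplex A ⟶ tateComplex (res A)` and
`tateCor S A : tateComplex (res A) ⟶ tateComplex A`
by explicit (co)transfer formulas using the coset representatives `Quotient.out : G ⧸ S → G`.
-/

set_option autoImplicit false

universe u

namespace Fermat.Agent.Lib.CFT.Coh.ResCor

open Fin

section Step

variable {G : Type u} [Group G] (S : Subgroup G)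

/-- `step S q g = q.out⁻¹ * g * (g⁻¹ • q).out`, an element of `S`. -/
noncomputable def stepG (q : G ⧸ S) (g : G) : G := q.out⁻¹ * g * (g⁻¹ • q).out

lemma stepG_mem (q : G ⧸ S) (g : G) : stepG S q g ∈ S := by
  have h1 : g⁻¹ • q = ((g⁻¹ * q.out : G) : G ⧸ S) := by
    conv_lhs => rw [← QuotientGroup.out_eq' q]
    rfl
  obtain ⟨h, hh⟩ := QuotientGroup.mk_out_eq_mul S (g⁻¹ * q.out)
  rw [stepG, h1, hh]
  have : q.out⁻¹ * g * (g⁻¹ * q.out * (h : G)) = h := by group
  rw [this]
  exact h.2

/-- The step cocycle with values in the subgroup. -/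
noncomputable def step (q : G ⧸ S) (g : G) : S := ⟨stepG S q g, stepG_mem S q g⟩

@[simp] lemma coe_step (q : G ⧸ S) (g : G) : (step S q g : G) = q.out⁻¹ * g * (g⁻¹ • q).out := rfl

lemma step_mul (q : G ⧸ S) (g h : G) :
    step S q (g * h) = step S q g * step S (g⁻¹ • q) h := by
  apply Subtype.ext
  simp only [coe_step, Subgroup.coe_mul, mul_inv_rev, mul_smul]
  group

lemma out_mul_step (q : G ⧸ S) (g : G) : q.out * (step S q g : G) = g * (g⁻¹ • q).out := by
  simp only [coe_step]; group

lemma step_inv_mul_out_inv (q : G ⧸ S) (g : G) :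
    ((step S q g : G))⁻¹ * q.out⁻¹ = (g⁻¹ • q).out⁻¹ * g⁻¹ := by
  simp only [coe_step]; group

/-- The transfer tuple: `τ q g i = step ((g₀ ⋯ g_{i-1})⁻¹ • q) (g i)`. -/
noncomputable def tau {n : ℕ} (q : G ⧸ S) (g : Fin n → G) : Fin n → S :=
  fun i => step S ((partialProd g i.castSucc)⁻¹ • q) (g i)

lemma tau_zero {n : ℕ} (q : G ⧸ S) (g : Fin (n + 1) → G) : tau S q g 0 = step S q (g 0) := by
  simp [tau]

lemma tau_succ {n : ℕ} (q : G ⧸ S) (g : Fin (n + 1) → G) (i : Fin n) :
    tau S q g i.succ = tau S ((g 0)⁻¹ • q) (fun j => g j.succ) i := by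
  simp only [tau]
  have : partialProd g i.succ.castSucc = g 0 * partialProd (fun j => g j.succ) i.castSucc := by
    rw [← Fin.succ_castSucc, partialProd_succ']
    rfl
  rw [this, mul_inv_rev, mul_smul]

lemma tau_comp_succ {n : ℕ} (q : G ⧸ S) (g : Fin (n + 1) → G) :
    (fun i : Fin n => tau S q g i.succ) = tau S ((g 0)⁻¹ • q) (fun j => g j.succ) :=
  funext fun i => tau_succ S q g i

lemma tau_contractNth {n : ℕ} (q : G ⧸ S) (g : Fin (n + 1) → G) (j : Fin (n + 1)) :
    tau S q (contractNth j (· * ·) g) = contractNth j (· * ·) (tau S q g) := by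
  ext k
  have hL : tau S q (contractNth j (· * ·) g) k =
      step S ((partialProd g (j.succ.succAbove k.castSucc))⁻¹ • q)
        (contractNth j (· * ·) g k) := by
    simp only [tau, partialProd_contractNth, Function.comp_apply]
  rw [hL]
  rcases lt_trichotomy (k : ℕ) j with (h | h | h)
  · rw [contractNth_apply_of_lt _ _ _ _ h, contractNth_apply_of_lt _ _ _ _ h]
    have h1 : j.succ.succAbove k.castSucc = k.castSucc.castSucc := by
      apply succAbove_of_castSucc_lt
      rw [Fin.castSucc_lt_iff_succ_le, Fin.succ_le_succ_iff, Fin.le_iff_val_le_val]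
      exact le_of_lt h
    rw [h1]
    rfl
  · rw [contractNth_apply_of_eq _ _ _ _ h, contractNth_apply_of_eq _ _ _ _ h]
    have h1 : j.succ.succAbove k.castSucc = k.castSucc.castSucc := by
      apply succAbove_of_castSucc_lt
      rw [Fin.castSucc_lt_iff_succ_le, Fin.succ_le_succ_iff, Fin.le_iff_val_le_val]
      exact le_of_eq h
    rw [h1, step_mul]
    have h2 : partialProd g k.succ.castSucc = partialProd g k.castSucc.castSucc * g k.castSucc := by
      rw [← Fin.succ_castSucc, partialProd_succ]
    simp only [tau, h2, mul_inv_rev, mul_smul]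
  · rw [contractNth_apply_of_gt _ _ _ _ h, contractNth_apply_of_gt _ _ _ _ h]
    have h1 : j.succ.succAbove k.castSucc = k.castSucc.succ := by
      apply succAbove_of_le_castSucc
      rw [Fin.le_iff_val_le_val]
      simp only [Fin.val_succ, Fin.val_castSucc]
      omega
    rw [h1, Fin.succ_castSucc]
    rfl

end Step

noncomputable section

open CategoryTheory Rep Finsupp groupCohomology groupHomology

section Sums


variable {G : Type u} [Group G] (S : Subgroup G)

/-- The bijection `(G ⧸ S) × S ≃ G`, `(q, s) ↦ q.out * s`. -/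
def quotProdEquiv : (G ⧸ S) × S ≃ G where
  toFun p := p.1.out * p.2
  invFun g := ((g : G ⧸ S), ⟨(g : G ⧸ S).out⁻¹ * g, by
    rw [← QuotientGroup.eq, QuotientGroup.out_eq']⟩)
  left_inv := by
    rintro ⟨q, s⟩
    have h : ((q.out * (s : G) : G) : G ⧸ S) = q := by
      rw [QuotientGroup.mk_mul_of_mem _ s.2, QuotientGroup.out_eq']
    ext
    · exact h
    · simp only [h]
      simp
  right_inv g := by simp

@[simp] lemma quotProdEquiv_apply (p : (G ⧸ S) × S) : quotProdEquiv S p = p.1.out * p.2 := rfl

variable [Fintype (G ⧸ S)] [Fintype S] [Fintype G]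

lemma sum_out_mul {M : Type*} [AddCommMonoid M] (F : G → M) :
    ∑ q : G ⧸ S, ∑ s : S, F (q.out * s) = ∑ g : G, F g := by
  rw [← Equiv.sum_comp (quotProdEquiv S) F, Fintype.sum_prod_type]
  rfl

lemma sum_mul_out_inv {M : Type*} [AddCommMonoid M] (F : G → M) :
    ∑ q : G ⧸ S, ∑ s : S, F (s * q.out⁻¹) = ∑ g : G, F g := by
  rw [← Equiv.sum_comp (Equiv.inv G) F, ← sum_out_mul S]
  refine Finset.sum_congr rfl fun q _ => ?_
  rw [← Equiv.sum_comp (Equiv.inv S)]
  refine Finset.sum_congr rfl fun s _ => ?_
  simp


end Sums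

section ChainMaps


variable {R G : Type u} [CommRing R] [Group G] (S : Subgroup G) [Fintype (G ⧸ S)] (A : Rep R G)

/-- Cotransfer on inhomogeneous cochains (linear map level). -/
def cotrL (n : ℕ) : ((Fin n → S) → A) →ₗ[R] ((Fin n → G) → A) where
  toFun f g := ∑ q : G ⧸ S, A.ρ q.out (f (tau S q g))
  map_add' f f' := by
    ext g
    simp [Finset.sum_add_distrib]
  map_smul' r f := by
    ext g
    simp [Finset.smul_sum]

@[simp] lemma cotrL_apply (n : ℕ) (f : (Fin n → S) → A) (g : Fin n → G) :
    cotrL S A n f g = ∑ q : G ⧸ S, A.ρ q.out (f (tau S q g)) := rfl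

lemma sum_smul_inv_eq {M : Type*} [AddCommMonoid M] (g : G) (F : G ⧸ S → M) :
    ∑ q : G ⧸ S, F (g⁻¹ • q) = ∑ q : G ⧸ S, F q :=
  Equiv.sum_comp (MulAction.toPerm g⁻¹) F

/-- Cotransfer as a morphism of cochain complexes. -/
def cotr : inhomogeneousCochains (res S.subtype A) ⟶ inhomogeneousCochains A where
  f n := ModuleCat.ofHom (cotrL S A n)
  comm' i j (hij : _ = _) := by
    subst hij
    rw [inhomogeneousCochains.d_def, inhomogeneousCochains.d_def]
    ext f g
    simp only [ModuleCat.hom_comp, ModuleCat.hom_ofHom, LinearMap.coe_comp,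
      Function.comp_apply, inhomogeneousCochains.d_hom_apply, cotrL_apply]
    simp only [map_add, map_sum, map_smul, Finset.sum_add_distrib, Finset.smul_sum]
    congr 1
    · rw [← sum_smul_inv_eq S (g 0)]
      refine Finset.sum_congr rfl fun q _ => ?_
      rw [tau_comp_succ, tau_zero]
      simp only [MonoidHom.comp_apply, Subgroup.coe_subtype]
      rw [← Module.End.mul_apply, ← Module.End.mul_apply, ← map_mul, ← map_mul, out_mul_step]
    · rw [Finset.sum_comm]
      refine Finset.sum_congr rfl fun q _ => Finset.sum_congr rfl fun j _ => ?_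
      rw [tau_contractNth]




/-- Transfer on inhomogeneous chains (linear map level). -/
def trL (n : ℕ) : ((Fin n → G) →₀ A) →ₗ[R] ((Fin n → S) →₀ A) :=
  Finsupp.lsum R fun g => ∑ q : G ⧸ S, Finsupp.lsingle (tau S q g) ∘ₗ (A.ρ q.out⁻¹)

@[simp] lemma trL_single (n : ℕ) (g : Fin n → G) (a : A) :
    trL S A n (single g a) = ∑ q : G ⧸ S, single (tau S q g) (A.ρ q.out⁻¹ a) := by
  simp [trL]

/-- Transfer as a morphism of chain complexes. -/
def tr : inhomogeneousChains A ⟶ inhomogeneousChains (res S.subtype A) where
  f n := ModuleCat.ofHom (trL S A n)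
  comm' i j (hij : _ = _) := by
    subst hij
    rw [inhomogeneousChains.d_def, inhomogeneousChains.d_def]
    ext g : 1
    apply ModuleCat.hom_ext
    ext a : 1
    simp only [ModuleCat.hom_comp, ModuleCat.hom_ofHom, LinearMap.coe_comp, Function.comp_apply,
      lsingle_apply, trL_single, map_sum]
    have h1 : (ModuleCat.Hom.hom (inhomogeneousChains.d A j)) (single g a) =
        single (fun i => g i.succ) (A.ρ (g 0)⁻¹ a) +
          ∑ k : Fin (j + 1), (-1 : R) ^ ((k : ℕ) + 1) • single (k.contractNth (· * ·) g) a :=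
      inhomogeneousChains.d_single (k := R) (A := A) j g a
    have h2 : ∀ x : G ⧸ S, (ModuleCat.Hom.hom (inhomogeneousChains.d (res S.subtype A) j))
        (single (tau S x g) (A.ρ (Quotient.out x)⁻¹ a)) =
        single (fun i => tau S x g i.succ)
          (A.ρ ((tau S x g 0 : S) : G)⁻¹ (A.ρ (Quotient.out x)⁻¹ a)) +
          ∑ k : Fin (j + 1), (-1 : R) ^ ((k : ℕ) + 1) •
            single (k.contractNth (· * ·) (tau S x g)) (A.ρ (Quotient.out x)⁻¹ a) :=
      fun x => inhomogeneousChains.d_single (k := R) (A := res S.subtype A) j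
        (tau S x g) (A.ρ (Quotient.out x)⁻¹ a)
    rw [h1]
    simp_rw [h2]
    simp only [map_add, map_sum, map_smul, trL_single, Finset.sum_add_distrib, Finset.smul_sum]
    congr 1
    · conv_rhs => rw [← sum_smul_inv_eq S (g 0)]
      refine Finset.sum_congr rfl fun q _ => ?_
      rw [tau_comp_succ, tau_zero]
      congr 1
      rw [← Module.End.mul_apply, ← Module.End.mul_apply, ← map_mul, ← map_mul,
        step_inv_mul_out_inv]
    · rw [Finset.sum_comm]
      refine Finset.sum_congr rfl fun q _ => Finset.sum_congr rfl fun k _ => ?_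
      rw [tau_contractNth]


end ChainMaps

section Tate

variable {R G : Type u} [CommRing R] [Group G] [Fintype G] (S : Subgroup G) [Fintype (G ⧸ S)]
  [Fintype S] (A : Rep R G)

/-- Chain-level restriction on Tate complexes. -/
def tateRes : tateComplex A ⟶ tateComplex (res S.subtype A) :=
  CochainComplex.ConnectData.map (tateComplexConnectData A)
    (tateComplexConnectData (res S.subtype A))
    (tr S A) (cochainsMap S.subtype (𝟙 _)) (by
      simp only [tateComplexConnectData_d₀, Rep.tateNorm_eq]
      ext x : 1
      apply ModuleCat.hom_ext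
      ext a y
      have htr : (tr S A).f 0 = ModuleCat.ofHom (trL S A 0) := rfl
      simp only [htr, cochainsMap_f, ModuleCat.hom_comp, ModuleCat.hom_ofHom, LinearMap.coe_comp,
        Function.comp_apply, lsingle_apply, trL_single, map_sum, Finsupp.lsum_apply,
        Finsupp.sum_single_index, map_zero, LinearMap.pi_apply, Finset.sum_apply,
        Representation.norm, LinearMap.coe_sum]
      simp only [LinearMap.compLeft_apply, LinearMap.funLeft_apply, LinearMap.pi_apply,
        LinearMap.coe_sum, Finset.sum_apply, MonoidHom.comp_apply, Subgroup.coe_subtype,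
        Function.comp_apply]
      rw [← sum_mul_out_inv S (fun g => A.ρ g a)]
      simp only [map_mul, Module.End.mul_apply]
      rfl)

/-- Chain-level corestriction on Tate complexes. -/
def tateCor : tateComplex (res S.subtype A) ⟶ tateComplex A :=
  CochainComplex.ConnectData.map (tateComplexConnectData (res S.subtype A))
    (tateComplexConnectData A)
    (chainsMap S.subtype (𝟙 (res S.subtype A))) (cotr S A) (by
      simp only [tateComplexConnectData_d₀, Rep.tateNorm_eq]
      refine ModuleCat.hom_ext (Finsupp.lhom_ext fun x a => ?_)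
      ext y
      have hcotr : (cotr S A).f 0 = ModuleCat.ofHom (cotrL S A 0) := rfl
      simp only [hcotr, chainsMap_f, ModuleCat.hom_comp, ModuleCat.hom_ofHom, LinearMap.coe_comp,
        Function.comp_apply, lsingle_apply, map_sum, Finsupp.lsum_apply,
        Finsupp.sum_single_index, map_zero, LinearMap.pi_apply, Finset.sum_apply,
        Representation.norm, LinearMap.coe_sum, cotrL_apply]
      rw [Finsupp.lmapDomain_apply, Finsupp.mapDomain_single, Finsupp.mapRange.linearMap_apply,
        Finsupp.mapRange_single, Finsupp.sum_single_index (by simp)]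
      simp only [LinearMap.pi_apply, LinearMap.coe_sum, Finset.sum_apply, MonoidHom.comp_apply,
        Subgroup.coe_subtype]
      rw [← sum_out_mul S (fun g => A.ρ g _)]
      simp only [map_mul, Module.End.mul_apply]
      rfl)


end Tate

section Nat

variable {R G : Type u} [CommRing R] [Group G] (S : Subgroup G) [Fintype (G ⧸ S)]
  {A B : Rep R G} (φ : A ⟶ B)

@[simp] lemma tr_f (A : Rep R G) (n : ℕ) : (tr S A).f n = ModuleCat.ofHom (trL S A n) := rfl
@[simp] lemma cotr_f (A : Rep R G) (n : ℕ) : (cotr S A).f n = ModuleCat.ofHom (cotrL S A n) := rfl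

lemma tr_naturality :
    chainsMap (MonoidHom.id G) φ ≫ tr S B =
      tr S A ≫ chainsMap (A := res S.subtype A) (B := res S.subtype B) (MonoidHom.id S)
        ((resFunctor S.subtype).map φ) := by
  refine HomologicalComplex.hom_ext _ _ fun n => ?_
  refine inhomogeneousChains.ext fun g => ?_
  refine ModuleCat.hom_ext (LinearMap.ext fun a => ?_)
  have h1 : (ModuleCat.Hom.hom ((chainsMap (MonoidHom.id G) φ).f n)) (single g a) =
      single g (φ.hom a) := chainsMap_f_single (MonoidHom.id G) φ n g a
  have h2 : ∀ q : G ⧸ S,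
      (ModuleCat.Hom.hom ((chainsMap (A := res S.subtype A) (B := res S.subtype B)
        (MonoidHom.id S) ((resFunctor S.subtype).map φ)).f n))
        (single (tau S q g) (A.ρ (Quotient.out q)⁻¹ a)) =
      single (tau S q g) (φ.hom (A.ρ (Quotient.out q)⁻¹ a)) := fun q =>
    chainsMap_f_single (A := res S.subtype A) (B := res S.subtype B) (MonoidHom.id S)
      ((resFunctor S.subtype).map φ) n _ _
  simp only [HomologicalComplex.comp_f, tr_f, ModuleCat.hom_comp, ModuleCat.hom_ofHom,
    LinearMap.coe_comp, Function.comp_apply, lsingle_apply, trL_single, map_sum, h1, h2,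
    hom_comm_apply]

lemma cotr_naturality :
    cochainsMap (A := res S.subtype A) (B := res S.subtype B) (MonoidHom.id S)
      ((resFunctor S.subtype).map φ) ≫ cotr S B =
      cotr S A ≫ cochainsMap (MonoidHom.id G) φ := by
  ext n f g
  simp only [HomologicalComplex.comp_f, cotr_f, cochainsMap_f, ModuleCat.hom_comp,
    ModuleCat.hom_ofHom, LinearMap.coe_comp, Function.comp_apply, cotrL_apply,
    LinearMap.compLeft_apply, LinearMap.funLeft_apply, map_sum]
  refine Finset.sum_congr rfl fun q _ => ?_
  exact (hom_comm_apply φ _ _).symm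

omit [Fintype (G ⧸ S)] in
lemma cochainsMap_res_naturality :
    cochainsMap (MonoidHom.id G) φ ≫ cochainsMap S.subtype (𝟙 (res S.subtype B)) =
      cochainsMap S.subtype (𝟙 (res S.subtype A)) ≫
        cochainsMap (A := res S.subtype A) (B := res S.subtype B) (MonoidHom.id S)
          ((resFunctor S.subtype).map φ) := by
  ext n f g
  simp [cochainsMap_f]

omit [Fintype (G ⧸ S)] in
lemma chainsMap_cor_naturality :
    chainsMap (A := res S.subtype A) (B := res S.subtype B) (MonoidHom.id S)
        ((resFunctor S.subtype).map φ) ≫ chainsMap S.subtype (𝟙 (res S.subtype B)) =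
      chainsMap S.subtype (𝟙 (res S.subtype A)) ≫ chainsMap (MonoidHom.id G) φ := by
  refine HomologicalComplex.hom_ext _ _ fun n => ?_
  refine inhomogeneousChains.ext fun g => ?_
  refine ModuleCat.hom_ext (LinearMap.ext fun a => ?_)
  simp [chainsMap_f]

end Nat

section TateNat

variable {R G : Type u} [CommRing R] [Group G] [Fintype G] (S : Subgroup G) [Fintype (G ⧸ S)]
  [Fintype S] {A B : Rep R G} (φ : A ⟶ B)

lemma tateRes_naturality :
    tateComplex.map φ ≫ tateRes S B =
      tateRes S A ≫ tateComplex.map (X := res S.subtype A) (Y := res S.subtype B)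
        ((resFunctor S.subtype).map φ) := by
  unfold tateRes tateComplex.map
  rw [CochainComplex.ConnectData.map_comp_map, CochainComplex.ConnectData.map_comp_map]
  congr 1
  exact tr_naturality S φ

lemma tateCor_naturality :
    tateComplex.map (X := res S.subtype A) (Y := res S.subtype B)
        ((resFunctor S.subtype).map φ) ≫ tateCor S B =
      tateCor S A ≫ tateComplex.map φ := by
  unfold tateCor tateComplex.map
  rw [CochainComplex.ConnectData.map_comp_map, CochainComplex.ConnectData.map_comp_map]
  congr 1
  all_goals first | exact chainsMap_cor_naturality S φ | exact cotr_naturality S φ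

end TateNat

section Cohomology

variable {R G : Type u} [CommRing R] [Group G] [Fintype G] (S : Subgroup G) [Fintype (G ⧸ S)]
  [Fintype S]

/-- Restriction on Tate cohomology, all degrees. -/
def tRes (A : Rep R G) (n : ℤ) : tateCohomology A n ⟶ tateCohomology (res S.subtype A) n :=
  HomologicalComplex.homologyMap (tateRes S A) n

/-- Corestriction on Tate cohomology, all degrees. -/
def tCor (A : Rep R G) (n : ℤ) : tateCohomology (res S.subtype A) n ⟶ tateCohomology A n :=
  HomologicalComplex.homologyMap (tateCor S A) n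

variable {A B : Rep R G} (φ : A ⟶ B)

lemma tRes_naturality (n : ℤ) :
    (tateCohomologyFunctor n).map φ ≫ tRes S B n =
      tRes S A n ≫ (tateCohomologyFunctor n).map ((resFunctor S.subtype).map φ) := by
  show HomologicalComplex.homologyMap (tateComplex.map φ) n ≫
      HomologicalComplex.homologyMap (tateRes S B) n =
    HomologicalComplex.homologyMap (tateRes S A) n ≫
      HomologicalComplex.homologyMap (tateComplex.map (X := res S.subtype A)
        (Y := res S.subtype B) ((resFunctor S.subtype).map φ)) n
  rw [← HomologicalComplex.homologyMap_comp, ← HomologicalComplex.homologyMap_comp,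
    tateRes_naturality]

lemma tCor_naturality (n : ℤ) :
    (tateCohomologyFunctor n).map ((resFunctor S.subtype).map φ) ≫ tCor S B n =
      tCor S A n ≫ (tateCohomologyFunctor n).map φ := by
  show HomologicalComplex.homologyMap (tateComplex.map (X := res S.subtype A)
        (Y := res S.subtype B) ((resFunctor S.subtype).map φ)) n ≫
      HomologicalComplex.homologyMap (tateCor S B) n =
    HomologicalComplex.homologyMap (tateCor S A) n ≫
      HomologicalComplex.homologyMap (tateComplex.map φ) n
  rw [← HomologicalComplex.homologyMap_comp, ← HomologicalComplex.homologyMap_comp,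
    tateCor_naturality]

omit [Fintype G] [Fintype (G ⧸ S)] [Fintype S] in
/-- Restriction to a subgroup preserves short exact sequences. -/
lemma shortExact_res {X : ShortComplex (Rep R G)} (hX : X.ShortExact) :
    (X.map (resFunctor S.subtype)).ShortExact :=
  hX.map_of_exact (resFunctor S.subtype)

/-- The morphism of short complexes of Tate complexes given by restriction. -/
def tateResShortComplex (X : ShortComplex (Rep R G)) :
    X.map (tateComplexFunctor R G) ⟶
      (X.map (resFunctor S.subtype)).map (tateComplexFunctor R S) where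
  τ₁ := tateRes S X.X₁
  τ₂ := tateRes S X.X₂
  τ₃ := tateRes S X.X₃
  comm₁₂ := (tateRes_naturality S X.f).symm
  comm₂₃ := (tateRes_naturality S X.g).symm

/-- The morphism of short complexes of Tate complexes given by corestriction. -/
def tateCorShortComplex (X : ShortComplex (Rep R G)) :
    (X.map (resFunctor S.subtype)).map (tateComplexFunctor R S) ⟶
      X.map (tateComplexFunctor R G) where
  τ₁ := tateCor S X.X₁
  τ₂ := tateCor S X.X₂
  τ₃ := tateCor S X.X₃
  comm₁₂ := (tateCor_naturality S X.f).symm
  comm₂₃ := (tateCor_naturality S X.g).symm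

/-- Restriction commutes with the connecting homomorphisms. -/
lemma δ_tRes {X : ShortComplex (Rep R G)} (hX : X.ShortExact) (n : ℤ) :
    TateCohomology.δ hX n ≫ tRes S X.X₁ (n + 1) =
      tRes S X.X₃ n ≫ TateCohomology.δ (shortExact_res S hX) n :=
  HomologicalComplex.HomologySequence.δ_naturality (tateResShortComplex S X)
    (TateCohomology.map_tateComplexFunctor_shortExact hX)
    (TateCohomology.map_tateComplexFunctor_shortExact (shortExact_res S hX)) n (n + 1) rfl

/-- Corestriction commutes with the connecting homomorphisms. -/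
lemma δ_tCor {X : ShortComplex (Rep R G)} (hX : X.ShortExact) (n : ℤ) :
    TateCohomology.δ (shortExact_res S hX) n ≫ tCor S X.X₁ (n + 1) =
      tCor S X.X₃ n ≫ TateCohomology.δ hX n :=
  HomologicalComplex.HomologySequence.δ_naturality (tateCorShortComplex S X)
    (TateCohomology.map_tateComplexFunctor_shortExact (shortExact_res S hX))
    (TateCohomology.map_tateComplexFunctor_shortExact hX) n (n + 1) rfl

end Cohomology

section DegreeZero

variable {R G : Type u} [CommRing R] [Group G] [Fintype G] (S : Subgroup G) [Fintype (G ⧸ S)]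
  [Fintype S] (A : Rep R G)

lemma tateRes_f_zero : (tateRes S A).f 0 = (cochainsMap S.subtype (𝟙 (res S.subtype A))).f 0 := rfl

lemma tateCor_f_zero : (tateCor S A).f 0 = (cotr S A).f 0 := rfl

lemma tateRes_f_ofNat (n : ℕ) :
    (tateRes S A).f (n : ℤ) = (cochainsMap S.subtype (𝟙 (res S.subtype A))).f n := rfl

lemma tateCor_f_ofNat (n : ℕ) : (tateCor S A).f (n : ℤ) = (cotr S A).f n := rfl

lemma tateRes_f_negSucc (n : ℕ) : (tateRes S A).f (Int.negSucc n) = (tr S A).f n := rfl

lemma tateCor_f_negSucc (n : ℕ) :
    (tateCor S A).f (Int.negSucc n) = (chainsMap S.subtype (𝟙 (res S.subtype A))).f n := rfl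

/-- On degree-zero cochains, `Cor ∘ Res` is `f ↦ (y ↦ ∑ q, ρ(q.out) (f default))`. -/
lemma tateRes_tateCor_f_zero_apply (f : (Fin 0 → G) → A) (y : Fin 0 → G) :
    ((tateRes S A ≫ tateCor S A).f 0 : (tateComplex A).X 0 ⟶ (tateComplex A).X 0).hom f y =
      ∑ q : G ⧸ S, A.ρ q.out (f y) := by
  have hy : ∀ q : G ⧸ S, (fun i => ((tau S q y i : S) : G)) = y := fun q =>
    funext fun i => i.elim0
  simp only [HomologicalComplex.comp_f, tateRes_f_zero, tateCor_f_zero, cotr_f, cochainsMap_f]
  refine Finset.sum_congr rfl fun q _ => ?_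
  congr 1
  show f (fun i => ((tau S q y i : S) : G)) = f y
  rw [hy q]

/-- A degree-zero Tate cocycle takes invariant values. -/
lemma rho_apply_of_d_eq_zero (x : (Fin 0 → G) → A)
    (hx : ((tateComplex A).d 0 1).hom x = 0) (g : G) (y : Fin 0 → G) :
    A.ρ g (x y) = x y := by
  have h1 : (inhomogeneousCochains.d A 0).hom x = 0 := by
    rw [← inhomogeneousCochains.d_def]; exact hx
  have h2 := congrFun h1 (fun _ => g)
  rw [inhomogeneousCochains.d_hom_apply, Fin.sum_univ_one] at h2
  have e1 : (fun i : Fin 0 => (fun _ : Fin 1 => g) i.succ) = y := Subsingleton.elim _ _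
  have e2 : Fin.contractNth (0 : Fin 1) (· * ·) (fun _ : Fin 1 => g) = y := Subsingleton.elim _ _
  rw [e1, e2] at h2
  simp only [Fin.val_zero, zero_add, pow_one, neg_smul, one_smul] at h2
  exact add_neg_eq_zero.mp h2

lemma homologyMap_tateRes_tateCor_zero :
    HomologicalComplex.homologyMap (tateRes S A ≫ tateCor S A) 0 =
      Fintype.card (G ⧸ S) • 𝟙 ((tateComplex A).homology 0) := by
  rw [← cancel_epi ((tateComplex A).homologyπ 0), HomologicalComplex.homologyπ_naturality]
  have key : HomologicalComplex.cyclesMap (tateRes S A ≫ tateCor S A) 0 =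
      Fintype.card (G ⧸ S) • 𝟙 ((tateComplex A).cycles 0) := by
    rw [← cancel_mono ((tateComplex A).iCycles 0), HomologicalComplex.cyclesMap_i]
    ext z
    refine funext fun y => ?_
    have hz : ((tateComplex A).d 0 1).hom (((tateComplex A).iCycles 0).hom z) = 0 := by
      have := HomologicalComplex.iCycles_d (tateComplex A) 0 1
      exact congrArg (fun φ => φ.hom z) this
    have h1 := tateRes_tateCor_f_zero_apply S A (((tateComplex A).iCycles 0).hom z) y
    simp only [ModuleCat.hom_comp, LinearMap.coe_comp, Function.comp_apply]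
    rw [h1]
    simp only [rho_apply_of_d_eq_zero A _ hz, Finset.sum_const, Finset.card_univ]
    simp only [ModuleCat.hom_nsmul, LinearMap.smul_apply, ModuleCat.hom_id, LinearMap.id_coe,
      id_eq, map_nsmul]
    rfl
  rw [key]
  simp

theorem tRes_comp_tCor_zero :
    tRes S A 0 ≫ tCor S A 0 = Fintype.card (G ⧸ S) • 𝟙 (tateCohomology A 0) := by
  have h := homologyMap_tateRes_tateCor_zero S A
  rw [HomologicalComplex.homologyMap_comp] at h
  exact h

end DegreeZero




end

end Fermat.Agent.Lib.CFT.Coh.ResCor
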