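/-
Low-degree Tate cohomology of a finite group: concrete descriptions of `Ĥ⁰` and `Ĥ⁻¹`,
of the connecting homomorphisms, and periodicity for finite cyclic groups.
-/
import Mathlib

set_option autoImplicit false
set_option linter.unusedSectionVars false

namespace Fermat.Agent.Lib.CFT.Coh.TateLow

open CategoryTheory groupCohomology groupHomology

universe u

section Generic

variable {R : Type u} [Ring R] {ι : Type*} {c : ComplexShape ι}
  (K : HomologicalComplex (ModuleCat.{u} R) c)

/-- In a complex of modules, the class of a cycle vanishes iff the cycle is a boundary. -/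
theorem homologyπ_eq_zero_iff (i j : ι) (hi : c.prev j = i) (z : K.cycles j) :
    K.homologyπ j z = 0 ↔ ∃ y : K.X i, K.toCycles i j y = z := by
  have hex : (ShortComplex.mk (K.toCycles i j) (K.homologyπ j)
      (K.toCycles_comp_homologyπ i j)).Exact :=
    ShortComplex.exact_of_g_is_cokernel _ (K.homologyIsCokernel i j hi)
  rw [ShortComplex.moduleCat_exact_iff] at hex
  constructor
  · intro h
    exact hex z h
  · rintro ⟨y, rfl⟩
    have := K.toCycles_comp_homologyπ i j
    exact congr($this y)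

theorem homologyπ_surjective (j : ι) : Function.Surjective (K.homologyπ j) :=
  (ModuleCat.epi_iff_surjective _).1 inferInstance

theorem iCycles_injective (j : ι) : Function.Injective (K.iCycles j) :=
  (ModuleCat.mono_iff_injective _).1 inferInstance

end Generic

section Low

variable {R G : Type u} [CommRing R] [Group G] [Fintype G] (A : Rep R G)

/-- The inclusion of the invariants into the `0`-cocycles of the Tate complex. -/
noncomputable def invToCycles : ModuleCat.of R A.ρ.invariants ⟶ (tateComplex A).cycles 0 :=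
  (tateComplex A).liftCycles
    (ModuleCat.ofHom A.ρ.invariants.subtype ≫ (cochainsIso₀ A).inv) 1 (by simp) (by
      change (_ ≫ _) ≫ (inhomogeneousCochains A).d 0 1 = 0
      rw [Category.assoc, eq_d₀₁_comp_inv, ← Category.assoc, groupCohomology.subtype_comp_d₀₁,
        Limits.zero_comp])

theorem invToCycles_iCycles :
    invToCycles A ≫ (tateComplex A).iCycles 0 =
      ModuleCat.ofHom A.ρ.invariants.subtype ≫ (cochainsIso₀ A).inv :=
  (tateComplex A).liftCycles_i _ _ _ _

theorem invToCycles_iCycles_apply (x : A.ρ.invariants) :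
    (tateComplex A).iCycles 0 (invToCycles A x) = (cochainsIso₀ A).inv x.1 :=
  congr($(invToCycles_iCycles A) x)

theorem subtype_ker_comp_norm :
    ModuleCat.ofHom (LinearMap.ker A.ρ.norm).subtype ≫ A.norm.toModuleCatHom = 0 := by
  ext x
  exact x.2

/-- The inclusion of the kernel of the norm into the `(-1)`-cocycles of the Tate complex. -/
noncomputable def kerToCycles :
    ModuleCat.of R (LinearMap.ker A.ρ.norm) ⟶ (tateComplex A).cycles (-1) :=
  (tateComplex A).liftCycles
    (ModuleCat.ofHom (LinearMap.ker A.ρ.norm).subtype ≫ (chainsIso₀ A).inv) 0 (by simp) (by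
      change (_ ≫ _) ≫ A.tateNorm = 0
      rw [Rep.tateNorm, Category.assoc, Iso.inv_hom_id_assoc, ← Category.assoc,
        subtype_ker_comp_norm, Limits.zero_comp])

theorem kerToCycles_iCycles :
    kerToCycles A ≫ (tateComplex A).iCycles (-1) =
      ModuleCat.ofHom (LinearMap.ker A.ρ.norm).subtype ≫ (chainsIso₀ A).inv :=
  (tateComplex A).liftCycles_i _ _ _ _

theorem kerToCycles_iCycles_apply (x : LinearMap.ker A.ρ.norm) :
    (tateComplex A).iCycles (-1) (kerToCycles A x) = (chainsIso₀ A).inv x.1 :=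
  congr($(kerToCycles_iCycles A) x)

/-- The canonical projection `A^G → Ĥ⁰(G, A)`. -/
noncomputable def π₀ : ModuleCat.of R A.ρ.invariants ⟶ tateCohomology A 0 :=
  invToCycles A ≫ (tateComplex A).homologyπ 0

/-- The canonical projection `ker N → Ĥ⁻¹(G, A)`. -/
noncomputable def πm1 : ModuleCat.of R (LinearMap.ker A.ρ.norm) ⟶ tateCohomology A (-1) :=
  kerToCycles A ≫ (tateComplex A).homologyπ (-1)

theorem π₀_surjective : Function.Surjective (π₀ A) := by
  intro h
  obtain ⟨z, rfl⟩ := homologyπ_surjective (tateComplex A) 0 h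
  set x' : (inhomogeneousCochains A).X 0 := (tateComplex A).iCycles 0 z with hx'
  have hd : (inhomogeneousCochains A).d 0 1 x' = 0 := by
    have := (tateComplex A).iCycles_d 0 1
    exact congr($this z)
  set a : A := (cochainsIso₀ A).hom x' with ha
  have hax : (cochainsIso₀ A).inv a = x' := by
    rw [ha]; exact congr($((cochainsIso₀ A).hom_inv_id) x')
  have hinv : a ∈ A.ρ.invariants := by
    rw [← d₀₁_ker_eq_invariants, LinearMap.mem_ker]
    have h1 := eq_d₀₁_comp_inv A
    have h2 : (cochainsIso₁ A).inv (d₀₁ A a) = 0 := by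
      have := congr($h1 a)
      rw [ModuleCat.comp_apply, ModuleCat.comp_apply, hax, hd] at this
      exact this.symm
    have h3 := congr((cochainsIso₁ A).hom $h2)
    rw [map_zero] at h3
    rw [← h3]
    exact (congr($((cochainsIso₁ A).inv_hom_id) (d₀₁ A a))).symm
  refine ⟨⟨a, hinv⟩, ?_⟩
  change (tateComplex A).homologyπ 0 (invToCycles A ⟨a, hinv⟩) = _
  congr 1
  apply iCycles_injective
  rw [invToCycles_iCycles_apply]
  exact hax

theorem π₀_eq_zero_iff (x : A.ρ.invariants) :
    π₀ A x = 0 ↔ x.1 ∈ LinearMap.range A.ρ.norm := by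
  change (tateComplex A).homologyπ 0 (invToCycles A x) = 0 ↔ _
  rw [homologyπ_eq_zero_iff (tateComplex A) (-1) 0 (by simp)]
  have hd : ∀ y : (inhomogeneousChains A).X 0,
      (tateComplex A).iCycles 0 ((tateComplex A).toCycles (-1) 0 y) =
        (cochainsIso₀ A).inv (A.ρ.norm ((chainsIso₀ A).hom y)) := by
    intro y
    have h1 := (tateComplex A).toCycles_i (-1) 0
    have h2 : (tateComplex A).iCycles 0 ((tateComplex A).toCycles (-1) 0 y) =
        (tateComplex A).d (-1) 0 y := congr($h1 y)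
    rw [h2]
    rfl
  constructor
  · rintro ⟨y, hy⟩
    have h3 := congr((tateComplex A).iCycles 0 $hy)
    replace h3 := (hd y).symm.trans (h3.trans (invToCycles_iCycles_apply A x))
    have h4 := congr((cochainsIso₀ A).hom $h3)
    have e1 : ∀ w : A, (cochainsIso₀ A).hom ((cochainsIso₀ A).inv w) = w :=
      fun w => congr($((cochainsIso₀ A).inv_hom_id) w)
    rw [e1, e1] at h4
    exact ⟨_, h4⟩
  · rintro ⟨a, ha⟩
    refine ⟨(chainsIso₀ A).inv a, ?_⟩
    apply iCycles_injective
    rw [hd, invToCycles_iCycles_apply]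
    have e1 : (chainsIso₀ A).hom ((chainsIso₀ A).inv a) = a :=
      congr($((chainsIso₀ A).inv_hom_id) a)
    rw [e1, ha]

theorem πm1_surjective : Function.Surjective (πm1 A) := by
  intro h
  obtain ⟨z, rfl⟩ := homologyπ_surjective (tateComplex A) (-1) h
  set x' : (inhomogeneousChains A).X 0 := (tateComplex A).iCycles (-1) z with hx'
  have hd : A.tateNorm x' = 0 := by
    have := (tateComplex A).iCycles_d (-1) 0
    exact congr($this z)
  set a : A := (chainsIso₀ A).hom x' with ha
  have hax : (chainsIso₀ A).inv a = x' := by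
    rw [ha]; exact congr($((chainsIso₀ A).hom_inv_id) x')
  have hker : a ∈ LinearMap.ker A.ρ.norm := by
    rw [LinearMap.mem_ker]
    have h1 : (cochainsIso₀ A).inv (A.ρ.norm a) = 0 := hd
    have h2 := congr((cochainsIso₀ A).hom $h1)
    rw [map_zero] at h2
    rw [← h2]
    exact (congr($((cochainsIso₀ A).inv_hom_id) (A.ρ.norm a))).symm
  refine ⟨⟨a, hker⟩, ?_⟩
  change (tateComplex A).homologyπ (-1) (kerToCycles A ⟨a, hker⟩) = _
  congr 1
  apply iCycles_injective
  rw [kerToCycles_iCycles_apply]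
  exact hax

theorem πm1_eq_zero_iff (x : LinearMap.ker A.ρ.norm) :
    πm1 A x = 0 ↔ x.1 ∈ Representation.Coinvariants.ker A.ρ := by
  change (tateComplex A).homologyπ (-1) (kerToCycles A x) = 0 ↔ _
  rw [homologyπ_eq_zero_iff (tateComplex A) (-2) (-1) (by simp), ← range_d₁₀_eq_coinvariantsKer]
  have hd : ∀ y : (inhomogeneousChains A).X 1,
      (chainsIso₀ A).hom ((tateComplex A).iCycles (-1) ((tateComplex A).toCycles (-2) (-1) y)) =
        d₁₀ A ((chainsIso₁ A).hom y) := by
    intro y
    have h1 := (tateComplex A).toCycles_i (-2) (-1)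
    have h2 : (tateComplex A).iCycles (-1) ((tateComplex A).toCycles (-2) (-1) y) =
        (tateComplex A).d (-2) (-1) y := congr($h1 y)
    rw [h2]
    have h3 := comp_d₁₀_eq A
    exact (congr($h3 y)).symm
  constructor
  · rintro ⟨y, hy⟩
    have h3 := congr((chainsIso₀ A).hom ((tateComplex A).iCycles (-1) $hy))
    have e1 : (chainsIso₀ A).hom ((chainsIso₀ A).inv x.1) = x.1 :=
      congr($((chainsIso₀ A).inv_hom_id) x.1)
    replace h3 := (hd y).symm.trans
      (h3.trans ((congrArg (chainsIso₀ A).hom (kerToCycles_iCycles_apply A x)).trans e1))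
    exact ⟨_, h3⟩
  · rintro ⟨w, hw⟩
    refine ⟨(chainsIso₁ A).inv w, ?_⟩
    apply iCycles_injective
    have e0 : Function.Injective (chainsIso₀ A).hom := by
      intro p q hpq
      have := congr((chainsIso₀ A).inv $hpq)
      have e2 : ∀ w, (chainsIso₀ A).inv ((chainsIso₀ A).hom w) = w :=
        fun w => congr($((chainsIso₀ A).hom_inv_id) w)
      rwa [e2, e2] at this
    apply e0
    rw [hd, kerToCycles_iCycles_apply]
    have e1 : (chainsIso₁ A).hom ((chainsIso₁ A).inv w) = w :=
      congr($((chainsIso₁ A).inv_hom_id) w)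
    have e3 : (chainsIso₀ A).hom ((chainsIso₀ A).inv x.1) = x.1 :=
      congr($((chainsIso₀ A).inv_hom_id) x.1)
    rw [e1, e3]
    exact hw

section Naturality

variable {A} {B : Rep R G} (f : A ⟶ B)

theorem hom_mem_invariants (x : A.ρ.invariants) : f.hom x.1 ∈ B.ρ.invariants := by
  intro g
  rw [← Rep.hom_comm_apply, x.2 g]

theorem hom_norm (a : A) : f.hom (A.ρ.norm a) = B.ρ.norm (f.hom a) := by
  have := Rep.norm_comm f
  exact (congr(($this).hom a)).symm

theorem hom_mem_ker_norm (x : LinearMap.ker A.ρ.norm) : f.hom x.1 ∈ LinearMap.ker B.ρ.norm := by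
  rw [LinearMap.mem_ker, ← hom_norm, LinearMap.mem_ker.1 x.2, map_zero]

/-- The map induced on invariants by a morphism of representations. -/
noncomputable def invariantsMap : A.ρ.invariants →ₗ[R] B.ρ.invariants :=
  (f.hom.toLinearMap.comp A.ρ.invariants.subtype).codRestrict _ fun x => hom_mem_invariants f x

/-- The map induced on the kernels of the norms by a morphism of representations. -/
noncomputable def kerNormMap : LinearMap.ker A.ρ.norm →ₗ[R] LinearMap.ker B.ρ.norm :=
  (f.hom.toLinearMap.comp (LinearMap.ker A.ρ.norm).subtype).codRestrict _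
    fun x => hom_mem_ker_norm f x

@[simp] theorem invariantsMap_coe (x : A.ρ.invariants) : (invariantsMap f x).1 = f.hom x.1 := rfl

@[simp] theorem kerNormMap_coe (x : LinearMap.ker A.ρ.norm) : (kerNormMap f x).1 = f.hom x.1 := rfl

theorem π₀_map (x : A.ρ.invariants) :
    (tateCohomologyFunctor 0).map f (π₀ A x) = π₀ B (invariantsMap f x) := by
  change HomologicalComplex.homologyMap (tateComplex.map f) 0
    ((tateComplex A).homologyπ 0 (invToCycles A x)) =
    (tateComplex B).homologyπ 0 (invToCycles B (invariantsMap f x))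
  have h1 := HomologicalComplex.homologyπ_naturality (tateComplex.map f) 0
  have h2 : HomologicalComplex.homologyMap (tateComplex.map f) 0
      ((tateComplex A).homologyπ 0 (invToCycles A x)) =
      (tateComplex B).homologyπ 0
        (HomologicalComplex.cyclesMap (tateComplex.map f) 0 (invToCycles A x)) :=
    congr($h1 (invToCycles A x))
  rw [h2]
  congr 1
  apply iCycles_injective
  have h3 := HomologicalComplex.cyclesMap_i (tateComplex.map f) 0
  have h4 : (tateComplex B).iCycles 0
      (HomologicalComplex.cyclesMap (tateComplex.map f) 0 (invToCycles A x)) =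
      (tateComplex.map f).f 0 ((tateComplex A).iCycles 0 (invToCycles A x)) :=
    congr($h3 (invToCycles A x))
  rw [h4, invToCycles_iCycles_apply, invToCycles_iCycles_apply]
  have h5 := cochainsMap_f_0_comp_cochainsIso₀ (MonoidHom.id G) f
  have e1 : ∀ w, (cochainsIso₀ B).inv ((cochainsIso₀ B).hom w) = w :=
    fun w => congr($((cochainsIso₀ B).hom_inv_id) w)
  have e2 : ∀ w, (cochainsIso₀ A).hom ((cochainsIso₀ A).inv w) = w :=
    fun w => congr($((cochainsIso₀ A).inv_hom_id) w)
  have h6 : (cochainsIso₀ B).hom ((cochainsMap (MonoidHom.id G) f).f 0 ((cochainsIso₀ A).inv x.1))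
      = f.hom ((cochainsIso₀ A).hom ((cochainsIso₀ A).inv x.1)) :=
    congr($h5 ((cochainsIso₀ A).inv x.1))
  rw [e2] at h6
  rw [← e1 ((tateComplex.map f).f 0 ((cochainsIso₀ A).inv x.1))]
  exact congrArg (cochainsIso₀ B).inv h6

theorem πm1_map (x : LinearMap.ker A.ρ.norm) :
    (tateCohomologyFunctor (-1)).map f (πm1 A x) = πm1 B (kerNormMap f x) := by
  change HomologicalComplex.homologyMap (tateComplex.map f) (-1)
    ((tateComplex A).homologyπ (-1) (kerToCycles A x)) =
    (tateComplex B).homologyπ (-1) (kerToCycles B (kerNormMap f x))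
  have h1 := HomologicalComplex.homologyπ_naturality (tateComplex.map f) (-1)
  have h2 : HomologicalComplex.homologyMap (tateComplex.map f) (-1)
      ((tateComplex A).homologyπ (-1) (kerToCycles A x)) =
      (tateComplex B).homologyπ (-1)
        (HomologicalComplex.cyclesMap (tateComplex.map f) (-1) (kerToCycles A x)) :=
    congr($h1 (kerToCycles A x))
  rw [h2]
  congr 1
  apply iCycles_injective
  have h3 := HomologicalComplex.cyclesMap_i (tateComplex.map f) (-1)
  have h4 : (tateComplex B).iCycles (-1)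
      (HomologicalComplex.cyclesMap (tateComplex.map f) (-1) (kerToCycles A x)) =
      (tateComplex.map f).f (-1) ((tateComplex A).iCycles (-1) (kerToCycles A x)) :=
    congr($h3 (kerToCycles A x))
  rw [h4, kerToCycles_iCycles_apply, kerToCycles_iCycles_apply]
  have h5 := chainsMap_f_0_comp_chainsIso₀ (MonoidHom.id G) f
  have e1 : ∀ w, (chainsIso₀ B).inv ((chainsIso₀ B).hom w) = w :=
    fun w => congr($((chainsIso₀ B).hom_inv_id) w)
  have e2 : ∀ w, (chainsIso₀ A).hom ((chainsIso₀ A).inv w) = w :=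
    fun w => congr($((chainsIso₀ A).inv_hom_id) w)
  have h6 : (chainsIso₀ B).hom ((chainsMap (MonoidHom.id G) f).f 0 ((chainsIso₀ A).inv x.1))
      = f.hom ((chainsIso₀ A).hom ((chainsIso₀ A).inv x.1)) :=
    congr($h5 ((chainsIso₀ A).inv x.1))
  rw [e2] at h6
  rw [← e1 ((tateComplex.map f).f (-1) ((chainsIso₀ A).inv x.1))]
  exact congrArg (chainsIso₀ B).inv h6

end Naturality

section Concrete

/-- The image of the norm, as a submodule of the invariants. -/
noncomputable def normRange : Submodule R A.ρ.invariants :=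
  (LinearMap.range A.ρ.norm).comap A.ρ.invariants.subtype

/-- The augmentation submodule `I_G A` (spanned by the `g a - a`), as a submodule of the kernel
of the norm. -/
noncomputable def augSubmodule : Submodule R (LinearMap.ker A.ρ.norm) :=
  (Representation.Coinvariants.ker A.ρ).comap (LinearMap.ker A.ρ.norm).subtype

theorem mem_normRange {x : A.ρ.invariants} : x ∈ normRange A ↔ ∃ a : A, A.ρ.norm a = x.1 :=
  Iff.rfl

theorem mem_augSubmodule {x : LinearMap.ker A.ρ.norm} :
    x ∈ augSubmodule A ↔ x.1 ∈ Representation.Coinvariants.ker A.ρ := Iff.rfl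

/-- `Ĥ⁰(G, A) = A^G / N A`, as a linear equivalence. -/
noncomputable def tateZeroEquiv : (A.ρ.invariants ⧸ normRange A) ≃ₗ[R] tateCohomology A 0 :=
  LinearEquiv.ofBijective ((normRange A).liftQ (π₀ A).hom fun x hx => by
      rw [LinearMap.mem_ker]
      exact (π₀_eq_zero_iff A x).2 hx) ⟨by
    rw [← LinearMap.ker_eq_bot, Submodule.ker_liftQ, Submodule.eq_bot_iff]
    rintro _ ⟨x, hx, rfl⟩
    rw [Submodule.mkQ_apply, Submodule.Quotient.mk_eq_zero]
    exact (π₀_eq_zero_iff A x).1 hx, by
    intro h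
    obtain ⟨x, rfl⟩ := π₀_surjective A h
    exact ⟨Submodule.Quotient.mk x, rfl⟩⟩

@[simp] theorem tateZeroEquiv_mk (x : A.ρ.invariants) :
    tateZeroEquiv A (Submodule.Quotient.mk x) = π₀ A x := rfl

/-- `Ĥ⁻¹(G, A) = ker N / I_G A`, as a linear equivalence. -/
noncomputable def tateNegOneEquiv :
    (LinearMap.ker A.ρ.norm ⧸ augSubmodule A) ≃ₗ[R] tateCohomology A (-1) :=
  LinearEquiv.ofBijective ((augSubmodule A).liftQ (πm1 A).hom fun x hx => by
      rw [LinearMap.mem_ker]
      exact (πm1_eq_zero_iff A x).2 hx) ⟨by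
    rw [← LinearMap.ker_eq_bot, Submodule.ker_liftQ, Submodule.eq_bot_iff]
    rintro _ ⟨x, hx, rfl⟩
    rw [Submodule.mkQ_apply, Submodule.Quotient.mk_eq_zero]
    exact (πm1_eq_zero_iff A x).1 hx, by
    intro h
    obtain ⟨x, rfl⟩ := πm1_surjective A h
    exact ⟨Submodule.Quotient.mk x, rfl⟩⟩

@[simp] theorem tateNegOneEquiv_mk (x : LinearMap.ker A.ρ.norm) :
    tateNegOneEquiv A (Submodule.Quotient.mk x) = πm1 A x := rfl

/-- `Ĥ⁰(G, A) ≅ A^G / N A` in `ModuleCat`. -/
noncomputable def tateZeroIso :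
    tateCohomology A 0 ≅ ModuleCat.of R (A.ρ.invariants ⧸ normRange A) :=
  (tateZeroEquiv A).symm.toModuleIso

/-- `Ĥ⁻¹(G, A) ≅ ker N / I_G A` in `ModuleCat`. -/
noncomputable def tateNegOneIso :
    tateCohomology A (-1) ≅ ModuleCat.of R (LinearMap.ker A.ρ.norm ⧸ augSubmodule A) :=
  (tateNegOneEquiv A).symm.toModuleIso

theorem π₀_eq_iff (x y : A.ρ.invariants) :
    π₀ A x = π₀ A y ↔ x.1 - y.1 ∈ LinearMap.range A.ρ.norm := by
  rw [← sub_eq_zero, ← map_sub, π₀_eq_zero_iff]
  rfl

theorem πm1_eq_iff (x y : LinearMap.ker A.ρ.norm) :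
    πm1 A x = πm1 A y ↔ x.1 - y.1 ∈ Representation.Coinvariants.ker A.ρ := by
  rw [← sub_eq_zero, ← map_sub, πm1_eq_zero_iff]
  rfl

end Concrete

section Delta

variable {S : ShortComplex (Rep R G)} (hS : S.ShortExact)

theorem rel_negOne_zero : (ComplexShape.up ℤ).Rel (-1) 0 := by simp

theorem rel_zero_one : (ComplexShape.up ℤ).Rel 0 1 := by simp

theorem invToCycles_eq_cyclesMk (x : A.ρ.invariants)
    (h : (tateComplex A).d 0 1 ((cochainsIso₀ A).inv x.1) = 0) :
    invToCycles A x = (tateComplex A).cyclesMk ((cochainsIso₀ A).inv x.1) 1 (by simp) h := by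
  apply iCycles_injective
  rw [invToCycles_iCycles_apply]
  exact ((tateComplex A).i_cyclesMk (i := 0) ((cochainsIso₀ A).inv x.1) 1 (by simp) h).symm

theorem kerToCycles_eq_cyclesMk (x : LinearMap.ker A.ρ.norm)
    (h : (tateComplex A).d (-1) 0 ((chainsIso₀ A).inv x.1) = 0) :
    kerToCycles A x = (tateComplex A).cyclesMk ((chainsIso₀ A).inv x.1) 0 (by simp) h := by
  apply iCycles_injective
  rw [kerToCycles_iCycles_apply]
  exact ((tateComplex A).i_cyclesMk (i := -1) ((chainsIso₀ A).inv x.1) 0 (by simp) h).symm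

theorem d_invariant_eq_zero (x : A.ρ.invariants) :
    (tateComplex A).d 0 1 ((cochainsIso₀ A).inv x.1) = 0 := by
  have h1 := (tateComplex A).iCycles_d 0 1
  have h2 : (tateComplex A).d 0 1 ((tateComplex A).iCycles 0 (invToCycles A x)) = 0 :=
    congr($h1 (invToCycles A x))
  rwa [invToCycles_iCycles_apply] at h2

theorem d_kerNorm_eq_zero (x : LinearMap.ker A.ρ.norm) :
    (tateComplex A).d (-1) 0 ((chainsIso₀ A).inv x.1) = 0 := by
  have h1 := (tateComplex A).iCycles_d (-1) 0
  have h2 : (tateComplex A).d (-1) 0 ((tateComplex A).iCycles (-1) (kerToCycles A x)) = 0 :=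
    congr($h1 (kerToCycles A x))
  rwa [kerToCycles_iCycles_apply] at h2

/-- The connecting homomorphism `Ĥ⁻¹(G, C) ⟶ Ĥ⁰(G, A)` of a short exact sequence
`0 ⟶ A ⟶ B ⟶ C ⟶ 0`: lift `z ∈ ker N_C` to `y ∈ B`; then `N_B y` comes from a unique
`x ∈ A^G`, and `δ [z] = [x]`. -/
theorem δ_negOne_apply (z : LinearMap.ker S.X₃.ρ.norm) (y : S.X₂) (hy : S.g.hom y = z.1)
    (x : S.X₁.ρ.invariants) (hx : S.f.hom x.1 = S.X₂.ρ.norm y) :
    (TateCohomology.map_tateComplexFunctor_shortExact hS).δ (-1) 0 rel_negOne_zero (πm1 S.X₃ z) =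
      π₀ S.X₁ x := by
  have e2 : ∀ w, (chainsIso₀ S.X₂).hom ((chainsIso₀ S.X₂).inv w) = w :=
    fun w => congr($((chainsIso₀ S.X₂).inv_hom_id) w)
  have hx₂ : (tateComplex.map S.g).f (-1) ((chainsIso₀ S.X₂).inv y) =
      (chainsIso₀ S.X₃).inv z.1 := by
    have h5 := chainsMap_f_0_comp_chainsIso₀ (MonoidHom.id G) S.g
    have h6 : (chainsIso₀ S.X₃).hom ((chainsMap (MonoidHom.id G) S.g).f 0
        ((chainsIso₀ S.X₂).inv y)) = S.g.hom ((chainsIso₀ S.X₂).hom ((chainsIso₀ S.X₂).inv y)) :=
      congr($h5 ((chainsIso₀ S.X₂).inv y))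
    rw [e2, hy] at h6
    have e1 : ∀ w, (chainsIso₀ S.X₃).inv ((chainsIso₀ S.X₃).hom w) = w :=
      fun w => congr($((chainsIso₀ S.X₃).hom_inv_id) w)
    rw [← e1 ((tateComplex.map S.g).f (-1) ((chainsIso₀ S.X₂).inv y))]
    exact congrArg (chainsIso₀ S.X₃).inv h6
  have hx₁ : (tateComplex.map S.f).f 0 ((cochainsIso₀ S.X₁).inv x.1) =
      (tateComplex S.X₂).d (-1) 0 ((chainsIso₀ S.X₂).inv y) := by
    have h5 := cochainsMap_f_0_comp_cochainsIso₀ (MonoidHom.id G) S.f
    have e3 : ∀ w, (cochainsIso₀ S.X₁).hom ((cochainsIso₀ S.X₁).inv w) = w :=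
      fun w => congr($((cochainsIso₀ S.X₁).inv_hom_id) w)
    have h6 : (cochainsIso₀ S.X₂).hom ((cochainsMap (MonoidHom.id G) S.f).f 0
        ((cochainsIso₀ S.X₁).inv x.1)) =
        S.f.hom ((cochainsIso₀ S.X₁).hom ((cochainsIso₀ S.X₁).inv x.1)) :=
      congr($h5 ((cochainsIso₀ S.X₁).inv x.1))
    rw [e3, hx] at h6
    have e1 : ∀ w, (cochainsIso₀ S.X₂).inv ((cochainsIso₀ S.X₂).hom w) = w :=
      fun w => congr($((cochainsIso₀ S.X₂).hom_inv_id) w)
    rw [← e1 ((tateComplex.map S.f).f 0 ((cochainsIso₀ S.X₁).inv x.1))]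
    have h7 : (tateComplex S.X₂).d (-1) 0 ((chainsIso₀ S.X₂).inv y) =
        (cochainsIso₀ S.X₂).inv (S.X₂.ρ.norm ((chainsIso₀ S.X₂).hom ((chainsIso₀ S.X₂).inv y))) :=
      rfl
    rw [h7, e2]
    exact congrArg (cochainsIso₀ S.X₂).inv h6
  have key := (TateCohomology.map_tateComplexFunctor_shortExact hS).δ_apply (-1) 0 rel_negOne_zero
    ((chainsIso₀ S.X₃).inv z.1) (d_kerNorm_eq_zero S.X₃ z) ((chainsIso₀ S.X₂).inv y) hx₂
    ((cochainsIso₀ S.X₁).inv x.1) hx₁ 1 (by simp)
  change (TateCohomology.map_tateComplexFunctor_shortExact hS).δ (-1) 0 rel_negOne_zero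
    ((tateComplex S.X₃).homologyπ (-1) (kerToCycles S.X₃ z)) =
    (tateComplex S.X₁).homologyπ 0 (invToCycles S.X₁ x)
  rw [kerToCycles_eq_cyclesMk S.X₃ z (d_kerNorm_eq_zero S.X₃ z),
    invToCycles_eq_cyclesMk S.X₁ x (d_invariant_eq_zero S.X₁ x)]
  exact key

end Delta

section DeltaZero

variable {S : ShortComplex (Rep R G)} (hS : S.ShortExact)

/-- Degree-one cycles of the Tate complex are `1`-cocycles. -/
noncomputable def cyclesOneTo : (tateComplex A).cycles 1 ⟶ cocycles A 1 :=
  (inhomogeneousCochains A).liftCycles ((tateComplex A).iCycles 1) 2 (by simp)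
    ((tateComplex A).iCycles_d 1 2)

theorem cyclesOneTo_i :
    cyclesOneTo A ≫ (inhomogeneousCochains A).iCycles 1 = (tateComplex A).iCycles 1 :=
  (inhomogeneousCochains A).liftCycles_i _ _ _ _

set_option backward.defeqAttrib.useBackward true in
set_option backward.isDefEq.respectTransparency false in
theorem homologyπ_isoGroupCohomology_one :
    (tateComplex A).homologyπ 1 ≫ ((tateComplexConnectData A).homologyIsoPos 1 1 rfl).hom =
      cyclesOneTo A ≫ groupCohomology.π A 1 := by
  have := HomologicalComplex.hasHomology_of_iso (tateComplexConnectData A).restrictionGEIso.symm 1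
  dsimp [CochainComplex.ConnectData.homologyIsoPos]
  rw [HomologicalComplex.homologyπ_restrictionHomologyIso_inv_assoc,
    HomologicalComplex.homologyπ_naturality, ← Category.assoc]
  congr 1
  rw [← cancel_mono ((inhomogeneousCochains A).iCycles 1)]
  simp [cyclesOneTo]

theorem isoGroupCohomology_one_apply (w : (tateComplex A).cycles 1) :
    (TateCohomology.isoGroupCohomology 1).hom.app A ((tateComplex A).homologyπ 1 w) =
      groupCohomology.π A 1 (cyclesOneTo A w) :=
  congr($(homologyπ_isoGroupCohomology_one A) w)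

/-- The connecting homomorphism `Ĥ⁰(G, C) ⟶ Ĥ¹(G, A) = H¹(G, A)` of a short exact sequence
`0 ⟶ A ⟶ B ⟶ C ⟶ 0`: lift `z ∈ C^G` to `y ∈ B`; then `g ↦ g y - y` comes from a `1`-cocycle
`x` with values in `A`, and `δ [z] = [x]`. -/
theorem δ_zero_apply (z : S.X₃.ρ.invariants) (y : S.X₂) (hy : S.g.hom y = z.1)
    (x : G → S.X₁) (hx : S.f.hom ∘ x = d₀₁ S.X₂ y) :
    (TateCohomology.isoGroupCohomology 1).hom.app S.X₁
      ((TateCohomology.map_tateComplexFunctor_shortExact hS).δ 0 1 rel_zero_one (π₀ S.X₃ z)) =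
    H1π S.X₁ ⟨x, mem_cocycles₁_of_comp_eq_d₀₁ hS hx⟩ := by
  have e2 : ∀ w, (cochainsIso₀ S.X₂).hom ((cochainsIso₀ S.X₂).inv w) = w :=
    fun w => congr($((cochainsIso₀ S.X₂).inv_hom_id) w)
  have hx₂ : (tateComplex.map S.g).f 0 ((cochainsIso₀ S.X₂).inv y) =
      (cochainsIso₀ S.X₃).inv z.1 := by
    have h5 := cochainsMap_f_0_comp_cochainsIso₀ (MonoidHom.id G) S.g
    have h6 : (cochainsIso₀ S.X₃).hom ((cochainsMap (MonoidHom.id G) S.g).f 0
        ((cochainsIso₀ S.X₂).inv y)) =
        S.g.hom ((cochainsIso₀ S.X₂).hom ((cochainsIso₀ S.X₂).inv y)) :=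
      congr($h5 ((cochainsIso₀ S.X₂).inv y))
    rw [e2, hy] at h6
    have e1 : ∀ w, (cochainsIso₀ S.X₃).inv ((cochainsIso₀ S.X₃).hom w) = w :=
      fun w => congr($((cochainsIso₀ S.X₃).hom_inv_id) w)
    rw [← e1 ((tateComplex.map S.g).f 0 ((cochainsIso₀ S.X₂).inv y))]
    exact congrArg (cochainsIso₀ S.X₃).inv h6
  have hx₁ : (tateComplex.map S.f).f 1 ((cochainsIso₁ S.X₁).inv x) =
      (tateComplex S.X₂).d 0 1 ((cochainsIso₀ S.X₂).inv y) := by
    have h7 : (tateComplex S.X₂).d 0 1 ((cochainsIso₀ S.X₂).inv y) =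
        (cochainsIso₁ S.X₂).inv (d₀₁ S.X₂ y) := congr($(eq_d₀₁_comp_inv S.X₂) y)
    rw [h7, ← hx]
    rfl
  have key := (TateCohomology.map_tateComplexFunctor_shortExact hS).δ_apply 0 1 rel_zero_one
    ((cochainsIso₀ S.X₃).inv z.1) (d_invariant_eq_zero S.X₃ z) ((cochainsIso₀ S.X₂).inv y) hx₂
    ((cochainsIso₁ S.X₁).inv x) hx₁ 2 (by simp)
  have key' : (TateCohomology.map_tateComplexFunctor_shortExact hS).δ 0 1 rel_zero_one
      (π₀ S.X₃ z) = (tateComplex S.X₁).homologyπ 1 ((tateComplex S.X₁).cyclesMk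
        ((cochainsIso₁ S.X₁).inv x) 2 (by simp)
        ((TateCohomology.map_tateComplexFunctor_shortExact hS).d_eq_zero_of_f_eq_d_apply 0 1
          ((cochainsIso₀ S.X₂).inv y) ((cochainsIso₁ S.X₁).inv x) hx₁ 2)) := by
    change (TateCohomology.map_tateComplexFunctor_shortExact hS).δ 0 1 rel_zero_one
      ((tateComplex S.X₃).homologyπ 0 (invToCycles S.X₃ z)) = _
    rw [invToCycles_eq_cyclesMk S.X₃ z (d_invariant_eq_zero S.X₃ z)]
    exact key
  rw [key', isoGroupCohomology_one_apply]
  change _ = groupCohomology.π S.X₁ 1 ((isoCocycles₁ S.X₁).inv _)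
  rw [← cocyclesMk₁_eq]
  congr 1
  apply iCycles_injective
  have h8 : (inhomogeneousCochains S.X₁).iCycles 1 (cyclesOneTo S.X₁ ((tateComplex S.X₁).cyclesMk
        ((cochainsIso₁ S.X₁).inv x) 2 (by simp)
        ((TateCohomology.map_tateComplexFunctor_shortExact hS).d_eq_zero_of_f_eq_d_apply 0 1
          ((cochainsIso₀ S.X₂).inv y) ((cochainsIso₁ S.X₁).inv x) hx₁ 2))) =
      (tateComplex S.X₁).iCycles 1 ((tateComplex S.X₁).cyclesMk
        ((cochainsIso₁ S.X₁).inv x) 2 (by simp)
        ((TateCohomology.map_tateComplexFunctor_shortExact hS).d_eq_zero_of_f_eq_d_apply 0 1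
          ((cochainsIso₀ S.X₂).inv y) ((cochainsIso₁ S.X₁).inv x) hx₁ 2)) :=
    congr($(cyclesOneTo_i S.X₁) _)
  rw [h8]
  exact ((tateComplex S.X₁).i_cyclesMk (i := 1) _ 2 (by simp) _).trans
    (iCocycles_mk _ _).symm

end DeltaZero

section Torsion

theorem norm_of_mem_invariants (x : A.ρ.invariants) :
    A.ρ.norm x.1 = (Fintype.card G) • x.1 := by
  rw [Representation.norm, LinearMap.sum_apply]
  rw [Finset.sum_congr rfl fun g _ => x.2 g]
  simp

/-- `|G|` kills `Ĥ⁰(G, A)`. -/
theorem card_nsmul_tateZero (h : tateCohomology A 0) : (Fintype.card G) • h = 0 := by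
  obtain ⟨x, rfl⟩ := π₀_surjective A h
  rw [← map_nsmul, π₀_eq_zero_iff]
  exact ⟨x.1, norm_of_mem_invariants A x⟩

/-- `|G|` kills `Ĥ⁻¹(G, A)`. -/
theorem card_nsmul_tateNegOne (h : tateCohomology A (-1)) : (Fintype.card G) • h = 0 := by
  obtain ⟨x, rfl⟩ := πm1_surjective A h
  rw [← map_nsmul, πm1_eq_zero_iff]
  have hx : A.ρ.norm x.1 = 0 := x.2
  have h1 : ((Fintype.card G) • x).1 = - ∑ g : G, (A.ρ g x.1 - x.1) := by
    rw [Finset.sum_sub_distrib, ← LinearMap.sum_apply]
    change _ = -(A.ρ.norm x.1 - _)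
    rw [hx]
    simp
  rw [h1]
  refine Submodule.neg_mem _ (Submodule.sum_mem _ fun g _ => ?_)
  exact Representation.Coinvariants.mem_ker_of_eq g x.1 _ rfl

end Torsion

section ConcreteNaturality

variable {A} {B : Rep R G} (f : A ⟶ B)

theorem normRange_le_comap : normRange A ≤ (normRange B).comap (invariantsMap f) := by
  rintro x ⟨a, ha⟩
  exact ⟨f.hom a, by rw [← hom_norm, ha]; rfl⟩

theorem augSubmodule_le_comap : augSubmodule A ≤ (augSubmodule B).comap (kerNormMap f) := by
  intro x hx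
  rw [Submodule.mem_comap, mem_augSubmodule, kerNormMap_coe]
  rw [mem_augSubmodule] at hx
  have hle : Representation.Coinvariants.ker A.ρ ≤
      (Representation.Coinvariants.ker B.ρ).comap f.hom.toLinearMap := by
    refine Submodule.span_le.2 ?_
    rintro _ ⟨⟨g, a⟩, rfl⟩
    change f.hom (A.ρ g a - a) ∈ Representation.Coinvariants.ker B.ρ
    rw [map_sub, Rep.hom_comm_apply]
    exact Representation.Coinvariants.mem_ker_of_eq g (f.hom a) _ rfl
  exact hle hx

/-- The map `A^G / N A → B^G / N B` induced by a morphism of representations. -/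
noncomputable def tateZeroMap :
    (A.ρ.invariants ⧸ normRange A) →ₗ[R] (B.ρ.invariants ⧸ normRange B) :=
  Submodule.mapQ _ _ (invariantsMap f) (normRange_le_comap f)

/-- The map `ker N_A / I_G A → ker N_B / I_G B` induced by a morphism of representations. -/
noncomputable def tateNegOneMap :
    (LinearMap.ker A.ρ.norm ⧸ augSubmodule A) →ₗ[R] (LinearMap.ker B.ρ.norm ⧸ augSubmodule B) :=
  Submodule.mapQ _ _ (kerNormMap f) (augSubmodule_le_comap f)

theorem tateZeroEquiv_naturality (h : A.ρ.invariants ⧸ normRange A) :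
    (tateCohomologyFunctor 0).map f (tateZeroEquiv A h) = tateZeroEquiv B (tateZeroMap f h) := by
  induction h using Submodule.Quotient.induction_on with
  | H x => exact π₀_map f x

theorem tateNegOneEquiv_naturality (h : LinearMap.ker A.ρ.norm ⧸ augSubmodule A) :
    (tateCohomologyFunctor (-1)).map f (tateNegOneEquiv A h) =
      tateNegOneEquiv B (tateNegOneMap f h) := by
  induction h using Submodule.Quotient.induction_on with
  | H x => exact πm1_map f x

end ConcreteNaturality

end Low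

end Fermat.Agent.Lib.CFT.Coh.TateLow
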