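/-
P-CFT work package Coh/ResCor, part 3 (helper29).

Explicit description of restriction and corestriction on Tate cohomology in degrees `0` and `-1`,
in terms of the concrete presentations `π₀ : A^G → Ĥ⁰(G, A)` and `πm1 : ker N → Ĥ⁻¹(G, A)` of
`Coh/TateLow`.
-/
import Fermat.Agent.Lib.CFT.Coh.ResCor
import Fermat.Agent.Lib.CFT.Coh.TateLow

universe u

open CategoryTheory CategoryTheory.Limits groupCohomology groupHomology Rep Finsupp

namespace Fermat.Agent.Lib.CFT.Coh.ResCor

open TateLow

noncomputable section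

section Maps

variable {R G : Type u} [CommRing R] [Group G] [Fintype G] (S : Subgroup G) [Fintype (G ⧸ S)]
  [Fintype S] (A : Rep R G)

omit [Fintype G] [Fintype (G ⧸ S)] [Fintype S] in
@[simp] lemma res_ρ_apply (s : S) (a : A) : (res S.subtype A).ρ s a = A.ρ (s : G) a := rfl

/-- The inclusion `A^G ⊆ A^S`. -/
def invariantsRes : A.ρ.invariants →ₗ[R] (res S.subtype A).ρ.invariants :=
  (A.ρ.invariants.subtype).codRestrict _ fun x s => x.2 (s : G)

omit [Fintype G] [Fintype (G ⧸ S)] [Fintype S] in
@[simp] lemma invariantsRes_coe (x : A.ρ.invariants) : (invariantsRes S A x).1 = x.1 := rfl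

/-- The relative norm `N_{G/S} : A → A`, `a ↦ ∑_{q ∈ G/S} q.out • a`. -/
def relNorm : A.V →ₗ[R] A.V := ∑ q : G ⧸ S, A.ρ q.out

omit [Fintype G] [Fintype S] in
lemma relNorm_apply (a : A) : relNorm S A a = ∑ q : G ⧸ S, A.ρ q.out a := by
  simp [relNorm]

omit [Fintype G] [Fintype S] in
/-- On `S`-invariants the relative norm does not depend on the choice of representatives. -/
lemma relNorm_mem_invariants (y : (res S.subtype A).ρ.invariants) :
    relNorm S A y.1 ∈ A.ρ.invariants := by
  intro g
  rw [relNorm_apply, map_sum]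
  refine (sum_smul_inv_eq S g fun q => A.ρ g (A.ρ q.out y.1)).symm.trans ?_
  refine Finset.sum_congr rfl fun q _ => ?_
  rw [← Module.End.mul_apply, ← map_mul, ← out_mul_step S q g, map_mul, Module.End.mul_apply]
  congr 1
  exact y.2 (step S q g)

/-- The relative norm `N_{G/S} : A^S → A^G`. -/
def invariantsCor : (res S.subtype A).ρ.invariants →ₗ[R] A.ρ.invariants :=
  ((relNorm S A).comp ((res S.subtype A).ρ.invariants.subtype)).codRestrict _
    fun y => relNorm_mem_invariants S A y

omit [Fintype G] [Fintype S] in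
@[simp] lemma invariantsCor_coe (y : (res S.subtype A).ρ.invariants) :
    (invariantsCor S A y).1 = ∑ q : G ⧸ S, A.ρ q.out y.1 := relNorm_apply S A y.1

/-- The "inverse" relative norm `a ↦ ∑_{q ∈ G/S} q.out⁻¹ • a` (transfer in degree `-1`). -/
def relNormInv : A.V →ₗ[R] A.V := ∑ q : G ⧸ S, A.ρ q.out⁻¹

omit [Fintype G] [Fintype S] in
lemma relNormInv_apply (a : A) : relNormInv S A a = ∑ q : G ⧸ S, A.ρ q.out⁻¹ a := by
  simp [relNormInv]

/-- `N_G = N_{G/S} ∘ N_S`. -/
lemma norm_eq_relNorm_norm (a : A) :
    A.ρ.norm a = relNorm S A ((res S.subtype A).ρ.norm a) := by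
  rw [relNorm_apply]
  simp only [Representation.norm, LinearMap.coe_sum, Finset.sum_apply, map_sum]
  rw [← sum_out_mul S fun g => A.ρ g a]
  refine Finset.sum_congr rfl fun q _ => Finset.sum_congr rfl fun s _ => ?_
  rw [map_mul, Module.End.mul_apply]
  rfl

/-- `N_G = N_S ∘ (∑_q q.out⁻¹)`. -/
lemma norm_eq_norm_relNormInv (a : A) :
    A.ρ.norm a = (res S.subtype A).ρ.norm (relNormInv S A a) := by
  rw [relNormInv_apply]
  simp only [Representation.norm, LinearMap.coe_sum, Finset.sum_apply, map_sum]
  have h := sum_mul_out_inv S (fun g : G => A.ρ g a)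
  rw [← h]
  refine Finset.sum_congr rfl fun q _ => Finset.sum_congr rfl fun s _ => ?_
  rw [map_mul, Module.End.mul_apply]
  rfl

/-- The inclusion `ker N_S ⊆ ker N_G`. -/
def kerNormCor : LinearMap.ker (res S.subtype A).ρ.norm →ₗ[R] LinearMap.ker A.ρ.norm :=
  ((LinearMap.ker (res S.subtype A).ρ.norm).subtype).codRestrict _ fun y => by
    rw [LinearMap.mem_ker, norm_eq_relNorm_norm S A]
    have := LinearMap.mem_ker.1 y.2
    simp only [Submodule.subtype_apply]
    rw [this, map_zero]

@[simp] lemma kerNormCor_coe (y : LinearMap.ker (res S.subtype A).ρ.norm) :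
    (kerNormCor S A y).1 = y.1 := rfl

/-- The transfer `ker N_G → ker N_S`, `a ↦ ∑_q q.out⁻¹ • a`. -/
def kerNormRes : LinearMap.ker A.ρ.norm →ₗ[R] LinearMap.ker (res S.subtype A).ρ.norm :=
  ((relNormInv S A).comp (LinearMap.ker A.ρ.norm).subtype).codRestrict _ fun x => by
    rw [LinearMap.mem_ker]
    simp only [LinearMap.comp_apply, Submodule.subtype_apply]
    rw [← norm_eq_norm_relNormInv S A]
    exact LinearMap.mem_ker.1 x.2

@[simp] lemma kerNormRes_coe (x : LinearMap.ker A.ρ.norm) :
    (kerNormRes S A x).1 = ∑ q : G ⧸ S, A.ρ q.out⁻¹ x.1 := relNormInv_apply S A x.1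

end Maps

section Formulas

variable {R G : Type u} [CommRing R] [Group G] [Fintype G] (S : Subgroup G) [Fintype (G ⧸ S)]
  [Fintype S] (A : Rep R G)

/-- A general principle: the effect of a chain map on the class of a cycle. -/
lemma homologyMap_homologyπ_apply {C D : CochainComplex (ModuleCat.{u} R) ℤ} (φ : C ⟶ D) (i : ℤ)
    (z : C.cycles i) (w : D.cycles i)
    (h : (φ.f i).hom ((C.iCycles i).hom z) = (D.iCycles i).hom w) :
    (HomologicalComplex.homologyMap φ i).hom ((C.homologyπ i).hom z) = (D.homologyπ i).hom w := by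
  have h1 := HomologicalComplex.homologyπ_naturality φ i
  have h2 : (HomologicalComplex.homologyMap φ i).hom ((C.homologyπ i).hom z) =
      (D.homologyπ i).hom ((HomologicalComplex.cyclesMap φ i).hom z) :=
    congr($h1 z)
  rw [h2]
  congr 1
  apply iCycles_injective
  have h3 := HomologicalComplex.cyclesMap_i φ i
  have h4 : (D.iCycles i).hom ((HomologicalComplex.cyclesMap φ i).hom z) =
      (φ.f i).hom ((C.iCycles i).hom z) := congr($h3 z)
  exact h4.trans h

/-- **Restriction in degree `0`** is induced by the inclusion `A^G ⊆ A^S`. -/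
theorem tRes_π₀ (x : A.ρ.invariants) :
    (tRes S A 0).hom ((π₀ A).hom x) = (π₀ (res S.subtype A)).hom (invariantsRes S A x) := by
  refine homologyMap_homologyπ_apply (tateRes S A) 0 (invToCycles A x)
    (invToCycles (res S.subtype A) (invariantsRes S A x)) ?_
  have e1 := invToCycles_iCycles_apply A x
  have e2 := invToCycles_iCycles_apply (res S.subtype A) (invariantsRes S A x)
  refine Eq.trans ?_ e2.symm
  refine (congrArg (fun t => ((tateRes S A).f 0).hom t) e1).trans ?_
  rfl

/-- **Corestriction in degree `0`** is induced by the relative norm `N_{G/S} : A^S → A^G`. -/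
theorem tCor_π₀ (y : (res S.subtype A).ρ.invariants) :
    (tCor S A 0).hom ((π₀ (res S.subtype A)).hom y) = (π₀ A).hom (invariantsCor S A y) := by
  refine homologyMap_homologyπ_apply (tateCor S A) 0 (invToCycles (res S.subtype A) y)
    (invToCycles A (invariantsCor S A y)) ?_
  have e1 := invToCycles_iCycles_apply (res S.subtype A) y
  have e2 := invToCycles_iCycles_apply A (invariantsCor S A y)
  refine Eq.trans ?_ e2.symm
  refine (congrArg (fun t => ((tateCor S A).f 0).hom t) e1).trans ?_
  funext g
  change ∑ q : G ⧸ S, A.ρ q.out y.1 = (invariantsCor S A y).1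
  rw [invariantsCor_coe]

omit [Fintype G] in
lemma chainsIso₀_inv_apply (B : Rep R G) (a : B) :
    (chainsIso₀ B).inv.hom a = single (default : Fin 0 → G) a := by
  ext
  simp [chainsIso₀]

/-- **Corestriction in degree `-1`** is induced by the inclusion `ker N_S ⊆ ker N_G`. -/
theorem tCor_πm1 (y : LinearMap.ker (res S.subtype A).ρ.norm) :
    (tCor S A (-1)).hom ((πm1 (res S.subtype A)).hom y) = (πm1 A).hom (kerNormCor S A y) := by
  refine homologyMap_homologyπ_apply (tateCor S A) (-1) (kerToCycles (res S.subtype A) y)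
    (kerToCycles A (kerNormCor S A y)) ?_
  have e1 := kerToCycles_iCycles_apply (res S.subtype A) y
  have e2 := kerToCycles_iCycles_apply A (kerNormCor S A y)
  refine Eq.trans ?_ e2.symm
  refine (congrArg (fun t => ((tateCor S A).f (-1)).hom t) e1).trans ?_
  have h1 := chainsIso₀_inv_apply (G := S) (res S.subtype A) y.1
  have h2 := chainsIso₀_inv_apply A (kerNormCor S A y).1
  refine (congrArg (fun t => ((tateCor S A).f (-1)).hom t) h1).trans (Eq.trans ?_ h2.symm)
  change ((chainsMap S.subtype (𝟙 (res S.subtype A))).f 0).hom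
    (single (default : Fin 0 → S) y.1) = _
  rw [chainsMap_f_single]
  rw [kerNormCor_coe]
  congr 1
  exact Subsingleton.elim _ _

/-- **Restriction in degree `-1`** is induced by the transfer `ker N_G → ker N_S`,
`a ↦ ∑_q q.out⁻¹ • a`. -/
theorem tRes_πm1 (x : LinearMap.ker A.ρ.norm) :
    (tRes S A (-1)).hom ((πm1 A).hom x) = (πm1 (res S.subtype A)).hom (kerNormRes S A x) := by
  refine homologyMap_homologyπ_apply (tateRes S A) (-1) (kerToCycles A x)
    (kerToCycles (res S.subtype A) (kerNormRes S A x)) ?_
  have e1 := kerToCycles_iCycles_apply A x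
  have e2 := kerToCycles_iCycles_apply (res S.subtype A) (kerNormRes S A x)
  refine Eq.trans ?_ e2.symm
  refine (congrArg (fun t => ((tateRes S A).f (-1)).hom t) e1).trans ?_
  have h1 := chainsIso₀_inv_apply A x.1
  have h2 := chainsIso₀_inv_apply (G := S) (res S.subtype A) (kerNormRes S A x).1
  refine (congrArg (fun t => ((tateRes S A).f (-1)).hom t) h1).trans (Eq.trans ?_ h2.symm)
  change trL S A 0 (single (default : Fin 0 → G) x.1) = _
  rw [trL_single, kerNormRes_coe, Finsupp.single_finsetSum]
  refine Finset.sum_congr rfl fun q _ => ?_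
  congr 1
  exact Subsingleton.elim _ _

end Formulas

section Compare

variable {R G : Type u} [CommRing R] [Group G] [Fintype G] (S : Subgroup G) [Fintype (G ⧸ S)]
  [Fintype S] (A : Rep R G)

/-- In positive degrees, restriction on Tate cohomology is Mathlib's restriction map
`groupCohomology.map S.subtype 𝟙` on group cohomology. -/
theorem tRes_eq_groupCohomology_map (n : ℕ) [NeZero n] :
    tRes S A n = ((TateCohomology.isoGroupCohomology n).app A).hom ≫
      groupCohomology.map S.subtype (𝟙 (res S.subtype A)) n ≫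
        ((TateCohomology.isoGroupCohomology n).app (res S.subtype A)).inv :=
  CochainComplex.ConnectData.homologyMap_map_of_eq_succ _ _ _ _ _ n n rfl

/-- In degrees `≤ -2`, corestriction on Tate cohomology is Mathlib's corestriction map
`groupHomology.map S.subtype 𝟙` on group homology. -/
theorem tCor_eq_groupHomology_map (m : ℤ) (n : ℕ) (hmn : m = -(n + 1)) [NeZero n] :
    tCor S A m = ((TateCohomology.isoGroupHomology m n hmn).app (res S.subtype A)).hom ≫
      groupHomology.map S.subtype (𝟙 (res S.subtype A)) n ≫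
        ((TateCohomology.isoGroupHomology m n hmn).app A).inv :=
  CochainComplex.ConnectData.homologyMap_map_of_eq_neg_succ _ _ _ _ _ n m hmn

end Compare

end

end Fermat.Agent.Lib.CFT.Coh.ResCor
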