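/-
Cohomological triviality (Nakayama–Tate criteria): umbrella file.

Main results (namespace `Fermat.Agent.Lib.CFT.Coh.CohTriv`, `IsCohTrivial` from `Coh/Induced`):
* `isCohTrivial_of_pGroup_of_torsion`: `G` a `p`-group, `pA = 0`, one vanishing `Ĥⁿ`;
* `isCohTrivial_of_pGroup`: `G` a `p`-group, two consecutive vanishing `Ĥⁿ`, `Ĥⁿ⁺¹`;
* `isZero_tateCohomology_of_subgroupsVanish`: Sylow detection of vanishing in every degree;
* `isCohTrivial_of_forall`: twin vanishing on all subgroups;
* `isCohTrivial_of_sylow`: twin vanishing on one Sylow subgroup per prime.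
-/
import Fermat.Agent.Lib.CFT.Coh.CohTriv.SylowCrit
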