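import Fermat.Agent.Lib.CFT.Coh.InfRes

/-!
# Inner automorphisms act trivially on group cohomology (P-CFT, Coh/ConjTrivial)

For `A : Rep k G` and `g : G`, the pair `(MulAut.conj g, ρ(g⁻¹))` is a compatible pair
`(G, A) ⟶ (G, A)` and induces the identity on `Hⁿ(G, A)` for every `n` (`conjMap_eq_id`).
The proof is by dimension shifting along `Coh.InfRes.shiftSES`.
-/

set_option autoImplicit false

universe u

open CategoryTheory groupCohomology

namespace Fermat.Agent.Lib.CFT.Coh.ConjTrivial

open Fermat.Agent.Lib.CFT.Coh.InfRes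

variable {k G : Type u} [CommRing k] [Group G]

/-- The action of `g⁻¹` as a morphism `res (conj g) A ⟶ A`. -/
noncomputable def conjMor (A : Rep k G) (g : G) : Rep.res (MulAut.conj g).toMonoidHom A ⟶ A :=
  Rep.ofHom ⟨A.ρ g⁻¹, fun x => by
    ext m
    show A.ρ g⁻¹ (A.ρ ((MulAut.conj g) x) m) = A.ρ x (A.ρ g⁻¹ m)
    rw [MulAut.conj_apply, ← Module.End.mul_apply, ← Module.End.mul_apply, ← map_mul, ← map_mul]
    congr 2
    group⟩

@[simp]
theorem conjMor_apply (A : Rep k G) (g : G) (m : A) : (conjMor A g).hom m = A.ρ g⁻¹ m := rfl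

theorem conjMor_naturality {A B : Rep k G} (g : G) (φ : A ⟶ B) :
    (Rep.resFunctor (MulAut.conj g).toMonoidHom).map φ ≫ conjMor B g = conjMor A g ≫ φ := by
  ext m
  show B.ρ g⁻¹ (φ.hom m) = φ.hom (A.ρ g⁻¹ m)
  rw [Rep.hom_comm_apply]

/-- The endomorphism of `Hⁿ(G, A)` induced by conjugation by `g`. -/
noncomputable def conjMap (A : Rep k G) (g : G) (n : ℕ) :
    groupCohomology A n ⟶ groupCohomology A n :=
  groupCohomology.map (MulAut.conj g).toMonoidHom (conjMor A g) n

theorem conjMap_zero (A : Rep k G) (g : G) : conjMap A g 0 = 𝟙 _ := by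
  have h := map_H0Iso_hom_f (MulAut.conj g).toMonoidHom (conjMor A g)
  have hmono : Mono ((H0Iso A).hom ≫ (shortComplexH0 A).f) := by
    have : Mono (shortComplexH0 A).f := by
      rw [ModuleCat.mono_iff_injective]
      exact Subtype.val_injective
    exact @mono_comp _ _ _ _ _ (H0Iso A).hom inferInstance (shortComplexH0 A).f this
  rw [← cancel_mono ((H0Iso A).hom ≫ (shortComplexH0 A).f), Category.id_comp]
  refine h.trans ?_
  congr 1
  ext x
  exact x.2 g⁻¹

/-- **Inner automorphisms act trivially on group cohomology.** -/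
theorem conjMap_eq_id (g : G) (n : ℕ) : ∀ A : Rep k G, conjMap A g n = 𝟙 _ := by
  induction n with
  | zero => exact fun A => conjMap_zero A g
  | succ n ih =>
    intro A
    have hS := shiftSES_shortExact A
    have hnat := δ_naturality_map (MulAut.conj g).toMonoidHom hS hS
      (conjMor _ g) (conjMor _ g) (conjMor _ g) (conjMor_naturality g _) (conjMor_naturality g _)
      n (n + 1) rfl
    have h3 : conjMap (shiftSES A).X₃ g n = 𝟙 _ := ih _
    have hepi : Epi (δ hS n (n + 1) rfl) :=
      epi_δ_of_isZero hS n (isZero_groupCohomology_rightReg k G A.V n)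
    have h4 : δ hS n (n + 1) rfl ≫ conjMap (shiftSES A).X₁ g (n + 1) =
        δ hS n (n + 1) rfl ≫ 𝟙 _ := by
      rw [Category.comp_id]
      refine hnat.trans ?_
      show conjMap (shiftSES A).X₃ g n ≫ _ = _
      rw [h3, Category.id_comp]
    exact (cancel_epi (δ hS n (n + 1) rfl)).1 h4

/-- Inner automorphisms act trivially on group cohomology, in terms of `groupCohomology.map`. -/
theorem map_conj_eq_id (A : Rep k G) (g : G) (n : ℕ) :
    groupCohomology.map (MulAut.conj g).toMonoidHom (conjMor A g) n = 𝟙 (groupCohomology A n) :=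
  conjMap_eq_id g n A

/-- Variant for an arbitrary compatible pair `(f, φ)` with `f = conj g` and `φ = ρ(g⁻¹)`. -/
theorem map_eq_id_of_conj (A : Rep k G) (g : G) (f : G →* G) (hf : ∀ x, f x = g * x * g⁻¹)
    (φ : Rep.res f A ⟶ A) (hφ : ∀ a : A, φ.hom a = A.ρ g⁻¹ a) (n : ℕ) :
    groupCohomology.map f φ n = 𝟙 (groupCohomology A n) := by
  have hf' : f = (MulAut.conj g).toMonoidHom := by
    ext x
    rw [hf]
    rfl
  rw [← map_conj_eq_id A g n]
  exact map_congr hf' (by ext a; exact hφ a) n

end Fermat.Agent.Lib.CFT.Coh.ConjTrivial
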