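import Mathlib

set_option autoImplicit false
set_option linter.unusedSectionVars false

universe u

open CategoryTheory

namespace Fermat.Agent.Lib.CFT.Coh.Cup

variable {k G : Type u} [CommRing k] [Group G]

/-- A `G`-equivariant `k`-bilinear pairing `A × B → C` of representations. -/
structure Pairing (A B C : Rep.{u} k G) where
  toLin : A →ₗ[k] B →ₗ[k] C
  equivariant : ∀ (g : G) (a : A) (b : B), toLin (A.ρ g a) (B.ρ g b) = C.ρ g (toLin a b)

variable {A B C : Rep.{u} k G}

/-- The ordered product of all entries of a tuple. -/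
def tupProd {m : ℕ} (h : Fin m → G) : G := Fin.partialProd h (Fin.last m)

/-- The first `m` entries. -/
def hd {m n : ℕ} (g : Fin (m + n) → G) : Fin m → G := fun i => g (Fin.castAdd n i)

/-- The last `n` entries. -/
def tl {m n : ℕ} (g : Fin (m + n) → G) : Fin n → G := fun j => g (Fin.natAdd m j)

/-- Cup product of inhomogeneous cochains. -/
def cup (φ : Pairing A B C) {m n : ℕ} (f : (Fin m → G) → A) (f' : (Fin n → G) → B) :
    (Fin (m + n) → G) → C :=
  fun g => φ.toLin (f (hd g)) (B.ρ (tupProd (hd g)) (f' (tl g)))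

lemma tupProd_succ {m : ℕ} (h : Fin (m + 1) → G) :
    tupProd h = h 0 * tupProd (fun i : Fin m => h i.succ) := by
  unfold tupProd
  rw [← Fin.succ_last, Fin.partialProd_succ']
  rfl

lemma tupProd_castSucc {m : ℕ} (h : Fin (m + 1) → G) :
    tupProd h = tupProd (fun i : Fin m => h i.castSucc) * h (Fin.last m) := by
  unfold tupProd
  rw [← Fin.succ_last, Fin.partialProd_succ, ← Fin.partialProd_init]
  rfl

lemma tupProd_contractNth {m : ℕ} (h : Fin (m + 1) → G) (i : Fin m) :
    tupProd (Fin.contractNth i.castSucc (· * ·) h) = tupProd h := by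
  unfold tupProd
  rw [Fin.partialProd_contractNth]
  simp only [Function.comp_apply]
  congr 1
  rw [Fin.succAbove_of_le_castSucc]
  · simp
  · rw [Fin.le_def]
    simp

lemma contractNth_last {m : ℕ} (h : Fin (m + 1) → G) :
    Fin.contractNth (Fin.last m) (· * ·) h = fun i : Fin m => h i.castSucc := by
  funext l
  rw [Fin.contractNth_apply_of_lt]
  simp

/-! ### Index bookkeeping -/

section Index

variable {m n : ℕ}

/-- reindexing `Fin (m + 1 + n) → Fin (m + n + 1)` -/
def rc (g : Fin (m + n + 1) → G) : Fin (m + 1 + n) → G :=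
  fun i => g (Fin.cast (by omega) i)

lemma hd_rc_zero (g : Fin (m + n + 1) → G) : hd (rc g) 0 = g 0 := by
  simp only [hd, rc]
  congr 1

lemma hd_rc_succ (g : Fin (m + n + 1) → G) :
    (fun i : Fin m => hd (rc g) i.succ) = hd (fun i : Fin (m + n) => g i.succ) := by
  funext i
  simp only [hd, rc]
  congr 1

lemma tl_rc (g : Fin (m + n + 1) → G) :
    tl (rc g) = tl (fun i : Fin (m + n) => g i.succ) := by
  funext i
  simp only [tl, rc]
  congr 1
  ext
  simp
  omega

lemma hd_rc_castSucc (g : Fin (m + n + 1) → G) :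
    (fun i : Fin m => hd (rc g) i.castSucc) = hd (m := m) (n := n + 1) g := by
  funext i
  simp only [hd, rc]
  congr 1

lemma hd_rc_last (g : Fin (m + n + 1) → G) :
    hd (rc g) (Fin.last m) = tl (m := m) (n := n + 1) g 0 := by
  simp only [hd, rc, tl]
  congr 1

lemma tl_rc' (g : Fin (m + n + 1) → G) :
    tl (rc g) = fun i : Fin n => tl (m := m) (n := n + 1) g i.succ := by
  funext i
  simp only [tl, rc]
  congr 1
  ext
  simp
  omega

/-- contraction at a position in the head block -/
lemma hd_contractNth_castAdd (g : Fin (m + n + 1) → G) (i : Fin m) :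
    hd (Fin.contractNth (Fin.castAdd (n + 1) i) (· * ·) g) =
      Fin.contractNth i.castSucc (· * ·) (hd (rc g)) := by
  funext l
  simp only [hd, rc]
  rcases lt_trichotomy (l : ℕ) i with h | h | h
  · rw [Fin.contractNth_apply_of_lt _ _ _ _ (by simpa using h),
      Fin.contractNth_apply_of_lt _ _ _ _ (by simpa using h)]
    congr 1
  · rw [Fin.contractNth_apply_of_eq _ _ _ _ (by simpa using h),
      Fin.contractNth_apply_of_eq _ _ _ _ (by simpa using h)]
    congr 1
  · rw [Fin.contractNth_apply_of_gt _ _ _ _ (by simpa using h),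
      Fin.contractNth_apply_of_gt _ _ _ _ (by simpa using h)]
    congr 1

lemma tl_contractNth_castAdd (g : Fin (m + n + 1) → G) (i : Fin m) :
    tl (Fin.contractNth (Fin.castAdd (n + 1) i) (· * ·) g) = tl (rc g) := by
  funext l
  simp only [tl, rc]
  rw [Fin.contractNth_apply_of_gt _ _ _ _ (by simp; omega)]
  congr 1
  ext
  simp
  omega

/-- contraction at a position in the tail block -/
lemma hd_contractNth_natAdd (g : Fin (m + n + 1) → G) (i : Fin (n + 1)) :
    hd (Fin.contractNth (Fin.natAdd m i) (· * ·) g) = hd (m := m) (n := n + 1) g := by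
  funext l
  simp only [hd]
  rw [Fin.contractNth_apply_of_lt _ _ _ _ (by simp; omega)]
  congr 1

lemma tl_contractNth_natAdd (g : Fin (m + n + 1) → G) (i : Fin (n + 1)) :
    tl (Fin.contractNth (Fin.natAdd m i) (· * ·) g) =
      Fin.contractNth i (· * ·) (tl (m := m) (n := n + 1) g) := by
  funext l
  simp only [tl]
  rcases lt_trichotomy (l : ℕ) i with h | h | h
  · rw [Fin.contractNth_apply_of_lt _ _ _ _ (by simpa using h),
      Fin.contractNth_apply_of_lt _ _ _ _ (by simpa using h)]
    congr 1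
  · rw [Fin.contractNth_apply_of_eq _ _ _ _ (by simpa using h),
      Fin.contractNth_apply_of_eq _ _ _ _ (by simpa using h)]
    congr 1
  · rw [Fin.contractNth_apply_of_gt _ _ _ _ (by simpa using h),
      Fin.contractNth_apply_of_gt _ _ _ _ (by simpa using h)]
    congr 1

end Index

open inhomogeneousCochains in
/-- Leibniz rule for the cup product of inhomogeneous cochains. -/
theorem d_cup (φ : Pairing A B C) {m n : ℕ} (f : (Fin m → G) → A) (f' : (Fin n → G) → B)
    (g : Fin (m + n + 1) → G) :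
    (d C (m + n)).hom (cup φ f f') g =
      cup φ ((d A m).hom f) f' (rc g) +
        (-1 : k) ^ m • cup φ f ((d B n).hom f') (show Fin (m + (n + 1)) → G from g) := by
  rw [d_hom_apply]
  have hsplit := Fin.sum_univ_add (a := m) (b := n + 1)
    (fun j : Fin (m + (n + 1)) =>
      (-1 : k) ^ ((j : ℕ) + 1) • cup φ f f' (Fin.contractNth j (· * ·) g))
  rw [show (∑ j : Fin (m + n + 1),
      (-1 : k) ^ ((j : ℕ) + 1) • cup φ f f' (Fin.contractNth j (· * ·) g)) = _ from hsplit]
  -- unfold the two cups on the right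
  have e1 : cup φ ((d A m).hom f) f' (rc g) =
      φ.toLin ((d A m).hom f (hd (rc g))) (B.ρ (tupProd (hd (rc g))) (f' (tl (rc g)))) := rfl
  have e2 : cup φ f ((d B n).hom f') (show Fin (m + (n + 1)) → G from g) =
      φ.toLin (f (hd (m := m) (n := n + 1) g))
        (B.ρ (tupProd (hd (m := m) (n := n + 1) g))
          ((d B n).hom f' (tl (m := m) (n := n + 1) g))) := rfl
  rw [e1, e2, d_hom_apply, d_hom_apply, Fin.sum_univ_castSucc (n := m)]
  simp only [map_add, LinearMap.add_apply, map_sum, LinearMap.sum_apply, map_smul,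
    LinearMap.smul_apply, smul_add, Finset.smul_sum]
  -- term T0
  have T0 : C.ρ (g 0) (cup φ f f' (fun i : Fin (m + n) => g i.succ)) =
      φ.toLin (A.ρ (hd (rc g) 0) (f fun i => hd (rc g) i.succ))
        (B.ρ (tupProd (hd (rc g))) (f' (tl (rc g)))) := by
    rw [tupProd_succ (hd (rc g)), hd_rc_zero, hd_rc_succ, tl_rc, map_mul]
    rw [Module.End.mul_apply, φ.equivariant]
    rfl
  -- terms T1
  have T1 : ∀ i : Fin m,
      (-1 : k) ^ ((Fin.castAdd (n + 1) i : ℕ) + 1) •
        cup φ f f' (Fin.contractNth (Fin.castAdd (n + 1) i) (· * ·) g) =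
      (-1 : k) ^ ((i.castSucc : ℕ) + 1) •
        φ.toLin (f (Fin.contractNth i.castSucc (· * ·) (hd (rc g))))
          (B.ρ (tupProd (hd (rc g))) (f' (tl (rc g)))) := by
    intro i
    unfold cup
    rw [hd_contractNth_castAdd, tl_contractNth_castAdd, tupProd_contractNth]
    simp
  -- terms T3
  have T3 : ∀ i : Fin (n + 1),
      (-1 : k) ^ ((Fin.natAdd m i : ℕ) + 1) •
        cup φ f f' (Fin.contractNth (Fin.natAdd m i) (· * ·) g) =
      (-1 : k) ^ m • (-1 : k) ^ ((i : ℕ) + 1) •
        φ.toLin (f (hd (m := m) (n := n + 1) g))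
          (B.ρ (tupProd (hd (m := m) (n := n + 1) g))
            (f' (Fin.contractNth i (· * ·) (tl (m := m) (n := n + 1) g)))) := by
    intro i
    unfold cup
    rw [hd_contractNth_natAdd, tl_contractNth_natAdd, smul_smul, ← pow_add]
    simp only [Fin.val_natAdd]
    rw [add_assoc]
  -- cancellation T2
  have T2 : (-1 : k) ^ ((Fin.last m : ℕ) + 1) •
        φ.toLin (f (Fin.contractNth (Fin.last m) (· * ·) (hd (rc g))))
          (B.ρ (tupProd (hd (rc g))) (f' (tl (rc g)))) +
      (-1 : k) ^ m • φ.toLin (f (hd (m := m) (n := n + 1) g))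
        (B.ρ (tupProd (hd (m := m) (n := n + 1) g))
          (B.ρ (tl (m := m) (n := n + 1) g 0)
            (f' fun i => tl (m := m) (n := n + 1) g i.succ))) = 0 := by
    rw [contractNth_last, hd_rc_castSucc, tupProd_castSucc (hd (rc g)), hd_rc_castSucc, hd_rc_last,
      tl_rc', map_mul, Module.End.mul_apply, Fin.val_last, pow_succ]
    simp
  simp only [T0, T1, T3]
  generalize (φ.toLin ((A.ρ (hd (rc g) 0)) (f fun i => hd (rc g) i.succ)))
    ((B.ρ (tupProd (hd (rc g)))) (f' (tl (rc g)))) = X at *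
  generalize (∑ x : Fin m, (-1 : k) ^ ((x.castSucc : ℕ) + 1) •
    (φ.toLin (f (x.castSucc.contractNth (fun x1 x2 => x1 * x2) (hd (rc g)))))
      ((B.ρ (tupProd (hd (rc g)))) (f' (tl (rc g))))) = S1 at *
  generalize (∑ x : Fin (n + 1), (-1 : k) ^ m • (-1 : k) ^ ((x : ℕ) + 1) •
    (φ.toLin (f (hd (m := m) (n := n + 1) g)))
      ((B.ρ (tupProd (hd (m := m) (n := n + 1) g)))
        (f' (x.contractNth (fun x1 x2 => x1 * x2) (tl (m := m) (n := n + 1) g))))) = S3 at *
  generalize ((-1 : k) ^ ((Fin.last m : ℕ) + 1) •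
        (φ.toLin (f ((Fin.last m).contractNth (fun x1 x2 => x1 * x2) (hd (rc g)))))
          ((B.ρ (tupProd (hd (rc g)))) (f' (tl (rc g))))) = t2a at *
  generalize ((-1 : k) ^ m • (φ.toLin (f (hd (m := m) (n := n + 1) g)))
    ((B.ρ (tupProd (hd (m := m) (n := n + 1) g)))
      ((B.ρ (tl (m := m) (n := n + 1) g 0)) (f' fun i => tl (m := m) (n := n + 1) g i.succ)))) = t2b at *
  have : X + (S1 + t2a) + (t2b + S3) = X + (S1 + S3) + (t2a + t2b) := by abel
  rw [this, T2, add_zero]

/-! ### Cup product with prescribed target degree -/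

/-- The cup product, reindexed to a prescribed total degree `l = m + n`. -/
def cupTo (φ : Pairing A B C) {m n l : ℕ} (h : m + n = l) (f : (Fin m → G) → A)
    (f' : (Fin n → G) → B) : (Fin l → G) → C :=
  fun g => cup φ f f' (fun i => g (Fin.cast h i))

theorem cupTo_apply (φ : Pairing A B C) {m n l : ℕ} (h : m + n = l) (f : (Fin m → G) → A)
    (f' : (Fin n → G) → B) (g : Fin l → G) :
    cupTo φ h f f' g = φ.toLin (f (fun i => g (Fin.cast h (Fin.castAdd n i))))
      (B.ρ (tupProd (fun i => g (Fin.cast h (Fin.castAdd n i))))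
        (f' (fun j => g (Fin.cast h (Fin.natAdd m j))))) := rfl

theorem cupTo_rfl (φ : Pairing A B C) {m n : ℕ} (f : (Fin m → G) → A) (f' : (Fin n → G) → B) :
    cupTo φ rfl f f' = cup φ f f' := rfl

open inhomogeneousCochains in
/-- Leibniz rule, with arbitrary target degree. -/
theorem d_cupTo (φ : Pairing A B C) {m n l : ℕ} (h : m + n = l) (f : (Fin m → G) → A)
    (f' : (Fin n → G) → B) :
    (d C l).hom (cupTo φ h f f') =
      cupTo φ (show m + 1 + n = l + 1 by omega) ((d A m).hom f) f' +
        (-1 : k) ^ m • cupTo φ (show m + (n + 1) = l + 1 by omega) f ((d B n).hom f') := by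
  subst h
  funext g
  exact d_cup φ f f' g

section linear

variable (φ : Pairing A B C) {m n l : ℕ} (h : m + n = l)

theorem cupTo_add_left (f₁ f₂ : (Fin m → G) → A) (f' : (Fin n → G) → B) :
    cupTo φ h (f₁ + f₂) f' = cupTo φ h f₁ f' + cupTo φ h f₂ f' := by
  funext g
  simp [cupTo, cup]

theorem cupTo_add_right (f : (Fin m → G) → A) (f₁' f₂' : (Fin n → G) → B) :
    cupTo φ h f (f₁' + f₂') = cupTo φ h f f₁' + cupTo φ h f f₂' := by
  funext g
  simp [cupTo, cup]

theorem cupTo_smul_left (r : k) (f : (Fin m → G) → A) (f' : (Fin n → G) → B) :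
    cupTo φ h (r • f) f' = r • cupTo φ h f f' := by
  funext g
  simp [cupTo, cup]

theorem cupTo_smul_right (r : k) (f : (Fin m → G) → A) (f' : (Fin n → G) → B) :
    cupTo φ h f (r • f') = r • cupTo φ h f f' := by
  funext g
  simp [cupTo, cup]

theorem cupTo_zero_left (f' : (Fin n → G) → B) :
    cupTo φ h (0 : (Fin m → G) → A) f' = 0 := by
  funext g
  simp [cupTo, cup]

theorem cupTo_zero_right (f : (Fin m → G) → A) :
    cupTo φ h f (0 : (Fin n → G) → B) = 0 := by
  funext g
  simp [cupTo, cup]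

theorem cupTo_sub_left (f₁ f₂ : (Fin m → G) → A) (f' : (Fin n → G) → B) :
    cupTo φ h (f₁ - f₂) f' = cupTo φ h f₁ f' - cupTo φ h f₂ f' := by
  funext g
  simp [cupTo, cup]

theorem cupTo_sub_right (f : (Fin m → G) → A) (f₁' f₂' : (Fin n → G) → B) :
    cupTo φ h f (f₁' - f₂') = cupTo φ h f f₁' - cupTo φ h f f₂' := by
  funext g
  simp [cupTo, cup]

/-- The cup product as a bilinear map of cochain modules. -/
def cupLin : ((Fin m → G) → A) →ₗ[k] ((Fin n → G) → B) →ₗ[k] ((Fin l → G) → C) :=
  LinearMap.mk₂ k (cupTo φ h) (cupTo_add_left φ h) (cupTo_smul_left φ h)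
    (cupTo_add_right φ h) (cupTo_smul_right φ h)

@[simp]
theorem cupLin_apply (f : (Fin m → G) → A) (f' : (Fin n → G) → B) :
    cupLin φ h f f' = cupTo φ h f f' := rfl

end linear

/-! ### Naturality -/

section naturality

open groupCohomology

variable {G' : Type u} [Group G']

theorem tupProd_map (f : G' →* G) {m : ℕ} (h : Fin m → G') :
    tupProd (fun i => f (h i)) = f (tupProd h) := by
  unfold tupProd Fin.partialProd
  rw [map_list_prod, List.map_take, List.map_ofFn]
  rfl

variable {A' B' C' : Rep.{u} k G'}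


theorem cupTo_map (f : G' →* G) (φ : Pairing A B C) (φ' : Pairing A' B' C')
    (α : Rep.res f A ⟶ A') (β : Rep.res f B ⟶ B') (γ : Rep.res f C ⟶ C')
    (hγ : ∀ (a : A) (b : B), γ.hom (φ.toLin a b) = φ'.toLin (α.hom a) (β.hom b))
    {m n l : ℕ} (h : m + n = l) (x : (Fin m → G) → A) (y : (Fin n → G) → B) :
    ((cochainsMap f γ).f l).hom (cupTo φ h x y) =
      cupTo φ' h (((cochainsMap f α).f m).hom x) (((cochainsMap f β).f n).hom y) := by
  funext g'
  simp only [cochainsMap_f_hom, LinearMap.coe_comp, Function.comp_apply, LinearMap.funLeft_apply,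
      LinearMap.compLeft_apply, cupTo_apply]
  refine (hγ _ _).trans ?_
  congr 1
  rw [tupProd_map]
  exact Rep.hom_comm_apply β (tupProd fun i => g' (Fin.cast h (Fin.castAdd n i)))
    (y fun j => f (g' (Fin.cast h (Fin.natAdd m j))))

end naturality

end Fermat.Agent.Lib.CFT.Coh.Cup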