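import Fermat.Agent.Lib.CFT.Coh.CupCochain

/-!
# Cup products of inhomogeneous cochains: pairing constructors and low-degree formulas
-/

set_option autoImplicit false
set_option linter.unusedSectionVars false

universe u

open CategoryTheory

namespace Fermat.Agent.Lib.CFT.Coh.Cup

variable {k G : Type u} [CommRing k] [Group G]

namespace Pairing

variable {A B C : Rep.{u} k G}

/-- The flipped pairing `B × A → C`. -/
def flip (φ : Pairing A B C) : Pairing B A C where
  toLin := φ.toLin.flip
  equivariant g b a := φ.equivariant g a b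

@[simp]
theorem flip_toLin_apply (φ : Pairing A B C) (b : B) (a : A) :
    φ.flip.toLin b a = φ.toLin a b := rfl

/-- Restriction of a pairing along a group homomorphism. -/
def res {G' : Type u} [Group G'] (f : G' →* G) (φ : Pairing A B C) :
    Pairing (Rep.res f A) (Rep.res f B) (Rep.res f C) where
  toLin := φ.toLin
  equivariant g a b := φ.equivariant (f g) a b

@[simp]
theorem res_toLin_apply {G' : Type u} [Group G'] (f : G' →* G) (φ : Pairing A B C)
    (a : A) (b : B) : (φ.res f).toLin a b = φ.toLin a b := rfl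

/-- Composition of a pairing with morphisms of representations. -/
def comp {A' B' C' : Rep.{u} k G} (φ : Pairing A B C) (α : A' ⟶ A) (β : B' ⟶ B) (γ : C ⟶ C') :
    Pairing A' B' C' where
  toLin := (φ.toLin.compl₁₂ α.hom.toLinearMap β.hom.toLinearMap).compr₂ γ.hom.toLinearMap
  equivariant g a b := by
    simp only [LinearMap.compr₂_apply, LinearMap.compl₁₂_apply]
    have h1 : α.hom.toLinearMap (A'.ρ g a) = A.ρ g (α.hom a) := Rep.hom_comm_apply α g a
    have h2 : β.hom.toLinearMap (B'.ρ g b) = B.ρ g (β.hom b) := Rep.hom_comm_apply β g b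
    rw [h1, h2, φ.equivariant]
    exact Rep.hom_comm_apply γ g _

@[simp]
theorem comp_toLin_apply {A' B' C' : Rep.{u} k G} (φ : Pairing A B C) (α : A' ⟶ A) (β : B' ⟶ B)
    (γ : C ⟶ C') (a : A') (b : B') :
    (φ.comp α β γ).toLin a b = γ.hom (φ.toLin (α.hom a) (β.hom b)) := rfl

end Pairing

/-! ### Low-degree formulas -/

section low

variable {A B C : Rep.{u} k G} (φ : Pairing A B C)

theorem tupProd_zero (h : Fin 0 → G) : tupProd h = 1 := by
  simp [tupProd]

theorem tupProd_one (h : Fin 1 → G) : tupProd h = h 0 := by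
  rw [tupProd_succ, tupProd_zero, mul_one]

theorem tupProd_two (h : Fin 2 → G) : tupProd h = h 0 * h 1 := by
  rw [tupProd_succ, tupProd_one]
  rfl

/-- Cup product with a `0`-cochain on the left. -/
theorem cupTo_zero_left_apply {n l : ℕ} (h : 0 + n = l) (x : (Fin 0 → G) → A)
    (y : (Fin n → G) → B) (g : Fin l → G) :
    cupTo φ h x y g =
      φ.toLin (x default) (y (fun j => g (Fin.cast h (Fin.natAdd 0 j)))) := by
  rw [cupTo_apply, tupProd_zero, map_one, Module.End.one_apply]
  have e : (fun i : Fin 0 => g (Fin.cast h (Fin.castAdd n i))) = default :=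
    Subsingleton.elim _ _
  rw [e]

/-- Cup product with a `0`-cochain on the right. -/
theorem cupTo_zero_right_apply {m l : ℕ} (h : m + 0 = l) (x : (Fin m → G) → A)
    (y : (Fin 0 → G) → B) (g : Fin l → G) :
    cupTo φ h x y g =
      φ.toLin (x (fun i => g (Fin.cast h (Fin.castAdd 0 i))))
        (B.ρ (tupProd (fun i => g (Fin.cast h (Fin.castAdd 0 i)))) (y default)) := by
  rw [cupTo_apply]
  have e : (fun j : Fin 0 => g (Fin.cast h (Fin.natAdd m j))) = default :=
    Subsingleton.elim _ _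
  rw [e]

/-- Cup product of two `1`-cochains. -/
theorem cupTo_one_one_apply (x : (Fin 1 → G) → A) (y : (Fin 1 → G) → B) (g : Fin 2 → G) :
    cupTo φ (rfl : 1 + 1 = 2) x y g =
      φ.toLin (x (fun _ => g 0)) (B.ρ (g 0) (y (fun _ => g 1))) := by
  rw [cupTo_apply, tupProd_one]
  have e1 : (fun i : Fin 1 => g (Fin.cast (rfl : 1 + 1 = 2) (Fin.castAdd 1 i))) = fun _ => g 0 := by
    funext i
    rw [Subsingleton.elim i 0]
    rfl
  have e2 : (fun j : Fin 1 => g (Fin.cast (rfl : 1 + 1 = 2) (Fin.natAdd 1 j))) = fun _ => g 1 := by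
    funext j
    rw [Subsingleton.elim j 0]
    rfl
  rw [e1, e2]
  rfl

/-- Cup product of a `1`-cochain and a `2`-cochain. -/
theorem cupTo_one_two_apply (x : (Fin 1 → G) → A) (y : (Fin 2 → G) → B) (g : Fin 3 → G) :
    cupTo φ (rfl : 1 + 2 = 3) x y g =
      φ.toLin (x (fun _ => g 0)) (B.ρ (g 0) (y ![g 1, g 2])) := by
  rw [cupTo_apply, tupProd_one]
  have e1 : (fun i : Fin 1 => g (Fin.cast (rfl : 1 + 2 = 3) (Fin.castAdd 2 i))) = fun _ => g 0 := by
    funext i
    rw [Subsingleton.elim i 0]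
    rfl
  have e2 : (fun j : Fin 2 => g (Fin.cast (rfl : 1 + 2 = 3) (Fin.natAdd 1 j))) = ![g 1, g 2] := by
    funext j
    fin_cases j <;> rfl
  rw [e1, e2]
  rfl

/-- Cup product of a `2`-cochain and a `1`-cochain. -/
theorem cupTo_two_one_apply (x : (Fin 2 → G) → A) (y : (Fin 1 → G) → B) (g : Fin 3 → G) :
    cupTo φ (rfl : 2 + 1 = 3) x y g =
      φ.toLin (x ![g 0, g 1]) (B.ρ (g 0 * g 1) (y (fun _ => g 2))) := by
  rw [cupTo_apply, tupProd_two]
  have e1 : (fun i : Fin 2 => g (Fin.cast (rfl : 2 + 1 = 3) (Fin.castAdd 1 i))) = ![g 0, g 1] := by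
    funext i
    fin_cases i <;> rfl
  have e2 : (fun j : Fin 1 => g (Fin.cast (rfl : 2 + 1 = 3) (Fin.natAdd 2 j))) = fun _ => g 2 := by
    funext j
    rw [Subsingleton.elim j 0]
    rfl
  rw [e1, e2]
  rfl

end low

end Fermat.Agent.Lib.CFT.Coh.Cup
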