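import Fermat.Prelude.Def_GroupCohomology_Selmer
import Fermat.Agent.Lib.CFT.Coh.CupLow

/-!
# The evaluation pairing `A.dualTwist χ × A → k(χ)`
-/

set_option autoImplicit false
set_option linter.unusedSectionVars false

universe u

open CategoryTheory

namespace Fermat.Agent.Lib.CFT.Coh.Cup

variable {k G : Type u} [CommRing k] [Group G]

/-- The one-dimensional representation `k(χ)` attached to a character. -/
noncomputable abbrev charRep (χ : G →* kˣ) : Rep.{u} k G := (Rep.trivial k G k).twist χ

theorem charRep_ρ_apply (χ : G →* kˣ) (g : G) (c : k) :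
    (charRep χ).ρ g c = (χ g : k) * c := rfl

/-- The evaluation pairing `A.dualTwist χ × A → k(χ)`, `(f, a) ↦ f a`. -/
noncomputable def evalPairing (A : Rep.{u} k G) (χ : G →* kˣ) :
    Pairing (A.dualTwist χ) A (charRep χ) where
  toLin := LinearMap.id
  equivariant g f a := by
    show ((A.dualTwist χ).ρ g f) (A.ρ g a) = (charRep χ).ρ g (f a)
    rw [Rep.dualTwist_ρ_apply, charRep_ρ_apply]
    simp only [LinearMap.smul_apply, LinearMap.coe_comp, Function.comp_apply, smul_eq_mul]
    rw [← Module.End.mul_apply, ← map_mul, inv_mul_cancel, map_one, Module.End.one_apply]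

@[simp]
theorem evalPairing_toLin_apply (A : Rep.{u} k G) (χ : G →* kˣ) (f : A.dualTwist χ) (a : A) :
    (evalPairing A χ).toLin f a = (show Module.Dual k A from f) a := rfl

end Fermat.Agent.Lib.CFT.Coh.Cup
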