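/-
Explicit first and second cohomology of a finite cyclic group, by direct cocycle computations:
`H²(G, A) = A^G / N A` via `a ↦ (carry cocycle) • a` and `H¹(G, A) = ker N / I_G A`.
-/
import Fermat.Agent.Lib.CFT.Coh.TateLow

set_option autoImplicit false
set_option linter.unusedSectionVars false

namespace Fermat.Agent.Lib.CFT.Coh.CyclicExplicit

open CategoryTheory groupCohomology
open Fermat.Agent.Lib.CFT.Coh.TateLow

universe u

section PeriodicSums

variable {M : Type*} [AddCommGroup M]

/-- Partial sums of a sequence. -/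
def psum (u : ℕ → M) (m : ℕ) : M := ∑ j ∈ Finset.range m, u j

@[simp] theorem psum_zero (u : ℕ → M) : psum u 0 = 0 := by simp [psum]

theorem psum_succ (u : ℕ → M) (m : ℕ) : psum u (m + 1) = psum u m + u m :=
  Finset.sum_range_succ u m

theorem psum_add (u : ℕ → M) (i m : ℕ) :
    psum u (i + m) = psum u i + psum (fun j => u (i + j)) m :=
  Finset.sum_range_add u i m

/-- For a sequence of period `n`, partial sums satisfy `B (k + n) = B k + B n`. -/
theorem psum_add_period (u : ℕ → M) (n : ℕ) (hu : ∀ j, u (j + n) = u j) (k : ℕ) :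
    psum u (k + n) = psum u k + psum u n := by
  induction k with
  | zero => simp
  | succ k ih =>
    rw [show k + 1 + n = (k + n) + 1 by ring, psum_succ, psum_succ, ih, hu]
    abel

theorem psum_mod (u : ℕ → M) (n : ℕ) (hu : ∀ j, u (j + n) = u j) (i m : ℕ) (hi : i < n)
    (hm : m < n) :
    psum u (i + m) = psum u ((i + m) % n) + (if n ≤ i + m then psum u n else 0) := by
  split_ifs with h
  · have h1 : (i + m) % n = i + m - n := by
      rw [Nat.mod_eq_sub_mod h, Nat.mod_eq_of_lt (by omega)]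
    rw [h1]
    have h2 : i + m = (i + m - n) + n := by omega
    conv_lhs => rw [h2]
    exact psum_add_period u n hu _
  · rw [Nat.mod_eq_of_lt (by omega), add_zero]

end PeriodicSums

section Dlog

variable {G : Type*} [Group G] [Fintype G] (s : G) (hs : ∀ x, x ∈ Subgroup.zpowers s)

include hs in
theorem orderOf_eq_card : orderOf s = Fintype.card G := by
  rw [orderOf_eq_card_of_forall_mem_zpowers hs, Nat.card_eq_fintype_card]

include hs in
theorem exists_pow_eq (x : G) : ∃ m : ℕ, m < Fintype.card G ∧ s ^ m = x := by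
  classical
  have h1 : x ∈ Finset.image (fun i => s ^ i) (Finset.range (orderOf s)) := by
    rw [IsCyclic.image_range_orderOf hs]
    exact Finset.mem_univ x
  obtain ⟨m, hm, rfl⟩ := Finset.mem_image.1 h1
  exact ⟨m, by rw [← orderOf_eq_card s hs]; exact Finset.mem_range.1 hm, rfl⟩

/-- The discrete logarithm with respect to a generator `s`, with values in `[0, |G|)`. -/
noncomputable def dlog (x : G) : ℕ := Classical.choose (exists_pow_eq s hs x)

theorem dlog_lt (x : G) : dlog s hs x < Fintype.card G :=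
  (Classical.choose_spec (exists_pow_eq s hs x)).1

@[simp] theorem pow_dlog (x : G) : s ^ dlog s hs x = x :=
  (Classical.choose_spec (exists_pow_eq s hs x)).2

theorem dlog_unique {x : G} {m : ℕ} (hm : m < Fintype.card G) (h : s ^ m = x) :
    dlog s hs x = m := by
  have h1 := dlog_lt s hs x
  rw [← orderOf_eq_card s hs] at h1 hm
  exact pow_injOn_Iio_orderOf h1 hm ((pow_dlog s hs x).trans h.symm)

theorem dlog_pow {m : ℕ} (hm : m < Fintype.card G) : dlog s hs (s ^ m) = m :=
  dlog_unique s hs hm rfl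

theorem pow_add_card (j : ℕ) : s ^ (j + Fintype.card G) = s ^ j := by
  rw [pow_add, pow_card_eq_one, mul_one]

theorem card_pos' : 0 < Fintype.card G := Fintype.card_pos

theorem dlog_one : dlog s hs 1 = 0 :=
  dlog_unique s hs Fintype.card_pos (pow_zero s)

theorem dlog_mul (x y : G) :
    dlog s hs (x * y) = (dlog s hs x + dlog s hs y) % Fintype.card G := by
  apply dlog_unique s hs (Nat.mod_lt _ Fintype.card_pos)
  conv_lhs => rw [← orderOf_eq_card s hs]
  rw [pow_mod_orderOf, pow_add, pow_dlog, pow_dlog]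

theorem dlog_pow_mul_pow {i m : ℕ} :
    dlog s hs (s ^ i * s ^ m) = (i + m) % Fintype.card G := by
  apply dlog_unique s hs (Nat.mod_lt _ Fintype.card_pos)
  conv_lhs => rw [← orderOf_eq_card s hs]
  rw [pow_mod_orderOf, pow_add]

include hs in
/-- Sums over the group are sums over the exponents. -/
theorem sum_eq_sum_range {M : Type*} [AddCommMonoid M] (f : G → M) :
    ∑ x : G, f x = ∑ j ∈ Finset.range (Fintype.card G), f (s ^ j) := by
  classical
  rw [← orderOf_eq_card s hs, ← IsCyclic.image_range_orderOf hs, Finset.sum_image]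
  intro a ha b hb hab
  exact pow_injOn_Iio_orderOf (Finset.mem_range.1 ha) (Finset.mem_range.1 hb) hab

end Dlog

section Rep

variable {k G : Type u} [CommRing k] [Group G] [Fintype G] (A : Rep k G) (s : G)
  (hs : ∀ x, x ∈ Subgroup.zpowers s)

local notation "n" => Fintype.card G

/-- The orbit sequence `j ↦ s ^ j • y`. -/
def orb (y : A) : ℕ → A := fun j => A.ρ (s ^ j) y

theorem orb_add_card (y : A) (j : ℕ) : orb A s y (j + n) = orb A s y j := by
  simp only [orb, pow_add_card]

theorem ρ_pow_orb (y : A) (i j : ℕ) : A.ρ (s ^ i) (orb A s y j) = orb A s y (i + j) := by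
  simp only [orb, pow_add, map_mul, Module.End.mul_apply]

/-- `F y m = ∑_{j < m} s ^ j • y`. -/
def F (y : A) (m : ℕ) : A := psum (orb A s y) m

theorem ρ_pow_F (y : A) (i m : ℕ) :
    A.ρ (s ^ i) (F A s y m) = F A s y (i + m) - F A s y i := by
  unfold F
  rw [psum_add, add_sub_cancel_left, psum, psum, map_sum]
  exact Finset.sum_congr rfl fun j _ => ρ_pow_orb A s y i j

include hs in
theorem norm_eq_F (y : A) : A.ρ.norm y = F A s y n := by
  rw [Representation.norm, LinearMap.sum_apply, sum_eq_sum_range s hs]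
  rfl

theorem F_mod (y : A) (i m : ℕ) (hi : i < n) (hm : m < n) :
    F A s y (i + m) = F A s y ((i + m) % n) + (if n ≤ i + m then F A s y n else 0) :=
  psum_mod _ _ (orb_add_card A s y) i m hi hm

/-- The `1`-cochain `x ↦ ∑_{j < dlog x} s ^ j • y`. -/
noncomputable def cyc1 (y : A) : G → A := fun x => F A s y (dlog s hs x)

/-- The `2`-cochain `(x, y) ↦ a` if `dlog x + dlog y ≥ n`, `0` otherwise (the cup product of `a`
with the carry cocycle). -/
noncomputable def cyc2 (a : A) : G × G → A :=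
  fun p => if n ≤ dlog s hs p.1 + dlog s hs p.2 then a else 0

theorem ρ_eq_ρ_pow_dlog (x : G) : A.ρ x = A.ρ (s ^ dlog s hs x) := by rw [pow_dlog]

/-- Key formula: `d (cyc1 y) = cyc2 (N y)`. -/
theorem d₁₂_cyc1 (y : A) : d₁₂ A (cyc1 A s hs y) = cyc2 A s hs (A.ρ.norm y) := by
  funext p
  obtain ⟨x, x'⟩ := p
  rw [d₁₂_hom_apply]
  simp only [cyc1, cyc2]
  rw [ρ_eq_ρ_pow_dlog A s hs x, ρ_pow_F, dlog_mul,
    F_mod A s y _ _ (dlog_lt s hs x) (dlog_lt s hs x'), norm_eq_F A s hs]
  abel

section H1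

theorem F_add (y y' : A) (m : ℕ) : F A s (y + y') m = F A s y m + F A s y' m := by
  simp only [F, psum, orb, map_add, Finset.sum_add_distrib]

theorem F_smul (c : k) (y : A) (m : ℕ) : F A s (c • y) m = c • F A s y m := by
  simp only [F, psum, orb, map_smul, Finset.smul_sum]

/-- `cyc1` as a linear map. -/
noncomputable def cyc1Lin : A →ₗ[k] (G → A) where
  toFun := cyc1 A s hs
  map_add' y y' := by funext x; simp only [cyc1, F_add, Pi.add_apply]
  map_smul' c y := by funext x; simp only [cyc1, F_smul, Pi.smul_apply, RingHom.id_apply]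

@[simp] theorem cyc1Lin_apply (y : A) : cyc1Lin A s hs y = cyc1 A s hs y := rfl

theorem cyc2_zero : cyc2 A s hs 0 = 0 := by
  funext p
  simp [cyc2]

theorem cyc1_mem_cocycles₁ (y : LinearMap.ker A.ρ.norm) : cyc1 A s hs y.1 ∈ cocycles₁ A := by
  change cyc1 A s hs y.1 ∈ LinearMap.ker (d₁₂ A).hom
  rw [LinearMap.mem_ker]
  have h := d₁₂_cyc1 A s hs y.1
  rw [LinearMap.mem_ker.1 y.2, cyc2_zero] at h
  exact h

/-- The linear map `ker N → Z¹(G, A)`. -/
noncomputable def cyc1Cocycle : LinearMap.ker A.ρ.norm →ₗ[k] cocycles₁ A :=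
  ((cyc1Lin A s hs).comp (LinearMap.ker A.ρ.norm).subtype).codRestrict _
    (cyc1_mem_cocycles₁ A s hs)

@[simp] theorem cyc1Cocycle_coe (y : LinearMap.ker A.ρ.norm) :
    ((cyc1Cocycle A s hs y : cocycles₁ A) : G → A) = cyc1 A s hs y.1 := rfl

theorem F_sub_telescope (b : A) (m : ℕ) :
    F A s (A.ρ s b - b) m = A.ρ (s ^ m) b - b := by
  induction m with
  | zero => simp [F]
  | succ m ih =>
    unfold F at ih ⊢
    rw [psum_succ, ih]
    simp only [orb, map_sub, ← Module.End.mul_apply, ← map_mul, ← pow_succ]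
    abel

theorem dlog_self (h2 : 2 ≤ n) : dlog s hs s = 1 :=
  dlog_unique s hs (by omega) (pow_one s)

theorem F_one (y : A) : F A s y 1 = y := by
  simp [F, psum, orb]

theorem eq_one_of_card_le_one (h1 : n ≤ 1) (x : G) : x = 1 := by
  have : Subsingleton G := Fintype.card_le_one_iff_subsingleton.1 h1
  exact Subsingleton.elim _ _

theorem norm_eq_self_of_card_le_one (h1 : n ≤ 1) (y : A) : A.ρ.norm y = y := by
  have : Subsingleton G := Fintype.card_le_one_iff_subsingleton.1 h1
  rw [Representation.norm, LinearMap.sum_apply]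
  have : (Finset.univ : Finset G) = {1} := by
    ext x; simp [Subsingleton.elim x 1]
  rw [this, Finset.sum_singleton, map_one, Module.End.one_apply]

theorem cyc1_mem_coboundaries₁_iff (y : LinearMap.ker A.ρ.norm) :
    cyc1 A s hs y.1 ∈ coboundaries₁ A ↔ y.1 ∈ Representation.Coinvariants.ker A.ρ := by
  rw [Representation.FiniteCyclicGroup.coinvariantsKer_eq_range A.ρ s hs]
  constructor
  · rintro ⟨b, hb⟩
    rcases Nat.lt_or_ge n 2 with h1 | h2
    · have h0 : y.1 = 0 := by
        have := LinearMap.mem_ker.1 y.2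
        rwa [norm_eq_self_of_card_le_one A (by omega)] at this
      rw [h0]
      exact Submodule.zero_mem _
    · refine ⟨b, ?_⟩
      have h3 := congrFun hb s
      rw [d₀₁_hom_apply] at h3
      simp only [cyc1, dlog_self s hs h2, F_one] at h3
      simp [h3]
  · rintro ⟨b, hb⟩
    refine ⟨b, ?_⟩
    funext x
    rw [d₀₁_hom_apply]
    have hb' : y.1 = A.ρ s b - b := by simpa using hb.symm
    simp only [cyc1]
    rw [hb', F_sub_telescope, pow_dlog]

theorem cocycle_pow (f : cocycles₁ A) (m : ℕ) : f.1 (s ^ m) = F A s (f.1 s) m := by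
  induction m with
  | zero =>
    rw [pow_zero]
    simp [F, cocycles₁_map_one f]
  | succ m ih =>
    have h := (mem_cocycles₁_iff f.1).1 f.2 (s ^ m) s
    rw [pow_succ, h, ih]
    unfold F
    rw [psum_succ]
    simp only [orb]
    abel

theorem cocycle_eq_cyc1 (f : cocycles₁ A) : f.1 = cyc1 A s hs (f.1 s) := by
  funext x
  conv_lhs => rw [← pow_dlog s hs x]
  exact cocycle_pow A s f _

include hs in
theorem cocycle_self_mem_ker_norm (f : cocycles₁ A) : f.1 s ∈ LinearMap.ker A.ρ.norm := by
  rw [LinearMap.mem_ker, norm_eq_F A s hs, ← cocycle_pow, pow_card_eq_one]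
  exact cocycles₁_map_one f

/-- `ker N → H¹(G, A)`. -/
noncomputable def toH1 : LinearMap.ker A.ρ.norm →ₗ[k] H1 A :=
  (H1π A).hom.comp (cyc1Cocycle A s hs)

theorem toH1_apply (y : LinearMap.ker A.ρ.norm) :
    toH1 A s hs y = H1π A (cyc1Cocycle A s hs y) := rfl

theorem toH1_eq_zero_iff (y : LinearMap.ker A.ρ.norm) :
    toH1 A s hs y = 0 ↔ y.1 ∈ Representation.Coinvariants.ker A.ρ := by
  rw [toH1_apply, H1π_eq_zero_iff]
  exact cyc1_mem_coboundaries₁_iff A s hs y

theorem toH1_surjective : Function.Surjective (toH1 A s hs) := by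
  intro h
  induction h using H1_induction_on with
  | h f =>
    refine ⟨⟨f.1 s, cocycle_self_mem_ker_norm A s hs f⟩, ?_⟩
    rw [toH1_apply]
    congr 1
    apply Subtype.ext
    exact (cocycle_eq_cyc1 A s hs f).symm

/-- `H¹(G, A) = ker N / I_G A` for a finite cyclic group with generator `s`:
the class of `y` corresponds to the cocycle `x ↦ ∑_{j < dlog x} s ^ j • y`. -/
noncomputable def cyclicH1Equiv :
    (LinearMap.ker A.ρ.norm ⧸ augSubmodule A) ≃ₗ[k] H1 A :=
  LinearEquiv.ofBijective ((augSubmodule A).liftQ (toH1 A s hs) fun y hy => by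
      rw [LinearMap.mem_ker]
      exact (toH1_eq_zero_iff A s hs y).2 hy) ⟨by
    rw [← LinearMap.ker_eq_bot, Submodule.ker_liftQ, Submodule.eq_bot_iff]
    rintro _ ⟨y, hy, rfl⟩
    rw [Submodule.mkQ_apply, Submodule.Quotient.mk_eq_zero]
    exact (toH1_eq_zero_iff A s hs y).1 hy, by
    intro h
    obtain ⟨y, rfl⟩ := toH1_surjective A s hs h
    exact ⟨Submodule.Quotient.mk y, rfl⟩⟩

@[simp] theorem cyclicH1Equiv_mk (y : LinearMap.ker A.ρ.norm) :
    cyclicH1Equiv A s hs (Submodule.Quotient.mk y) = H1π A (cyc1Cocycle A s hs y) := rfl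

/-- The inverse of `cyclicH1Equiv` evaluates a cocycle at the generator. -/
theorem cyclicH1Equiv_symm_H1π (f : cocycles₁ A) :
    (cyclicH1Equiv A s hs).symm (H1π A f) =
      Submodule.Quotient.mk ⟨f.1 s, cocycle_self_mem_ker_norm A s hs f⟩ := by
  rw [LinearEquiv.symm_apply_eq, cyclicH1Equiv_mk]
  congr 1
  apply Subtype.ext
  exact cocycle_eq_cyc1 A s hs f

end H1

section H2

theorem mod_of_ge {N i : ℕ} (h1 : N ≤ i) (h2 : i < 2 * N) : i % N = i - N := by
  rw [Nat.mod_eq_sub_mod h1, Nat.mod_eq_of_lt (by omega)]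

theorem cyc2_apply (a : A) (x y : G) :
    cyc2 A s hs a (x, y) = if n ≤ dlog s hs x + dlog s hs y then a else 0 := rfl

theorem cyc2_add (a b : A) : cyc2 A s hs (a + b) = cyc2 A s hs a + cyc2 A s hs b := by
  funext p
  simp only [cyc2, Pi.add_apply]
  split_ifs <;> simp

theorem cyc2_smul (c : k) (a : A) : cyc2 A s hs (c • a) = c • cyc2 A s hs a := by
  funext p
  simp only [cyc2, Pi.smul_apply]
  split_ifs <;> simp

/-- `cyc2` as a linear map. -/
noncomputable def cyc2Lin : A →ₗ[k] (G × G → A) where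
  toFun := cyc2 A s hs
  map_add' := cyc2_add A s hs
  map_smul' c a := cyc2_smul A s hs c a

@[simp] theorem cyc2Lin_apply (a : A) : cyc2Lin A s hs a = cyc2 A s hs a := rfl

theorem cyc2_mem_cocycles₂ (a : A.ρ.invariants) : cyc2 A s hs a.1 ∈ cocycles₂ A := by
  rw [mem_cocycles₂_iff]
  intro g h j
  simp only [cyc2, dlog_mul]
  have hi := dlog_lt s hs g
  have hm := dlog_lt s hs h
  have hl := dlog_lt s hs j
  generalize dlog s hs g = i at hi ⊢
  generalize dlog s hs h = m at hm ⊢
  generalize dlog s hs j = l at hl ⊢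
  rw [apply_ite (A.ρ g), a.2 g, map_zero]
  rcases Nat.lt_or_ge (i + m) n with h1 | h1 <;> rcases Nat.lt_or_ge (m + l) n with h2 | h2
  · rw [Nat.mod_eq_of_lt h1, Nat.mod_eq_of_lt h2]
    split_ifs <;> first | omega | abel
  · rw [Nat.mod_eq_of_lt h1, mod_of_ge h2 (by omega)]
    split_ifs <;> first | omega | abel
  · rw [mod_of_ge h1 (by omega), Nat.mod_eq_of_lt h2]
    split_ifs <;> first | omega | abel
  · rw [mod_of_ge h1 (by omega), mod_of_ge h2 (by omega)]
    split_ifs <;> first | omega | abel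

/-- The linear map `A^G → Z²(G, A)`. -/
noncomputable def cyc2Cocycle : A.ρ.invariants →ₗ[k] cocycles₂ A :=
  ((cyc2Lin A s hs).comp A.ρ.invariants.subtype).codRestrict _ (cyc2_mem_cocycles₂ A s hs)

@[simp] theorem cyc2Cocycle_coe (a : A.ρ.invariants) :
    ((cyc2Cocycle A s hs a : cocycles₂ A) : G × G → A) = cyc2 A s hs a.1 := rfl

/-- The sequence `j ↦ c (s ^ j, s)` attached to a `2`-cochain. -/
def useq (c : G × G → A) : ℕ → A := fun j => c (s ^ j, s)

theorem useq_add_card (c : G × G → A) (j : ℕ) : useq A s c (j + n) = useq A s c j := by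
  simp only [useq, pow_add_card]

/-- The evaluation `c ↦ ∑_{j < n} c (s ^ j, s)`, inverse to `a ↦ cyc2 a` on cohomology. -/
def ev : (G × G → A) →ₗ[k] A where
  toFun c := psum (useq A s c) n
  map_add' c c' := by simp only [psum, useq, Pi.add_apply, Finset.sum_add_distrib]
  map_smul' r c := by simp only [psum, useq, Pi.smul_apply, Finset.smul_sum, RingHom.id_apply]

theorem ev_apply (c : G × G → A) : ev A s c = ∑ j ∈ Finset.range n, c (s ^ j, s) := rfl

/-- The shape of a `2`-cocycle on a cyclic group. -/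
theorem cocycle₂_pow (c : cocycles₂ A) (i m : ℕ) :
    c.1 (s ^ i, s ^ m) = A.ρ (s ^ i) (c.1 (1, 1))
      + (psum (useq A s c.1) (i + m) - psum (useq A s c.1) i)
      - A.ρ (s ^ i) (psum (useq A s c.1) m) := by
  induction m with
  | zero =>
    have h := cocycles₂_map_one_snd c (s ^ i)
    simp only [cocycles₂.val_eq_coe, pow_zero, add_zero, sub_self, psum_zero, map_zero, sub_zero]
    exact h
  | succ m ih =>
    have h := (mem_cocycles₂_iff c.1).1 c.2 (s ^ i) (s ^ m) s
    rw [← pow_add, ← pow_succ] at h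
    have h' : c.1 (s ^ i, s ^ (m + 1)) =
        useq A s c.1 (i + m) + c.1 (s ^ i, s ^ m) - A.ρ (s ^ i) (useq A s c.1 m) := by
      rw [eq_sub_iff_add_eq, add_comm (c.1 (s ^ i, s ^ (m + 1)))]
      exact h.symm
    rw [h', ih, ← add_assoc i m 1, psum_succ, psum_succ, map_add]
    abel

include hs in
theorem ev_mem_invariants (c : cocycles₂ A) : ev A s c.1 ∈ A.ρ.invariants := by
  intro g
  rw [ρ_eq_ρ_pow_dlog A s hs g]
  generalize dlog s hs g = i
  have h := cocycle₂_pow A s c i n
  rw [pow_card_eq_one, psum_add_period _ _ (useq_add_card A s c.1), add_sub_cancel_left] at h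
  have h1 := cocycles₂_map_one_snd c (s ^ i)
  simp only [cocycles₂.val_eq_coe] at h h1
  rw [h1] at h
  change A.ρ (s ^ i) (psum (useq A s c.1) n) = psum (useq A s c.1) n
  rw [add_sub_assoc, left_eq_add, sub_eq_zero] at h
  exact h.symm

/-- Every `2`-cocycle is cohomologous to `cyc2 (ev c)`. -/
theorem cocycle₂_sub_cyc2 (c : cocycles₂ A) :
    c.1 - cyc2 A s hs (ev A s c.1) =
      d₁₂ A (fun x => c.1 (1, 1) - psum (useq A s c.1) (dlog s hs x)) := by
  funext p
  obtain ⟨x, y⟩ := p
  rw [d₁₂_hom_apply, Pi.sub_apply, cyc2_apply]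
  have hx := dlog_lt s hs x
  have hy := dlog_lt s hs y
  have h := cocycle₂_pow A s c (dlog s hs x) (dlog s hs y)
  rw [pow_dlog, pow_dlog] at h
  rw [h, dlog_mul, ρ_eq_ρ_pow_dlog A s hs x,
    psum_mod _ _ (useq_add_card A s c.1) _ _ hx hy, map_sub]
  change _ - (if _ then psum (useq A s c.1) n else 0) = _
  abel

include hs in
theorem ev_d₁₂ (f : G → A) : ev A s (d₁₂ A f) = A.ρ.norm (f s) := by
  rw [norm_eq_F A s hs, ev_apply]
  have h1 : ∀ j ∈ Finset.range n, (d₁₂ A f) (s ^ j, s) =
      orb A s (f s) j - ((fun i => f (s ^ i)) (j + 1) - (fun i => f (s ^ i)) j) := by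
    intro j _
    rw [d₁₂_hom_apply]
    simp only [orb, pow_succ]
    abel
  rw [Finset.sum_congr rfl h1, Finset.sum_sub_distrib,
    Finset.sum_range_sub (fun i => f (s ^ i)) n]
  simp only [pow_card_eq_one, pow_zero, sub_self, sub_zero]
  rfl

theorem ev_cyc2 (h2 : 2 ≤ n) (a : A) : ev A s (cyc2 A s hs a) = a := by
  rw [ev_apply]
  rw [Finset.sum_eq_single (n - 1)]
  · rw [cyc2_apply, dlog_pow s hs (by omega), dlog_self s hs h2, if_pos (by omega)]
  · intro j hj hne
    have hj' := Finset.mem_range.1 hj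
    rw [cyc2_apply, dlog_pow s hs hj', dlog_self s hs h2, if_neg (by omega)]
  · intro h
    exact absurd (Finset.mem_range.2 (by omega)) h

theorem cyc2_mem_coboundaries₂_iff (a : A.ρ.invariants) :
    cyc2 A s hs a.1 ∈ coboundaries₂ A ↔ a ∈ normRange A := by
  constructor
  · rintro ⟨f, hf⟩
    rcases Nat.lt_or_ge n 2 with h1 | h2
    · exact ⟨a.1, norm_eq_self_of_card_le_one A (by omega) a.1⟩
    · refine ⟨f s, ?_⟩
      rw [← ev_d₁₂ A s hs f, hf, ev_cyc2 A s hs h2]
      rfl
  · rintro ⟨y, hy⟩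
    exact ⟨cyc1 A s hs y, by rw [d₁₂_cyc1, hy]; rfl⟩

/-- `A^G → H²(G, A)`. -/
noncomputable def toH2 : A.ρ.invariants →ₗ[k] H2 A :=
  (H2π A).hom.comp (cyc2Cocycle A s hs)

theorem toH2_apply (a : A.ρ.invariants) : toH2 A s hs a = H2π A (cyc2Cocycle A s hs a) := rfl

theorem toH2_eq_zero_iff (a : A.ρ.invariants) : toH2 A s hs a = 0 ↔ a ∈ normRange A := by
  rw [toH2_apply, H2π_eq_zero_iff]
  exact cyc2_mem_coboundaries₂_iff A s hs a

theorem H2π_eq_toH2 (c : cocycles₂ A) :
    H2π A c = toH2 A s hs ⟨ev A s c.1, ev_mem_invariants A s hs c⟩ := by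
  rw [toH2_apply, H2π_eq_iff]
  exact ⟨_, (cocycle₂_sub_cyc2 A s hs c).symm⟩

theorem toH2_surjective : Function.Surjective (toH2 A s hs) := by
  intro h
  induction h using H2_induction_on with
  | h c => exact ⟨_, (H2π_eq_toH2 A s hs c).symm⟩

/-- `H²(G, A) = A^G / N A` for a finite cyclic group with generator `s`:
the class of `a` corresponds to the cocycle `(x, y) ↦ a` if `dlog x + dlog y ≥ n`, `0` otherwise
(i.e. to `a ∪ δχ_s` where `χ_s : G → ℚ/ℤ` sends `s` to `1/n`). -/
noncomputable def cyclicH2Equiv : (A.ρ.invariants ⧸ normRange A) ≃ₗ[k] H2 A :=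
  LinearEquiv.ofBijective ((normRange A).liftQ (toH2 A s hs) fun a ha => by
      rw [LinearMap.mem_ker]
      exact (toH2_eq_zero_iff A s hs a).2 ha) ⟨by
    rw [← LinearMap.ker_eq_bot, Submodule.ker_liftQ, Submodule.eq_bot_iff]
    rintro _ ⟨a, ha, rfl⟩
    rw [Submodule.mkQ_apply, Submodule.Quotient.mk_eq_zero]
    exact (toH2_eq_zero_iff A s hs a).1 ha, by
    intro h
    obtain ⟨a, rfl⟩ := toH2_surjective A s hs h
    exact ⟨Submodule.Quotient.mk a, rfl⟩⟩

@[simp] theorem cyclicH2Equiv_mk (a : A.ρ.invariants) :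
    cyclicH2Equiv A s hs (Submodule.Quotient.mk a) = H2π A (cyc2Cocycle A s hs a) := rfl

/-- The inverse of `cyclicH2Equiv` sends the class of a cocycle `c` to `∑_{j < n} c (s ^ j, s)`. -/
theorem cyclicH2Equiv_symm_H2π (c : cocycles₂ A) :
    (cyclicH2Equiv A s hs).symm (H2π A c) =
      Submodule.Quotient.mk ⟨ev A s c.1, ev_mem_invariants A s hs c⟩ := by
  rw [LinearEquiv.symm_apply_eq, cyclicH2Equiv_mk]
  exact H2π_eq_toH2 A s hs c

end H2

section Naturality

variable {A} {B : Rep k G} (f : A ⟶ B)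

theorem hom_cyc1 (y : A) (x : G) : f.hom (cyc1 A s hs y x) = cyc1 B s hs (f.hom y) x := by
  simp only [cyc1, F, psum, orb, map_sum, Rep.hom_comm_apply]

theorem hom_cyc2 (a : A) (p : G × G) : f.hom (cyc2 A s hs a p) = cyc2 B s hs (f.hom a) p := by
  simp only [cyc2]
  rw [apply_ite f.hom, map_zero]

/-- Naturality of `cyclicH1Equiv` in the representation. -/
theorem cyclicH1Equiv_naturality (h : LinearMap.ker A.ρ.norm ⧸ augSubmodule A) :
    groupCohomology.map (MonoidHom.id G) f 1 (cyclicH1Equiv A s hs h) =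
      cyclicH1Equiv B s hs (tateNegOneMap f h) := by
  induction h using Submodule.Quotient.induction_on with
  | H y =>
    rw [cyclicH1Equiv_mk]
    change _ = cyclicH1Equiv B s hs (Submodule.Quotient.mk (kerNormMap f y))
    rw [cyclicH1Equiv_mk, H1π_comp_map_apply]
    congr 1
    apply Subtype.ext
    funext x
    exact hom_cyc1 s hs f y.1 x

/-- Naturality of `cyclicH2Equiv` in the representation. -/
theorem cyclicH2Equiv_naturality (h : A.ρ.invariants ⧸ normRange A) :
    groupCohomology.map (MonoidHom.id G) f 2 (cyclicH2Equiv A s hs h) =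
      cyclicH2Equiv B s hs (tateZeroMap f h) := by
  induction h using Submodule.Quotient.induction_on with
  | H a =>
    rw [cyclicH2Equiv_mk]
    change _ = cyclicH2Equiv B s hs (Submodule.Quotient.mk (invariantsMap f a))
    rw [cyclicH2Equiv_mk, H2π_comp_map_apply]
    congr 1
    apply Subtype.ext
    funext p
    exact hom_cyc2 s hs f a.1 p

end Naturality

section Tate

/-- `Ĥ⁰(G, A) ≃ H²(G, A)` for a finite cyclic group with a chosen generator `s`
(both are `A^G / N A`). -/
noncomputable def tateZeroEquivH2 : tateCohomology A 0 ≃ₗ[k] H2 A :=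
  (tateZeroEquiv A).symm.trans (cyclicH2Equiv A s hs)

/-- `Ĥ⁻¹(G, A) ≃ H¹(G, A)` for a finite cyclic group with a chosen generator `s`
(both are `ker N / I_G A`). -/
noncomputable def tateNegOneEquivH1 : tateCohomology A (-1) ≃ₗ[k] H1 A :=
  (tateNegOneEquiv A).symm.trans (cyclicH1Equiv A s hs)

theorem tateZeroEquivH2_π₀ (a : A.ρ.invariants) :
    tateZeroEquivH2 A s hs (π₀ A a) = H2π A (cyc2Cocycle A s hs a) := by
  rw [← tateZeroEquiv_mk, tateZeroEquivH2, LinearEquiv.trans_apply, LinearEquiv.symm_apply_apply,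
    cyclicH2Equiv_mk]

theorem tateNegOneEquivH1_πm1 (y : LinearMap.ker A.ρ.norm) :
    tateNegOneEquivH1 A s hs (πm1 A y) = H1π A (cyc1Cocycle A s hs y) := by
  rw [← tateNegOneEquiv_mk, tateNegOneEquivH1, LinearEquiv.trans_apply,
    LinearEquiv.symm_apply_apply, cyclicH1Equiv_mk]

variable {A} in
theorem tateZeroEquivH2_naturality {B : Rep k G} (f : A ⟶ B) (h : tateCohomology A 0) :
    groupCohomology.map (MonoidHom.id G) f 2 (tateZeroEquivH2 A s hs h) =
      tateZeroEquivH2 B s hs ((tateCohomologyFunctor 0).map f h) := by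
  obtain ⟨q, rfl⟩ := (tateZeroEquiv A).surjective h
  rw [tateZeroEquiv_naturality, tateZeroEquivH2, tateZeroEquivH2, LinearEquiv.trans_apply,
    LinearEquiv.trans_apply, LinearEquiv.symm_apply_apply, LinearEquiv.symm_apply_apply,
    cyclicH2Equiv_naturality]

variable {A} in
theorem tateNegOneEquivH1_naturality {B : Rep k G} (f : A ⟶ B) (h : tateCohomology A (-1)) :
    groupCohomology.map (MonoidHom.id G) f 1 (tateNegOneEquivH1 A s hs h) =
      tateNegOneEquivH1 B s hs ((tateCohomologyFunctor (-1)).map f h) := by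
  obtain ⟨q, rfl⟩ := (tateNegOneEquiv A).surjective h
  rw [tateNegOneEquiv_naturality, tateNegOneEquivH1, tateNegOneEquivH1, LinearEquiv.trans_apply,
    LinearEquiv.trans_apply, LinearEquiv.symm_apply_apply, LinearEquiv.symm_apply_apply,
    cyclicH1Equiv_naturality]

end Tate

end Rep

section Mul

/-! Unfolding lemmas for the multiplicative representation `Rep.ofMulDistribMulAction G M`. -/

variable {G M : Type} [Group G] [Fintype G] [CommGroup M] [MulDistribMulAction G M] (s : G)
  (hs : ∀ x, x ∈ Subgroup.zpowers s)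

local notation "n" => Fintype.card G

theorem toMul_psum (u : ℕ → Additive M) (m : ℕ) :
    Additive.toMul (psum u m) = ∏ j ∈ Finset.range m, Additive.toMul (u j) := by
  simp only [psum, toMul_sum]

@[simp] theorem toMul_cyc2 (a : Additive M) (x y : G) :
    Additive.toMul (α := M) (cyc2 (Rep.ofMulDistribMulAction G M) s hs a (x, y)) =
      if n ≤ dlog s hs x + dlog s hs y then Additive.toMul a else 1 := by
  by_cases h : n ≤ dlog s hs x + dlog s hs y
  · rw [if_pos h]
    exact congrArg (Additive.toMul (α := M))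
      (if_pos h : cyc2 (Rep.ofMulDistribMulAction G M) s hs a (x, y) = a)
  · rw [if_neg h]
    exact congrArg (Additive.toMul (α := M))
      (if_neg h : cyc2 (Rep.ofMulDistribMulAction G M) s hs a (x, y) = 0)

theorem cyc2_ofMul (a : M) :
    cyc2 (Rep.ofMulDistribMulAction G M) s hs (Additive.ofMul a) =
      fun p => Additive.ofMul (if n ≤ dlog s hs p.1 + dlog s hs p.2 then a else 1) := by
  funext p
  obtain ⟨x, y⟩ := p
  apply Additive.toMul.injective
  exact toMul_cyc2 s hs (Additive.ofMul a) x y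

@[simp] theorem toMul_cyc1 (y : Additive M) (x : G) :
    Additive.toMul (α := M) (cyc1 (Rep.ofMulDistribMulAction G M) s hs y x) =
      ∏ j ∈ Finset.range (dlog s hs x), s ^ j • Additive.toMul y := by
  have h : cyc1 (Rep.ofMulDistribMulAction G M) s hs y x =
      psum (M := Additive M) (fun j => Additive.ofMul (s ^ j • Additive.toMul y))
        (dlog s hs x) := rfl
  rw [h, toMul_psum]
  rfl

theorem cyc1_ofMul (y : M) :
    cyc1 (Rep.ofMulDistribMulAction G M) s hs (Additive.ofMul y) =
      fun x => Additive.ofMul (∏ j ∈ Finset.range (dlog s hs x), s ^ j • y) := by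
  funext x
  apply Additive.toMul.injective
  exact toMul_cyc1 s hs (Additive.ofMul y) x

@[simp] theorem toMul_ev (c : G × G → Additive M) :
    Additive.toMul (α := M) (ev (Rep.ofMulDistribMulAction G M) s c) =
      ∏ j ∈ Finset.range n, Additive.toMul (c (s ^ j, s)) := by
  have h : ev (Rep.ofMulDistribMulAction G M) s c =
      psum (M := Additive M) (fun j => c (s ^ j, s)) n := rfl
  rw [h, toMul_psum]

theorem mem_invariants_ofMul (a : Additive M) :
    a ∈ (Rep.ofMulDistribMulAction G M).ρ.invariants ↔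
      ∀ g : G, g • Additive.toMul a = Additive.toMul a :=
  Iff.rfl

theorem mem_normRange_ofMul (a : (Rep.ofMulDistribMulAction G M).ρ.invariants) :
    a ∈ normRange (Rep.ofMulDistribMulAction G M) ↔
      ∃ b : M, ∏ g : G, g • b = Additive.toMul (a.1 : Additive M) := by
  rw [mem_normRange]
  constructor
  · rintro ⟨b, hb⟩
    refine ⟨Additive.toMul (b : Additive M), ?_⟩
    rw [← hb]
    exact (Representation.norm_ofMulDistribMulAction_eq (G := G) (M := M) b).symm
  · rintro ⟨b, hb⟩
    refine ⟨Additive.ofMul b, ?_⟩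
    apply Additive.toMul.injective
    rw [← hb]
    exact Representation.norm_ofMulDistribMulAction_eq (G := G) (M := M) (Additive.ofMul b)

end Mul

end Fermat.Agent.Lib.CFT.Coh.CyclicExplicit
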