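/-
Bridge between `Coh/CyclicExplicit` (`cyc2`, `cyclicH2Equiv`) and the scalar-cocycle classes of
`Global/ClassFormation/ScalarCocycle`: the carry cocycle of a finite cyclic group.
-/
import Fermat.Agent.Lib.CFT.Coh.CyclicExplicit
import Fermat.Agent.Lib.CFT.Global.ClassFormation.ScalarCocycle

set_option autoImplicit false
set_option linter.unusedSectionVars false

namespace Fermat.Agent.Lib.CFT.Coh.CyclicCarry

open CategoryTheory groupCohomology
open Fermat.Agent.Lib.CFT.Coh.TateLow Fermat.Agent.Lib.CFT.Coh.CyclicExplicit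
open Fermat.Agent.Lib.CFT.Global.ClassFormation

universe u

variable {k G : Type u} [CommRing k] [Group G] [Fintype G] (s : G)
  (hs : ∀ x, x ∈ Subgroup.zpowers s)

local notation "n" => Fintype.card G

/-- The carry cocycle `(x, y) ↦ 1` if `dlog x + dlog y ≥ n`, `0` otherwise
(`= δχ_s` for the character `χ_s : G → ℚ/ℤ`, `s ↦ 1/n`). -/
noncomputable def carry (x y : G) : k := if n ≤ dlog s hs x + dlog s hs y then 1 else 0

theorem carry_apply (x y : G) :
    carry (k := k) s hs x y = if n ≤ dlog s hs x + dlog s hs y then 1 else 0 := rfl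

theorem carry_isScalarCocycle : IsScalarCocycle (carry (k := k) s hs) := by
  intro g h j
  simp only [carry, dlog_mul]
  have hi := dlog_lt s hs g
  have hm := dlog_lt s hs h
  have hl := dlog_lt s hs j
  generalize dlog s hs g = i at hi ⊢
  generalize dlog s hs h = m at hm ⊢
  generalize dlog s hs j = l at hl ⊢
  rcases Nat.lt_or_ge (i + m) n with h1 | h1 <;> rcases Nat.lt_or_ge (m + l) n with h2 | h2
  · rw [Nat.mod_eq_of_lt h1, Nat.mod_eq_of_lt h2]
    split_ifs <;> first | omega | abel
  · rw [Nat.mod_eq_of_lt h1, mod_of_ge h2 (by omega)]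
    split_ifs <;> first | omega | abel
  · rw [mod_of_ge h1 (by omega), Nat.mod_eq_of_lt h2]
    split_ifs <;> first | omega | abel
  · rw [mod_of_ge h1 (by omega), mod_of_ge h2 (by omega)]
    split_ifs <;> first | omega | abel

variable (A : Rep k G)

theorem cyc2_eq_scalarCochain (a : A) :
    cyc2 A s hs a = scalarCochain A (carry (k := k) s hs) a := by
  funext p
  simp only [cyc2, scalarCochain, carry]
  split_ifs <;> simp

theorem cyc2Cocycle_eq_scalarCocycle (a : A.ρ.invariants) :
    cyc2Cocycle A s hs a = scalarCocycle A (carry_isScalarCocycle (k := k) s hs) a :=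
  Subtype.ext (cyc2_eq_scalarCochain s hs A a.1)

/-- The class of `cyc2 a` is the scalar class of the carry cocycle. -/
theorem toH2_eq_scalarClass :
    toH2 A s hs = scalarClass A (carry_isScalarCocycle (k := k) s hs) := by
  ext a
  rw [toH2_apply, scalarClass_apply, cyc2Cocycle_eq_scalarCocycle]

theorem cyclicH2Equiv_mk_eq_scalarClass (a : A.ρ.invariants) :
    cyclicH2Equiv A s hs (Submodule.Quotient.mk a) =
      scalarClass A (carry_isScalarCocycle (k := k) s hs) a := by
  rw [cyclicH2Equiv_mk, ← toH2_apply, toH2_eq_scalarClass]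

/-- Every class in `H²` of a finite cyclic group is a scalar class of the carry cocycle. -/
theorem exists_scalarClass_eq (h : H2 A) :
    ∃ a : A.ρ.invariants, scalarClass A (carry_isScalarCocycle (k := k) s hs) a = h := by
  obtain ⟨a, rfl⟩ := toH2_surjective A s hs h
  exact ⟨a, by rw [toH2_eq_scalarClass]⟩

theorem scalarClass_carry_eq_zero_iff (a : A.ρ.invariants) :
    scalarClass A (carry_isScalarCocycle (k := k) s hs) a = 0 ↔ a ∈ normRange A := by
  rw [← toH2_eq_scalarClass, toH2_eq_zero_iff]

end Fermat.Agent.Lib.CFT.Coh.CyclicCarry
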