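/-
Functoriality of the explicit description `H²(G, A) = A^G / N A` for a finite cyclic group `G`:
change of generator, restriction to a subgroup, inflation from a quotient.
-/
import Fermat.Agent.Lib.CFT.Coh.CyclicExplicit
import Fermat.Agent.Lib.CFT.Coh.InfRes

set_option autoImplicit false
set_option linter.unusedSectionVars false

namespace Fermat.Agent.Lib.CFT.Coh.CyclicFunct

open CategoryTheory groupCohomology
open Fermat.Agent.Lib.CFT.Coh.TateLow Fermat.Agent.Lib.CFT.Coh.CyclicExplicit

universe u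

section Counting

variable {M : Type*} [AddCommGroup M]

/-- `#{r < N : N ≤ r + k} = k` for `k ≤ N`. -/
theorem sum_range_carry (N k : ℕ) (hk : k ≤ N) (a : M) :
    ∑ r ∈ Finset.range N, (if N ≤ r + k then a else 0) = k • a := by
  rw [← Finset.sum_filter, Finset.sum_const]
  congr 1
  have : (Finset.range N).filter (fun r => N ≤ r + k) = Finset.Ico (N - k) N := by
    ext r
    simp only [Finset.mem_filter, Finset.mem_range, Finset.mem_Ico]
    omega
  rw [this, Nat.card_Ico]
  omega

theorem sum_range_last (m : ℕ) (hm : 1 ≤ m) (a : M) :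
    ∑ i ∈ Finset.range m, (if m ≤ i + 1 then a else 0) = a := by
  simpa using sum_range_carry m 1 hm a

/-- `#{j < m * r : j % m = m - 1} = r`. -/
theorem sum_range_mul_carry (m r : ℕ) (hm : 1 ≤ m) (a : M) :
    ∑ j ∈ Finset.range (m * r), (if m ≤ j % m + 1 then a else 0) = r • a := by
  induction r with
  | zero => simp
  | succ r ih =>
    rw [Nat.mul_succ, Finset.sum_range_add, ih, succ_nsmul]
    congr 1
    refine Eq.trans (Finset.sum_congr rfl fun i hi => ?_) (sum_range_last m hm a)
    rw [Nat.mul_add_mod, Nat.mod_eq_of_lt (Finset.mem_range.1 hi)]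

end Counting

section ChangeGen

variable {k G : Type u} [CommRing k] [Group G] [Fintype G] (A : Rep k G) (s s' : G)
  (hs : ∀ x, x ∈ Subgroup.zpowers s) (hs' : ∀ x, x ∈ Subgroup.zpowers s')

local notation "n" => Fintype.card G

include hs' in
/-- Evaluating (with respect to the generator `s'`) the standard cocycle attached to the
generator `s`. -/
theorem ev_cyc2_other (a : A) : ev A s' (cyc2 A s hs a) = dlog s hs s' • a := by
  rw [ev_apply, ← sum_eq_sum_range s' hs' (fun x => cyc2 A s hs a (x, s')),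
    sum_eq_sum_range s hs]
  rw [← sum_range_carry n (dlog s hs s') (dlog_lt s hs s').le a]
  apply Finset.sum_congr rfl
  intro r hr
  rw [cyc2_apply, dlog_pow s hs (Finset.mem_range.1 hr)]

/-- Change of generator: if `s' = s ^ k` then `[cyc2 s a] = k • [cyc2 s' a]`
(`χ_s = k χ_{s'}`). -/
theorem H2π_cyc2_change_generator (a : A.ρ.invariants) :
    H2π A (cyc2Cocycle A s hs a) = H2π A (cyc2Cocycle A s' hs' (dlog s hs s' • a)) := by
  rw [H2π_eq_toH2 A s' hs' (cyc2Cocycle A s hs a), toH2_apply]
  have h : (⟨ev A s' (cyc2Cocycle A s hs a).1, ev_mem_invariants A s' hs' _⟩ : A.ρ.invariants) =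
      dlog s hs s' • a := Subtype.ext (ev_cyc2_other A s s' hs hs' a.1)
  rw [h]

theorem cyclicH2Equiv_change_generator (q : A.ρ.invariants ⧸ normRange A) :
    cyclicH2Equiv A s hs q = dlog s hs s' • cyclicH2Equiv A s' hs' q := by
  induction q using Submodule.Quotient.induction_on with
  | H a =>
    rw [cyclicH2Equiv_mk, cyclicH2Equiv_mk, H2π_cyc2_change_generator A s s' hs hs' a,
      map_nsmul, map_nsmul]

end ChangeGen

section General

variable {k G : Type u} [CommRing k] [Group G] [Fintype G] (A : Rep k G) (s : G)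
  (hs : ∀ x, x ∈ Subgroup.zpowers s)

local notation "n" => Fintype.card G

theorem cyc2_eq_zero_of_card_le_one (h1 : n ≤ 1) (a : A) : cyc2 A s hs a = 0 := by
  funext p
  have h := dlog_lt s hs p.1
  have h' := dlog_lt s hs p.2
  simp only [cyc2, Pi.zero_apply]
  rw [if_neg (by omega)]

/-- To identify the class of a `2`-cocycle `c` it suffices to compute `∑_{j < n} c (s ^ j, s)`. -/
theorem H2π_eq_of_ev_eq (c : cocycles₂ A) (a : A.ρ.invariants) (h : ev A s c.1 = a.1) :
    H2π A c = H2π A (cyc2Cocycle A s hs a) := by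
  rw [H2π_eq_toH2 A s hs c, toH2_apply]
  have h' : (⟨ev A s c.1, ev_mem_invariants A s hs c⟩ : A.ρ.invariants) = a := Subtype.ext h
  rw [h']

end General

section Restriction

variable {k G : Type u} [CommRing k] [Group G] [Fintype G] (A : Rep k G) (s : G)
  (hs : ∀ x, x ∈ Subgroup.zpowers s) (H : Subgroup G) [Fintype H] (t : H)
  (ht : ∀ x, x ∈ Subgroup.zpowers t) (d : ℕ) (htd : (t : G) = s ^ d)
  (hd : d * Fintype.card H = Fintype.card G)

local notation "n" => Fintype.card G

/-- An invariant of `G` is an invariant of the subgroup `H`. -/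
def resInvariants (a : A.ρ.invariants) : (Rep.res H.subtype A).ρ.invariants :=
  ⟨a.1, fun h => a.2 h.1⟩

@[simp] theorem resInvariants_coe (a : A.ρ.invariants) : (resInvariants A H a).1 = a.1 := rfl

theorem coe_rest_cocycle (c : cocycles₂ A) (x y : H) :
    (mapCocycles₂ H.subtype (𝟙 (Rep.res H.subtype A)) c).1 (x, y) = c.1 (x.1, y.1) := rfl

include htd hd in
theorem ev_rest_cyc2 (h2 : 2 ≤ Fintype.card H) (a : A) :
    ∑ j ∈ Finset.range (Fintype.card H), cyc2 A s hs a (((t ^ j : H) : G), (t : G)) = a := by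
  have hn : 0 < n := Fintype.card_pos
  have hd1 : 1 ≤ d := by
    rcases Nat.eq_zero_or_pos d with h0 | h0
    · rw [h0, zero_mul] at hd; omega
    · exact h0
  have hdn : d < n := by
    rw [← hd]
    nlinarith
  refine Eq.trans (Finset.sum_congr rfl fun j hj => ?_) (sum_range_last (Fintype.card H) (by omega) a)
  have hj' := Finset.mem_range.1 hj
  have hdj : d * j < n := by
    rw [← hd]
    exact Nat.mul_lt_mul_of_pos_left hj' hd1
  rw [cyc2_apply, Subgroup.coe_pow, htd, ← pow_mul, dlog_pow s hs hdj, dlog_pow s hs hdn]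
  have hiff : n ≤ d * j + d ↔ Fintype.card H ≤ j + 1 := by
    rw [← hd, ← Nat.mul_succ]
    exact Nat.mul_le_mul_left_iff hd1
  simp only [hiff]

include htd hd in
/-- Restriction to the subgroup generated by `t = s ^ d` (`d ∣ n`): `res [cyc2 s a] = [cyc2 t a]`. -/
theorem rest_H2π_cyc2 (a : A.ρ.invariants) :
    groupCohomology.map H.subtype (𝟙 (Rep.res H.subtype A)) 2 (H2π A (cyc2Cocycle A s hs a)) =
      H2π (Rep.res H.subtype A) (cyc2Cocycle (Rep.res H.subtype A) t ht (resInvariants A H a)) := by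
  rw [H2π_comp_map_apply]
  rcases Nat.lt_or_ge (Fintype.card H) 2 with h1 | h2
  · -- trivial subgroup: both cocycles vanish
    congr 1
    apply Subtype.ext
    change _ = cyc2 (Rep.res H.subtype A) t ht a.1
    rw [cyc2_eq_zero_of_card_le_one _ t ht (by omega)]
    funext p
    obtain ⟨x, y⟩ := p
    have hx : x = 1 := eq_one_of_card_le_one (by omega) x
    have hy : y = 1 := eq_one_of_card_le_one (by omega) y
    subst hx hy
    change cyc2 A s hs a.1 (1, 1) = 0
    rw [cyc2_apply, dlog_one, if_neg (by have := Fintype.card_pos (α := G); omega)]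
  · apply H2π_eq_of_ev_eq (Rep.res H.subtype A) t ht
    rw [ev_apply, resInvariants_coe]
    exact ev_rest_cyc2 A s hs H t d htd hd h2 a.1

end Restriction

section RestrictionDvd

variable {k G : Type u} [CommRing k] [Group G] [Fintype G] (A : Rep k G) (s : G)
  (hs : ∀ x, x ∈ Subgroup.zpowers s) (H : Subgroup G) [Fintype H] (t : H)
  (ht : ∀ x, x ∈ Subgroup.zpowers t) (d : ℕ) (htd : (t : G) = s ^ d)

include hs ht htd in
/-- If `t = s ^ d` generates `H` and `d ∣ |G|`, then `d * |H| = |G|`. -/
theorem mul_card_eq_of_dvd (hdvd : d ∣ Fintype.card G) :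
    d * Fintype.card H = Fintype.card G := by
  have hd0 : d ≠ 0 := by
    rintro rfl
    have := Fintype.card_pos (α := G)
    rw [zero_dvd_iff] at hdvd
    omega
  have h1 : Fintype.card H = orderOf t := (orderOf_eq_card t ht).symm
  have h2 : orderOf t = orderOf (t : G) := (Subgroup.orderOf_coe t).symm
  rw [h1, h2, htd, orderOf_pow_of_dvd hd0 (by rw [orderOf_eq_card s hs]; exact hdvd),
    orderOf_eq_card s hs]
  exact Nat.mul_div_cancel' hdvd

end RestrictionDvd

section Inflation

variable {k G : Type u} [CommRing k] [Group G] [Fintype G] (A : Rep k G) (s : G)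
  (hs : ∀ x, x ∈ Subgroup.zpowers s) (N : Subgroup G) [N.Normal] [Fintype (G ⧸ N)]
  (r : ℕ) (hr : Fintype.card (G ⧸ N) * r = Fintype.card G)

local notation "n" => Fintype.card G
local notation "m" => Fintype.card (G ⧸ N)

include hs in
/-- The image of a generator generates the quotient. -/
theorem mk_mem_zpowers (x : G ⧸ N) : x ∈ Subgroup.zpowers (s : G ⧸ N) := by
  induction x using QuotientGroup.induction_on with
  | H g =>
    obtain ⟨z, rfl⟩ := Subgroup.mem_zpowers_iff.1 (hs g)
    exact Subgroup.mem_zpowers_iff.2 ⟨z, (QuotientGroup.mk_zpow N s z).symm⟩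

/-- An invariant of `G ⧸ N` in `A^N` is an invariant of `G` in `A`. -/
def inflInvariants (b : (A.quotientToInvariants N).ρ.invariants) : A.ρ.invariants :=
  ⟨b.1.1, fun g => congrArg Subtype.val (b.2 (g : G ⧸ N))⟩

@[simp] theorem inflInvariants_coe (b : (A.quotientToInvariants N).ρ.invariants) :
    (inflInvariants A N b).1 = b.1.1 := rfl

theorem coe_infl_cocycle (c : cocycles₂ (A.quotientToInvariants N)) (x y : G) :
    (mapCocycles₂ (QuotientGroup.mk' N) (Rep.ofHom <| A.ρ.quotientToInvariants_lift N) c).1 (x, y) =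
      (c.1 ((x : G ⧸ N), (y : G ⧸ N))).1 := rfl

include hr in
theorem ev_infl_cyc2 (h2 : 2 ≤ m) (b : A.quotientToInvariants N) :
    ∑ j ∈ Finset.range n,
      (cyc2 (A.quotientToInvariants N) (s : G ⧸ N) (mk_mem_zpowers s hs N) b
        (((s ^ j : G) : G ⧸ N), (s : G ⧸ N))).1 = r • b.1 := by
  rw [← hr]
  refine Eq.trans (Finset.sum_congr rfl fun j _ => ?_) (sum_range_mul_carry m r (by omega) b.1)
  have hsbar := mk_mem_zpowers s hs N
  have hj : dlog (s : G ⧸ N) hsbar ((s ^ j : G) : G ⧸ N) = j % m := by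
    apply dlog_unique _ hsbar (Nat.mod_lt _ (by omega))
    rw [QuotientGroup.mk_pow]
    conv_lhs => rw [← orderOf_eq_card _ hsbar]
    exact pow_mod_orderOf _ _
  rw [cyc2_apply, hj, dlog_self _ hsbar h2]
  split_ifs <;> rfl

include hr in
/-- Inflation from the cyclic quotient `G ⧸ N` (generated by the image of `s`):
`inf [cyc2 s̄ b] = [cyc2 s (|N| • b)]`, where `r = |N|` is given by `|G ⧸ N| * r = |G|`. -/
theorem infl_H2π_cyc2 (b : (A.quotientToInvariants N).ρ.invariants) :
    groupCohomology.map (QuotientGroup.mk' N) (Rep.ofHom <| A.ρ.quotientToInvariants_lift N) 2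
      (H2π _ (cyc2Cocycle (A.quotientToInvariants N) (s : G ⧸ N) (mk_mem_zpowers s hs N) b)) =
      H2π A (cyc2Cocycle A s hs (r • inflInvariants A N b)) := by
  rcases Nat.lt_or_ge m 2 with h1 | h2
  · -- trivial quotient: the left side vanishes, and `n • b` is a norm
    have hz : cyc2Cocycle (A.quotientToInvariants N) (s : G ⧸ N) (mk_mem_zpowers s hs N) b = 0 := by
      apply Subtype.ext
      exact cyc2_eq_zero_of_card_le_one _ _ _ (by omega) _
    rw [hz, map_zero, map_zero]
    symm
    rw [← toH2_apply, toH2_eq_zero_iff]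
    have hm1 : m = 1 := by
      have := Fintype.card_pos (α := G ⧸ N)
      omega
    have hrn : r = n := by rw [← hr, hm1, one_mul]
    refine ⟨(inflInvariants A N b).1, ?_⟩
    rw [norm_of_mem_invariants, hrn]
    rfl
  · rw [H2π_comp_map_apply]
    apply H2π_eq_of_ev_eq A s hs
    rw [ev_apply]
    exact ev_infl_cyc2 A s hs N r hr h2 b.1

end Inflation

section Corollaries

variable {k G : Type u} [CommRing k] [Group G] [Fintype G] (A : Rep k G) (s : G)
  (hs : ∀ x, x ∈ Subgroup.zpowers s)

/-- `|G ⧸ N| * |N| = |G|`. -/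
theorem card_quotient_mul_natCard (N : Subgroup G) [N.Normal] [Fintype (G ⧸ N)] :
    Fintype.card (G ⧸ N) * Nat.card N = Fintype.card G := by
  rw [← Nat.card_eq_fintype_card, ← Nat.card_eq_fintype_card]
  exact (Subgroup.card_eq_card_quotient_mul_card_subgroup N).symm

/-- Inflation in terms of `InfRes.infl`, with `|N|` as `Nat.card N`. -/
theorem infl_cyclicH2Equiv (N : Subgroup G) [N.Normal] [Fintype (G ⧸ N)]
    (b : (A.quotientToInvariants N).ρ.invariants) :
    InfRes.infl A N 2 (cyclicH2Equiv (A.quotientToInvariants N) (s : G ⧸ N)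
      (mk_mem_zpowers s hs N) (Submodule.Quotient.mk b)) =
      cyclicH2Equiv A s hs (Submodule.Quotient.mk (Nat.card N • inflInvariants A N b)) := by
  rw [cyclicH2Equiv_mk, cyclicH2Equiv_mk]
  exact infl_H2π_cyc2 A s hs N (Nat.card N) (card_quotient_mul_natCard N) b

/-- Restriction in terms of `InfRes.rest` (for a normal subgroup `N` generated by `t = s ^ d`,
`d ∣ |G|`). -/
theorem rest_cyclicH2Equiv (N : Subgroup G) [N.Normal] [Fintype N] (t : N)
    (ht : ∀ x, x ∈ Subgroup.zpowers t) (d : ℕ) (htd : (t : G) = s ^ d)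
    (hdvd : d ∣ Fintype.card G) (a : A.ρ.invariants) :
    InfRes.rest A N 2 (cyclicH2Equiv A s hs (Submodule.Quotient.mk a)) =
      cyclicH2Equiv (Rep.res N.subtype A) t ht (Submodule.Quotient.mk (resInvariants A N a)) := by
  rw [cyclicH2Equiv_mk, cyclicH2Equiv_mk]
  exact rest_H2π_cyc2 A s hs N t ht d htd (mul_card_eq_of_dvd s hs N t ht d htd hdvd) a

end Corollaries

end Fermat.Agent.Lib.CFT.Coh.CyclicFunct
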