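/-
Cohomology of a finite group commutes with directed unions and with arbitrary products of
coefficient modules (group cohomology and Tate cohomology).
-/
import Fermat.Agent.Lib.CFT.Coh.TateLow
import Fermat.Agent.Lib.CFT.Coh.Induced

set_option autoImplicit false
set_option linter.unusedSectionVars false

namespace Fermat.Agent.Lib.CFT.Coh.DirectedUnion

open CategoryTheory groupCohomology groupHomology
open Fermat.Agent.Lib.CFT.Coh.TateLow

universe u v

/-! ### Abstract statements for complexes of modules -/

section Complexes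

variable {R : Type u} [Ring R] {α : Type*} {c : ComplexShape α}

/-- An element killed by the differential is (the image of) a cycle. -/
theorem exists_cycle_of_d_eq_zero (K : HomologicalComplex (ModuleCat.{u} R) c) (i j : α)
    (hj : c.next i = j) (x : K.X i) (hx : K.d i j x = 0) :
    ∃ z : K.cycles i, K.iCycles i z = x := by
  have hex : (ShortComplex.mk (K.iCycles i) (K.d i j) (K.iCycles_d i j)).Exact :=
    ShortComplex.exact_of_f_is_kernel _ (K.cyclesIsKernel i j hj)
  rw [ShortComplex.moduleCat_exact_iff] at hex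
  exact hex x hx

theorem iCycles_cyclesMap {K L : HomologicalComplex (ModuleCat.{u} R) c} (φ : K ⟶ L) (n : α)
    (z : K.cycles n) :
    L.iCycles n (HomologicalComplex.cyclesMap φ n z) = φ.f n (K.iCycles n z) :=
  congr($(HomologicalComplex.cyclesMap_i φ n) z)

theorem homologyMap_homologyπ {K L : HomologicalComplex (ModuleCat.{u} R) c} (φ : K ⟶ L) (n : α)
    (z : K.cycles n) :
    HomologicalComplex.homologyMap φ n (K.homologyπ n z) =
      L.homologyπ n (HomologicalComplex.cyclesMap φ n z) :=
  congr($(HomologicalComplex.homologyπ_naturality φ n) z)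

theorem iCycles_toCycles (K : HomologicalComplex (ModuleCat.{u} R) c) (i j : α) (x : K.X i) :
    K.iCycles j (K.toCycles i j x) = K.d i j x :=
  congr($(K.toCycles_i i j) x)

theorem d_comm_apply {K L : HomologicalComplex (ModuleCat.{u} R) c} (φ : K ⟶ L) (i j : α)
    (x : K.X i) : L.d i j (φ.f i x) = φ.f j (K.d i j x) :=
  congr($(φ.comm i j) x)

end Complexes

section DirectedComplexes

variable {R : Type u} [Ring R] {α : Type*} {c : ComplexShape α}
  {ι : Type*} [Preorder ι] [IsDirected ι (· ≤ ·)]
  (K : HomologicalComplex (ModuleCat.{u} R) c)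
  (L : ι → HomologicalComplex (ModuleCat.{u} R) c)
  (p : ∀ i, L i ⟶ K)
  (t : ∀ ⦃i j : ι⦄, i ≤ j → (L i ⟶ L j))
  (htp : ∀ ⦃i j : ι⦄ (h : i ≤ j), t h ≫ p j = p i)
  (hinj : ∀ i n, Function.Injective ((p i).f n))
  (hsurj : ∀ n (x : K.X n), ∃ i, ∃ y : (L i).X n, (p i).f n y = x)

include hinj hsurj in
/-- Every homology class of a directed union of subcomplexes comes from a member. -/
theorem exists_homologyMap_eq (n : α) (h : K.homology n) :
    ∃ i, ∃ h' : (L i).homology n, HomologicalComplex.homologyMap (p i) n h' = h := by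
  obtain ⟨z, rfl⟩ := homologyπ_surjective K n h
  obtain ⟨i, y, hy⟩ := hsurj n (K.iCycles n z)
  have hdy : (L i).d n (c.next n) y = 0 := by
    apply hinj i (c.next n)
    rw [← d_comm_apply, hy, map_zero]
    exact congr($(K.iCycles_d n (c.next n)) z)
  obtain ⟨zi, hzi⟩ := exists_cycle_of_d_eq_zero (L i) n (c.next n) rfl y hdy
  refine ⟨i, (L i).homologyπ n zi, ?_⟩
  rw [homologyMap_homologyπ]
  congr 1
  apply iCycles_injective K n
  rw [iCycles_cyclesMap, hzi, hy]

include htp hinj hsurj in
/-- A class of a member dying in the union already dies in a larger member. -/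
theorem exists_homologyMap_trans_eq_zero (n : α) (i : ι) (h' : (L i).homology n)
    (hz : HomologicalComplex.homologyMap (p i) n h' = 0) :
    ∃ j, ∃ hij : i ≤ j, HomologicalComplex.homologyMap (t hij) n h' = 0 := by
  obtain ⟨zi, rfl⟩ := homologyπ_surjective (L i) n h'
  rw [homologyMap_homologyπ, homologyπ_eq_zero_iff K (c.prev n) n rfl] at hz
  obtain ⟨w, hw⟩ := hz
  obtain ⟨j0, v0, hv0⟩ := hsurj (c.prev n) w
  obtain ⟨j, hij, hj0j⟩ := exists_ge_ge i j0
  refine ⟨j, hij, ?_⟩
  obtain ⟨v, hpv⟩ : ∃ v : (L j).X (c.prev n), (p j).f (c.prev n) v = w :=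
    ⟨(t hj0j).f (c.prev n) v0, by rw [← hv0, ← htp hj0j]; rfl⟩
  rw [homologyMap_homologyπ, homologyπ_eq_zero_iff (L j) (c.prev n) n rfl]
  refine ⟨v, ?_⟩
  apply iCycles_injective (L j) n
  apply hinj j n
  have h1 : (p j).f n ((t hij).f n ((L i).iCycles n zi)) = (p i).f n ((L i).iCycles n zi) := by
    rw [← htp hij]
    rfl
  rw [iCycles_toCycles, ← d_comm_apply (p j), hpv, iCycles_cyclesMap, h1, ← iCycles_cyclesMap,
    ← hw, iCycles_toCycles]

include htp in
theorem homologyMap_trans (n : α) {i j : ι} (hij : i ≤ j) (h' : (L i).homology n) :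
    HomologicalComplex.homologyMap (p j) n (HomologicalComplex.homologyMap (t hij) n h') =
      HomologicalComplex.homologyMap (p i) n h' := by
  rw [← htp hij, HomologicalComplex.homologyMap_comp]
  rfl

include htp hinj hsurj in
/-- If the homology of the members vanishes cofinally, the homology of the union vanishes. -/
theorem homology_eq_zero_of_cofinal (n : α)
    (hc : ∀ i, ∃ j, i ≤ j ∧ ∀ x : (L j).homology n, x = 0) (h : K.homology n) : h = 0 := by
  obtain ⟨i, h', rfl⟩ := exists_homologyMap_eq K L p hinj hsurj n h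
  obtain ⟨j, hij, hj⟩ := hc i
  rw [← homologyMap_trans K L p t htp n hij, hj (HomologicalComplex.homologyMap (t hij) n h'),
    map_zero]

include htp hinj hsurj in
/-- If all transition maps are bijective on homology, so are the maps to the union. -/
theorem homologyMap_bijective_of_trans (n : α)
    (hb : ∀ ⦃i j : ι⦄ (hij : i ≤ j),
      Function.Bijective (HomologicalComplex.homologyMap (t hij) n)) (i : ι) :
    Function.Bijective (HomologicalComplex.homologyMap (p i) n) := by
  constructor
  · rw [injective_iff_map_eq_zero]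
    intro h' hz
    obtain ⟨j, hij, hj⟩ := exists_homologyMap_trans_eq_zero K L p t htp hinj hsurj n i h' hz
    exact (injective_iff_map_eq_zero _).1 (hb hij).1 h' hj
  · intro h
    obtain ⟨j, g2, rfl⟩ := exists_homologyMap_eq K L p hinj hsurj n h
    obtain ⟨l, hil, hjl⟩ := exists_ge_ge i j
    obtain ⟨g3, hh⟩ := (hb hil).2 (HomologicalComplex.homologyMap (t hjl) n g2)
    refine ⟨g3, ?_⟩
    rw [← homologyMap_trans K L p t htp n hil, hh, homologyMap_trans K L p t htp n hjl]

end DirectedComplexes

section ProductComplexes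

variable {R : Type u} [Ring R] {α : Type*} {c : ComplexShape α} {ι : Type*}
  (K : HomologicalComplex (ModuleCat.{u} R) c)
  (L : ι → HomologicalComplex (ModuleCat.{u} R) c) (p : ∀ i, K ⟶ L i)
  (hinj : ∀ n (x y : K.X n), (∀ i, (p i).f n x = (p i).f n y) → x = y)
  (hsurj : ∀ n (y : ∀ i, (L i).X n), ∃ z : K.X n, ∀ i, (p i).f n z = y i)

include hinj hsurj in
/-- If a complex is (degreewise) the product of a family of complexes, its homology is the product
of the homologies: surjectivity. -/
theorem exists_homologyMap_eq_pi (n : α) (h : ∀ i, (L i).homology n) :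
    ∃ h' : K.homology n, ∀ i, HomologicalComplex.homologyMap (p i) n h' = h i := by
  have hz : ∀ i, ∃ z : (L i).cycles n, (L i).homologyπ n z = h i := fun i =>
    homologyπ_surjective (L i) n (h i)
  choose z hz using hz
  obtain ⟨w, hw⟩ := hsurj n (fun i => (L i).iCycles n (z i))
  have hdw : K.d n (c.next n) w = 0 := by
    apply hinj (c.next n)
    intro i
    rw [← d_comm_apply, hw, map_zero]
    exact congr($((L i).iCycles_d n (c.next n)) (z i))
  obtain ⟨zw, hzw⟩ := exists_cycle_of_d_eq_zero K n (c.next n) rfl w hdw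
  refine ⟨K.homologyπ n zw, fun i => ?_⟩
  rw [homologyMap_homologyπ, ← hz i]
  congr 1
  apply iCycles_injective (L i) n
  rw [iCycles_cyclesMap, hzw, hw]

include hinj hsurj in
/-- If a complex is (degreewise) the product of a family of complexes, its homology is the product
of the homologies: injectivity. -/
theorem eq_zero_of_homologyMap_eq_zero_pi (n : α) (h : K.homology n)
    (hz : ∀ i, HomologicalComplex.homologyMap (p i) n h = 0) : h = 0 := by
  obtain ⟨z, rfl⟩ := homologyπ_surjective K n h
  have hv : ∀ i, ∃ v : (L i).X (c.prev n),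
      (L i).toCycles (c.prev n) n v = HomologicalComplex.cyclesMap (p i) n z := by
    intro i
    have := hz i
    rwa [homologyMap_homologyπ, homologyπ_eq_zero_iff (L i) (c.prev n) n rfl] at this
  choose v hv using hv
  obtain ⟨w, hw⟩ := hsurj (c.prev n) v
  rw [homologyπ_eq_zero_iff K (c.prev n) n rfl]
  refine ⟨w, ?_⟩
  apply iCycles_injective K n
  apply hinj n
  intro i
  rw [iCycles_toCycles, ← d_comm_apply, hw, ← iCycles_toCycles, hv, iCycles_cyclesMap]

end ProductComplexes

/-! ### Directed covers of a representation -/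

section Cover

variable {k G : Type u} [CommRing k] [Group G]

/-- A directed cover of a representation `A`: a family of representations `M i` indexed by a
preorder, with injective maps `p i : M i ⟶ A` compatible with transition maps `t`, and jointly
surjective. -/
structure DirectedCover (A : Rep.{u} k G) (ι : Type v) [Preorder ι] : Type (max v (u + 1)) where
  /-- the members of the cover -/
  M : ι → Rep.{u} k G
  /-- the maps to the ambient representation -/
  p : ∀ i, M i ⟶ A
  /-- the transition maps -/
  t : ∀ ⦃i j : ι⦄, i ≤ j → (M i ⟶ M j)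
  t_p : ∀ ⦃i j : ι⦄ (h : i ≤ j), t h ≫ p j = p i
  inj : ∀ i, Function.Injective (p i).hom
  cover : ∀ a : A, ∃ i, ∃ b : M i, (p i).hom b = a

namespace DirectedCover

variable {A : Rep.{u} k G} {ι : Type v} [Preorder ι]

theorem t_p_apply (D : DirectedCover A ι) {i j : ι} (h : i ≤ j) (b : D.M i) :
    (D.p j).hom ((D.t h).hom b) = (D.p i).hom b := by
  rw [← D.t_p h]
  rfl

/-- The directed cover attached to a monotone family of `G`-stable submodules with union `⊤`. -/
noncomputable def ofSubmodules (B : ι → Submodule k A) (hB : ∀ i g, B i ≤ (B i).comap (A.ρ g))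
    (hmono : Monotone B) (hU : ∀ a : A, ∃ i, a ∈ B i) : DirectedCover A ι where
  M i := Rep.subrepresentation A (B i) (hB i)
  p i := Rep.subtype A (B i) (hB i)
  t i j h := Rep.ofHom ⟨Submodule.inclusion (hmono h), fun _ => rfl⟩
  t_p i j h := rfl
  inj i := Subtype.val_injective
  cover a := by
    obtain ⟨i, hi⟩ := hU a
    exact ⟨i, ⟨a, hi⟩, rfl⟩

end DirectedCover

end Cover

/-! ### Group cohomology of a directed union -/

section GroupCohomology

variable {k G : Type u} [CommRing k] [Group G] [Finite G] {A : Rep.{u} k G} {ι : Type v}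
  [Preorder ι] [IsDirected ι (· ≤ ·)] [Nonempty ι] (D : DirectedCover A ι)

theorem cochainsMap_f_injective {M N : Rep.{u} k G} (f : M ⟶ N) (hf : Function.Injective f.hom)
    (n : ℕ) : Function.Injective ((cochainsMap (MonoidHom.id G) f).f n) := by
  intro (x : (Fin n → G) → M) (y : (Fin n → G) → M) hxy
  funext g
  apply hf
  exact congrFun hxy g

include D in
theorem cochains_cover (n : ℕ) (x : (inhomogeneousCochains A).X n) :
    ∃ i, ∃ y : (inhomogeneousCochains (D.M i)).X n,
      (cochainsMap (MonoidHom.id G) (D.p i)).f n y = x := by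
  have x' : (Fin n → G) → A := x
  have hx : ∀ g : Fin n → G, ∃ i, ∃ b : D.M i, (D.p i).hom b = (x : (Fin n → G) → A) g :=
    fun g => D.cover _
  choose idx b hb using hx
  obtain ⟨i, hi⟩ := Finite.exists_le idx
  refine ⟨i, (fun g => (D.t (hi g)).hom (b g) : (Fin n → G) → D.M i), ?_⟩
  funext g
  change (D.p i).hom ((D.t (hi g)).hom (b g)) = _
  rw [D.t_p_apply, hb]

/-- Every class of `Hⁿ(G, A)` comes from a member of a directed cover. -/
theorem exists_map_eq (n : ℕ) (h : groupCohomology A n) :
    ∃ i, ∃ h' : groupCohomology (D.M i) n,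
      groupCohomology.map (MonoidHom.id G) (D.p i) n h' = h :=
  exists_homologyMap_eq (inhomogeneousCochains A) (fun i => inhomogeneousCochains (D.M i))
    (fun i => cochainsMap (MonoidHom.id G) (D.p i))
    (fun i n => cochainsMap_f_injective (D.p i) (D.inj i) n) (cochains_cover D) n h

/-- A class of a member of a directed cover dying in `Hⁿ(G, A)` dies in a larger member. -/
theorem exists_map_trans_eq_zero (n : ℕ) (i : ι) (h' : groupCohomology (D.M i) n)
    (hz : groupCohomology.map (MonoidHom.id G) (D.p i) n h' = 0) :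
    ∃ j, ∃ hij : i ≤ j, groupCohomology.map (MonoidHom.id G) (D.t hij) n h' = 0 :=
  exists_homologyMap_trans_eq_zero (inhomogeneousCochains A)
    (fun i => inhomogeneousCochains (D.M i))
    (fun i => cochainsMap (MonoidHom.id G) (D.p i))
    (fun _ _ hij => cochainsMap (MonoidHom.id G) (D.t hij))
    (fun _ _ hij => by rw [← cochainsMap_id_comp, D.t_p hij])
    (fun i n => cochainsMap_f_injective (D.p i) (D.inj i) n) (cochains_cover D) n i h' hz

/-- If `Hⁿ(G, M i) = 0` cofinally, then `Hⁿ(G, A) = 0`. -/
theorem isZero_groupCohomology_of_cofinal (n : ℕ)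
    (hc : ∀ i, ∃ j, i ≤ j ∧ Limits.IsZero (groupCohomology (D.M j) n)) :
    Limits.IsZero (groupCohomology A n) := by
  rw [ModuleCat.isZero_iff_subsingleton, subsingleton_iff_forall_eq 0]
  intro h
  refine homology_eq_zero_of_cofinal (inhomogeneousCochains A)
    (fun i => inhomogeneousCochains (D.M i))
    (fun i => cochainsMap (MonoidHom.id G) (D.p i))
    (fun _ _ hij => cochainsMap (MonoidHom.id G) (D.t hij))
    (fun _ _ hij => by rw [← cochainsMap_id_comp, D.t_p hij])
    (fun i n => cochainsMap_f_injective (D.p i) (D.inj i) n) (cochains_cover D) n ?_ h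
  intro i
  obtain ⟨j, hij, hj⟩ := hc i
  refine ⟨j, hij, fun x => ?_⟩
  have hsub : Subsingleton (groupCohomology (D.M j) n) := (ModuleCat.isZero_iff_subsingleton).1 hj
  exact hsub.elim _ _

/-- If all transition maps `Hⁿ(G, M i) → Hⁿ(G, M j)` are bijective, then so are the maps
`Hⁿ(G, M i) → Hⁿ(G, A)`. -/
theorem map_bijective_of_trans (n : ℕ)
    (hb : ∀ ⦃i j : ι⦄ (hij : i ≤ j),
      Function.Bijective (groupCohomology.map (MonoidHom.id G) (D.t hij) n)) (i : ι) :
    Function.Bijective (groupCohomology.map (MonoidHom.id G) (D.p i) n) :=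
  homologyMap_bijective_of_trans (inhomogeneousCochains A)
    (fun i => inhomogeneousCochains (D.M i))
    (fun i => cochainsMap (MonoidHom.id G) (D.p i))
    (fun _ _ hij => cochainsMap (MonoidHom.id G) (D.t hij))
    (fun _ _ hij => by rw [← cochainsMap_id_comp, D.t_p hij])
    (fun i n => cochainsMap_f_injective (D.p i) (D.inj i) n) (cochains_cover D) n hb i

end GroupCohomology

/-! ### Tate cohomology of a directed union -/

section TateCohomology

variable {k G : Type u} [CommRing k] [Group G] [Fintype G] {A : Rep.{u} k G} {ι : Type v}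
  [Preorder ι] [IsDirected ι (· ≤ ·)] [Nonempty ι] (D : DirectedCover A ι)

theorem tateComplexMap_f_injective {M N : Rep.{u} k G} (f : M ⟶ N)
    (hf : Function.Injective f.hom) (n : ℤ) :
    Function.Injective ((tateComplex.map f).f n) := by
  rcases n with (m | m)
  · exact cochainsMap_f_injective f hf m
  · intro (x : (Fin m → G) →₀ M) (y : (Fin m → G) →₀ M) hxy
    change ((chainsMap (MonoidHom.id G) f).f m).hom x =
      ((chainsMap (MonoidHom.id G) f).f m).hom y at hxy
    rw [chainsMap_id_f_hom_eq_mapRange] at hxy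
    exact Finsupp.mapRange_injective _ (map_zero _) hf hxy

include D in
theorem tateComplex_cover (n : ℤ) (x : (tateComplex A).X n) :
    ∃ i, ∃ y : (tateComplex (D.M i)).X n, (tateComplex.map (D.p i)).f n y = x := by
  revert x
  rcases n with (m | m)
  · exact fun x => cochains_cover D m x
  · intro (x : (Fin m → G) →₀ A)
    have hx : ∀ g : Fin m → G, ∃ i, ∃ b : D.M i, (D.p i).hom b = x g := fun g => D.cover _
    choose idx b hb using hx
    obtain ⟨i, hi⟩ := Finite.exists_le idx
    refine ⟨i, (Finsupp.equivFunOnFinite.symm (fun g => (D.t (hi g)).hom (b g)) :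
      (Fin m → G) →₀ D.M i), ?_⟩
    change ((chainsMap (MonoidHom.id G) (D.p i)).f m).hom _ = x
    rw [chainsMap_id_f_hom_eq_mapRange]
    refine Finsupp.ext fun g => ?_
    change (D.p i).hom ((D.t (hi g)).hom (b g)) = _
    rw [D.t_p_apply, hb]

theorem tateComplexMap_t_p {i j : ι} (hij : i ≤ j) :
    tateComplex.map (D.t hij) ≫ tateComplex.map (D.p j) = tateComplex.map (D.p i) := by
  rw [← D.t_p hij]
  exact ((tateComplexFunctor k G).map_comp (D.t hij) (D.p j)).symm

/-- Every class of `Ĥⁿ(G, A)` comes from a member of a directed cover. -/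
theorem exists_tateMap_eq (n : ℤ) (h : tateCohomology A n) :
    ∃ i, ∃ h' : tateCohomology (D.M i) n, (tateCohomologyFunctor n).map (D.p i) h' = h :=
  exists_homologyMap_eq (tateComplex A) (fun i => tateComplex (D.M i))
    (fun i => tateComplex.map (D.p i))
    (fun i n => tateComplexMap_f_injective (D.p i) (D.inj i) n) (tateComplex_cover D) n h

/-- A class of a member of a directed cover dying in `Ĥⁿ(G, A)` dies in a larger member. -/
theorem exists_tateMap_trans_eq_zero (n : ℤ) (i : ι) (h' : tateCohomology (D.M i) n)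
    (hz : (tateCohomologyFunctor n).map (D.p i) h' = 0) :
    ∃ j, ∃ hij : i ≤ j, (tateCohomologyFunctor n).map (D.t hij) h' = 0 :=
  exists_homologyMap_trans_eq_zero (tateComplex A) (fun i => tateComplex (D.M i))
    (fun i => tateComplex.map (D.p i)) (fun _ _ hij => tateComplex.map (D.t hij))
    (fun _ _ hij => tateComplexMap_t_p D hij)
    (fun i n => tateComplexMap_f_injective (D.p i) (D.inj i) n) (tateComplex_cover D) n i h' hz

/-- If `Ĥⁿ(G, M i) = 0` cofinally, then `Ĥⁿ(G, A) = 0`. -/
theorem isZero_tateCohomology_of_cofinal (n : ℤ)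
    (hc : ∀ i, ∃ j, i ≤ j ∧ Limits.IsZero (tateCohomology (D.M j) n)) :
    Limits.IsZero (tateCohomology A n) := by
  rw [ModuleCat.isZero_iff_subsingleton, subsingleton_iff_forall_eq 0]
  intro h
  refine homology_eq_zero_of_cofinal (tateComplex A) (fun i => tateComplex (D.M i))
    (fun i => tateComplex.map (D.p i)) (fun _ _ hij => tateComplex.map (D.t hij))
    (fun _ _ hij => tateComplexMap_t_p D hij)
    (fun i n => tateComplexMap_f_injective (D.p i) (D.inj i) n) (tateComplex_cover D) n ?_ h
  intro i
  obtain ⟨j, hij, hj⟩ := hc i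
  refine ⟨j, hij, fun x => ?_⟩
  have hsub : Subsingleton (tateCohomology (D.M j) n) := (ModuleCat.isZero_iff_subsingleton).1 hj
  exact hsub.elim _ _

/-- If all transition maps `Ĥⁿ(G, M i) → Ĥⁿ(G, M j)` are bijective, then so are the maps
`Ĥⁿ(G, M i) → Ĥⁿ(G, A)`. -/
theorem tateMap_bijective_of_trans (n : ℤ)
    (hb : ∀ ⦃i j : ι⦄ (hij : i ≤ j),
      Function.Bijective ((tateCohomologyFunctor n).map (D.t hij))) (i : ι) :
    Function.Bijective ((tateCohomologyFunctor n).map (D.p i)) :=
  homologyMap_bijective_of_trans (tateComplex A) (fun i => tateComplex (D.M i))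
    (fun i => tateComplex.map (D.p i)) (fun _ _ hij => tateComplex.map (D.t hij))
    (fun _ _ hij => tateComplexMap_t_p D hij)
    (fun i n => tateComplexMap_f_injective (D.p i) (D.inj i) n) (tateComplex_cover D) n hb i

end TateCohomology

/-! ### Cohomology of arbitrary products -/

section Products

open Fermat.Agent.Lib.CFT.Coh.Induced

variable {k G : Type u} [CommRing k] [Group G] {ι : Type u} (f : ι → Rep.{u} k G)

theorem cochains_pi_inj (n : ℕ) (x y : (inhomogeneousCochains (piRep f)).X n)
    (hxy : ∀ i, (cochainsMap (MonoidHom.id G) (piRepProj f i)).f n x =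
      (cochainsMap (MonoidHom.id G) (piRepProj f i)).f n y) : x = y := by
  revert x y
  intro (x : (Fin n → G) → ∀ i, (f i).V) (y : (Fin n → G) → ∀ i, (f i).V) hxy
  funext g i
  exact congrFun (hxy i) g

theorem cochains_pi_surj (n : ℕ) (y : ∀ i, (inhomogeneousCochains (f i)).X n) :
    ∃ z : (inhomogeneousCochains (piRep f)).X n,
      ∀ i, (cochainsMap (MonoidHom.id G) (piRepProj f i)).f n z = y i :=
  ⟨(fun g i => (y i : (Fin n → G) → (f i).V) g : (Fin n → G) → ∀ i, (f i).V), fun _ => rfl⟩

/-- The comparison map `Hⁿ(G, ∏ A_x) → ∏ Hⁿ(G, A_x)`. -/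
noncomputable def groupCohomologyPiMap (n : ℕ) :
    groupCohomology (piRep f) n →ₗ[k] ∀ i, groupCohomology (f i) n :=
  LinearMap.pi fun i => (groupCohomology.map (MonoidHom.id G) (piRepProj f i) n).hom

@[simp] theorem groupCohomologyPiMap_apply (n : ℕ) (h : groupCohomology (piRep f) n) (i : ι) :
    groupCohomologyPiMap f n h i = groupCohomology.map (MonoidHom.id G) (piRepProj f i) n h := rfl

/-- Group cohomology commutes with arbitrary products of coefficient modules. -/
theorem groupCohomologyPiMap_bijective (n : ℕ) : Function.Bijective (groupCohomologyPiMap f n) := by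
  constructor
  · rw [injective_iff_map_eq_zero]
    intro h hz
    exact eq_zero_of_homologyMap_eq_zero_pi (inhomogeneousCochains (piRep f))
      (fun i => inhomogeneousCochains (f i))
      (fun i => cochainsMap (MonoidHom.id G) (piRepProj f i)) (cochains_pi_inj f)
      (cochains_pi_surj f) n h fun i => congrFun hz i
  · intro h
    obtain ⟨h', hh'⟩ := exists_homologyMap_eq_pi (inhomogeneousCochains (piRep f))
      (fun i => inhomogeneousCochains (f i))
      (fun i => cochainsMap (MonoidHom.id G) (piRepProj f i)) (cochains_pi_inj f)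
      (cochains_pi_surj f) n h
    exact ⟨h', funext hh'⟩

/-- `Hⁿ(G, ∏ A_x) ≃ ∏ Hⁿ(G, A_x)`. -/
noncomputable def groupCohomologyPiEquiv (n : ℕ) :
    groupCohomology (piRep f) n ≃ₗ[k] ∀ i, groupCohomology (f i) n :=
  LinearEquiv.ofBijective (groupCohomologyPiMap f n) (groupCohomologyPiMap_bijective f n)

@[simp] theorem groupCohomologyPiEquiv_apply (n : ℕ) (h : groupCohomology (piRep f) n) (i : ι) :
    groupCohomologyPiEquiv f n h i =
      groupCohomology.map (MonoidHom.id G) (piRepProj f i) n h := rfl

variable [Fintype G]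

theorem tateComplex_pi_inj (n : ℤ) (x y : (tateComplex (piRep f)).X n)
    (hxy : ∀ i, (tateComplex.map (piRepProj f i)).f n x = (tateComplex.map (piRepProj f i)).f n y) :
    x = y := by
  classical
  revert x y
  rcases n with (m | m)
  · exact fun x y hxy => cochains_pi_inj f m x y hxy
  · intro (x : (Fin m → G) →₀ ∀ i, (f i).V) (y : (Fin m → G) →₀ ∀ i, (f i).V) hxy
    refine Finsupp.ext fun g => funext fun i => ?_
    have := hxy i
    change ((chainsMap (MonoidHom.id G) (piRepProj f i)).f m).hom x =
      ((chainsMap (MonoidHom.id G) (piRepProj f i)).f m).hom y at this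
    rw [chainsMap_id_f_hom_eq_mapRange] at this
    exact DFunLike.congr_fun this g

theorem tateComplex_pi_surj (n : ℤ) (y : ∀ i, (tateComplex (f i)).X n) :
    ∃ z : (tateComplex (piRep f)).X n, ∀ i, (tateComplex.map (piRepProj f i)).f n z = y i := by
  classical
  revert y
  rcases n with (m | m)
  · exact fun y => cochains_pi_surj f m y
  · intro y
    let y' : ∀ i, (Fin m → G) →₀ (f i).V := y
    refine ⟨(Finsupp.equivFunOnFinite.symm
      (fun g i => y' i g) : (Fin m → G) →₀ ∀ i, (f i).V), fun i => ?_⟩
    change ((chainsMap (MonoidHom.id G) (piRepProj f i)).f m).hom _ = y' i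
    rw [chainsMap_id_f_hom_eq_mapRange]
    refine Finsupp.ext fun g => ?_
    rfl

/-- The comparison map `Ĥⁿ(G, ∏ A_x) → ∏ Ĥⁿ(G, A_x)`. -/
noncomputable def tateCohomologyPiMap (n : ℤ) :
    tateCohomology (piRep f) n →ₗ[k] ∀ i, tateCohomology (f i) n :=
  LinearMap.pi fun i => ((tateCohomologyFunctor n).map (piRepProj f i)).hom

@[simp] theorem tateCohomologyPiMap_apply (n : ℤ) (h : tateCohomology (piRep f) n) (i : ι) :
    tateCohomologyPiMap f n h i = (tateCohomologyFunctor n).map (piRepProj f i) h := rfl

/-- Tate cohomology of a finite group commutes with arbitrary products. -/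
theorem tateCohomologyPiMap_bijective (n : ℤ) : Function.Bijective (tateCohomologyPiMap f n) := by
  constructor
  · rw [injective_iff_map_eq_zero]
    intro h hz
    exact eq_zero_of_homologyMap_eq_zero_pi (tateComplex (piRep f)) (fun i => tateComplex (f i))
      (fun i => tateComplex.map (piRepProj f i)) (tateComplex_pi_inj f) (tateComplex_pi_surj f)
      n h fun i => congrFun hz i
  · intro h
    obtain ⟨h', hh'⟩ := exists_homologyMap_eq_pi (tateComplex (piRep f))
      (fun i => tateComplex (f i)) (fun i => tateComplex.map (piRepProj f i))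
      (tateComplex_pi_inj f) (tateComplex_pi_surj f) n h
    exact ⟨h', funext hh'⟩

/-- `Ĥⁿ(G, ∏ A_x) ≃ ∏ Ĥⁿ(G, A_x)`. -/
noncomputable def tateCohomologyPiEquiv (n : ℤ) :
    tateCohomology (piRep f) n ≃ₗ[k] ∀ i, tateCohomology (f i) n :=
  LinearEquiv.ofBijective (tateCohomologyPiMap f n) (tateCohomologyPiMap_bijective f n)

@[simp] theorem tateCohomologyPiEquiv_apply (n : ℤ) (h : tateCohomology (piRep f) n) (i : ι) :
    tateCohomologyPiEquiv f n h i = (tateCohomologyFunctor n).map (piRepProj f i) h := rfl

end Products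

/-! ### Multiplicative version: directed unions of `G`-stable subgroups -/

section Mul

variable {G M : Type} [Group G] [CommGroup M] [MulDistribMulAction G M] {ι : Type v} [Preorder ι]

/-- The `ℤ`-submodule of (the additive version of) `M` attached to a subgroup of `M`. -/
def submoduleOfSubgroup (H : Subgroup M) : Submodule ℤ (Rep.ofMulDistribMulAction G M) :=
  show Submodule ℤ (Additive M) from AddSubgroup.toIntSubmodule (Subgroup.toAddSubgroup H)

theorem mem_submoduleOfSubgroup (H : Subgroup M) (a : Additive M) :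
    a ∈ submoduleOfSubgroup (G := G) H ↔ Additive.toMul (α := M) a ∈ H := Iff.rfl

theorem submoduleOfSubgroup_stable (H : Subgroup M) (hH : ∀ (g : G) (x : M), x ∈ H → g • x ∈ H)
    (g : G) : submoduleOfSubgroup (G := G) H ≤
      (submoduleOfSubgroup (G := G) H).comap ((Rep.ofMulDistribMulAction G M).ρ g) :=
  fun a ha => hH g (Additive.toMul (α := M) a) ha

/-- The directed cover of `Rep.ofMulDistribMulAction G M` attached to a monotone family of
`G`-stable subgroups of `M` with union `M`. -/
noncomputable def DirectedCover.ofSubgroups (H : ι → Subgroup M)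
    (hH : ∀ i (g : G) (x : M), x ∈ H i → g • x ∈ H i) (hmono : Monotone H)
    (hU : ∀ x : M, ∃ i, x ∈ H i) : DirectedCover (Rep.ofMulDistribMulAction G M) ι :=
  DirectedCover.ofSubmodules (fun i => submoduleOfSubgroup (G := G) (H i))
    (fun i g => submoduleOfSubgroup_stable (H i) (hH i) g)
    (fun _ _ hij _ ha => hmono hij ha) (fun a => hU (Additive.toMul (α := M) a))

end Mul

section MulActions

variable {G M : Type} [Group G] [CommGroup M] [MulDistribMulAction G M] {ι : Type v} [Preorder ι]

/-- A `G`-equivariant monoid homomorphism between commutative groups with distributive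
`G`-actions, as a morphism of `Rep ℤ G`. -/
noncomputable def mulRepHom {M N : Type} [CommGroup M] [CommGroup N]
    [MulDistribMulAction G M] [MulDistribMulAction G N] (f : M →* N)
    (hf : ∀ (g : G) (m : M), f (g • m) = g • f m) :
    Rep.ofMulDistribMulAction G M ⟶ Rep.ofMulDistribMulAction G N :=
  Rep.ofHom ⟨(MonoidHom.toAdditive f).toIntLinearMap, fun g => by
    ext m
    exact congrArg Additive.ofMul (hf g m.toMul)⟩

@[simp] theorem mulRepHom_apply {M N : Type} [CommGroup M] [CommGroup N]
    [MulDistribMulAction G M] [MulDistribMulAction G N] (f : M →* N)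
    (hf : ∀ (g : G) (m : M), f (g • m) = g • f m) (m : Additive M) :
    (mulRepHom f hf).hom m = Additive.ofMul (f m.toMul) := rfl

/-- The directed cover of `Rep.ofMulDistribMulAction G M` by the representations
`Rep.ofMulDistribMulAction G (H i)` attached to a monotone family of subgroups of `M` carrying
compatible `G`-actions, with union `M`. -/
noncomputable def DirectedCover.ofSubgroupActions (H : ι → Subgroup M)
    [∀ i, MulDistribMulAction G (H i)]
    (hsmul : ∀ i (g : G) (x : H i), ((g • x : H i) : M) = g • (x : M))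
    (hmono : Monotone H) (hU : ∀ x : M, ∃ i, x ∈ H i) :
    DirectedCover (Rep.ofMulDistribMulAction G M) ι where
  M i := Rep.ofMulDistribMulAction G (H i)
  p i := mulRepHom (H i).subtype (hsmul i)
  t i j h := mulRepHom (Subgroup.inclusion (hmono h)) (fun g x => Subtype.ext (by
    rw [hsmul j, Subgroup.coe_inclusion, Subgroup.coe_inclusion, hsmul i]))
  t_p i j h := rfl
  inj i := fun x y hxy => by
    have h1 : ((Additive.toMul x : H i) : M) = ((Additive.toMul y : H i) : M) :=
      congrArg Additive.toMul hxy
    exact congrArg Additive.ofMul (Subtype.ext h1)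
  cover a := by
    obtain ⟨i, hi⟩ := hU (Additive.toMul (α := M) a)
    exact ⟨i, Additive.ofMul (⟨Additive.toMul (α := M) a, hi⟩ : H i), rfl⟩

end MulActions

end Fermat.Agent.Lib.CFT.Coh.DirectedUnion
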