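import Mathlib

/-!
# Elementwise description of the cohomology of a cochain complex of modules

For a cochain complex `K` of `k`-modules indexed by `ℕ` we provide a constructor `mkH` of
cohomology classes from cocycles, together with the basic calculus: every class is of this
form, a class vanishes iff the cocycle is a coboundary, behaviour under maps of complexes and
under the connecting homomorphism of a short exact sequence of complexes.
-/

set_option autoImplicit false

universe u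

open CategoryTheory

namespace Fermat.Agent.Lib.CFT.Coh.Elem

variable {k : Type u} [CommRing k]

theorem sc_homologyπ_eq_zero_iff (S : ShortComplex (ModuleCat.{u} k)) (z : S.cycles) :
    S.homologyπ z = 0 ↔ ∃ y : S.X₁, S.f y = S.iCycles z := by
  have inj : Function.Injective S.moduleCatHomologyIso.hom :=
    (ModuleCat.mono_iff_injective _).1 inferInstance
  rw [← map_eq_zero_iff _ inj]
  have : S.moduleCatHomologyIso.hom (S.homologyπ z) =
      S.moduleCatLeftHomologyData.π (S.moduleCatCyclesIso.hom z) :=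
    S.π_moduleCatCyclesIso_hom_apply z
  rw [this]
  have h2 : S.iCycles z = S.moduleCatLeftHomologyData.i (S.moduleCatCyclesIso.hom z) :=
    (S.moduleCatCyclesIso_hom_i_apply z).symm
  rw [h2]
  generalize S.moduleCatCyclesIso.hom z = w
  obtain ⟨w, hw⟩ : ∃ w' : LinearMap.ker S.g.hom, w' = w := ⟨w, rfl⟩
  subst hw
  change (LinearMap.range S.moduleCatToCycles).mkQ w = 0 ↔ ∃ y, S.f y = (w : S.X₂)
  rw [Submodule.mkQ_apply, Submodule.Quotient.mk_eq_zero, LinearMap.mem_range]
  constructor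
  · rintro ⟨y, hy⟩
    exact ⟨y, congrArg Subtype.val hy⟩
  · rintro ⟨y, hy⟩
    exact ⟨y, Subtype.ext hy⟩

section general

variable {ι : Type*} {c : ComplexShape ι} (K : HomologicalComplex (ModuleCat.{u} k) c)

theorem homologyπ_cyclesMk_eq_zero_iff {i j l : ι} (hi : c.prev j = i) (hl : c.next j = l)
    (x : K.X j) (hx : K.d j l x = 0) :
    K.homologyπ j (K.cyclesMk x l hl hx) = 0 ↔ ∃ y : K.X i, K.d i j y = x := by
  subst hi hl
  have := sc_homologyπ_eq_zero_iff (K.sc j) (K.cyclesMk x _ rfl hx)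
  have h2 : (K.sc j).iCycles (K.cyclesMk x _ rfl hx) = x := K.i_cyclesMk x _ rfl hx
  rw [h2] at this
  exact this

theorem cyclesMk_iCycles {j l : ι} (hl : c.next j = l) (z : K.cycles j)
    (h : K.d j l (K.iCycles j z) = 0) :
    K.cyclesMk (K.iCycles j z) l hl h = z := by
  have inj : Function.Injective (K.iCycles j) := (ModuleCat.mono_iff_injective _).1 inferInstance
  apply inj
  exact K.i_cyclesMk _ l hl h

theorem d_iCycles {j l : ι} (z : K.cycles j) : K.d j l (K.iCycles j z) = 0 := by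
  have := K.iCycles_d j l
  exact congr($this z)

end general

variable (K : CochainComplex (ModuleCat.{u} k) ℕ)

/-- The cocycle attached to an element killed by the differential. -/
noncomputable def cyc (n : ℕ) (x : K.X n) (hx : K.d n (n + 1) x = 0) : K.cycles n :=
  K.cyclesMk x (n + 1) (by simp) hx

@[simp]
theorem iCycles_cyc (n : ℕ) (x : K.X n) (hx : K.d n (n + 1) x = 0) :
    K.iCycles n (cyc K n x hx) = x :=
  K.i_cyclesMk x (n + 1) (by simp) hx

theorem iCycles_injective (n : ℕ) : Function.Injective (K.iCycles n) :=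
  (ModuleCat.mono_iff_injective _).1 inferInstance

/-- The cohomology class of a cocycle. -/
noncomputable def mkH (n : ℕ) (x : K.X n) (hx : K.d n (n + 1) x = 0) : K.homology n :=
  K.homologyπ n (cyc K n x hx)

variable {K}

theorem cyc_iCycles {n : ℕ} (z : K.cycles n) :
    cyc K n (K.iCycles n z) (d_iCycles K z) = z :=
  iCycles_injective K n (by simp)

theorem mkH_surjective {n : ℕ} (a : K.homology n) :
    ∃ (x : K.X n) (hx : K.d n (n + 1) x = 0), mkH K n x hx = a := by
  obtain ⟨z, rfl⟩ := (ModuleCat.epi_iff_surjective (K.homologyπ n)).1 inferInstance a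
  refine ⟨K.iCycles n z, d_iCycles K z, ?_⟩
  unfold mkH
  rw [cyc_iCycles]

theorem mkH_congr {n : ℕ} {x y : K.X n} (h : x = y) (hx : K.d n (n + 1) x = 0) :
    mkH K n x hx = mkH K n y (h ▸ hx) := by
  subst h; rfl

theorem mkH_succ_eq_zero_iff {n : ℕ} (x : K.X (n + 1)) (hx : K.d (n + 1) (n + 2) x = 0) :
    mkH K (n + 1) x hx = 0 ↔ ∃ y : K.X n, K.d n (n + 1) y = x :=
  homologyπ_cyclesMk_eq_zero_iff K (by simp) (by simp) x hx

theorem mkH_zero_eq_zero_iff (x : K.X 0) (hx : K.d 0 1 x = 0) :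
    mkH K 0 x hx = 0 ↔ x = 0 := by
  have h := homologyπ_cyclesMk_eq_zero_iff K (i := 0) (j := 0) (l := 1) (by simp) (by simp) x hx
  unfold mkH cyc
  rw [h]
  have h0 : K.d 0 0 = 0 := K.shape _ _ (by simp)
  constructor
  · rintro ⟨y, hy⟩
    rw [← hy, h0]
    rfl
  · rintro rfl
    exact ⟨0, by simp⟩

theorem cyc_add {n : ℕ} (x y : K.X n) (hx : K.d n (n + 1) x = 0)
    (hy : K.d n (n + 1) y = 0) (hxy : K.d n (n + 1) (x + y) = 0) :
    cyc K n (x + y) hxy = cyc K n x hx + cyc K n y hy :=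
  iCycles_injective K n (by simp)

theorem cyc_smul {n : ℕ} (r : k) (x : K.X n) (hx : K.d n (n + 1) x = 0)
    (hrx : K.d n (n + 1) (r • x) = 0) :
    cyc K n (r • x) hrx = r • cyc K n x hx :=
  iCycles_injective K n (by simp)

theorem mkH_add {n : ℕ} (x y : K.X n) (hx : K.d n (n + 1) x = 0) (hy : K.d n (n + 1) y = 0)
    (hxy : K.d n (n + 1) (x + y) = 0) :
    mkH K n (x + y) hxy = mkH K n x hx + mkH K n y hy := by
  unfold mkH
  rw [cyc_add x y hx hy hxy, map_add]

theorem mkH_smul {n : ℕ} (r : k) (x : K.X n) (hx : K.d n (n + 1) x = 0)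
    (hrx : K.d n (n + 1) (r • x) = 0) :
    mkH K n (r • x) hrx = r • mkH K n x hx := by
  unfold mkH
  rw [cyc_smul r x hx hrx, map_smul]

theorem mkH_zero {n : ℕ} (h : K.d n (n + 1) (0 : K.X n) = 0) : mkH K n 0 h = 0 := by
  have := mkH_smul (0 : k) (0 : K.X n) h (by simp)
  simpa using this

theorem mkH_sub {n : ℕ} (x y : K.X n) (hx : K.d n (n + 1) x = 0) (hy : K.d n (n + 1) y = 0)
    (hxy : K.d n (n + 1) (x - y) = 0) :
    mkH K n (x - y) hxy = mkH K n x hx - mkH K n y hy := by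
  have h := mkH_add (x - y) y hxy hy (by simpa using hx)
  rw [eq_sub_iff_add_eq, ← h]
  exact mkH_congr (by simp) _

theorem mkH_succ_eq_iff {n : ℕ} (x y : K.X (n + 1)) (hx : K.d (n + 1) (n + 2) x = 0)
    (hy : K.d (n + 1) (n + 2) y = 0) :
    mkH K (n + 1) x hx = mkH K (n + 1) y hy ↔ ∃ w : K.X n, K.d n (n + 1) w = x - y := by
  rw [← sub_eq_zero, ← mkH_sub x y hx hy (by rw [map_sub, hx, hy, sub_zero]),
    mkH_succ_eq_zero_iff]

/-- Being a coboundary (in degree `0`: being zero). -/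
def IsBdry (K : CochainComplex (ModuleCat.{u} k) ℕ) : (n : ℕ) → K.X n → Prop
  | 0, x => x = 0
  | n + 1, x => ∃ y : K.X n, K.d n (n + 1) y = x

theorem isBdry_zero_iff (x : K.X 0) : IsBdry K 0 x ↔ x = 0 := Iff.rfl

theorem isBdry_succ_iff {n : ℕ} (x : K.X (n + 1)) :
    IsBdry K (n + 1) x ↔ ∃ y : K.X n, K.d n (n + 1) y = x := Iff.rfl

theorem isBdry_zero' (n : ℕ) : IsBdry K n (0 : K.X n) := by
  cases n with
  | zero => rfl
  | succ n => exact ⟨0, by simp⟩

theorem mkH_eq_zero_iff {n : ℕ} (x : K.X n) (hx : K.d n (n + 1) x = 0) :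
    mkH K n x hx = 0 ↔ IsBdry K n x := by
  cases n with
  | zero => exact mkH_zero_eq_zero_iff x hx
  | succ n => exact mkH_succ_eq_zero_iff x hx

theorem mkH_eq_iff {n : ℕ} (x y : K.X n) (hx : K.d n (n + 1) x = 0)
    (hy : K.d n (n + 1) y = 0) :
    mkH K n x hx = mkH K n y hy ↔ IsBdry K n (x - y) := by
  rw [← sub_eq_zero, ← mkH_sub x y hx hy (by rw [map_sub, hx, hy, sub_zero]), mkH_eq_zero_iff]

section maps

variable {L : CochainComplex (ModuleCat.{u} k) ℕ} (φ : K ⟶ L)

theorem d_map_eq_zero {n : ℕ} (x : K.X n) (hx : K.d n (n + 1) x = 0) :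
    L.d n (n + 1) (φ.f n x) = 0 := by
  have := congr($(φ.comm n (n + 1)) x)
  simp only [ModuleCat.hom_comp, LinearMap.coe_comp, Function.comp_apply] at this
  refine this.trans ?_
  have h0 : (ModuleCat.Hom.hom (K.d n (n + 1))) x = 0 := hx
  rw [h0, map_zero]

theorem homologyMap_mkH {n : ℕ} (x : K.X n) (hx : K.d n (n + 1) x = 0) :
    HomologicalComplex.homologyMap φ n (mkH K n x hx) =
      mkH L n (φ.f n x) (d_map_eq_zero φ x hx) := by
  unfold mkH
  have h1 := congr($(HomologicalComplex.homologyπ_naturality φ n) (cyc K n x hx))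
  simp only [ModuleCat.hom_comp, LinearMap.coe_comp, Function.comp_apply] at h1
  refine h1.trans ?_
  congr 1
  apply iCycles_injective L n
  have h2 := congr($(HomologicalComplex.cyclesMap_i φ n) (cyc K n x hx))
  simp only [ModuleCat.hom_comp, LinearMap.coe_comp, Function.comp_apply] at h2
  refine h2.trans ?_
  rw [iCycles_cyc]
  exact (iCycles_cyc L n _ _).symm

end maps

section delta

variable {S : ShortComplex (CochainComplex (ModuleCat.{u} k) ℕ)} (hS : S.ShortExact)

include hS in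
theorem d_eq_zero_of_f_eq_d {n : ℕ} (x₂ : S.X₂.X n) (x₁ : S.X₁.X (n + 1))
    (hx₁ : S.f.f (n + 1) x₁ = S.X₂.d n (n + 1) x₂) : S.X₁.d (n + 1) (n + 2) x₁ = 0 :=
  hS.d_eq_zero_of_f_eq_d_apply n (n + 1) x₂ x₁ hx₁ (n + 2)

theorem δ_mkH {n : ℕ} (x₃ : S.X₃.X n) (hx₃ : S.X₃.d n (n + 1) x₃ = 0)
    (x₂ : S.X₂.X n) (hx₂ : S.g.f n x₂ = x₃) (x₁ : S.X₁.X (n + 1))
    (hx₁ : S.f.f (n + 1) x₁ = S.X₂.d n (n + 1) x₂) :
    hS.δ n (n + 1) rfl (mkH S.X₃ n x₃ hx₃) =
      mkH S.X₁ (n + 1) x₁ (d_eq_zero_of_f_eq_d hS x₂ x₁ hx₁) :=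
  hS.δ_apply n (n + 1) rfl x₃ hx₃ x₂ hx₂ x₁ hx₁ (n + 2) (by simp)

end delta

end Fermat.Agent.Lib.CFT.Coh.Elem
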