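import Mathlib

/-!
# Equivariant maps between multiplicative modules along a group homomorphism

Generic helpers: a monoid homomorphism `φ : M →* N` between commutative groups with distributive
actions of `G` and `G'`, equivariant along `f : G' →* G`, gives a morphism
`Rep.res f (Rep.ofMulDistribMulAction G M) ⟶ Rep.ofMulDistribMulAction G' N`; the special case of
unit groups of rings; and the functoriality of group cohomology in commutative squares.
-/

set_option autoImplicit false

namespace Fermat.Agent.Lib.CFT.Global

open CategoryTheory

section General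

variable {G G' : Type} [Group G] [Group G']

/-- A monoid homomorphism between commutative groups with distributive actions of `G` and `G'`,
equivariant along `f : G' →* G`, as a morphism of `Rep ℤ G'`. -/
noncomputable def repHomOfMulEquivariantAlong (f : G' →* G) {M N : Type} [CommGroup M]
    [CommGroup N] [MulDistribMulAction G M] [MulDistribMulAction G' N] (φ : M →* N)
    (hφ : ∀ (g : G') (m : M), φ (f g • m) = g • φ m) :
    Rep.res f (Rep.ofMulDistribMulAction G M) ⟶ Rep.ofMulDistribMulAction G' N :=
  Rep.ofHom (ρ := (Rep.res f (Rep.ofMulDistribMulAction G M)).ρ)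
    (σ := Representation.ofMulDistribMulAction G' N)
    ⟨(MonoidHom.toAdditive φ).toIntLinearMap, fun g => LinearMap.ext fun m =>
      congrArg Additive.ofMul (hφ g m.toMul)⟩

@[simp] lemma repHomOfMulEquivariantAlong_apply (f : G' →* G) {M N : Type} [CommGroup M]
    [CommGroup N] [MulDistribMulAction G M] [MulDistribMulAction G' N] (φ : M →* N)
    (hφ : ∀ (g : G') (m : M), φ (f g • m) = g • φ m) (m : Additive M) :
    (repHomOfMulEquivariantAlong f φ hφ).hom m = Additive.ofMul (φ m.toMul) := rfl

end General

section Units

attribute [local instance] Units.mulDistribMulActionRight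

variable {G G' E E' : Type} [Group G] [Group G'] [CommRing E] [CommRing E']
  [MulSemiringAction G E] [MulSemiringAction G' E']

/-- The map `Eˣ → E'ˣ` induced by a ring homomorphism `F : E →+* E'` equivariant along
`f : G' →* G`, as a morphism of representations of `G'`. -/
noncomputable def unitsRepHomAlong (f : G' →* G) (F : E →+* E')
    (hF : ∀ (g : G') (x : E), F (f g • x) = g • F x) :
    Rep.res f (Rep.ofMulDistribMulAction G Eˣ) ⟶ Rep.ofMulDistribMulAction G' E'ˣ :=
  repHomOfMulEquivariantAlong f (Units.map (F : E →* E')) (fun g u => Units.ext (hF g u))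

@[simp] lemma unitsRepHomAlong_apply (f : G' →* G) (F : E →+* E')
    (hF : ∀ (g : G') (x : E), F (f g • x) = g • F x) (u : Additive Eˣ) :
    (unitsRepHomAlong f F hF).hom u = Additive.ofMul (Units.map (F : E →* E') u.toMul) := rfl

end Units

section Square

universe u

variable {k : Type u} [CommRing k]

/-- A commutative square of group homomorphisms and compatible morphisms of representations
induces a commutative square in group cohomology. -/
lemma groupCohomology_map_square {G' G D' D : Type u} [Group G'] [Group G] [Group D'] [Group D]
    (f : G' →* G) (i : D →* G) (i' : D' →* G') (d : D' →* D) (hcomm : f.comp i' = i.comp d)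
    {A : Rep k G} {A' : Rep k G'} {B : Rep k D} {B' : Rep k D'}
    (φ : Rep.res f A ⟶ A') (π : Rep.res i A ⟶ B) (π' : Rep.res i' A' ⟶ B')
    (ψ : Rep.res d B ⟶ B')
    (h : ψ.hom.toLinearMap ∘ₗ π.hom.toLinearMap = π'.hom.toLinearMap ∘ₗ φ.hom.toLinearMap)
    (n : ℕ) :
    groupCohomology.map f φ n ≫ groupCohomology.map i' π' n =
      groupCohomology.map i π n ≫ groupCohomology.map d ψ n := by
  rw [← groupCohomology.map_comp, ← groupCohomology.map_comp]
  exact groupCohomology.map_congr hcomm (by simpa using h.symm) n

end Square

end Fermat.Agent.Lib.CFT.Global
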