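/-
P-CFT work package Coh/Lattice (helper52).

Part 1: the Artin-Tate lattice lemma.  `G` a finite group acting on a finite set `X`,
`V = X → ℝ` with the permutation action `(g • f) x = f (g⁻¹ • x)`, `L` a `G`-stable
`ℤ`-submodule of `V` which spans `V` over `ℝ` and is finitely generated of `ℤ`-rank `|X|`
(for instance a discrete `ℤ`-lattice).  Then `L` contains a `G`-stable subgroup of finite index
which is `G`-equivariantly isomorphic to the permutation lattice `X → ℤ`.
-/
import Mathlib

set_option autoImplicit false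

namespace Fermat.Agent.Lib.CFT.Coh.Lattice

open Module Submodule

section Core

variable {G X : Type*} [Group G] [MulAction G X]

/-- Translation of a function on a `G`-set: `(tr g f) x = f (g⁻¹ • x)`. -/
def tr {A : Type*} (g : G) (f : X → A) : X → A := fun x => f (g⁻¹ • x)

@[simp] lemma tr_apply {A : Type*} (g : G) (f : X → A) (x : X) : tr g f x = f (g⁻¹ • x) := rfl

lemma tr_one {A : Type*} (f : X → A) : tr (1 : G) f = f := by
  funext x; simp [tr]

lemma tr_mul {A : Type*} (g h : G) (f : X → A) : tr (g * h) f = tr g (tr h f) := by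
  funext x; simp [tr, mul_smul]

lemma tr_add {A : Type*} [Add A] (g : G) (f₁ f₂ : X → A) :
    tr g (f₁ + f₂) = tr g f₁ + tr g f₂ := rfl

lemma tr_sub {A : Type*} [Sub A] (g : G) (f₁ f₂ : X → A) :
    tr g (f₁ - f₂) = tr g f₁ - tr g f₂ := rfl

lemma tr_neg {A : Type*} [Neg A] (g : G) (f : X → A) : tr g (-f) = -tr g f := rfl

lemma tr_zero {A : Type*} [Zero A] (g : G) : tr g (0 : X → A) = 0 := rfl

lemma tr_smul {R A : Type*} [SMul R A] (g : G) (c : R) (f : X → A) :
    tr g (c • f) = c • tr g f := rfl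

lemma tr_sum {A ι : Type*} [AddCommMonoid A] (g : G) (s : Finset ι) (f : ι → X → A) :
    tr g (∑ i ∈ s, f i) = ∑ i ∈ s, tr g (f i) := by
  funext x; simp [tr, Finset.sum_apply]

lemma tr_single {A : Type*} [DecidableEq X] [Zero A] (g : G) (y : X) (a : A) :
    tr g (Pi.single y a) = Pi.single (g • y) a := by
  funext x
  simp only [tr_apply, Pi.single_apply]
  by_cases h : x = g • y
  · subst h; simp
  · rw [if_neg h, if_neg]
    intro h'
    apply h
    rw [← h', smul_inv_smul]

/-- `tr g` as an additive equivalence. -/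
def trAddEquiv (A : Type*) [AddCommMonoid A] (g : G) : (X → A) ≃+ (X → A) where
  toFun := tr g
  invFun := tr g⁻¹
  left_inv f := by rw [← tr_mul, inv_mul_cancel, tr_one]
  right_inv f := by rw [← tr_mul, mul_inv_cancel, tr_one]
  map_add' _ _ := rfl

@[simp] lemma trAddEquiv_apply (A : Type*) [AddCommMonoid A] (g : G) (f : X → A) :
    trAddEquiv A g f = tr g f := rfl

lemma norm_tr [Fintype X] (g : G) (f : X → ℝ) : ‖tr g f‖ = ‖f‖ := by
  apply le_antisymm
  · rw [pi_norm_le_iff_of_nonneg (norm_nonneg f)]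
    intro x
    exact norm_le_pi_norm f (g⁻¹ • x)
  · rw [pi_norm_le_iff_of_nonneg (norm_nonneg _)]
    intro x
    have := norm_le_pi_norm (tr g f) (g • x)
    simpa [tr] using this

end Core

section Covering

variable {X : Type*} [Fintype X]

/-- A spanning `ℤ`-submodule of `X → ℝ` has a finite covering radius. -/
lemma exists_covering_radius (L : Submodule ℤ (X → ℝ))
    (hspan : span ℝ (L : Set (X → ℝ)) = ⊤) :
    ∃ B : ℝ, 0 ≤ B ∧ ∀ v : X → ℝ, ∃ l ∈ L, ‖v - l‖ ≤ B := by
  classical
  let b := Basis.ofSpan (K := ℝ) (s := (L : Set (X → ℝ))) hspan.ge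
  have : Fintype ((linearIndepOn_empty ℝ id).extend (Set.empty_subset (L : Set (X → ℝ)))) :=
    FiniteDimensional.fintypeBasisIndex b
  refine ⟨∑ i, ‖b i‖, Finset.sum_nonneg fun _ _ => norm_nonneg _, fun v => ?_⟩
  refine ⟨(ZSpan.floor b v : X → ℝ), ?_, ?_⟩
  · have h1 : span ℤ (Set.range b) ≤ L := by
      rw [span_le]
      exact Basis.ofSpan_subset hspan.ge
    exact h1 (ZSpan.floor b v).2
  · have := ZSpan.norm_fract_le b v
    rwa [ZSpan.fract_apply] at this

end Covering

section Main

variable {G X : Type*} [Group G] [Fintype G] [Fintype X] [MulAction G X]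

lemma abs_apply_le_of_norm_le {f : X → ℝ} {r : ℝ} (h : ‖f‖ ≤ r) (y : X) : |f y| ≤ r := by
  have := norm_le_pi_norm f y
  rw [Real.norm_eq_abs] at this
  exact this.trans h

/-- A square real matrix whose rows are close to a large multiple of the standard basis vectors
has linearly independent rows. -/
lemma linearIndependent_of_close_to_diag [DecidableEq X] (w : X → X → ℝ) (a r : ℝ)
    (hr : (Fintype.card X : ℝ) * r < a)
    (h : ∀ x, ‖w x - Pi.single x a‖ ≤ r) : LinearIndependent ℝ w := by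
  have hoff : ∀ x y, y ≠ x → |w x y| ≤ r := by
    intro x y hxy
    have h1 := abs_apply_le_of_norm_le (h x) y
    simpa [Pi.single_apply, hxy] using h1
  have hdiag : ∀ x, a - r ≤ |w x x| := by
    intro x
    have h1 := abs_apply_le_of_norm_le (h x) x
    simp only [Pi.sub_apply, Pi.single_eq_same] at h1
    have h2 := abs_le.mp h1
    have h3 : a - r ≤ w x x := by linarith [h2.1]
    exact h3.trans (le_abs_self _)
  have hdet : (Matrix.of w).det ≠ 0 := by
    apply det_ne_zero_of_sum_row_lt_diag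
    intro x
    simp only [Matrix.of_apply, Real.norm_eq_abs]
    calc ∑ y ∈ Finset.univ.erase x, |w x y|
        ≤ ∑ _y ∈ Finset.univ.erase x, r := by
          refine Finset.sum_le_sum fun y hy => hoff x y (Finset.ne_of_mem_erase hy)
      _ = ((Fintype.card X : ℝ) - 1) * r := by
          rw [Finset.sum_const, Finset.card_erase_of_mem (Finset.mem_univ x), Finset.card_univ,
            nsmul_eq_mul, Nat.cast_sub (Fintype.card_pos_iff.mpr ⟨x⟩)]
          simp
      _ < a - r := by linarith
      _ ≤ |w x x| := hdiag x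
  exact Matrix.linearIndependent_rows_of_det_ne_zero hdet

/-- Key construction: an equivariant, `ℝ`-linearly independent family in a `G`-stable spanning
`ℤ`-submodule of `X → ℝ`. -/
theorem exists_equivariant_family (L : Submodule ℤ (X → ℝ))
    (hspan : span ℝ (L : Set (X → ℝ)) = ⊤)
    (hG : ∀ (g : G), ∀ f ∈ L, tr g f ∈ L) :
    ∃ w : X → (X → ℝ), (∀ x, w x ∈ L) ∧ (∀ (g : G) x, tr g (w x) = w (g • x)) ∧
      LinearIndependent ℝ w := by
  classical
  obtain ⟨B, hB0, hB⟩ := exists_covering_radius L hspan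
  obtain ⟨t, ht⟩ : ∃ t : ℝ, (Fintype.card X : ℝ) * B < t := ⟨_, lt_add_one _⟩
  choose l hlL hl using fun x : X => hB (Pi.single x t)
  let w : X → (X → ℝ) := fun x => ∑ g : G, tr g (l (g⁻¹ • x))
  have hequiv : ∀ (h : G) x, tr h (w x) = w (h • x) := by
    intro h x
    simp only [w, tr_sum]
    refine Fintype.sum_equiv (Equiv.mulLeft h) _ _ fun g => ?_
    simp [tr_mul, mul_smul]
  refine ⟨w, fun x => sum_mem fun g _ => hG g _ (hlL _), hequiv, ?_⟩
  have hcpos : (0 : ℝ) < Fintype.card G := by exact_mod_cast Fintype.card_pos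
  have hdelta : ∀ x, ‖w x - Pi.single x ((Fintype.card G : ℝ) * t)‖ ≤ (Fintype.card G : ℝ) * B := by
    intro x
    have h1 : w x - Pi.single x ((Fintype.card G : ℝ) * t)
        = ∑ g : G, tr g (l (g⁻¹ • x) - Pi.single (g⁻¹ • x) t) := by
      have h2 : ∀ g : G, tr g (l (g⁻¹ • x) - Pi.single (g⁻¹ • x) t)
          = tr g (l (g⁻¹ • x)) - Pi.single x t := by
        intro g
        rw [tr_sub, tr_single, smul_inv_smul]
      simp only [h2, Finset.sum_sub_distrib, w, Finset.sum_const, Finset.card_univ]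
      congr 1
      funext y
      by_cases hy : y = x
      · subst hy; simp
      · simp [hy]
    rw [h1]
    have e1 : ‖∑ g : G, tr g (l (g⁻¹ • x) - Pi.single (g⁻¹ • x) t)‖
        ≤ ∑ g : G, ‖tr g (l (g⁻¹ • x) - Pi.single (g⁻¹ • x) t)‖ := norm_sum_le _ _
    have e2 : ∑ g : G, ‖tr g (l (g⁻¹ • x) - Pi.single (g⁻¹ • x) t)‖ ≤ ∑ _g : G, B := by
      refine Finset.sum_le_sum fun g _ => ?_
      rw [norm_tr, norm_sub_rev]
      exact hl _
    have e3 : ∑ _g : G, B = (Fintype.card G : ℝ) * B := by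
      rw [Finset.sum_const, Finset.card_univ, nsmul_eq_mul]
    exact (e1.trans e2).trans e3.le
  refine linearIndependent_of_close_to_diag w _ _ ?_ hdelta
  nlinarith

/-- A family in `L` which is linearly independent over `ℝ` and has as many members as the
`ℤ`-rank of `L` spans a subgroup of finite index. -/
theorem finite_quotient_of_linearIndependent (L : Submodule ℤ (X → ℝ)) [Module.Finite ℤ L]
    (hrank : finrank ℤ L = Fintype.card X) (w : X → (X → ℝ)) (hw : ∀ x, w x ∈ L)
    (hli : LinearIndependent ℝ w) :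
    Finite (L ⧸ (span ℤ (Set.range w)).submoduleOf L) := by
  have hle : span ℤ (Set.range w) ≤ L := by
    rw [span_le]; rintro _ ⟨x, rfl⟩; exact hw x
  have hliZ : LinearIndependent ℤ w := hli.restrict_scalars' ℤ
  have : Module.Free ℤ L := inferInstance
  apply Submodule.finiteQuotientOfFreeOfRankEq
  rw [(Submodule.submoduleOfEquivOfLe hle).finrank_eq, finrank_span_eq_card hliZ, hrank]

/-- **Artin-Tate lattice lemma**, algebraic form.  A `G`-stable finitely generated `ℤ`-submodule
`L` of `X → ℝ` of rank `|X|` which spans over `ℝ` contains a `G`-stable submodule `L₁` of finite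
index which is `G`-equivariantly isomorphic to the permutation lattice `X → ℤ`. -/
theorem exists_perm_sublattice (L : Submodule ℤ (X → ℝ)) [Module.Finite ℤ L]
    (hrank : finrank ℤ L = Fintype.card X)
    (hspan : span ℝ (L : Set (X → ℝ)) = ⊤)
    (hG : ∀ (g : G), ∀ f ∈ L, tr g f ∈ L) :
    ∃ (L₁ : Submodule ℤ (X → ℝ)) (e : (X → ℤ) ≃ₗ[ℤ] L₁), L₁ ≤ L ∧
      (∀ (g : G), ∀ f ∈ L₁, tr g f ∈ L₁) ∧ Finite (L ⧸ L₁.submoduleOf L) ∧
      ∀ (g : G) (c : X → ℤ), ((e (tr g c) : L₁) : X → ℝ) = tr g ((e c : L₁) : X → ℝ) := by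
  classical
  obtain ⟨w, hwL, hwG, hli⟩ := exists_equivariant_family L hspan hG
  have hliZ : LinearIndependent ℤ w := hli.restrict_scalars' ℤ
  have hle : span ℤ (Set.range w) ≤ L := by
    rw [span_le]; rintro _ ⟨x, rfl⟩; exact hwL x
  have hformula : ∀ c : X → ℤ,
      (((Basis.span hliZ).equivFun.symm c : span ℤ (Set.range w)) : X → ℝ) = ∑ x, c x • w x := by
    intro c
    rw [Basis.equivFun_symm_apply]
    simp [Basis.span_apply]
  have hequiv : ∀ (g : G) (c : X → ℤ), ∑ x, (tr g c) x • w x = tr g (∑ x, c x • w x) := by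
    intro g c
    rw [tr_sum]
    refine (Fintype.sum_equiv (MulAction.toPerm g) _ _ fun x => ?_).symm
    show tr g (c x • w x) = (tr g c) (MulAction.toPerm g x) • w (MulAction.toPerm g x)
    rw [tr_smul, hwG, MulAction.toPerm_apply, tr_apply, inv_smul_smul]
  refine ⟨span ℤ (Set.range w), (Basis.span hliZ).equivFun.symm, hle, ?_,
    finite_quotient_of_linearIndependent L hrank w hwL hli, ?_⟩
  · intro g f hf
    have hf' : f = (((Basis.span hliZ).equivFun.symm ((Basis.span hliZ).equivFun ⟨f, hf⟩) :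
        span ℤ (Set.range w)) : X → ℝ) := by rw [LinearEquiv.symm_apply_apply]
    rw [hf', hformula, ← hequiv, ← hformula]
    exact Subtype.coe_prop _
  · intro g c
    rw [hformula, hformula, hequiv]

/-- **Artin-Tate lattice lemma** for a discrete full `ℤ`-lattice in `X → ℝ`. -/
theorem exists_perm_sublattice_of_isZLattice (L : Submodule ℤ (X → ℝ)) [DiscreteTopology L]
    [IsZLattice ℝ L] (hG : ∀ (g : G), ∀ f ∈ L, tr g f ∈ L) :
    ∃ (L₁ : Submodule ℤ (X → ℝ)) (e : (X → ℤ) ≃ₗ[ℤ] L₁), L₁ ≤ L ∧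
      (∀ (g : G), ∀ f ∈ L₁, tr g f ∈ L₁) ∧ Finite (L ⧸ L₁.submoduleOf L) ∧
      ∀ (g : G) (c : X → ℤ), ((e (tr g c) : L₁) : X → ℝ) = tr g ((e c : L₁) : X → ℝ) := by
  have : Module.Finite ℤ L := ZLattice.module_finite ℝ L
  refine exists_perm_sublattice L ?_ (IsZLattice.span_top) hG
  rw [ZLattice.rank ℝ L, finrank_fintype_fun_eq_card]

end Main

end Fermat.Agent.Lib.CFT.Coh.Lattice
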