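import Fermat.Agent.Lib.CFT.HerbrandPi

/-!
# Herbrand quotient of permutation lattices

`G` a finite group acting on a finite set `X`; `X → ℤ` carries the permutation action
`(g • φ) x = φ (g⁻¹ • x)`.  For `G` cyclic with generator `s`:
`[ker (s-1) : im N] = ∏ over orbits of |Stab|` and `[ker N : im (s-1)] = 1`.
-/

namespace Fermat.Agent.Lib.CFT.Coh.PermLattice

open Fermat.Agent.Lib.CFT.Herbrand

variable {G : Type*} [Group G] {X : Type*} [MulAction G X]

/-- The permutation action of `G` on functions `X → R`: `(g • φ) x = φ (g⁻¹ • x)`. -/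
@[reducible] def permAction (G : Type*) [Group G] (X : Type*) [MulAction G X]
    (R : Type*) [AddCommGroup R] : DistribMulAction G (X → R) where
  smul g φ := fun x => φ (g⁻¹ • x)
  one_smul φ := by
    funext x
    show φ ((1 : G)⁻¹ • x) = φ x
    rw [inv_one, one_smul]
  mul_smul g h φ := by
    funext x
    show φ ((g * h)⁻¹ • x) = φ (h⁻¹ • g⁻¹ • x)
    rw [mul_inv_rev, mul_smul]
  smul_zero g := rfl
  smul_add g φ ψ := rfl

section

variable {R : Type*} [AddCommGroup R]

attribute [local instance] permAction

theorem perm_smul_apply (g : G) (φ : X → R) (x : X) : (g • φ) x = φ (g⁻¹ • x) := rfl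

open scoped Classical in
theorem perm_smul_single (g : G) (z : X) (r : R) :
    g • (Pi.single z r : X → R) = Pi.single (g • z) r := by
  funext x
  rw [perm_smul_apply]
  by_cases h : x = g • z
  · subst h
    rw [inv_smul_smul, Pi.single_eq_same, Pi.single_eq_same]
  · rw [Pi.single_eq_of_ne h, Pi.single_eq_of_ne]
    intro h'
    apply h
    rw [← h', smul_inv_smul]

end

section Main

variable [Fintype G] [Fintype X]

attribute [local instance] permAction

/-- The orbit space. -/
abbrev Orb (G : Type*) [Group G] (X : Type*) [MulAction G X] : Type _ :=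
  MulAction.orbitRel.Quotient G X

noncomputable instance : Fintype (Orb G X) := by
  classical
  exact Quotient.fintype _

/-- Functions on the orbit space, viewed as invariant functions on `X`. -/
def orbHom (G : Type*) [Group G] (X : Type*) [MulAction G X] : (Orb G X → ℤ) →+ (X → ℤ) :=
  AddMonoidHom.mk' (fun c x => c (Quotient.mk'' x)) (fun _ _ => rfl)

omit [Fintype G] [Fintype X] in
theorem orbHom_apply (c : Orb G X → ℤ) (x : X) : orbHom G X c x = c (Quotient.mk'' x) := rfl

omit [Fintype G] [Fintype X] in
theorem orbHom_injective : Function.Injective (orbHom G X) := by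
  intro c c' h
  funext ω
  induction ω using Quotient.inductionOn' with
  | h x => exact congrFun h x

omit [Fintype G] [Fintype X] in
/-- For a generator `s`, the kernel of `s - 1` is the group of functions constant on orbits. -/
theorem ker_subOne_eq_range_orbHom {s : G} (hs : ∀ x, x ∈ Subgroup.zpowers s) :
    (subOne G (X → ℤ) s).ker = (orbHom G X).range := by
  ext φ
  rw [mem_ker_subOne_iff hs]
  constructor
  · intro h
    have hconst : ∀ x y : X, MulAction.orbitRel G X x y → φ x = φ y := by
      rintro x y ⟨g, rfl⟩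
      have := congrFun (h g) (g • y)
      rw [perm_smul_apply, inv_smul_smul] at this
      exact this.symm
    refine ⟨fun ω => Quotient.liftOn' ω φ hconst, ?_⟩
    funext x
    rfl
  · rintro ⟨c, rfl⟩ g
    funext x
    rw [perm_smul_apply, orbHom_apply, orbHom_apply]
    congr 1
    apply Quotient.sound'
    exact ⟨g⁻¹, rfl⟩

/-- The order of the stabiliser of a point. -/
noncomputable def stabCard (G : Type*) [Group G] {X : Type*} [MulAction G X] (z : X) : ℕ :=
  Nat.card (MulAction.stabilizer G z)

omit [Fintype X] in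
theorem stabCard_pos (z : X) : 0 < stabCard G z := Nat.card_pos

omit [Fintype G] [Fintype X] in
theorem stabCard_smul (h : G) (z : X) : stabCard G (h • z) = stabCard G z :=
  (Nat.card_congr (MulAction.stabilizerEquivStabilizer (g := h) (a := z) rfl).toEquiv).symm

omit [Fintype G] [Fintype X] in
theorem stabCard_eq_of_rel {x z : X} (h : (Quotient.mk'' x : Orb G X) = Quotient.mk'' z) :
    stabCard G x = stabCard G z := by
  obtain ⟨g, rfl⟩ := Quotient.exact' h
  exact stabCard_smul g z

open scoped Classical in
omit [Fintype X] in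
/-- Fibre count for the orbit map. -/
theorem card_filter_smul_eq (x z : X) :
    (Finset.univ.filter (fun g : G => g • z = x)).card =
      if (Quotient.mk'' x : Orb G X) = Quotient.mk'' z then stabCard G z else 0 := by
  split_ifs with h
  · obtain ⟨k, rfl⟩ := Quotient.exact' h
    have e : MulAction.stabilizer G z ≃ {g : G // g • z = k • z} :=
      { toFun := fun a => ⟨k * a.1, by rw [mul_smul, a.2]⟩
        invFun := fun g => ⟨k⁻¹ * g.1, by
          show (k⁻¹ * g.1) • z = z
          rw [mul_smul, g.2, inv_smul_smul]⟩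
        left_inv := fun a => by
          apply Subtype.ext
          show k⁻¹ * (k * a.1) = a.1
          rw [inv_mul_cancel_left]
        right_inv := fun g => by
          apply Subtype.ext
          show k * (k⁻¹ * g.1) = g.1
          rw [mul_inv_cancel_left] }
    unfold stabCard
    rw [Nat.card_congr e, Nat.card_eq_fintype_card, Fintype.card_subtype]
  · rw [Finset.card_eq_zero, Finset.filter_eq_empty_iff]
    intro g _ hg
    apply h
    apply Quotient.sound'
    exact ⟨g, hg⟩

open scoped Classical in
/-- Sum of a function over an orbit. -/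
noncomputable def orbSum (G : Type*) [Group G] {X : Type*} [Fintype X] [MulAction G X]
    (φ : X → ℤ) (ω : Orb G X) : ℤ :=
  ∑ z ∈ Finset.univ.filter (fun z : X => (Quotient.mk'' z : Orb G X) = ω), φ z

open scoped Classical in
/-- The norm of `φ` at `x` is `|Stab x|` times the sum of `φ` over the orbit of `x`. -/
theorem normHom_apply_eq (φ : X → ℤ) (x : X) :
    normHom G (X → ℤ) φ x = stabCard G x * orbSum G φ (Quotient.mk'' x) := by
  rw [Herbrand.normHom_apply, Finset.sum_apply]
  simp_rw [perm_smul_apply]
  have h1 : ∀ g : G, φ (g⁻¹ • x) = ∑ z : X, if g • z = x then φ z else 0 := by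
    intro g
    rw [Finset.sum_eq_single (g⁻¹ • x)]
    · rw [if_pos (smul_inv_smul g x)]
    · intro z _ hz
      rw [if_neg]
      intro h
      apply hz
      rw [← h, inv_smul_smul]
    · intro h
      exact absurd (Finset.mem_univ _) h
  simp_rw [h1]
  rw [Finset.sum_comm]
  have h2 : ∀ z : X, (∑ g : G, if g • z = x then φ z else 0) =
      if (Quotient.mk'' z : Orb G X) = Quotient.mk'' x then (stabCard G x : ℤ) * φ z else 0 := by
    intro z
    rw [← Finset.sum_filter, Finset.sum_const, card_filter_smul_eq, nsmul_eq_mul]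
    by_cases h : (Quotient.mk'' x : Orb G X) = Quotient.mk'' z
    · rw [if_pos h, if_pos h.symm, stabCard_eq_of_rel h]
    · rw [if_neg h, if_neg (fun h' => h h'.symm)]
      simp
  simp_rw [h2]
  rw [← Finset.sum_filter, orbSum, Finset.mul_sum]

open scoped Classical in
/-- The function supported on the chosen orbit representatives with prescribed values. -/
noncomputable def repFun (G : Type*) [Group G] {X : Type*} [Fintype X] [MulAction G X]
    (m : Orb G X → ℤ) : X → ℤ :=
  ∑ ω : Orb G X, Pi.single (Quotient.out ω) (m ω)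

open scoped Classical in
omit [Fintype G] in
theorem orbSum_repFun (m : Orb G X → ℤ) (ω' : Orb G X) : orbSum G (repFun G m) ω' = m ω' := by
  unfold orbSum repFun
  simp_rw [Finset.sum_apply]
  rw [Finset.sum_comm]
  have h : ∀ ω : Orb G X,
      (∑ z ∈ Finset.univ.filter (fun z : X => (Quotient.mk'' z : Orb G X) = ω'),
        (Pi.single (Quotient.out ω) (m ω) : X → ℤ) z) = if ω = ω' then m ω else 0 := by
    intro ω
    by_cases hω : ω = ω'
    · subst hω
      rw [if_pos rfl, Finset.sum_eq_single (Quotient.out ω)]
      · rw [Pi.single_eq_same]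
      · intro z _ hz
        rw [Pi.single_eq_of_ne hz]
      · intro h
        exfalso
        apply h
        rw [Finset.mem_filter]
        exact ⟨Finset.mem_univ _, Quotient.out_eq' ω⟩
    · rw [if_neg hω]
      apply Finset.sum_eq_zero
      intro z hz
      rw [Finset.mem_filter] at hz
      rw [Pi.single_eq_of_ne]
      intro hz'
      apply hω
      rw [← hz.2, hz', Quotient.out_eq']
  simp_rw [h]
  rw [Finset.sum_ite_eq' Finset.univ ω' m, if_pos (Finset.mem_univ _)]

open scoped Classical in
omit [Fintype G] [Fintype X] [MulAction G X] in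
theorem single_finset_sum {ι : Type*} (z : X) (f : ι → ℤ) (t : Finset ι) :
    (Pi.single z (∑ i ∈ t, f i) : X → ℤ) = ∑ i ∈ t, Pi.single z (f i) :=
  map_sum (AddMonoidHom.single (fun _ : X => ℤ) z) f t

open scoped Classical in
omit [Fintype G] in
/-- Modulo the image of `s - 1`, every function is determined by its orbit sums. -/
theorem sub_repFun_orbSum_mem_range {s : G} (hs : ∀ x, x ∈ Subgroup.zpowers s) (φ : X → ℤ) :
    φ - repFun G (orbSum G φ) ∈ (subOne G (X → ℤ) s).range := by
  have h1 : φ = ∑ x : X, (Pi.single x (φ x) : X → ℤ) := (Finset.univ_sum_single φ).symm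
  have h2 : repFun G (orbSum G φ) =
      ∑ x : X, (Pi.single (Quotient.out (Quotient.mk'' x : Orb G X)) (φ x) : X → ℤ) := by
    unfold repFun orbSum
    rw [← Finset.sum_fiberwise Finset.univ (fun x : X => (Quotient.mk'' x : Orb G X))
      (fun x => (Pi.single (Quotient.out (Quotient.mk'' x : Orb G X)) (φ x) : X → ℤ))]
    apply Finset.sum_congr rfl
    intro ω _
    rw [single_finset_sum]
    have : ∀ x ∈ Finset.univ.filter (fun x : X => (Quotient.mk'' x : Orb G X) = ω),
        (Pi.single (Quotient.out (Quotient.mk'' x : Orb G X)) (φ x) : X → ℤ) =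
          Pi.single (Quotient.out ω) (φ x) := by
      intro x hx
      rw [Finset.mem_filter] at hx
      rw [hx.2]
    rw [Finset.sum_congr rfl this]
  have h3 : φ - repFun G (orbSum G φ) =
      ∑ x : X, ((Pi.single x (φ x) : X → ℤ) -
        Pi.single (Quotient.out (Quotient.mk'' x : Orb G X)) (φ x)) := by
    rw [Finset.sum_sub_distrib, ← h1, ← h2]
  rw [h3]
  apply AddSubgroup.sum_mem
  intro x _
  obtain ⟨g, hg⟩ : ∃ g : G, g • Quotient.out (Quotient.mk'' x : Orb G X) = x := by
    have : (Quotient.mk'' (Quotient.out (Quotient.mk'' x : Orb G X)) : Orb G X) =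
        Quotient.mk'' x := Quotient.out_eq' _
    obtain ⟨g, hg⟩ := Quotient.exact' this
    exact ⟨g⁻¹, by rw [← hg, inv_smul_smul]⟩
  have := smul_sub_mem_range_subOne (A := X → ℤ) hs g
    (Pi.single (Quotient.out (Quotient.mk'' x : Orb G X)) (φ x))
  rw [perm_smul_single, hg] at this
  exact this

/-- The kernel of the norm consists of the functions with vanishing orbit sums. -/
theorem mem_ker_normHom_iff (φ : X → ℤ) :
    φ ∈ (normHom G (X → ℤ)).ker ↔ ∀ ω, orbSum G φ ω = 0 := by
  rw [AddMonoidHom.mem_ker]
  constructor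
  · intro h ω
    induction ω using Quotient.inductionOn' with
    | h x =>
      have := congrFun h x
      rw [normHom_apply_eq] at this
      rcases mul_eq_zero.mp this with h0 | h0
      · exact absurd h0 (by exact_mod_cast (stabCard_pos (G := G) x).ne')
      · exact h0
  · intro h
    funext x
    rw [normHom_apply_eq, h, mul_zero]
    rfl

/-- `[ker N : im (s-1)] = 1` for a permutation lattice. -/
theorem hIndex_normHom_subOne {s : G} (hs : ∀ x, x ∈ Subgroup.zpowers s) :
    hIndex (normHom G (X → ℤ)) (subOne G (X → ℤ) s) = 1 := by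
  unfold hIndex
  rw [AddSubgroup.relIndex_eq_one]
  intro φ hφ
  have h0 : orbSum G φ = 0 := by
    funext ω
    exact (mem_ker_normHom_iff φ).mp hφ ω
  have := sub_repFun_orbSum_mem_range hs φ
  rw [h0] at this
  have hz : repFun G (0 : Orb G X → ℤ) = 0 := by
    unfold repFun
    simp
  rw [hz, sub_zero] at this
  exact this

/-- The stabiliser order as a function on the orbit space. -/
noncomputable def orbStab (G : Type*) [Group G] {X : Type*} [MulAction G X] (ω : Orb G X) : ℕ :=
  stabCard G (Quotient.out ω)

omit [Fintype G] [Fintype X] in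
theorem orbStab_mk (x : X) : orbStab G (Quotient.mk'' x : Orb G X) = stabCard G x :=
  stabCard_eq_of_rel (Quotient.out_eq' _)

theorem normHom_eq_orbHom (φ : X → ℤ) :
    normHom G (X → ℤ) φ = orbHom G X (fun ω => (orbStab G ω : ℤ) * orbSum G φ ω) := by
  funext x
  rw [normHom_apply_eq, orbHom_apply, orbStab_mk]

/-- The subgroup of functions on the orbit space whose value at `ω` is divisible by `|Stab ω|`. -/
noncomputable def divSub (G : Type*) [Group G] (X : Type*) [MulAction G X] :
    AddSubgroup (Orb G X → ℤ) :=
  AddSubgroup.pi Set.univ (fun ω => AddSubgroup.zmultiples (orbStab G ω : ℤ))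

theorem range_normHom : (normHom G (X → ℤ)).range = (divSub G X).map (orbHom G X) := by
  ext ψ
  constructor
  · rintro ⟨φ, rfl⟩
    refine ⟨fun ω => (orbStab G ω : ℤ) * orbSum G φ ω, ?_, (normHom_eq_orbHom φ).symm⟩
    intro ω _
    show (orbStab G ω : ℤ) * orbSum G φ ω ∈ AddSubgroup.zmultiples (orbStab G ω : ℤ)
    rw [AddSubgroup.mem_zmultiples_iff]
    exact ⟨orbSum G φ ω, by rw [smul_eq_mul, mul_comm]⟩
  · rintro ⟨c, hc, rfl⟩
    have hc' : ∀ ω, ∃ k : ℤ, k • (orbStab G ω : ℤ) = c ω := fun ω =>
      AddSubgroup.mem_zmultiples_iff.mp (hc ω (Set.mem_univ _))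
    choose m hm using hc'
    refine ⟨repFun G m, ?_⟩
    rw [normHom_eq_orbHom]
    congr 1
    funext ω
    rw [orbSum_repFun, ← hm ω, smul_eq_mul, mul_comm]

open scoped Classical in
omit [Fintype G] in
theorem index_divSub : (divSub G X).index = ∏ ω : Orb G X, orbStab G ω := by
  have h := relIndex_pi (fun ω : Orb G X => AddSubgroup.zmultiples (orbStab G ω : ℤ))
    (fun _ => (⊤ : AddSubgroup ℤ)) Finset.univ (fun i hi => absurd (Finset.mem_univ i) hi)
  rw [AddSubgroup.pi_top, AddSubgroup.relIndex_top_right] at h
  unfold divSub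
  rw [h]
  apply Finset.prod_congr rfl
  intro ω _
  rw [AddSubgroup.relIndex_top_right, Int.index_zmultiples, Int.natAbs_natCast]

/-- `[ker (s-1) : im N] = ∏_{orbits} |Stab|` for a permutation lattice. -/
theorem hIndex_subOne_normHom {s : G} (hs : ∀ x, x ∈ Subgroup.zpowers s) :
    hIndex (subOne G (X → ℤ) s) (normHom G (X → ℤ)) = ∏ ω : Orb G X, orbStab G ω := by
  unfold hIndex
  rw [range_normHom, ker_subOne_eq_range_orbHom hs, AddMonoidHom.range_eq_map,
    AddSubgroup.relIndex_map_map_of_injective _ _ orbHom_injective,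
    AddSubgroup.relIndex_top_right, index_divSub]

/-- The Herbrand quotient of the permutation lattice `X → ℤ` of a finite cyclic group. -/
theorem herbrandCyc_perm {s : G} (hs : ∀ x, x ∈ Subgroup.zpowers s) :
    herbrandCyc G (X → ℤ) s = ((∏ ω : Orb G X, orbStab G ω : ℕ) : ℚ) ∧
      CycFin G (X → ℤ) s := by
  have h0 := hIndex_subOne_normHom (X := X) hs
  have h1 := hIndex_normHom_subOne (X := X) hs
  have hpos : (∏ ω : Orb G X, orbStab G ω) ≠ 0 :=
    Finset.prod_ne_zero_iff.mpr fun ω _ => (stabCard_pos _).ne'
  constructor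
  · unfold herbrandCyc herbrand
    rw [h0, h1]
    simp
  · unfold CycFin IsFin
    rw [h0, h1]
    exact ⟨hpos, one_ne_zero⟩

end Main

end Fermat.Agent.Lib.CFT.Coh.PermLattice
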