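import Fermat.Agent.Lib.CFT.Coh.Lattice
import Fermat.Agent.Lib.CFT.Coh.PermLattice

/-!
# Herbrand quotient of `G`-lattices in a permutation representation

`G` finite cyclic with generator `s`, acting on a finite set `X`.
* `herbrand_lattice`: a `G`-stable full lattice `L ⊆ (X → ℝ)` has Herbrand quotient
  `∏ over orbits |Stab|`.
* `herbrand_traceZero_lattice`: a `G`-stable full lattice `L₀` of the trace-zero hyperplane has
  Herbrand quotient `(∏ over orbits |Stab|) / |G|`.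
-/

namespace Fermat.Agent.Lib.CFT.Coh.LatticeHerbrand

open Fermat.Agent.Lib.CFT.Herbrand Fermat.Agent.Lib.CFT.Coh.PermLattice
  Fermat.Agent.Lib.CFT.Coh.Lattice

variable {G : Type*} [Group G] [Fintype G] {X : Type*} [Fintype X] [MulAction G X]

attribute [local instance] permAction

section Stable

variable {A : Type*} [AddCommGroup A] [DistribMulAction G A]

omit [Fintype G] in
theorem subOne_mem (L : AddSubgroup A) (hL : ∀ (g : G), ∀ a ∈ L, g • a ∈ L) (s : G) :
    ∀ a ∈ L, subOne G A s a ∈ L := fun a ha => by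
  rw [subOne_apply]
  exact L.sub_mem (hL s a ha) ha

theorem normHom_mem (L : AddSubgroup A) (hL : ∀ (g : G), ∀ a ∈ L, g • a ∈ L) :
    ∀ a ∈ L, normHom G A a ∈ L := fun a ha => by
  rw [Herbrand.normHom_apply]
  exact L.sum_mem fun g _ => hL g a ha

/-- The Herbrand quotient of a `G`-stable subgroup `L` of a `G`-module `A`. -/
noncomputable def herbrandSub (L : AddSubgroup A) (hL : ∀ (g : G), ∀ a ∈ L, g • a ∈ L)
    (s : G) : ℚ :=
  herbrand (resEnd (subOne G A s) L (subOne_mem L hL s))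
    (resEnd (normHom G A) L (normHom_mem L hL))

/-- Finiteness of the two cohomology groups of a `G`-stable subgroup. -/
def SubFin (L : AddSubgroup A) (hL : ∀ (g : G), ∀ a ∈ L, g • a ∈ L) (s : G) : Prop :=
  IsFin (resEnd (subOne G A s) L (subOne_mem L hL s))
    (resEnd (normHom G A) L (normHom_mem L hL))

end Stable

omit [Fintype G] [Fintype X] in
theorem smul_eq_tr {R : Type*} [AddCommGroup R] (g : G) (f : X → R) : g • f = tr g f := rfl

/-- Transfer: a `G`-stable lattice containing a finite-index copy of the permutation lattice has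
the Herbrand quotient of the permutation lattice. -/
theorem herbrand_of_perm_sublattice {s : G} (hs : ∀ x, x ∈ Subgroup.zpowers s)
    (L : Submodule ℤ (X → ℝ)) (hG : ∀ (g : G), ∀ f ∈ L, tr g f ∈ L)
    (h : ∃ (L₁ : Submodule ℤ (X → ℝ)) (e : (X → ℤ) ≃ₗ[ℤ] L₁), L₁ ≤ L ∧
      (∀ (g : G), ∀ f ∈ L₁, tr g f ∈ L₁) ∧ Finite (L ⧸ L₁.submoduleOf L) ∧
      ∀ (g : G) (c : X → ℤ), ((e (tr g c) : L₁) : X → ℝ) = tr g ((e c : L₁) : X → ℝ)) :
    herbrandSub L.toAddSubgroup hG s = ((∏ ω : Orb G X, orbStab G ω : ℕ) : ℚ) ∧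
      SubFin L.toAddSubgroup hG s := by
  obtain ⟨L₁, e, hle, -, hfin, heq⟩ := h
  -- the comparison map
  let ψ : (X → ℤ) →+ L.toAddSubgroup :=
    AddMonoidHom.mk' (fun c => ⟨((e c : L₁) : X → ℝ), hle (e c).2⟩) (fun c c' => by
      apply Subtype.ext
      show ((e (c + c') : L₁) : X → ℝ) = ((e c : L₁) : X → ℝ) + ((e c' : L₁) : X → ℝ)
      rw [map_add]
      rfl)
  have hψ_val : ∀ c, ((ψ c : L.toAddSubgroup) : X → ℝ) = ((e c : L₁) : X → ℝ) := fun c => rfl
  have hψ_inj : Function.Injective ψ := by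
    intro c c' hcc
    have : ((e c : L₁) : X → ℝ) = ((e c' : L₁) : X → ℝ) :=
      congrArg (fun v : L.toAddSubgroup => (v : X → ℝ)) hcc
    exact e.injective (Subtype.ext this)
  have hψ_smul : ∀ (g : G) (c : X → ℤ), ((ψ (g • c) : L.toAddSubgroup) : X → ℝ) =
      g • ((ψ c : L.toAddSubgroup) : X → ℝ) := fun g c => heq g c
  have : Finite ψ.ker := by
    rw [(AddMonoidHom.ker_eq_bot_iff ψ).mpr hψ_inj]
    infer_instance
  have hrange : ψ.range = (L₁.submoduleOf L).toAddSubgroup := by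
    ext v
    constructor
    · rintro ⟨c, rfl⟩
      exact (e c).2
    · intro hv
      refine ⟨e.symm ⟨v.1, hv⟩, ?_⟩
      apply Subtype.ext
      rw [hψ_val, LinearEquiv.apply_symm_apply]
  have hcoker : ψ.range.index ≠ 0 := by
    rw [hrange]
    have : Nat.card (L ⧸ L₁.submoduleOf L) ≠ 0 := Nat.card_pos.ne'
    exact this
  have hf : ∀ c, ψ (subOne G (X → ℤ) s c) =
      resEnd (subOne G (X → ℝ) s) L.toAddSubgroup (subOne_mem _ hG s) (ψ c) := by
    intro c
    apply Subtype.ext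
    rw [resEnd_coe, subOne_apply, subOne_apply, map_sub]
    show ((ψ (s • c) : L.toAddSubgroup) : X → ℝ) - ((ψ c : L.toAddSubgroup) : X → ℝ) = _
    rw [hψ_smul]
  have hg : ∀ c, ψ (normHom G (X → ℤ) c) =
      resEnd (normHom G (X → ℝ)) L.toAddSubgroup (normHom_mem _ hG) (ψ c) := by
    intro c
    apply Subtype.ext
    rw [resEnd_coe, Herbrand.normHom_apply, Herbrand.normHom_apply, map_sum]
    rw [AddSubgroup.val_finsetSum]
    exact Finset.sum_congr rfl fun g _ => hψ_smul g c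
  obtain ⟨hiff, heqh⟩ := herbrand_eq_of_finite_ker_coker ψ
    (subOne_normHom s) (normHom_subOne s)
    (resEnd_comp_zero (subOne_normHom s) _ _ _) (resEnd_comp_zero (normHom_subOne s) _ _ _)
    hf hg hcoker
  obtain ⟨hq, hfin'⟩ := herbrandCyc_perm (X := X) hs
  constructor
  · unfold herbrandSub
    rw [← heqh]
    exact hq
  · exact hiff.mp hfin'

/-- **Herbrand quotient of a full `G`-lattice** in the permutation representation `X → ℝ`. -/
theorem herbrand_lattice {s : G} (hs : ∀ x, x ∈ Subgroup.zpowers s)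
    (L : Submodule ℤ (X → ℝ)) [DiscreteTopology L] [IsZLattice ℝ L]
    (hG : ∀ (g : G), ∀ f ∈ L, tr g f ∈ L) :
    herbrandSub L.toAddSubgroup hG s = ((∏ ω : Orb G X, orbStab G ω : ℕ) : ℚ) ∧
      SubFin L.toAddSubgroup hG s :=
  herbrand_of_perm_sublattice hs L hG (exists_perm_sublattice_of_isZLattice L hG)

section TraceZero

/-- The all-ones vector. -/
def ones (X : Type*) : X → ℝ := fun _ => 1

/-- The average of the coordinates, as an additive map. -/
noncomputable def avg (X : Type*) [Fintype X] : (X → ℝ) →+ ℝ :=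
  AddMonoidHom.mk' (fun v => (∑ x, v x) / Fintype.card X) (fun v w => by
    simp only [Pi.add_apply]
    rw [Finset.sum_add_distrib, add_div])

omit [Fintype G] in
theorem avg_smul (g : G) (v : X → ℝ) : avg X (g • v) = avg X v := by
  show (∑ x, v (g⁻¹ • x)) / (Fintype.card X : ℝ) = (∑ x, v x) / (Fintype.card X : ℝ)
  congr 1
  exact Equiv.sum_comp (MulAction.toPerm g⁻¹) v

theorem avg_ones [Nonempty X] : avg X (ones X) = 1 := by
  show (∑ _x : X, (1 : ℝ)) / (Fintype.card X : ℝ) = 1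
  rw [Finset.sum_const, Finset.card_univ, nsmul_eq_mul, mul_one]
  exact div_self (by exact_mod_cast Fintype.card_ne_zero)

theorem avg_eq_zero_iff [Nonempty X] (v : X → ℝ) : avg X v = 0 ↔ ∑ x, v x = 0 := by
  show (∑ x, v x) / (Fintype.card X : ℝ) = 0 ↔ _
  rw [div_eq_zero_iff]
  constructor
  · rintro (h | h)
    · exact h
    · exact absurd h (by exact_mod_cast Fintype.card_ne_zero)
  · exact Or.inl

theorem abs_avg_le (v : X → ℝ) : |avg X v| ≤ ‖v‖ := by
  show |(∑ x, v x) / (Fintype.card X : ℝ)| ≤ ‖v‖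
  rcases isEmpty_or_nonempty X with hX | hX
  · simp
  rw [abs_div, Nat.abs_cast, div_le_iff₀ (by exact_mod_cast Fintype.card_pos)]
  calc |∑ x, v x| ≤ ∑ x, |v x| := Finset.abs_sum_le_sum_abs _ _
    _ ≤ ∑ _x : X, ‖v‖ := Finset.sum_le_sum fun x _ => norm_le_pi_norm v x
    _ = ‖v‖ * Fintype.card X := by
      rw [Finset.sum_const, Finset.card_univ, nsmul_eq_mul, mul_comm]

/-- The lattice `L₀ + ℤ·(1,…,1)`. -/
def addOnes (L₀ : Submodule ℤ (X → ℝ)) : Submodule ℤ (X → ℝ) :=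
  L₀ ⊔ Submodule.span ℤ {ones X}

omit [Fintype X] in
theorem mem_addOnes {L₀ : Submodule ℤ (X → ℝ)} {v : X → ℝ} :
    v ∈ addOnes L₀ ↔ ∃ v₀ ∈ L₀, ∃ k : ℤ, v = v₀ + k • ones X := by
  unfold addOnes
  rw [Submodule.mem_sup]
  constructor
  · rintro ⟨v₀, hv₀, w, hw, rfl⟩
    obtain ⟨k, rfl⟩ := Submodule.mem_span_singleton.mp hw
    exact ⟨v₀, hv₀, k, rfl⟩
  · rintro ⟨v₀, hv₀, k, rfl⟩
    exact ⟨v₀, hv₀, k • ones X, Submodule.mem_span_singleton.mpr ⟨k, rfl⟩, rfl⟩

omit [Fintype G] [Fintype X] in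
theorem tr_ones (g : G) : tr g (ones X) = ones X := rfl

omit [Fintype G] [Fintype X] in
theorem addOnes_stable {L₀ : Submodule ℤ (X → ℝ)} (hG : ∀ (g : G), ∀ f ∈ L₀, tr g f ∈ L₀) :
    ∀ (g : G), ∀ f ∈ addOnes L₀, tr g f ∈ addOnes L₀ := by
  intro g f hf
  obtain ⟨v₀, hv₀, k, rfl⟩ := mem_addOnes.mp hf
  exact mem_addOnes.mpr ⟨tr g v₀, hG g v₀ hv₀, k, rfl⟩

theorem avg_of_mem_addOnes [Nonempty X] {L₀ : Submodule ℤ (X → ℝ)}
    (h0 : ∀ v ∈ L₀, ∑ x, v x = 0) {v₀ : X → ℝ} (hv₀ : v₀ ∈ L₀) (k : ℤ) :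
    avg X (v₀ + k • ones X) = k := by
  rw [map_add, (avg_eq_zero_iff v₀).mpr (h0 v₀ hv₀), zero_add, map_zsmul, avg_ones]
  simp

theorem discreteTopology_addOnes [Nonempty X] (L₀ : Submodule ℤ (X → ℝ)) [DiscreteTopology L₀]
    (h0 : ∀ v ∈ L₀, ∑ x, v x = 0) : DiscreteTopology (addOnes L₀) := by
  obtain ⟨ε, hε, hball⟩ := Metric.isOpen_singleton_iff.mp (isOpen_discrete ({0} : Set L₀))
  refine discreteTopology_of_isOpen_singleton_zero ?_
  rw [Metric.isOpen_singleton_iff]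
  refine ⟨min ε 1, lt_min hε one_pos, ?_⟩
  intro y hy
  obtain ⟨v₀, hv₀, k, hyk⟩ := mem_addOnes.mp y.2
  have hnorm : ‖(y : X → ℝ)‖ < min ε 1 := by
    have : dist y 0 = ‖(y : X → ℝ)‖ := by
      rw [Subtype.dist_eq]
      show dist (y : X → ℝ) 0 = _
      rw [dist_zero_right]
    rw [← this]
    exact hy
  have hk : k = 0 := by
    have h1 : |avg X (y : X → ℝ)| < 1 :=
      lt_of_le_of_lt (abs_avg_le _) (lt_of_lt_of_le hnorm (min_le_right _ _))
    rw [hyk, avg_of_mem_addOnes h0 hv₀ k] at h1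
    have : |k| < 1 := by exact_mod_cast h1
    exact Int.abs_lt_one_iff.mp this
  rw [hk, zero_smul, add_zero] at hyk
  have hv0 : (⟨v₀, hv₀⟩ : L₀) = 0 := by
    apply hball
    rw [Subtype.dist_eq]
    show dist v₀ 0 < ε
    rw [dist_zero_right, ← hyk]
    exact lt_of_lt_of_le hnorm (min_le_left _ _)
  apply Subtype.ext
  rw [hyk]
  exact congrArg Subtype.val hv0

theorem span_addOnes [Nonempty X] (L₀ : Submodule ℤ (X → ℝ))
    (hspan : ∀ v : X → ℝ, ∑ x, v x = 0 → v ∈ Submodule.span ℝ (L₀ : Set (X → ℝ))) :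
    Submodule.span ℝ (addOnes L₀ : Set (X → ℝ)) = ⊤ := by
  rw [eq_top_iff]
  intro v _
  have hle : (L₀ : Set (X → ℝ)) ⊆ (addOnes L₀ : Set (X → ℝ)) := fun w hw =>
    mem_addOnes.mpr ⟨w, hw, 0, by simp⟩
  have hones : ones X ∈ Submodule.span ℝ (addOnes L₀ : Set (X → ℝ)) :=
    Submodule.subset_span (mem_addOnes.mpr ⟨0, L₀.zero_mem, 1, by simp⟩)
  have hv : v = (v - avg X v • ones X) + avg X v • ones X := by abel
  rw [hv]
  refine Submodule.add_mem _ (Submodule.span_mono hle (hspan _ ?_)) (Submodule.smul_mem _ _ hones)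
  rw [← avg_eq_zero_iff, map_sub]
  have : avg X (avg X v • ones X) = avg X v := by
    show (∑ x, (avg X v • ones X) x) / (Fintype.card X : ℝ) = avg X v
    simp only [Pi.smul_apply, ones, smul_eq_mul, mul_one]
    rw [Finset.sum_const, Finset.card_univ, nsmul_eq_mul, mul_comm, mul_div_assoc,
      div_self (by exact_mod_cast Fintype.card_ne_zero), mul_one]
  rw [this, sub_self]

theorem exists_int_avg [Nonempty X] {L₀ : Submodule ℤ (X → ℝ)}
    (h0 : ∀ v ∈ L₀, ∑ x, v x = 0) {v : X → ℝ} (hv : v ∈ addOnes L₀) :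
    ∃ k : ℤ, avg X v = k ∧ v - k • ones X ∈ L₀ := by
  obtain ⟨v₀, hv₀, k, rfl⟩ := mem_addOnes.mp hv
  exact ⟨k, avg_of_mem_addOnes h0 hv₀ k, by simpa using hv₀⟩

/-- The coefficient of `(1,…,1)` of an element of `L₀ + ℤ·(1,…,1)`. -/
noncomputable def onesCoord [Nonempty X] (L₀ : Submodule ℤ (X → ℝ))
    (h0 : ∀ v ∈ L₀, ∑ x, v x = 0) : (addOnes L₀).toAddSubgroup →+ ℤ :=
  AddMonoidHom.mk' (fun v => ⌊avg X (v : X → ℝ)⌋) (fun v w => by
    obtain ⟨k, hk, -⟩ := exists_int_avg h0 v.2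
    obtain ⟨k', hk', -⟩ := exists_int_avg h0 w.2
    show ⌊avg X ((v : X → ℝ) + (w : X → ℝ))⌋ = ⌊avg X (v : X → ℝ)⌋ + ⌊avg X (w : X → ℝ)⌋
    rw [map_add, hk, hk', Int.floor_intCast, Int.floor_intCast, ← Int.cast_add,
      Int.floor_intCast])

theorem onesCoord_cast [Nonempty X] (L₀ : Submodule ℤ (X → ℝ))
    (h0 : ∀ v ∈ L₀, ∑ x, v x = 0) (v : (addOnes L₀).toAddSubgroup) :
    (onesCoord L₀ h0 v : ℝ) = avg X (v : X → ℝ) := by
  obtain ⟨k, hk, -⟩ := exists_int_avg h0 v.2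
  show ((⌊avg X (v : X → ℝ)⌋ : ℤ) : ℝ) = _
  rw [hk, Int.floor_intCast]

/-- **Herbrand quotient of a full `G`-lattice of the trace-zero hyperplane** of the permutation
representation `X → ℝ`: it is `(∏ over orbits |Stab|) / |G|`. -/
theorem herbrand_traceZero_lattice [Nonempty X] {s : G} (hs : ∀ x, x ∈ Subgroup.zpowers s)
    (L₀ : Submodule ℤ (X → ℝ)) [DiscreteTopology L₀]
    (h0 : ∀ v ∈ L₀, ∑ x, v x = 0)
    (hspan : ∀ v : X → ℝ, ∑ x, v x = 0 → v ∈ Submodule.span ℝ (L₀ : Set (X → ℝ)))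
    (hG : ∀ (g : G), ∀ f ∈ L₀, tr g f ∈ L₀) :
    herbrandSub L₀.toAddSubgroup hG s =
        ((∏ ω : Orb G X, orbStab G ω : ℕ) : ℚ) / (Fintype.card G : ℚ) ∧
      SubFin L₀.toAddSubgroup hG s := by
  have := discreteTopology_addOnes L₀ h0
  have : IsZLattice ℝ (addOnes L₀) := ⟨span_addOnes L₀ hspan⟩
  obtain ⟨hB, hBfin⟩ := herbrand_lattice hs (addOnes L₀) (addOnes_stable hG)
  have hle : L₀.toAddSubgroup ≤ (addOnes L₀).toAddSubgroup := fun v hv =>
    mem_addOnes.mpr ⟨v, hv, 0, by simp⟩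
  have hn : Fintype.card G ≠ 0 := Fintype.card_ne_zero
  have key := herbrand_of_exact
    (fA := resEnd (subOne G (X → ℝ) s) L₀.toAddSubgroup (subOne_mem _ hG s))
    (gA := resEnd (normHom G (X → ℝ)) L₀.toAddSubgroup (normHom_mem _ hG))
    (fB := resEnd (subOne G (X → ℝ) s) (addOnes L₀).toAddSubgroup
      (subOne_mem _ (addOnes_stable hG) s))
    (gB := resEnd (normHom G (X → ℝ)) (addOnes L₀).toAddSubgroup
      (normHom_mem _ (addOnes_stable hG)))
    (fC := (0 : ℤ →+ ℤ)) (gC := nsmulAddMonoidHom (Fintype.card G))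
    (i := AddSubgroup.inclusion hle) (p := onesCoord L₀ h0)
    (AddSubgroup.inclusion_injective hle) ?_ ?_
    (resEnd_comp_zero (subOne_normHom s) _ _ _) (resEnd_comp_zero (normHom_subOne s) _ _ _)
    (fun a => rfl) (fun a => rfl) ?_ ?_
  · obtain ⟨-, -, h3, h4⟩ := key
    obtain ⟨hCq, hCfin⟩ := powQuot_int hn
    have hA : SubFin L₀.toAddSubgroup hG s := h3 ⟨hBfin, hCfin⟩
    refine ⟨?_, hA⟩
    have h5 := h4 hA hCfin
    have h6 : herbrandSub (addOnes L₀).toAddSubgroup (addOnes_stable hG) s =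
        herbrandSub L₀.toAddSubgroup hG s * powQuot ℤ (Fintype.card G) := h5
    rw [hB, hCq] at h6
    rw [h6, mul_div_assoc, div_self (by exact_mod_cast hn), mul_one]
  · -- surjectivity of the coordinate
    intro k
    refine ⟨⟨k • ones X, mem_addOnes.mpr ⟨0, L₀.zero_mem, k, by simp⟩⟩, ?_⟩
    have h := onesCoord_cast L₀ h0 ⟨k • ones X, mem_addOnes.mpr ⟨0, L₀.zero_mem, k, by simp⟩⟩
    have h' : avg X (k • ones X) = (k : ℝ) := by
      rw [map_zsmul, avg_ones]; simp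
    rw [show ((⟨k • ones X, _⟩ : (addOnes L₀).toAddSubgroup) : X → ℝ) = k • ones X from rfl,
      h'] at h
    exact_mod_cast h
  · -- exactness in the middle
    ext v
    constructor
    · rintro ⟨w, rfl⟩
      rw [AddMonoidHom.mem_ker]
      have h := onesCoord_cast L₀ h0 (AddSubgroup.inclusion hle w)
      have h' : avg X ((AddSubgroup.inclusion hle w : (addOnes L₀).toAddSubgroup) : X → ℝ) = 0 :=
        (avg_eq_zero_iff _).mpr (h0 _ w.2)
      rw [h'] at h
      exact_mod_cast h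
    · intro hv
      rw [AddMonoidHom.mem_ker] at hv
      obtain ⟨k, hk, hmem⟩ := exists_int_avg h0 v.2
      have h := onesCoord_cast L₀ h0 v
      rw [hv, hk] at h
      have hk0 : k = 0 := by exact_mod_cast h.symm
      rw [hk0, zero_smul, sub_zero] at hmem
      exact ⟨⟨v.1, hmem⟩, rfl⟩
  · -- compatibility with `s - 1`
    intro v
    show onesCoord L₀ h0 _ = (0 : ℤ →+ ℤ) _
    rw [AddMonoidHom.zero_apply]
    have h := onesCoord_cast L₀ h0
      (resEnd (subOne G (X → ℝ) s) (addOnes L₀).toAddSubgroup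
        (subOne_mem _ (addOnes_stable hG) s) v)
    rw [resEnd_coe, subOne_apply, map_sub, avg_smul, sub_self] at h
    exact_mod_cast h
  · -- compatibility with the norm
    intro v
    have h := onesCoord_cast L₀ h0
      (resEnd (normHom G (X → ℝ)) (addOnes L₀).toAddSubgroup
        (normHom_mem _ (addOnes_stable hG)) v)
    rw [resEnd_coe, Herbrand.normHom_apply, map_sum] at h
    simp_rw [avg_smul] at h
    rw [Finset.sum_const, Finset.card_univ, ← onesCoord_cast L₀ h0 v] at h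
    rw [nsmulAddMonoidHom_apply]
    have h2 : ((Fintype.card G • onesCoord L₀ h0 v : ℤ) : ℝ) =
        Fintype.card G • (onesCoord L₀ h0 v : ℝ) := by
      rw [nsmul_eq_mul, nsmul_eq_mul]
      push_cast
      rfl
    exact_mod_cast h.trans h2.symm

end TraceZero

end Fermat.Agent.Lib.CFT.Coh.LatticeHerbrand
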