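/-
Functoriality of group cohomology along isomorphisms: a bijective group homomorphism together with
a bijective compatible map of coefficient modules induces bijections on cohomology.
-/
import Mathlib

set_option autoImplicit false

namespace Fermat.Agent.Lib.CFT.Coh.MapBijective

open CategoryTheory groupCohomology Rep

universe u

variable {k G H : Type u} [CommRing k] [Group G] [Group H] {A : Rep.{u} k H} {B : Rep.{u} k G}
  (f : G →* H) (φ : res f A ⟶ B)

theorem cochainsMap_f_apply (n : ℕ) (x : (Fin n → H) → A) (g : Fin n → G) :
    ((cochainsMap f φ).f n).hom x g = φ.hom (x (f ∘ g)) := rfl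

theorem cochainsMap_f_bijective (hf : Function.Bijective f) (hφ : Function.Bijective φ.hom)
    (n : ℕ) : Function.Bijective ((cochainsMap f φ).f n).hom := by
  obtain ⟨finv, hl, hr⟩ := Function.bijective_iff_has_inverse.1 hf
  obtain ⟨φinv, hφl, hφr⟩ := Function.bijective_iff_has_inverse.1 hφ
  constructor
  · intro (x : (Fin n → H) → A) (y : (Fin n → H) → A) hxy
    funext h
    have h1 := congrFun hxy (finv ∘ h)
    rw [cochainsMap_f_apply, cochainsMap_f_apply] at h1
    have h2 : f ∘ finv ∘ h = h := by
      funext i
      exact hr (h i)
    rw [h2] at h1
    exact hφ.1 h1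
  · intro (z : (Fin n → G) → B)
    refine ⟨(fun h => φinv (z (finv ∘ h)) : (Fin n → H) → A), ?_⟩
    funext g
    rw [cochainsMap_f_apply]
    have h2 : finv ∘ f ∘ g = g := by
      funext i
      exact hl (g i)
    rw [h2]
    exact hφr _

/-- A bijective group homomorphism and a bijective compatible map of coefficients induce an
isomorphism of cochain complexes. -/
theorem isIso_cochainsMap (hf : Function.Bijective f) (hφ : Function.Bijective φ.hom) :
    IsIso (cochainsMap f φ) := by
  have : ∀ n : ℕ, IsIso ((cochainsMap f φ).f n) := fun n =>
    (ConcreteCategory.isIso_iff_bijective _).2 (cochainsMap_f_bijective f φ hf hφ n)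
  exact HomologicalComplex.Hom.isIso_of_components _

/-- A bijective group homomorphism and a bijective compatible map of coefficients induce
isomorphisms on cohomology. -/
theorem isIso_map (hf : Function.Bijective f) (hφ : Function.Bijective φ.hom) (n : ℕ) :
    IsIso (groupCohomology.map f φ n) := by
  have := isIso_cochainsMap f φ hf hφ
  exact inferInstanceAs (IsIso ((HomologicalComplex.homologyFunctor _ _ n).map (cochainsMap f φ)))

theorem map_bijective (hf : Function.Bijective f) (hφ : Function.Bijective φ.hom) (n : ℕ) :
    Function.Bijective (groupCohomology.map f φ n) := by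
  have := isIso_map f φ hf hφ n
  exact ConcreteCategory.bijective_of_isIso _

end Fermat.Agent.Lib.CFT.Coh.MapBijective
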