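/-
P-CFT work package Coh/SemiLocal (helper65).

Tate cohomology of arbitrary products, the semi-local Shapiro lemma, and Tate cohomology of
directed unions (finite group `G`).
-/
import Fermat.Agent.Lib.CFT.Coh.Induced

universe u w

open CategoryTheory CategoryTheory.Limits groupCohomology groupHomology Rep

namespace Fermat.Agent.Lib.CFT.Coh

namespace SemiLocal

/-! ### Elementwise homology of complexes of modules -/

section Elementwise

variable {R : Type u} [Ring R] {α : Type*} {c : ComplexShape α}
  (K : HomologicalComplex (ModuleCat.{u} R) c) (n : α)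

lemma iCycles_injective : Function.Injective (K.iCycles n) :=
  (ModuleCat.mono_iff_injective _).1 inferInstance

lemma homologyπ_surjective : Function.Surjective (K.homologyπ n) :=
  (ModuleCat.epi_iff_surjective _).1 inferInstance

lemma exists_cycle_of_d_eq_zero (z : K.X n) (hz : K.d n (c.next n) z = 0) :
    ∃ y : K.cycles n, K.iCycles n y = z := by
  have h := ShortComplex.exact_of_f_is_kernel
    (ShortComplex.mk (K.iCycles n) (K.d n (c.next n)) (K.iCycles_d n _))
    (K.cyclesIsKernel n (c.next n) rfl)
  rw [ShortComplex.moduleCat_exact_iff] at h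
  exact h z hz

lemma exists_of_homologyπ_eq_zero (y : K.cycles n) (hy : K.homologyπ n y = 0) :
    ∃ w : K.X (c.prev n), K.toCycles (c.prev n) n w = y := by
  have h := ShortComplex.exact_of_g_is_cokernel
    (ShortComplex.mk (K.toCycles (c.prev n) n) (K.homologyπ n) (K.toCycles_comp_homologyπ _ n))
    (K.homologyIsCokernel (c.prev n) n rfl)
  rw [ShortComplex.moduleCat_exact_iff] at h
  exact h y hy

lemma iCycles_toCycles (i : α) (w : K.X i) : K.iCycles n (K.toCycles i n w) = K.d i n w :=
  congrArg (fun f => f.hom w) (K.toCycles_i i n)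

lemma homologyπ_toCycles (i : α) (w : K.X i) : K.homologyπ n (K.toCycles i n w) = 0 :=
  congrArg (fun f => f.hom w) (K.toCycles_comp_homologyπ i n)

variable {K} {L : HomologicalComplex (ModuleCat.{u} R) c} (φ : K ⟶ L)

lemma iCycles_cyclesMap (y : K.cycles n) :
    L.iCycles n (HomologicalComplex.cyclesMap φ n y) = φ.f n (K.iCycles n y) :=
  congrArg (fun f => f.hom y) (HomologicalComplex.cyclesMap_i φ n)

lemma homologyMap_homologyπ (y : K.cycles n) :
    HomologicalComplex.homologyMap φ n (K.homologyπ n y) =
      L.homologyπ n (HomologicalComplex.cyclesMap φ n y) :=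
  congrArg (fun f => f.hom y) (HomologicalComplex.homologyπ_naturality φ n)

lemma d_f (i j : α) (x : K.X i) : L.d i j (φ.f i x) = φ.f j (K.d i j x) :=
  congrArg (fun f => f.hom x) (φ.comm i j)

end Elementwise

/-! ### Homology of a "product" of complexes -/

section ProductHomology

variable {R : Type u} [Ring R] {α : Type*} {c : ComplexShape α} {ι : Type w}
  (K : HomologicalComplex (ModuleCat.{u} R) c)
  (L : ι → HomologicalComplex (ModuleCat.{u} R) c) (p : ∀ i, K ⟶ L i)

/-- Joint injectivity of the components of a family of maps of complexes, in a degree. -/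
def JointlyInjective (k : α) : Prop :=
  ∀ x y : K.X k, (∀ i, (p i).f k x = (p i).f k y) → x = y

/-- Joint surjectivity of the components of a family of maps of complexes, in a degree. -/
def JointlySurjective (k : α) : Prop :=
  ∀ y : ∀ i, (L i).X k, ∃ z : K.X k, ∀ i, (p i).f k z = y i

variable {K L p}

/-- If `K → L i` is jointly bijective in the relevant degrees, then homology classes are
detected componentwise. -/
theorem homology_jointly_injective (n : α) (hinj : JointlyInjective K L p n)
    (hsurj : JointlySurjective K L p (c.prev n)) (x : K.homology n)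
    (hx : ∀ i, HomologicalComplex.homologyMap (p i) n x = 0) : x = 0 := by
  obtain ⟨y, rfl⟩ := homologyπ_surjective K n x
  have key : ∀ i, ∃ w : (L i).X (c.prev n),
      (L i).toCycles (c.prev n) n w = HomologicalComplex.cyclesMap (p i) n y := fun i =>
    exists_of_homologyπ_eq_zero (L i) n _ (by rw [← homologyMap_homologyπ]; exact hx i)
  choose w hw using key
  obtain ⟨v, hv⟩ := hsurj w
  have hd : K.toCycles (c.prev n) n v = y := by
    apply iCycles_injective K n
    rw [iCycles_toCycles]
    apply hinj
    intro i
    rw [← d_f, hv, ← iCycles_toCycles, hw, iCycles_cyclesMap]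
  rw [← hd, homologyπ_toCycles]

/-- If `K → L i` is jointly bijective in the relevant degrees, then every family of homology
classes comes from a homology class of `K`. -/
theorem homology_jointly_surjective (n : α) (hsurj : JointlySurjective K L p n)
    (hinj' : JointlyInjective K L p (c.next n))
    (x : ∀ i, (L i).homology n) :
    ∃ y : K.homology n, ∀ i, HomologicalComplex.homologyMap (p i) n y = x i := by
  have key : ∀ i, ∃ y : (L i).cycles n, (L i).homologyπ n y = x i := fun i =>
    homologyπ_surjective (L i) n (x i)
  choose y hy using key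
  obtain ⟨z, hz⟩ := hsurj fun i => (L i).iCycles n (y i)
  have hdz : K.d n (c.next n) z = 0 := by
    apply hinj'
    intro i
    rw [← d_f, hz, map_zero]
    exact congrArg (fun f => f.hom (y i)) ((L i).iCycles_d n (c.next n))
  obtain ⟨t, ht⟩ := exists_cycle_of_d_eq_zero K n z hdz
  refine ⟨K.homologyπ n t, fun i => ?_⟩
  rw [homologyMap_homologyπ, ← hy i]
  congr 1
  apply iCycles_injective (L i) n
  rw [iCycles_cyclesMap, ht, hz]

end ProductHomology

/-! ### Homology of a directed union of subcomplexes -/

section DirectedHomology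

variable {R : Type u} [Ring R] {α : Type*} {c : ComplexShape α} {ι : Type w}
  {K : HomologicalComplex (ModuleCat.{u} R) c} {n : α}

/-- Every homology class of `K` comes from a "subcomplex" `L` as soon as a representing cycle
does. -/
theorem exists_homology_preimage {L : HomologicalComplex (ModuleCat.{u} R) c} (j : L ⟶ K)
    (hinj : Function.Injective (j.f (c.next n))) (y : K.cycles n) (z : L.X n)
    (hz : j.f n z = K.iCycles n y) :
    ∃ x : L.homology n, HomologicalComplex.homologyMap j n x = K.homologyπ n y := by
  have hdz : L.d n (c.next n) z = 0 := by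
    apply hinj
    rw [← d_f, hz, map_zero]
    exact congrArg (fun f => f.hom y) (K.iCycles_d n (c.next n))
  obtain ⟨t, ht⟩ := exists_cycle_of_d_eq_zero L n z hdz
  refine ⟨L.homologyπ n t, ?_⟩
  rw [homologyMap_homologyπ]
  congr 1
  apply iCycles_injective K n
  rw [iCycles_cyclesMap, ht, hz]

/-- A homology class of a subcomplex `L` that dies in `K` already dies in any intermediate
subcomplex `L'` containing a bounding chain. -/
theorem homologyMap_eq_zero_of_bounding {L L' : HomologicalComplex (ModuleCat.{u} R) c}
    (j : L ⟶ K) (j' : L' ⟶ K) (t : L ⟶ L') (ht : t ≫ j' = j)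
    (hinj' : Function.Injective (j'.f n)) (y : L.cycles n) (w' : L'.X (c.prev n))
    (hw : K.d (c.prev n) n (j'.f (c.prev n) w') = j.f n (L.iCycles n y)) :
    HomologicalComplex.homologyMap t n (L.homologyπ n y) = 0 := by
  rw [homologyMap_homologyπ]
  have : L'.toCycles (c.prev n) n w' = HomologicalComplex.cyclesMap t n y := by
    apply iCycles_injective L' n
    rw [iCycles_toCycles, iCycles_cyclesMap]
    apply hinj'
    rw [← d_f, hw, ← ht]
    rfl
  rw [← this, homologyπ_toCycles]

end DirectedHomology

/-! ### Tate cohomology of arbitrary products -/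

section PiEquiv

variable {R G : Type u} [CommRing R] [Group G] [Fintype G]

/-- The comparison map `Ĥⁿ(G, ∏ Mᵢ) → ∏ Ĥⁿ(G, Mᵢ)`. -/
noncomputable def tateCohomologyPiMap {ι : Type u} (f : ι → Rep R G) (n : ℤ) :
    tateCohomology (piRep f) n →ₗ[R] ∀ i, tateCohomology (f i) n :=
  LinearMap.pi fun i => ((tateCohomologyFunctor n).map (piRepProj f i)).hom

lemma tateCohomologyPiMap_apply {ι : Type u} (f : ι → Rep R G) (n : ℤ)
    (x : tateCohomology (piRep f) n) (i : ι) :
    tateCohomologyPiMap f n x i = ((tateCohomologyFunctor n).map (piRepProj f i)).hom x := rfl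

theorem tateCohomologyPiMap_bijective {ι : Type u} (f : ι → Rep R G) (n : ℤ) :
    Function.Bijective (tateCohomologyPiMap f n) := by
  constructor
  · rw [injective_iff_map_eq_zero]
    intro x hx
    exact homology_jointly_injective (K := tateComplex (piRep f))
      (L := fun i => tateComplex (f i)) (p := fun i => tateComplex.map (piRepProj f i)) n
      (tateComplex_piRep_bij f n).1 (tateComplex_piRep_bij f _).2 x
      fun i => congrFun hx i
  · intro y
    obtain ⟨x, hx⟩ := homology_jointly_surjective (K := tateComplex (piRep f))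
      (L := fun i => tateComplex (f i)) (p := fun i => tateComplex.map (piRepProj f i)) n
      (tateComplex_piRep_bij f n).2 (tateComplex_piRep_bij f _).1 y
    exact ⟨x, funext hx⟩

/-- **Tate cohomology commutes with arbitrary products** (finite `G`). -/
noncomputable def tateCohomologyPiEquiv {ι : Type u} (f : ι → Rep R G) (n : ℤ) :
    tateCohomology (piRep f) n ≃ₗ[R] ∀ i, tateCohomology (f i) n :=
  LinearEquiv.ofBijective (tateCohomologyPiMap f n) (tateCohomologyPiMap_bijective f n)

@[simp]
lemma tateCohomologyPiEquiv_apply {ι : Type u} (f : ι → Rep R G) (n : ℤ)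
    (x : tateCohomology (piRep f) n) (i : ι) :
    tateCohomologyPiEquiv f n x i = ((tateCohomologyFunctor n).map (piRepProj f i)).hom x := rfl

/-- **Semi-local Shapiro lemma**: the Tate cohomology of a product of coinduced modules is the
product of the Tate cohomologies of the subgroups. -/
noncomputable def tateCohomologyPiCoindEquiv {ι : Type u} (S : ι → Subgroup G)
    [∀ i, Fintype (S i)] (B : ∀ i, Rep.{u} R (S i)) (n : ℤ) :
    tateCohomology (piRep fun i => Rep.coind.{u, u, u, u} (S i).subtype (B i)) n ≃ₗ[R]
      ∀ i, tateCohomology (B i) n :=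
  (tateCohomologyPiEquiv (fun i => Rep.coind.{u, u, u, u} (S i).subtype (B i)) n).trans
    (LinearEquiv.piCongrRight
      fun i => (tateShapiroIso (S i) (B i) n).toLinearEquiv)

lemma tateCohomologyPiCoindEquiv_apply {ι : Type u} (S : ι → Subgroup G)
    [∀ i, Fintype (S i)] (B : ∀ i, Rep.{u} R (S i)) (n : ℤ)
    (x : tateCohomology (piRep fun i => Rep.coind.{u, u, u, u} (S i).subtype (B i)) n) (i : ι) :
    tateCohomologyPiCoindEquiv S B n x i =
      (tateShapiroIso (S i) (B i) n).hom.hom
        (((tateCohomologyFunctor n).map
          (piRepProj (fun i => Rep.coind.{u, u, u, u} (S i).subtype (B i)) i)).hom x) := rfl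

/-- The isomorphism in `Rep R G` attached to an equivalence of a representation with a product
of coinduced representations (the shape produced by recognition principles such as
`Global.EtaleAlg.unitsEquivPiCoind`). -/
noncomputable def isoPiCoindOfEquiv {V : Type u} [AddCommGroup V] [Module R V]
    (ρ : Representation R G V) {ι : Type u} (S : ι → Subgroup G) {W : ι → Type u}
    [∀ i, AddCommGroup (W i)] [∀ i, Module R (W i)] (σ : ∀ i, Representation R (S i) (W i))
    (e : ρ.Equiv (piRepresentation (fun i => Representation.coindV (S i).subtype (σ i))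
      (fun i => Representation.coind (S i).subtype (σ i)))) :
    Rep.of ρ ≅ piRep fun i => Rep.coind.{u, u, u, u} (S i).subtype (Rep.of (σ i)) :=
  Rep.mkIso e

/-- **Semi-local Shapiro lemma**, in the form produced by a recognition principle for products
of coinduced representations. -/
noncomputable def tateCohomologyEquivOfEquivPiCoind {V : Type u} [AddCommGroup V] [Module R V]
    (ρ : Representation R G V) {ι : Type u} (S : ι → Subgroup G) [∀ i, Fintype (S i)]
    {W : ι → Type u} [∀ i, AddCommGroup (W i)] [∀ i, Module R (W i)]
    (σ : ∀ i, Representation R (S i) (W i))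
    (e : ρ.Equiv (piRepresentation (fun i => Representation.coindV (S i).subtype (σ i))
      (fun i => Representation.coind (S i).subtype (σ i)))) (n : ℤ) :
    tateCohomology (Rep.of ρ) n ≃ₗ[R] ∀ i, tateCohomology (Rep.of (σ i)) n :=
  ((tateCohomologyFunctor n).mapIso (isoPiCoindOfEquiv ρ S σ e)).toLinearEquiv.trans
    (tateCohomologyPiCoindEquiv S (fun i => Rep.of (σ i)) n)

end PiEquiv

/-! ### Tate cohomology of directed unions -/

section Directed

variable {R G : Type u} [CommRing R] [Group G]

/-- The subobject of `M` attached to a `G`-stable submodule. -/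
noncomputable def subRep (M : Rep R G) (N : Submodule R M.V)
    (hN : ∀ g, N ≤ N.comap (M.ρ g)) : Rep R G :=
  Rep.of (M.ρ.subrepresentation N hN)

/-- The inclusion of a subobject. -/
noncomputable def subRepι (M : Rep R G) (N : Submodule R M.V)
    (hN : ∀ g, N ≤ N.comap (M.ρ g)) : subRep M N hN ⟶ M :=
  Rep.ofHom (σ := M.ρ) ⟨N.subtype, fun g => by ext; rfl⟩

lemma subRepι_apply (M : Rep R G) (N : Submodule R M.V)
    (hN : ∀ g, N ≤ N.comap (M.ρ g)) (x : N) : (subRepι M N hN).hom x = (x : M.V) := rfl

/-- The inclusion between two subobjects. -/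
noncomputable def subRepMap (M : Rep R G) {N N' : Submodule R M.V}
    (hN : ∀ g, N ≤ N.comap (M.ρ g)) (hN' : ∀ g, N' ≤ N'.comap (M.ρ g)) (h : N ≤ N') :
    subRep M N hN ⟶ subRep M N' hN' :=
  Rep.ofHom ⟨Submodule.inclusion h, fun g => by ext; rfl⟩

lemma subRepMap_comp_ι (M : Rep R G) {N N' : Submodule R M.V}
    (hN : ∀ g, N ≤ N.comap (M.ρ g)) (hN' : ∀ g, N' ≤ N'.comap (M.ρ g)) (h : N ≤ N') :
    subRepMap M hN hN' h ≫ subRepι M N' hN' = subRepι M N hN := rfl

instance (M : Rep R G) (N : Submodule R M.V) (hN : ∀ g, N ≤ N.comap (M.ρ g)) :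
    Mono (subRepι M N hN) := by
  rw [Rep.mono_iff_injective]
  exact Subtype.val_injective

variable [Fintype G]

lemma tateComplex_map_f_injective {A B : Rep R G} (φ : A ⟶ B) [Mono φ] (k : ℤ) :
    Function.Injective ((tateComplex.map φ).f k) := by
  rcases k with (k | k)
  · exact (ModuleCat.mono_iff_injective _).1
      (inferInstanceAs (Mono ((cochainsMap (MonoidHom.id G) φ).f k)))
  · exact (ModuleCat.mono_iff_injective _).1
      (inferInstanceAs (Mono ((chainsMap (MonoidHom.id G) φ).f k)))

lemma tateComplex_map_comp_apply {A B C : Rep R G} (f : A ⟶ B) (g : B ⟶ C) (k : ℤ)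
    (x : (tateComplex A).X k) :
    (tateComplex.map g).f k ((tateComplex.map f).f k x) = (tateComplex.map (f ≫ g)).f k x := by
  have := (tateComplexFunctor R G).map_comp f g
  exact (congrArg (fun φ : tateComplex A ⟶ tateComplex C => (φ.f k).hom x) this).symm

end Directed

section DirectedTate

variable {R G : Type u} [CommRing R] [Group G] [Fintype G] {ι : Type w}
  (M : Rep R G) (N : ι → Submodule R M.V) (hN : ∀ i g, N i ≤ (N i).comap (M.ρ g))

/-- Every element of a term of the Tate complex of a directed union comes from a member. -/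
lemma exists_tateComplex_preimage (hdir : Directed (· ≤ ·) N) (hcov : ∀ m : M.V, ∃ i, m ∈ N i)
    (k : ℤ) (z : (tateComplex M).X k) :
    ∃ (i : ι) (z' : (tateComplex (subRep M (N i) (hN i))).X k),
      (tateComplex.map (subRepι M (N i) (hN i))).f k z' = z := by
  classical
  have : Nonempty ι := ⟨(hcov 0).choose⟩
  rcases k with (k | k)
  · let z₀ : (Fin k → G) → M.V := z
    choose j hj using fun g => hcov (z₀ g)
    obtain ⟨i, hi⟩ := hdir.finset_le (Finset.univ.image j)
    have hmem : ∀ g, z₀ g ∈ N i := fun g =>
      hi (j g) (Finset.mem_image_of_mem j (Finset.mem_univ g)) (hj g)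
    exact ⟨i, (fun g => ⟨z₀ g, hmem g⟩ : (Fin k → G) → N i), rfl⟩
  · let z₀ : (Fin k → G) →₀ M.V := z
    choose j hj using fun g => hcov (z₀ g)
    obtain ⟨i, hi⟩ := hdir.finset_le (Finset.univ.image j)
    have hmem : ∀ g, z₀ g ∈ N i := fun g =>
      hi (j g) (Finset.mem_image_of_mem j (Finset.mem_univ g)) (hj g)
    refine ⟨i, (Finsupp.equivFunOnFinite.symm (fun g => (⟨z₀ g, hmem g⟩ : N i)) :
      (Fin k → G) →₀ N i), ?_⟩
    change ((chainsMap (MonoidHom.id G) (subRepι M (N i) (hN i))).f k).hom _ = z₀
    rw [chainsMap_id_f_hom_eq_mapRange]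
    refine Finsupp.ext fun g => ?_
    rfl

/-- **Surjectivity for directed unions**: every Tate cohomology class of a directed union of
subobjects comes from one of them. -/
theorem exists_tateCohomology_preimage (hdir : Directed (· ≤ ·) N)
    (hcov : ∀ m : M.V, ∃ i, m ∈ N i) (n : ℤ) (x : tateCohomology M n) :
    ∃ (i : ι) (y : tateCohomology (subRep M (N i) (hN i)) n),
      ((tateCohomologyFunctor n).map (subRepι M (N i) (hN i))).hom y = x := by
  obtain ⟨c, rfl⟩ := homologyπ_surjective (tateComplex M) n x
  obtain ⟨i, z', hz'⟩ := exists_tateComplex_preimage M N hN hdir hcov n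
    ((tateComplex M).iCycles n c)
  obtain ⟨y, hy⟩ := exists_homology_preimage (tateComplex.map (subRepι M (N i) (hN i)))
    (tateComplex_map_f_injective _ _) c z' hz'
  exact ⟨i, y, hy⟩

/-- **Injectivity for directed unions**: a class of a member that dies in the union already dies
in a larger member. -/
theorem exists_tateCohomology_map_eq_zero (hdir : Directed (· ≤ ·) N)
    (hcov : ∀ m : M.V, ∃ i, m ∈ N i) (n : ℤ) (i : ι)
    (y : tateCohomology (subRep M (N i) (hN i)) n)
    (hy : ((tateCohomologyFunctor n).map (subRepι M (N i) (hN i))).hom y = 0) :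
    ∃ (k : ι) (hik : N i ≤ N k),
      ((tateCohomologyFunctor n).map (subRepMap M (hN i) (hN k) hik)).hom y = 0 := by
  obtain ⟨c, rfl⟩ := homologyπ_surjective (tateComplex (subRep M (N i) (hN i))) n y
  have h1 : (tateComplex M).homologyπ n
      (HomologicalComplex.cyclesMap (tateComplex.map (subRepι M (N i) (hN i))) n c) = 0 := by
    rw [← homologyMap_homologyπ]
    exact hy
  obtain ⟨w, hw⟩ := exists_of_homologyπ_eq_zero _ _ _ h1
  obtain ⟨k₀, w₀, hw₀⟩ := exists_tateComplex_preimage M N hN hdir hcov _ w
  obtain ⟨k, hik, hk₀k⟩ := hdir i k₀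
  refine ⟨k, hik, ?_⟩
  refine homologyMap_eq_zero_of_bounding (K := tateComplex M)
    (tateComplex.map (subRepι M (N i) (hN i))) (tateComplex.map (subRepι M (N k) (hN k)))
    (tateComplex.map (subRepMap M (hN i) (hN k) hik)) ?_ (tateComplex_map_f_injective _ _) c
    ((tateComplex.map (subRepMap M (hN k₀) (hN k) hk₀k)).f _ w₀) ?_
  · exact ((tateComplexFunctor R G).map_comp (subRepMap M (hN i) (hN k) hik)
      (subRepι M (N k) (hN k))).symm
  · have e : (tateComplex.map (subRepι M (N k) (hN k))).f _
        ((tateComplex.map (subRepMap M (hN k₀) (hN k) hk₀k)).f _ w₀) = w := by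
      rw [tateComplex_map_comp_apply, ← hw₀]
      rfl
    rw [e, ← iCycles_toCycles, hw, iCycles_cyclesMap]

/-- If arbitrarily large members of a directed union have vanishing `Ĥⁿ`, so has the union. -/
theorem isZero_tateCohomology_of_directed (hdir : Directed (· ≤ ·) N)
    (hcov : ∀ m : M.V, ∃ i, m ∈ N i) (n : ℤ)
    (h : ∀ i, ∃ k, N i ≤ N k ∧ IsZero (tateCohomology (subRep M (N k) (hN k)) n)) :
    IsZero (tateCohomology M n) := by
  rw [ModuleCat.isZero_iff_subsingleton]
  refine ⟨fun x x' => ?_⟩
  suffices ∀ x : tateCohomology M n, x = 0 by rw [this x, this x']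
  intro x
  obtain ⟨i, y, rfl⟩ := exists_tateCohomology_preimage M N hN hdir hcov n x
  obtain ⟨k, hik, hk⟩ := h i
  have e : subRepι M (N i) (hN i) = subRepMap M (hN i) (hN k) hik ≫ subRepι M (N k) (hN k) :=
    rfl
  rw [e, Functor.map_comp]
  have hz : ((tateCohomologyFunctor n).map (subRepMap M (hN i) (hN k) hik)).hom y = 0 :=
    (ModuleCat.isZero_iff_subsingleton.1 hk).elim _ _
  change ((tateCohomologyFunctor n).map (subRepι M (N k) (hN k))).hom
    (((tateCohomologyFunctor n).map (subRepMap M (hN i) (hN k) hik)).hom y) = 0
  rw [hz, map_zero]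

end DirectedTate

/-! ### Restricted products -/

section RestrictedProduct

variable {R G : Type u} [CommRing R] [Group G] {ι : Type u} (f : ι → Rep R G)
  (U : ∀ i, Submodule R (f i).V)

/-- Families lying in `U i` for all `i` outside `T`. -/
def boxSubmodule (T : Set ι) : Submodule R (piRep f).V where
  carrier := {x | ∀ i, i ∉ T → x i ∈ U i}
  add_mem' := fun hx hy i hi => (U i).add_mem (hx i hi) (hy i hi)
  zero_mem' := fun i _ => (U i).zero_mem
  smul_mem' := fun c _ hx i hi => (U i).smul_mem c (hx i hi)

lemma mem_boxSubmodule {T : Set ι} {x : (piRep f).V} :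
    x ∈ boxSubmodule f U T ↔ ∀ i, i ∉ T → x i ∈ U i := Iff.rfl

lemma boxSubmodule_mono {T T' : Set ι} (h : T ⊆ T') : boxSubmodule f U T ≤ boxSubmodule f U T' :=
  fun _ hx i hi => hx i fun hiT => hi (h hiT)

/-- The restricted product of the `f i` with respect to the `U i`: families lying in `U i` for
almost all `i`. -/
def restrictedProduct : Submodule R (piRep f).V where
  carrier := {x | {i | x i ∉ U i}.Finite}
  add_mem' := fun {x y} hx hy => (hx.union hy).subset fun i hi => by
    by_contra h
    simp only [Set.mem_union, Set.mem_ofPred_eq, not_or, not_not] at h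
    exact hi ((U i).add_mem h.1 h.2)
  zero_mem' := by
    have : {i | (0 : (piRep f).V) i ∉ U i} = ∅ := by
      ext i
      simp only [Set.mem_ofPred_eq, Set.mem_empty_iff_false, iff_false, not_not]
      exact (U i).zero_mem
    rw [Set.mem_ofPred_eq, this]
    exact Set.finite_empty
  smul_mem' := fun c x hx => hx.subset fun i hi => by
    by_contra h
    simp only [Set.mem_ofPred_eq, not_not] at h
    exact hi ((U i).smul_mem c h)

lemma mem_restrictedProduct {x : (piRep f).V} :
    x ∈ restrictedProduct f U ↔ {i | x i ∉ U i}.Finite := Iff.rfl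

lemma boxSubmodule_le_restrictedProduct (T : Finset ι) :
    boxSubmodule f U (T : Set ι) ≤ restrictedProduct f U := fun x hx =>
  T.finite_toSet.subset fun i hi => by
    by_contra h
    exact hi (hx i h)

variable (hU : ∀ i g, U i ≤ (U i).comap ((f i).ρ g))

include hU in
lemma boxSubmodule_stable (T : Set ι) (g : G) :
    boxSubmodule f U T ≤ (boxSubmodule f U T).comap ((piRep f).ρ g) :=
  fun _ hx i hi => hU i g (hx i hi)

include hU in
lemma restrictedProduct_stable (g : G) :
    restrictedProduct f U ≤ (restrictedProduct f U).comap ((piRep f).ρ g) :=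
  fun x hx => Set.Finite.subset hx fun i hi => by
    by_contra h
    simp only [Set.mem_ofPred_eq, not_not] at h
    exact hi (hU i g h)

end RestrictedProduct

section RestrictedProductRep

open Classical

variable {R G : Type u} [CommRing R] [Group G] {ι : Type u} (f : ι → Rep R G)
  (U : ∀ i, Submodule R (f i).V) (hU : ∀ i g, U i ≤ (U i).comap ((f i).ρ g))

/-- The restricted product as an object of `Rep R G`. -/
noncomputable def resProd : Rep R G :=
  subRep (piRep f) (restrictedProduct f U) (restrictedProduct_stable f U hU)

/-- The projection of the restricted product onto a factor. -/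
noncomputable def resProdProj (i : ι) : resProd f U hU ⟶ f i :=
  subRepι (piRep f) (restrictedProduct f U) (restrictedProduct_stable f U hU) ≫ piRepProj f i

lemma resProdProj_apply (i : ι) (x : restrictedProduct f U) :
    (resProdProj f U hU i).hom x = (x : (piRep f).V) i := rfl

/-- The submodule of the restricted product of families lying in `U i` for `i ∉ T`. -/
noncomputable def resBox (T : Finset ι) : Submodule R (resProd f U hU).V :=
  (boxSubmodule f U (T : Set ι)).comap (restrictedProduct f U).subtype

lemma mem_resBox {T : Finset ι} {x : restrictedProduct f U} :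
    x ∈ resBox f U hU T ↔ ∀ i, i ∉ T → (x : (piRep f).V) i ∈ U i := Iff.rfl

lemma resBox_stable (T : Finset ι) (g : G) :
    resBox f U hU T ≤ (resBox f U hU T).comap ((resProd f U hU).ρ g) :=
  fun _ hx i hi => hU i g (hx i hi)

lemma resBox_mono {T T' : Finset ι} (h : T ⊆ T') : resBox f U hU T ≤ resBox f U hU T' :=
  fun _ hx i hi => hx i fun hiT => hi (h hiT)

lemma resBox_directed : Directed (· ≤ ·) (resBox f U hU) :=
  Monotone.directed_le fun _ _ h => resBox_mono f U hU h

lemma resBox_cover (x : (resProd f U hU).V) : ∃ T, x ∈ resBox f U hU T := by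
  obtain ⟨x, hx⟩ := x
  refine ⟨hx.toFinset, fun i hi => ?_⟩
  by_contra h
  exact hi (hx.mem_toFinset.2 h)

/-- The submodule of `f i` equal to everything for `i ∈ T` and to `U i` otherwise. -/
noncomputable def boxV (T : Finset ι) (i : ι) : Submodule R (f i).V := if i ∈ T then ⊤ else U i

lemma boxV_of_mem {T : Finset ι} {i : ι} (h : i ∈ T) : boxV f U T i = ⊤ := if_pos h

lemma boxV_of_not_mem {T : Finset ι} {i : ι} (h : i ∉ T) : boxV f U T i = U i := if_neg h

lemma mem_U_of_mem_boxV {T : Finset ι} {i : ι} (h : i ∉ T) {v : (f i).V}
    (hv : v ∈ boxV f U T i) : v ∈ U i := by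
  rwa [boxV_of_not_mem f U h] at hv

lemma mem_boxV_of_mem_U {T : Finset ι} {i : ι} {v : (f i).V} (hv : v ∈ U i) :
    v ∈ boxV f U T i := by
  by_cases h : i ∈ T
  · rw [boxV_of_mem f U h]; exact Submodule.mem_top
  · rwa [boxV_of_not_mem f U h]

lemma mem_boxV_of_mem {T : Finset ι} {i : ι} (h : i ∈ T) (v : (f i).V) :
    v ∈ boxV f U T i := by
  rw [boxV_of_mem f U h]; exact Submodule.mem_top

include hU in
lemma boxV_stable (T : Finset ι) (i : ι) (g : G) :
    boxV f U T i ≤ (boxV f U T i).comap ((f i).ρ g) := by
  by_cases h : i ∈ T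
  · rw [boxV_of_mem f U h]
    exact fun _ _ => Submodule.mem_top
  · rw [boxV_of_not_mem f U h]
    exact hU i g

/-- The factors of the `T`-box. -/
noncomputable def boxFactor (T : Finset ι) (i : ι) : Rep R G :=
  subRep (f i) (boxV f U T i) (boxV_stable f U hU T i)

/-- The `T`-box of the restricted product, as an object of `Rep R G`. -/
noncomputable def resBoxRep (T : Finset ι) : Rep R G :=
  subRep (resProd f U hU) (resBox f U hU T) (resBox_stable f U hU T)

/-- The `T`-box is the product of its factors. -/
noncomputable def resBoxIso (T : Finset ι) : resBoxRep f U hU T ≅ piRep (boxFactor f U hU T) :=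
  Rep.mkIso <| .mk
    { toFun := fun x i => ⟨(x.1.1 : (piRep f).V) i, by
        by_cases h : i ∈ T
        · exact mem_boxV_of_mem f U h _
        · exact mem_boxV_of_mem_U f U (x.2 i h)⟩
      map_add' := fun _ _ => rfl
      map_smul' := fun _ _ => rfl
      invFun := fun y => ⟨⟨fun i => (y i).1, T.finite_toSet.subset fun i hi => by
          by_contra h
          exact hi (mem_U_of_mem_boxV f U h (y i).2)⟩, fun i hi =>
          mem_U_of_mem_boxV f U hi (y i).2⟩
      left_inv := fun _ => rfl
      right_inv := fun _ => rfl } fun g => by ext x i; rfl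

end RestrictedProductRep

section RestrictedProductCohomology

open Classical

variable {R G : Type u} [CommRing R] [Group G] {ι : Type u} (f : ι → Rep R G)
  (U : ∀ i, Submodule R (f i).V) (hU : ∀ i g, U i ≤ (U i).comap ((f i).ρ g))

/-- The inclusion of a factor of the `T`-box. -/
noncomputable def boxFactorι (T : Finset ι) (i : ι) : boxFactor f U hU T i ⟶ f i :=
  subRepι (f i) (boxV f U T i) (boxV_stable f U hU T i)

instance (T : Finset ι) (i : ι) : Mono (boxFactorι f U hU T i) :=
  inferInstanceAs (Mono (subRepι (f i) (boxV f U T i) (boxV_stable f U hU T i)))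

lemma isIso_boxFactorι {T : Finset ι} {i : ι} (h : i ∈ T) : IsIso (boxFactorι f U hU T i) := by
  have : Epi (boxFactorι f U hU T i) := by
    rw [Rep.epi_iff_surjective]
    intro v
    exact ⟨⟨v, mem_boxV_of_mem f U h v⟩, rfl⟩
  exact isIso_of_mono_of_epi _

/-- The inclusion of the `T`-box in the restricted product. -/
noncomputable def resBoxι (T : Finset ι) : resBoxRep f U hU T ⟶ resProd f U hU :=
  subRepι (resProd f U hU) (resBox f U hU T) (resBox_stable f U hU T)

/-- The transition maps between boxes. -/
noncomputable def resBoxMap {T T' : Finset ι} (h : T ⊆ T') :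
    resBoxRep f U hU T ⟶ resBoxRep f U hU T' :=
  subRepMap (resProd f U hU) (resBox_stable f U hU T) (resBox_stable f U hU T')
    (resBox_mono f U hU h)

lemma resBoxMap_comp_ι {T T' : Finset ι} (h : T ⊆ T') :
    resBoxMap f U hU h ≫ resBoxι f U hU T' = resBoxι f U hU T := rfl

lemma resBoxι_comp_proj (T : Finset ι) (i : ι) :
    resBoxι f U hU T ≫ resProdProj f U hU i =
      (resBoxIso f U hU T).hom ≫ piRepProj (boxFactor f U hU T) i ≫ boxFactorι f U hU T i := rfl

variable [Fintype G] (n : ℤ)

lemma isZero_tateCohomology_subRep_congr (M : Rep R G) {V V' : Submodule R M.V} (h : V = V')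
    (hV : ∀ g, V ≤ V.comap (M.ρ g)) (hV' : ∀ g, V' ≤ V'.comap (M.ρ g))
    (hz : IsZero (tateCohomology (subRep M V hV) n)) :
    IsZero (tateCohomology (subRep M V' hV') n) := by
  subst h
  exact hz

lemma isZero_tateCohomology_boxFactor {T : Finset ι} {i : ι} (h : i ∉ T)
    (hz : IsZero (tateCohomology (subRep (f i) (U i) (hU i)) n)) :
    IsZero (tateCohomology (boxFactor f U hU T i) n) :=
  isZero_tateCohomology_subRep_congr n (f i) (boxV_of_not_mem f U h).symm _ _ hz

/-- The identification of the cohomology of a box with the product of the cohomologies of its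
factors. -/
noncomputable def resBoxEquiv (T : Finset ι) :
    tateCohomology (resBoxRep f U hU T) n ≃ₗ[R]
      ∀ i, tateCohomology (boxFactor f U hU T i) n :=
  ((tateCohomologyFunctor n).mapIso (resBoxIso f U hU T)).toLinearEquiv.trans
    (tateCohomologyPiEquiv (boxFactor f U hU T) n)

/-- The key compatibility: the `i`-th projection of the image of a class of the `T`-box. -/
lemma proj_resBoxι_apply (T : Finset ι) (i : ι) (y : tateCohomology (resBoxRep f U hU T) n) :
    ((tateCohomologyFunctor n).map (resProdProj f U hU i)).hom
        (((tateCohomologyFunctor n).map (resBoxι f U hU T)).hom y) =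
      ((tateCohomologyFunctor n).map (boxFactorι f U hU T i)).hom
        (resBoxEquiv f U hU n T y i) := by
  have h := congrArg (fun φ => ((tateCohomologyFunctor n).map φ).hom y)
    (resBoxι_comp_proj f U hU T i)
  simp only [Functor.map_comp, ModuleCat.hom_comp, LinearMap.comp_apply] at h
  exact h

end RestrictedProductCohomology

section RestrictedProductMain

open Classical

variable {R G : Type u} [CommRing R] [Group G] [Fintype G] {ι : Type u} (f : ι → Rep R G)
  (U : ∀ i, Submodule R (f i).V) (hU : ∀ i g, U i ≤ (U i).comap ((f i).ρ g)) (n : ℤ)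
  (hfin : {i | ¬ IsZero (tateCohomology (subRep (f i) (U i) (hU i)) n)}.Finite)

/-- The `i`-th local component of a class of the restricted product. -/
noncomputable def resProdComponent (i : ι) :
    tateCohomology (resProd f U hU) n →ₗ[R] tateCohomology (f i) n :=
  ((tateCohomologyFunctor n).map (resProdProj f U hU i)).hom

lemma resProdComponent_apply (i : ι) (x : tateCohomology (resProd f U hU) n) :
    resProdComponent f U hU n i x =
      ((tateCohomologyFunctor n).map (resProdProj f U hU i)).hom x := rfl

/-- Every class of the restricted product comes from a box. -/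
lemma exists_resBox_preimage (x : tateCohomology (resProd f U hU) n) :
    ∃ (T : Finset ι) (y : tateCohomology (resBoxRep f U hU T) n),
      ((tateCohomologyFunctor n).map (resBoxι f U hU T)).hom y = x :=
  exists_tateCohomology_preimage (resProd f U hU) (resBox f U hU) (resBox_stable f U hU)
    (resBox_directed f U hU) (resBox_cover f U hU) n x

/-- One can always enlarge the box. -/
lemma exists_resBox_preimage_of_subset (x : tateCohomology (resProd f U hU) n)
    (T₀ : Finset ι) :
    ∃ (T : Finset ι) (_ : T₀ ⊆ T) (y : tateCohomology (resBoxRep f U hU T) n),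
      ((tateCohomologyFunctor n).map (resBoxι f U hU T)).hom y = x := by
  obtain ⟨T, y, rfl⟩ := exists_resBox_preimage f U hU n x
  refine ⟨T ∪ T₀, Finset.subset_union_right,
    ((tateCohomologyFunctor n).map (resBoxMap f U hU Finset.subset_union_left)).hom y, ?_⟩
  have := congrArg (fun φ => ((tateCohomologyFunctor n).map φ).hom y)
    (resBoxMap_comp_ι f U hU (T := T) (T' := T ∪ T₀) Finset.subset_union_left)
  simp only [Functor.map_comp, ModuleCat.hom_comp, LinearMap.comp_apply] at this
  exact this

include hfin in
/-- **Restricted products, finiteness**: a class of the restricted product has only finitely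
many non-zero local components. -/
theorem finite_support_resProdComponent (x : tateCohomology (resProd f U hU) n) :
    {i | resProdComponent f U hU n i x ≠ 0}.Finite := by
  obtain ⟨T, y, rfl⟩ := exists_resBox_preimage f U hU n x
  refine (T.finite_toSet.union hfin).subset fun i hi => ?_
  by_contra h
  simp only [Set.mem_union, not_or] at h
  apply hi
  have hz : IsZero (tateCohomology (boxFactor f U hU T i) n) :=
    isZero_tateCohomology_boxFactor f U hU n (by simpa using h.1) (by simpa using h.2)
  rw [resProdComponent_apply, proj_resBoxι_apply,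
    (ModuleCat.isZero_iff_subsingleton.1 hz).elim (resBoxEquiv f U hU n T y i) 0, map_zero]

include hfin in
/-- **Restricted products, injectivity**: a class of the restricted product all of whose local
components vanish is zero. -/
theorem eq_zero_of_resProdComponent_eq_zero (x : tateCohomology (resProd f U hU) n)
    (hx : ∀ i, resProdComponent f U hU n i x = 0) : x = 0 := by
  obtain ⟨T, hT, y, rfl⟩ := exists_resBox_preimage_of_subset f U hU n x hfin.toFinset
  suffices y = 0 by rw [this, map_zero]
  apply (resBoxEquiv f U hU n T).injective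
  rw [map_zero]
  funext i
  by_cases hi : i ∈ T
  · have := isIso_boxFactorι f U hU hi
    have hinj : Function.Injective
        ((tateCohomologyFunctor n).map (boxFactorι f U hU T i)).hom :=
      (ModuleCat.mono_iff_injective _).1 inferInstance
    apply hinj
    rw [← proj_resBoxι_apply]
    change _ = ((tateCohomologyFunctor n).map (boxFactorι f U hU T i)).hom 0
    rw [map_zero]
    exact hx i
  · have hz : IsZero (tateCohomology (boxFactor f U hU T i) n) :=
      isZero_tateCohomology_boxFactor f U hU n hi (by
        by_contra h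
        exact hi (hT (hfin.mem_toFinset.2 h)))
    exact (ModuleCat.isZero_iff_subsingleton.1 hz).elim _ _

include hfin in
/-- **Restricted products, surjectivity**: every finitely supported family of local classes is
the family of local components of a class of the restricted product. -/
theorem exists_resProdComponent_eq (y : ∀ i, tateCohomology (f i) n)
    (hy : {i | y i ≠ 0}.Finite) :
    ∃ x : tateCohomology (resProd f U hU) n, ∀ i, resProdComponent f U hU n i x = y i := by
  let T : Finset ι := hy.toFinset ∪ hfin.toFinset
  have hsurj : ∀ i, i ∈ T → ∃ z : tateCohomology (boxFactor f U hU T i) n,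
      ((tateCohomologyFunctor n).map (boxFactorι f U hU T i)).hom z = y i := by
    intro i hi
    have := isIso_boxFactorι f U hU hi
    exact (ModuleCat.epi_iff_surjective _).1 inferInstance (y i)
  let z : ∀ i, tateCohomology (boxFactor f U hU T i) n := fun i =>
    if hi : i ∈ T then (hsurj i hi).choose else 0
  refine ⟨((tateCohomologyFunctor n).map (resBoxι f U hU T)).hom
    ((resBoxEquiv f U hU n T).symm z), fun i => ?_⟩
  rw [resProdComponent_apply, proj_resBoxι_apply, LinearEquiv.apply_symm_apply]
  by_cases hi : i ∈ T
  · simp only [z, dif_pos hi]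
    exact (hsurj i hi).choose_spec
  · simp only [z, dif_neg hi, map_zero]
    by_contra h
    exact hi (Finset.mem_union_left _ (hy.mem_toFinset.2 (Ne.symm h)))

end RestrictedProductMain

section RestrictedProductPackaged

variable {R G : Type u} [CommRing R] [Group G] [Fintype G] {ι : Type u} (f : ι → Rep R G)
  (U : ∀ i, Submodule R (f i).V) (hU : ∀ i g, U i ≤ (U i).comap ((f i).ρ g)) (n : ℤ)
  (hfin : {i | ¬ IsZero (tateCohomology (subRep (f i) (U i) (hU i)) n)}.Finite)

/-- All local components of a class of the restricted product. -/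
noncomputable def resProdComponents :
    tateCohomology (resProd f U hU) n →ₗ[R] ∀ i, tateCohomology (f i) n :=
  LinearMap.pi (resProdComponent f U hU n)

lemma resProdComponents_apply (x : tateCohomology (resProd f U hU) n) (i : ι) :
    resProdComponents f U hU n x i = resProdComponent f U hU n i x := rfl

include hfin in
/-- **The local components detect classes of a restricted product.** -/
theorem resProdComponents_injective : Function.Injective (resProdComponents f U hU n) := by
  rw [injective_iff_map_eq_zero]
  intro x hx
  exact eq_zero_of_resProdComponent_eq_zero f U hU n hfin x fun i => congrFun hx i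

include hfin in
/-- **The image of the local components map of a restricted product is exactly the set of
finitely supported families.** -/
theorem mem_range_resProdComponents_iff (y : ∀ i, tateCohomology (f i) n) :
    y ∈ LinearMap.range (resProdComponents f U hU n) ↔ {i | y i ≠ 0}.Finite := by
  constructor
  · rintro ⟨x, rfl⟩
    exact finite_support_resProdComponent f U hU n hfin x
  · intro hy
    obtain ⟨x, hx⟩ := exists_resProdComponent_eq f U hU n hfin y hy
    exact ⟨x, funext hx⟩

end RestrictedProductPackaged

end SemiLocal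

end Fermat.Agent.Lib.CFT.Coh
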