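import Mathlib
import Fermat.Agent.Lib.CFT.Coh.SemiLocal

/-!
# Vanishing of group cohomology of a product

If a `G`-module `A` is, through a family of equivariant projections `p i : A ⟶ M i`, the full
product of the modules `M i` (jointly injective and jointly surjective), and `Hⁿ(G, M i) = 0` for
all `i`, then `Hⁿ(G, A) = 0`.  No finiteness assumption on `G` or on the index type.
-/

universe u w

open CategoryTheory CategoryTheory.Limits groupCohomology

namespace Fermat.Agent.Lib.CFT.Coh.ProductVanish

variable {k G : Type u} [CommRing k] [Group G] {ι : Type w} (A : Rep k G) (M : ι → Rep k G)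
  (p : ∀ i, A ⟶ M i)

/-- Group cohomology classes of a full product are detected on the factors. -/
theorem eq_zero_of_forall_map_eq_zero
    (hinj : ∀ x y : A, (∀ i, (p i).hom x = (p i).hom y) → x = y)
    (hsurj : ∀ m : ∀ i, M i, ∃ a : A, ∀ i, (p i).hom a = m i)
    (n : ℕ) (x : groupCohomology A n)
    (hx : ∀ i, groupCohomology.map (MonoidHom.id G) (p i) n x = 0) : x = 0 := by
  refine SemiLocal.homology_jointly_injective (K := inhomogeneousCochains A)
    (L := fun i => inhomogeneousCochains (M i))
    (p := fun i => cochainsMap (MonoidHom.id G) (p i)) n ?_ ?_ x hx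
  · intro a b hab
    funext g
    apply hinj
    intro i
    exact congrFun (hab i) g
  · intro y
    choose z hz using fun g => hsurj (fun i => y i g)
    exact ⟨z, fun i => funext fun g => hz g i⟩

/-- **Vanishing of the cohomology of a full product.** -/
theorem isZero_groupCohomology_of_forall
    (hinj : ∀ x y : A, (∀ i, (p i).hom x = (p i).hom y) → x = y)
    (hsurj : ∀ m : ∀ i, M i, ∃ a : A, ∀ i, (p i).hom a = m i)
    (n : ℕ) (h : ∀ i, IsZero (groupCohomology (M i) n)) : IsZero (groupCohomology A n) := by
  have : Subsingleton (groupCohomology A n) := by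
    refine ⟨fun x y => ?_⟩
    have h0 : ∀ z : groupCohomology A n, z = 0 := fun z =>
      eq_zero_of_forall_map_eq_zero A M p hinj hsurj n z fun i =>
        (ModuleCat.isZero_iff_subsingleton.1 (h i)).elim _ _
    rw [h0 x, h0 y]
  exact ModuleCat.isZero_of_subsingleton _

end Fermat.Agent.Lib.CFT.Coh.ProductVanish
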