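/-
P-CFT work package Coh/ResCor, part 2 (helper29).

`cor ∘ res = [G : S]` on Tate cohomology in all degrees, by dimension shifting from degree `0`
(`Coh/ResCor` + `Coh/Induced`), with the usual corollaries: `|G|` kills `Ĥⁿ(G, A)`; restriction to
a subgroup whose index is invertible on the target is injective; Sylow detection of vanishing.
-/
import Fermat.Agent.Lib.CFT.Coh.ResCor
import Fermat.Agent.Lib.CFT.Coh.Induced

universe u

open CategoryTheory CategoryTheory.Limits groupCohomology groupHomology Rep

namespace Fermat.Agent.Lib.CFT.Coh.ResCor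

noncomputable section

section Shifting

variable {R G : Type u} [CommRing R] [Group G] [Fintype G]

/-- **Dimension shifting principle.** A family of endomorphisms of the Tate cohomology groups
`Ĥⁿ(G, A)` (for all `A` and `n`) which commutes with all connecting homomorphisms and vanishes in
degree `0` vanishes in all degrees. -/
theorem eq_zero_of_δ_comm (T : ∀ (A : Rep R G) (n : ℤ), tateCohomology A n ⟶ tateCohomology A n)
    (hδ : ∀ (X : ShortComplex (Rep R G)) (hX : X.ShortExact) (n : ℤ),
      TateCohomology.δ hX n ≫ T X.X₁ (n + 1) = T X.X₃ n ≫ TateCohomology.δ hX n)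
    (h0 : ∀ A : Rep R G, T A 0 = 0) (A : Rep R G) (n : ℤ) : T A n = 0 := by
  have up : ∀ n : ℤ, (∀ A : Rep R G, T A n = 0) → ∀ A : Rep R G, T A (n + 1) = 0 := by
    intro n hn A
    have h := hδ _ (upShortComplex_shortExact A) n
    rw [hn, zero_comp] at h
    have : IsIso (TateCohomology.δ (upShortComplex_shortExact A) n) :=
      isIso_δ_of_isZero _ n (isZero_tateCohomology_coind₁ A.V n)
        (isZero_tateCohomology_coind₁ A.V (n + 1))
    exact (cancel_epi (TateCohomology.δ (upShortComplex_shortExact A) n)).1 (h.trans comp_zero.symm)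
  have down : ∀ n : ℤ, (∀ A : Rep R G, T A (n + 1) = 0) → ∀ A : Rep R G, T A n = 0 := by
    intro n hn A
    have h := hδ _ (downShortComplex_shortExact A) n
    rw [hn, comp_zero] at h
    have : IsIso (TateCohomology.δ (downShortComplex_shortExact A) n) :=
      isIso_δ_of_isZero _ n (isZero_tateCohomology_coind₁ A.V n)
        (isZero_tateCohomology_coind₁ A.V (n + 1))
    exact (cancel_mono (TateCohomology.δ (downShortComplex_shortExact A) n)).1
      (h.symm.trans zero_comp.symm)
  revert A
  induction n using Int.induction_on with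
  | zero => exact h0
  | succ i ih => exact up _ ih
  | pred i ih =>
    refine down _ ?_
    have e : (-(i : ℤ) - 1 + 1) = -(i : ℤ) := by ring
    rw [e]
    exact ih

end Shifting

section Index

variable {R G : Type u} [CommRing R] [Group G] [Fintype G] (S : Subgroup G) [Fintype (G ⧸ S)]
  [Fintype S]

lemma resCorDefect_δ {X : ShortComplex (Rep R G)} (hX : X.ShortExact) (n : ℤ) :
    TateCohomology.δ hX n ≫ (tRes S X.X₁ (n + 1) ≫ tCor S X.X₁ (n + 1) -
        Fintype.card (G ⧸ S) • 𝟙 (tateCohomology X.X₁ (n + 1))) =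
      (tRes S X.X₃ n ≫ tCor S X.X₃ n - Fintype.card (G ⧸ S) • 𝟙 (tateCohomology X.X₃ n)) ≫
        TateCohomology.δ hX n := by
  have h1 := δ_tRes S hX n
  have h2 := δ_tCor S hX n
  calc TateCohomology.δ hX n ≫ (tRes S X.X₁ (n + 1) ≫ tCor S X.X₁ (n + 1) -
        Fintype.card (G ⧸ S) • 𝟙 (tateCohomology X.X₁ (n + 1)))
      = (TateCohomology.δ hX n ≫ tRes S X.X₁ (n + 1)) ≫ tCor S X.X₁ (n + 1) -
          Fintype.card (G ⧸ S) • TateCohomology.δ hX n := by
        rw [Preadditive.comp_sub, Preadditive.comp_nsmul, Category.comp_id, Category.assoc]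
    _ = (tRes S X.X₃ n ≫ TateCohomology.δ (shortExact_res S hX) n) ≫ tCor S X.X₁ (n + 1) -
          Fintype.card (G ⧸ S) • TateCohomology.δ hX n :=
        congrArg (fun t => t ≫ tCor S X.X₁ (n + 1) -
          Fintype.card (G ⧸ S) • TateCohomology.δ hX n) h1
    _ = tRes S X.X₃ n ≫ (TateCohomology.δ (shortExact_res S hX) n ≫ tCor S X.X₁ (n + 1)) -
          Fintype.card (G ⧸ S) • TateCohomology.δ hX n :=
        congrArg (· - Fintype.card (G ⧸ S) • TateCohomology.δ hX n) (Category.assoc _ _ _)
    _ = tRes S X.X₃ n ≫ (tCor S X.X₃ n ≫ TateCohomology.δ hX n) -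
          Fintype.card (G ⧸ S) • TateCohomology.δ hX n :=
        congrArg (fun t => tRes S X.X₃ n ≫ t -
          Fintype.card (G ⧸ S) • TateCohomology.δ hX n) h2
    _ = _ := by
        rw [Preadditive.sub_comp, Preadditive.nsmul_comp, Category.id_comp, Category.assoc]

/-- **`cor ∘ res = [G : S]`** on Tate cohomology, in all degrees. -/
theorem tRes_comp_tCor (A : Rep R G) (n : ℤ) :
    tRes S A n ≫ tCor S A n = Fintype.card (G ⧸ S) • 𝟙 (tateCohomology A n) := by
  have key := eq_zero_of_δ_comm
    (fun (A : Rep R G) (n : ℤ) =>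
      tRes S A n ≫ tCor S A n - Fintype.card (G ⧸ S) • 𝟙 (tateCohomology A n))
    (fun X hX n => resCorDefect_δ S hX n)
    (fun A => by rw [tRes_comp_tCor_zero, sub_self]) A n
  exact sub_eq_zero.1 key

/-- Elementwise form of `cor ∘ res = [G : S]`. -/
theorem tCor_tRes_apply (A : Rep R G) (n : ℤ) (x : tateCohomology A n) :
    (tCor S A n).hom ((tRes S A n).hom x) = Fintype.card (G ⧸ S) • x := by
  have h := tRes_comp_tCor S A n
  have h' := congrArg (fun f => f.hom x) h
  simpa using h'

/-- If the Tate cohomology of the subgroup `S` vanishes in degree `n`, then the index `[G : S]`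
kills `Ĥⁿ(G, A)`. -/
theorem card_quot_nsmul_eq_zero_of_isZero (A : Rep R G) (n : ℤ)
    (h : IsZero (tateCohomology (res S.subtype A) n)) (x : tateCohomology A n) :
    Fintype.card (G ⧸ S) • x = 0 := by
  rw [← tCor_tRes_apply S A n x]
  have : (tRes S A n).hom x = 0 := by
    have := h.eq_of_tgt (tRes S A n) 0
    rw [this]; rfl
  rw [this, map_zero]

/-- Restriction to `S` is injective on the part of `Ĥⁿ(G, A)` killed by an integer prime to the
index `[G : S]`. In particular restriction to a Sylow `p`-subgroup is injective on the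
`p`-primary part. -/
theorem eq_zero_of_tRes_eq_zero (A : Rep R G) (n : ℤ) {m : ℕ}
    (hm : Nat.Coprime m (Fintype.card (G ⧸ S))) (x : tateCohomology A n) (hx : m • x = 0)
    (hres : (tRes S A n).hom x = 0) : x = 0 := by
  have h1 : Fintype.card (G ⧸ S) • x = 0 := by
    rw [← tCor_tRes_apply S A n x, hres, map_zero]
  have h2 : ((m : ℤ).gcd (Fintype.card (G ⧸ S) : ℤ) : ℤ) • x = 0 := by
    rw [Int.gcd_eq_gcd_ab, add_smul, mul_smul, mul_smul]
    rw [natCast_zsmul, natCast_zsmul, smul_comm, hx, smul_zero, smul_comm, h1, smul_zero,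
      add_zero]
  have h3 : (m : ℤ).gcd (Fintype.card (G ⧸ S) : ℤ) = 1 := by
    rw [Int.gcd_natCast_natCast]; exact hm
  rw [h3] at h2
  simpa using h2

end Index

section Trivial

variable {R H : Type u} [CommRing R] [Group H] [Fintype H]

/-- Every representation of a trivial group is coinduced. -/
def isoCoind₁OfSubsingleton [Subsingleton H] (M : Rep R H) : M ≅ coind₁ R H M.V :=
  Rep.mkIso <| .mk
    { toFun := fun m _ => m
      map_add' := fun _ _ => rfl
      map_smul' := fun _ _ => rfl
      invFun := fun f => f 1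
      left_inv := fun _ => rfl
      right_inv := fun f => by
        funext x
        rw [Subsingleton.elim x 1] } fun h => by
    ext m x
    have hh : h = 1 := Subsingleton.elim _ _
    subst hh
    change (M.ρ 1) m = m
    simp

/-- The Tate cohomology of the trivial group vanishes. -/
theorem isZero_tateCohomology_of_subsingleton [Subsingleton H] (M : Rep R H) (n : ℤ) :
    IsZero (tateCohomology M n) :=
  (isZero_tateCohomology_coind₁ M.V n).of_iso
    ((tateCohomologyFunctor n).mapIso (isoCoind₁OfSubsingleton M))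

end Trivial

section Card

variable {R G : Type u} [CommRing R] [Group G] [Fintype G]

/-- **The order of `G` kills `Ĥⁿ(G, A)`** for all `n : ℤ`. -/
theorem card_nsmul_tateCohomology (A : Rep R G) (n : ℤ) (x : tateCohomology A n) :
    Fintype.card G • x = 0 := by
  classical
  have h := card_quot_nsmul_eq_zero_of_isZero (⊥ : Subgroup G) A n
    (isZero_tateCohomology_of_subsingleton _ n) x
  have hc : Fintype.card (G ⧸ (⊥ : Subgroup G)) = Fintype.card G := by
    rw [← Nat.card_eq_fintype_card, ← Nat.card_eq_fintype_card, ← Subgroup.index_eq_card,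
      Subgroup.index_bot]
  rwa [hc] at h

/-- **Detection of vanishing on subgroups of prime-to-`p` index** (in particular on Sylow
subgroups): if for every prime `p` dividing `|G|` there is a subgroup `S` of index prime to `p`
with `Ĥⁿ(S, A) = 0`, then `Ĥⁿ(G, A) = 0`. -/
theorem isZero_tateCohomology_of_forall_prime (A : Rep R G) (n : ℤ)
    (h : ∀ p : ℕ, p.Prime → p ∣ Fintype.card G →
      ∃ (S : Subgroup G) (_ : Fintype S) (_ : Fintype (G ⧸ S)), ¬ p ∣ Fintype.card (G ⧸ S) ∧
        IsZero (tateCohomology (res S.subtype A) n)) :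
    IsZero (tateCohomology A n) := by
  rw [ModuleCat.isZero_iff_subsingleton]
  refine ⟨fun x y => ?_⟩
  suffices hz : ∀ z : tateCohomology A n, z = 0 by rw [hz x, hz y]
  intro z
  -- the ideal of integers killing `z`
  let I : Ideal ℤ :=
    { carrier := {k | k • z = 0}
      add_mem' := fun {a b} ha hb => by
        simp only [Set.mem_ofPred_eq] at ha hb ⊢
        rw [add_smul, ha, hb, add_zero]
      zero_mem' := by simp
      smul_mem' := fun c {a} ha => by
        simp only [Set.mem_ofPred_eq, smul_eq_mul] at ha ⊢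
        rw [mul_smul, ha, smul_zero] }
  have hI : ∀ k : ℤ, k ∈ I ↔ k • z = 0 := fun k => Iff.rfl
  have hcard : (Fintype.card G : ℤ) ∈ I := by
    rw [hI, natCast_zsmul]; exact card_nsmul_tateCohomology A n z
  obtain ⟨d, hd⟩ : ∃ d : ℤ, I = Ideal.span {d} :=
    ⟨_, (IsPrincipalIdealRing.principal I).span_singleton_generator.symm⟩
  have hdI : d ∈ I := by rw [hd]; exact Ideal.mem_span_singleton_self d
  have hdvd : ∀ k ∈ I, d ∣ k := fun k hk => by
    rw [hd] at hk; exact Ideal.mem_span_singleton.1 hk
  have hd1 : d.natAbs = 1 := by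
    by_contra hne
    obtain ⟨p, hp, hpd⟩ := Nat.exists_prime_and_dvd hne
    have hpd' : (p : ℤ) ∣ d := Int.natCast_dvd.2 hpd
    have hpG : p ∣ Fintype.card G := by
      have := hpd'.trans (hdvd _ hcard)
      exact_mod_cast this
    obtain ⟨S, _, _, hpS, hS⟩ := h p hp hpG
    have hSI : (Fintype.card (G ⧸ S) : ℤ) ∈ I := by
      rw [hI, natCast_zsmul]
      exact card_quot_nsmul_eq_zero_of_isZero S A n hS z
    have := hpd'.trans (hdvd _ hSI)
    exact hpS (by exact_mod_cast this)
  have h1 : (1 : ℤ) ∈ I := by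
    rcases Int.natAbs_eq d with h | h
    · rw [h, hd1] at hdI; simpa using hdI
    · rw [h, hd1] at hdI
      have := I.neg_mem hdI
      simpa using this
  rw [hI, one_smul] at h1
  exact h1

/-- **Sylow detection**: if `Ĥⁿ(P, A) = 0` for one Sylow `p`-subgroup `P` of `G` for every prime
`p`, then `Ĥⁿ(G, A) = 0`. -/
theorem isZero_tateCohomology_of_sylow (A : Rep R G) (n : ℤ)
    (h : ∀ p : ℕ, ∀ [Fact p.Prime], ∃ (P : Sylow p G) (_ : Fintype (P : Subgroup G)),
      IsZero (tateCohomology (res (P : Subgroup G).subtype A) n)) :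
    IsZero (tateCohomology A n) := by
  classical
  refine isZero_tateCohomology_of_forall_prime A n fun p hp _ => ?_
  have : Fact p.Prime := ⟨hp⟩
  obtain ⟨P, hP, hz⟩ := h p
  refine ⟨(P : Subgroup G), hP, inferInstance, ?_, hz⟩
  rw [← Nat.card_eq_fintype_card, ← Subgroup.index_eq_card]
  exact P.not_dvd_index

/-- Restriction to a Sylow `p`-subgroup is injective on the `p`-primary part of `Ĥⁿ(G, A)`. -/
theorem eq_zero_of_tRes_sylow_eq_zero (A : Rep R G) (n : ℤ) {p : ℕ} [Fact p.Prime]
    (P : Sylow p G) [Fintype (P : Subgroup G)] [Fintype (G ⧸ (P : Subgroup G))] (k : ℕ)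
    (x : tateCohomology A n) (hx : p ^ k • x = 0)
    (hres : (tRes (P : Subgroup G) A n).hom x = 0) : x = 0 := by
  refine eq_zero_of_tRes_eq_zero (P : Subgroup G) A n ?_ x hx hres
  refine Nat.Coprime.pow_left k ((Nat.Prime.coprime_iff_not_dvd Fact.out).2 ?_)
  rw [← Nat.card_eq_fintype_card, ← Subgroup.index_eq_card]
  exact P.not_dvd_index

end Card

end

end Fermat.Agent.Lib.CFT.Coh.ResCor
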