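import Mathlib
import Fermat.Agent.Lib.CFT.Global.IdeleSES
import Fermat.Agent.Lib.CFT.HerbrandMul

/-!
# Cohomology of restricted products in low degrees (P-CFT, Global/CohIdeles, abstract part)

helper58.  `G` a finite group, `(M i)` a family of `G`-modules (written multiplicatively) with
`G`-stable subgroups `U i ≤ M i`, and `J` a `G`-module with equivariant projections
`p i : J →* M i` identifying `J` with the restricted product of the `M i` with respect to the
`U i` (`IsRestrictedProd`).  If almost all `U i` have trivial `H¹` (resp. `H²`) in the elementary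
cochain sense (`H1TrivialOn`, `H2TrivialOn`), then

* `H¹(G, J) = 0` as soon as all `H¹(G, M i) = 0` (`IsRestrictedProd.isZero_H1`);
* `H²(G, J) → ∏ H²(G, M i)` is injective with image the finitely supported families
  (`IsRestrictedProd.H2_ext`, `H2_finite_support`, `H2_exists`).

This is the shape of the computation of the cohomology of the idele group.
-/

set_option autoImplicit false

namespace Fermat.Agent.Lib.CFT.Coh.RestrictedProd

open groupCohomology
open Fermat.Agent.Lib.CFT.Global (repHomOfMulEquivariant)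

section Triv

variable (G : Type) [Group G] {M : Type} [CommGroup M] [MulDistribMulAction G M]

/-- Every `U`-valued `1`-cocycle is the coboundary of an element of `U`. -/
def H1TrivialOn (U : Subgroup M) : Prop :=
  ∀ f : G → M, IsMulCocycle₁ f → (∀ g, f g ∈ U) → ∃ x ∈ U, ∀ g : G, g • x / x = f g

/-- Every `U`-valued `2`-cocycle is the coboundary of a `U`-valued `1`-cochain. -/
def H2TrivialOn (U : Subgroup M) : Prop :=
  ∀ f : G × G → M, IsMulCocycle₂ f → (∀ g h, f (g, h) ∈ U) →
    ∃ x : G → M, (∀ g, x g ∈ U) ∧ ∀ g h : G, g • x h / x (g * h) * x g = f (g, h)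

variable {G}

theorem h1TrivialOn_top_iff :
    H1TrivialOn G (⊤ : Subgroup M) ↔ ∀ f : G → M, IsMulCocycle₁ f → IsMulCoboundary₁ f := by
  constructor
  · intro h f hf
    obtain ⟨x, -, hx⟩ := h f hf (fun _ => Subgroup.mem_top _)
    exact ⟨x, hx⟩
  · intro h f hf _
    obtain ⟨x, hx⟩ := h f hf
    exact ⟨x, Subgroup.mem_top _, hx⟩

theorem h2TrivialOn_top_iff :
    H2TrivialOn G (⊤ : Subgroup M) ↔ ∀ f : G × G → M, IsMulCocycle₂ f → IsMulCoboundary₂ f := by
  constructor
  · intro h f hf
    obtain ⟨x, -, hx⟩ := h f hf (fun _ _ => Subgroup.mem_top _)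
    exact ⟨x, hx⟩
  · intro h f hf _
    obtain ⟨x, hx⟩ := h f hf
    exact ⟨x, fun _ => Subgroup.mem_top _, hx⟩

end Triv

section Defs

variable (G : Type) [Group G] {ι : Type} {M : ι → Type} [∀ i, CommGroup (M i)]
  [∀ i, MulDistribMulAction G (M i)]

/-- `J`, with the equivariant projections `p i : J →* M i`, is the restricted product of the
`G`-modules `M i` with respect to the `G`-stable subgroups `U i`. -/
structure IsRestrictedProd (J : Type) [CommGroup J] [MulDistribMulAction G J]
    (p : ∀ i, J →* M i) (U : ∀ i, Subgroup (M i)) : Prop where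
  equivariant : ∀ i (g : G) (x : J), p i (g • x) = g • p i x
  stable : ∀ i (g : G), ∀ u ∈ U i, g • u ∈ U i
  ext : ∀ x : J, (∀ i, p i x = 1) → x = 1
  finite : ∀ x : J, {i | p i x ∉ U i}.Finite
  glue : ∀ m : ∀ i, M i, {i | m i ∉ U i}.Finite → ∃ x : J, ∀ i, p i x = m i

end Defs

namespace IsRestrictedProd

variable {G : Type} [Group G] {ι : Type} {M : ι → Type} [∀ i, CommGroup (M i)]
  [∀ i, MulDistribMulAction G (M i)] {J : Type} [CommGroup J] [MulDistribMulAction G J]
  {p : ∀ i, J →* M i} {U : ∀ i, Subgroup (M i)}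

theorem ext' (h : IsRestrictedProd G J p U) {x y : J} (hxy : ∀ i, p i x = p i y) : x = y := by
  have : x / y = 1 := h.ext _ (fun i => by rw [map_div, hxy i, div_self'])
  exact div_eq_one.mp this

/-- Projection of a `1`-cocycle. -/
theorem isMulCocycle₁_proj (h : IsRestrictedProd G J p U) {f : G → J} (hf : IsMulCocycle₁ f)
    (i : ι) : IsMulCocycle₁ (fun g => p i (f g)) := by
  intro g g'
  change p i (f (g * g')) = g • p i (f g') * p i (f g)
  rw [hf g g', map_mul, h.equivariant]

/-- Projection of a `2`-cocycle. -/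
theorem isMulCocycle₂_proj (h : IsRestrictedProd G J p U) {f : G × G → J} (hf : IsMulCocycle₂ f)
    (i : ι) : IsMulCocycle₂ (fun gh => p i (f gh)) := by
  intro g g' g''
  change p i (f (g * g', g'')) * p i (f (g, g')) = g • p i (f (g', g'')) * p i (f (g, g' * g''))
  rw [← map_mul, hf g g' g'', map_mul, h.equivariant]

section Finite

variable [Finite G]

omit [Finite G] in
/-- The set of indices at which a `J`-valued function on a finite type is not `U`-valued is
finite. -/
theorem finite_not_mem (h : IsRestrictedProd G J p U) {X : Type} [Finite X] (f : X → J) :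
    {i | ∃ x, p i (f x) ∉ U i}.Finite := by
  have : {i | ∃ x, p i (f x) ∉ U i} = ⋃ x, {i | p i (f x) ∉ U i} := by
    ext i; simp
  rw [this]
  exact Set.finite_iUnion (fun x => h.finite (f x))

/-- **`H¹` of a restricted product vanishes** (cochain form). -/
theorem isMulCoboundary₁ (h : IsRestrictedProd G J p U)
    (hM : ∀ i, H1TrivialOn G (⊤ : Subgroup (M i)))
    (hU : {i | ¬ H1TrivialOn G (U i)}.Finite) {f : G → J} (hf : IsMulCocycle₁ f) :
    IsMulCoboundary₁ f := by
  classical
  set T : Set ι := {i | ∃ g, p i (f g) ∉ U i} ∪ {i | ¬ H1TrivialOn G (U i)} with hT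
  have hTfin : T.Finite := (h.finite_not_mem f).union hU
  have key : ∀ i, ∃ x : M i, (i ∉ T → x ∈ U i) ∧ ∀ g : G, g • x / x = p i (f g) := by
    intro i
    by_cases hi : i ∈ T
    · obtain ⟨x, -, hx⟩ := hM i _ (h.isMulCocycle₁_proj hf i) (fun _ => Subgroup.mem_top _)
      exact ⟨x, fun h' => absurd hi h', hx⟩
    · have h1 : ∀ g, p i (f g) ∈ U i := by
        intro g
        by_contra hg
        exact hi (Or.inl ⟨g, hg⟩)
      have h2 : H1TrivialOn G (U i) := by
        by_contra hg
        exact hi (Or.inr hg)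
      obtain ⟨x, hxU, hx⟩ := h2 _ (h.isMulCocycle₁_proj hf i) h1
      exact ⟨x, fun _ => hxU, hx⟩
  choose m hmU hm using key
  obtain ⟨x, hx⟩ := h.glue m (hTfin.subset (fun i hi => by
    by_contra hiT
    exact hi (hmU i hiT)))
  refine ⟨x, fun g => h.ext' (fun i => ?_)⟩
  rw [map_div, h.equivariant, hx i, hm i g]

/-- **Injectivity of `H²(J) → ∏ H²(M i)`** (cochain form): a `2`-cocycle of a restricted product
all of whose projections are coboundaries is a coboundary. -/
theorem isMulCoboundary₂ (h : IsRestrictedProd G J p U)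
    (hU : {i | ¬ H2TrivialOn G (U i)}.Finite) {f : G × G → J} (hf : IsMulCocycle₂ f)
    (hloc : ∀ i, IsMulCoboundary₂ (fun gh => p i (f gh))) :
    IsMulCoboundary₂ f := by
  classical
  set T : Set ι := {i | ∃ gh, p i (f gh) ∉ U i} ∪ {i | ¬ H2TrivialOn G (U i)} with hT
  have hTfin : T.Finite := (h.finite_not_mem f).union hU
  have key : ∀ i, ∃ x : G → M i, (i ∉ T → ∀ g, x g ∈ U i) ∧
      ∀ g g' : G, g • x g' / x (g * g') * x g = p i (f (g, g')) := by
    intro i
    by_cases hi : i ∈ T
    · obtain ⟨x, hx⟩ := hloc i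
      exact ⟨x, fun h' => absurd hi h', hx⟩
    · have h1 : ∀ g g', p i (f (g, g')) ∈ U i := by
        intro g g'
        by_contra hg
        exact hi (Or.inl ⟨(g, g'), hg⟩)
      have h2 : H2TrivialOn G (U i) := by
        by_contra hg
        exact hi (Or.inr hg)
      obtain ⟨x, hxU, hx⟩ := h2 _ (h.isMulCocycle₂_proj hf i) h1
      exact ⟨x, fun _ => hxU, hx⟩
  choose m hmU hm using key
  have hglue : ∀ g : G, ∃ x : J, ∀ i, p i x = m i g := by
    intro g
    refine h.glue (fun i => m i g) (hTfin.subset (fun i hi => ?_))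
    by_contra hiT
    exact hi (hmU i hiT g)
  choose x hx using hglue
  refine ⟨x, fun g g' => h.ext' (fun i => ?_)⟩
  rw [map_mul, map_div, h.equivariant, hx, hx, hx, hm i g g']

/-- **Finite support of the image of `H²(J) → ∏ H²(M i)`** (cochain form). -/
theorem finite_not_isMulCoboundary₂ (h : IsRestrictedProd G J p U)
    (hU : {i | ¬ H2TrivialOn G (U i)}.Finite) {f : G × G → J} (hf : IsMulCocycle₂ f) :
    {i | ¬ IsMulCoboundary₂ (fun gh => p i (f gh))}.Finite := by
  refine ((h.finite_not_mem f).union hU).subset (fun i hi => ?_)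
  by_contra hiT
  apply hi
  have h1 : ∀ g g', p i (f (g, g')) ∈ U i := by
    intro g g'
    by_contra hg
    exact hiT (Or.inl ⟨(g, g'), hg⟩)
  have h2 : H2TrivialOn G (U i) := by
    by_contra hg
    exact hiT (Or.inr hg)
  obtain ⟨x, -, hx⟩ := h2 _ (h.isMulCocycle₂_proj hf i) h1
  exact ⟨x, hx⟩

end Finite

/-- **Surjectivity of `H²(J) → ⨁ H²(M i)`** (cochain form): a finitely supported family of
`2`-cocycles comes from a `2`-cocycle of the restricted product. -/
theorem exists_isMulCocycle₂ (h : IsRestrictedProd G J p U) (c : ∀ i, G × G → M i)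
    (hc : ∀ i, IsMulCocycle₂ (c i)) (hfin : {i | ∃ gh, c i gh ≠ 1}.Finite) :
    ∃ f : G × G → J, IsMulCocycle₂ f ∧ ∀ i gh, p i (f gh) = c i gh := by
  have hglue : ∀ gh : G × G, ∃ x : J, ∀ i, p i x = c i gh := by
    intro gh
    refine h.glue (fun i => c i gh) (hfin.subset (fun i hi => ⟨gh, fun h1 => hi ?_⟩))
    rw [h1]
    exact one_mem _
  choose f hf using hglue
  refine ⟨f, fun g g' g'' => h.ext' (fun i => ?_), fun i gh => hf gh i⟩
  rw [map_mul, map_mul, h.equivariant, hf, hf, hf, hf]
  exact hc i g g' g''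

/-! ### Statements in terms of Mathlib's group cohomology -/

/-- The projections as morphisms of representations. -/
noncomputable def projHom (h : IsRestrictedProd G J p U) (i : ι) :
    Rep.ofMulDistribMulAction G J ⟶ Rep.ofMulDistribMulAction G (M i) :=
  repHomOfMulEquivariant (p i) (h.equivariant i)

@[simp] theorem projHom_apply (h : IsRestrictedProd G J p U) (i : ι) (x : Additive J) :
    (h.projHom i).hom x = Additive.ofMul (p i x.toMul) := rfl

/-- **`H¹` of a restricted product vanishes** if all `H¹(G, M i)` vanish and almost all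
`H¹(G, U i)` vanish. -/
theorem isZero_H1 [Finite G] (h : IsRestrictedProd G J p U)
    (hM : ∀ i, H1TrivialOn G (⊤ : Subgroup (M i)))
    (hU : {i | ¬ H1TrivialOn G (U i)}.Finite) :
    CategoryTheory.Limits.IsZero (groupCohomology (Rep.ofMulDistribMulAction G J) 1) := by
  have : Subsingleton (groupCohomology (Rep.ofMulDistribMulAction G J) 1) := by
    refine subsingleton_of_forall_eq 0 (fun x => ?_)
    induction x using H1_induction_on with
    | h c =>
      rw [H1π_eq_zero_iff]
      have hc := isMulCocycle₁_of_mem_cocycles₁ _ c.2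
      have hcob := h.isMulCoboundary₁ hM hU hc
      exact (coboundariesOfIsMulCoboundary₁ hcob).2
  exact ModuleCat.isZero_of_subsingleton _

/-- The image of the class of a `2`-cocycle under a projection, in cochain terms. -/
theorem map_projHom_H2π_eq_zero_iff (h : IsRestrictedProd G J p U) (i : ι)
    (c : cocycles₂ (Rep.ofMulDistribMulAction G J)) :
    groupCohomology.map (MonoidHom.id G) (h.projHom i) 2 (H2π _ c) = 0 ↔
      IsMulCoboundary₂ (fun gh => p i ((Additive.toMul ∘ ⇑c) gh)) := by
  rw [H2π_comp_map_apply, H2π_eq_zero_iff]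
  constructor
  · intro hmem
    exact isMulCoboundary₂_of_mem_coboundaries₂ _ hmem
  · intro hcob
    exact (coboundariesOfIsMulCoboundary₂ hcob).2

/-- **Injectivity of `H²(G, J) → ∏ H²(G, M i)`.** -/
theorem H2_ext [Finite G] (h : IsRestrictedProd G J p U)
    (hU : {i | ¬ H2TrivialOn G (U i)}.Finite)
    (x : groupCohomology (Rep.ofMulDistribMulAction G J) 2)
    (hx : ∀ i, groupCohomology.map (MonoidHom.id G) (h.projHom i) 2 x = 0) : x = 0 := by
  induction x using H2_induction_on with
  | h c =>
    rw [H2π_eq_zero_iff]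
    have hc := isMulCocycle₂_of_mem_cocycles₂ _ c.2
    have hloc : ∀ i, IsMulCoboundary₂ (fun gh => p i ((Additive.toMul ∘ ⇑c) gh)) :=
      fun i => (h.map_projHom_H2π_eq_zero_iff i c).mp (hx i)
    exact (coboundariesOfIsMulCoboundary₂ (h.isMulCoboundary₂ hU hc hloc)).2

/-- **The image of `H²(G, J) → ∏ H²(G, M i)` consists of finitely supported families.** -/
theorem H2_finite_support [Finite G] (h : IsRestrictedProd G J p U)
    (hU : {i | ¬ H2TrivialOn G (U i)}.Finite)
    (x : groupCohomology (Rep.ofMulDistribMulAction G J) 2) :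
    {i | groupCohomology.map (MonoidHom.id G) (h.projHom i) 2 x ≠ 0}.Finite := by
  induction x using H2_induction_on with
  | h c =>
    have hc := isMulCocycle₂_of_mem_cocycles₂ _ c.2
    refine (h.finite_not_isMulCoboundary₂ hU hc).subset (fun i hi => ?_)
    exact fun hcob => hi ((h.map_projHom_H2π_eq_zero_iff i c).mpr hcob)

/-- **Every finitely supported family in `∏ H²(G, M i)` comes from `H²(G, J)`.** -/
theorem H2_exists (h : IsRestrictedProd G J p U)
    (y : ∀ i, groupCohomology (Rep.ofMulDistribMulAction G (M i)) 2)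
    (hy : {i | y i ≠ 0}.Finite) :
    ∃ x : groupCohomology (Rep.ofMulDistribMulAction G J) 2,
      ∀ i, groupCohomology.map (MonoidHom.id G) (h.projHom i) 2 x = y i := by
  classical
  have key : ∀ i, ∃ c : cocycles₂ (Rep.ofMulDistribMulAction G (M i)),
      H2π _ c = y i ∧ (y i = 0 → c = 0) := by
    intro i
    by_cases hi : y i = 0
    · exact ⟨0, by rw [map_zero, hi], fun _ => rfl⟩
    · obtain ⟨c, hc⟩ : ∃ c, H2π _ c = y i := by
        induction y i using H2_induction_on with
        | h c => exact ⟨c, rfl⟩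
      exact ⟨c, hc, fun h0 => absurd h0 hi⟩
  choose c hc hc0 using key
  obtain ⟨f, hf, hfp⟩ := h.exists_isMulCocycle₂ (fun i => Additive.toMul ∘ ⇑(c i))
    (fun i => isMulCocycle₂_of_mem_cocycles₂ _ (c i).2)
    (hy.subset (fun i hi h0 => by
      obtain ⟨gh, hgh⟩ := hi
      apply hgh
      rw [hc0 i h0]
      rfl))
  refine ⟨H2π _ (cocyclesOfIsMulCocycle₂ hf), fun i => ?_⟩
  rw [H2π_comp_map_apply, ← hc i]
  congr 1
  apply cocycles₂_ext
  intro g g'
  exact congrArg Additive.ofMul (hfp i (g, g'))

end IsRestrictedProd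

/-! ### Herbrand quotients -/

section Herbrand

open Fermat.Agent.Lib.CFT.Herbrand

/-- Multiplicative counting lemma: a surjective homomorphism out of a subgroup `K` whose kernel
is `I ⊓ K` identifies the target with `K / (I ⊓ K)`. -/
theorem card_eq_relIndex_of_surjective_mul {V H : Type*} [CommGroup V] [CommGroup H]
    (K I : Subgroup V) (φ : K →* H) (hφ : Function.Surjective φ)
    (hker : ∀ x : K, φ x = 1 ↔ (x : V) ∈ I) : Nat.card H = I.relIndex K := by
  have hk : φ.ker = I.subgroupOf K := by
    ext x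
    rw [MonoidHom.mem_ker, hker, Subgroup.mem_subgroupOf]
  rw [Subgroup.relIndex, ← hk, Subgroup.index,
    Nat.card_congr (QuotientGroup.quotientKerEquivOfSurjective φ hφ).toEquiv]

variable (G : Type) [Group G] {M : Type} [CommGroup M] [MulDistribMulAction G M]

/-- The subgroup `U` has trivial Tate cohomology in degrees `0` and `-1` with respect to the
operators `s - 1` and `N` (elementary form): `U^s ⊆ N U` and `U[N] ⊆ (s - 1) U`. -/
def HerbrandTrivialOn [Fintype G] (s : G) (U : Subgroup M) : Prop :=
  (∀ u ∈ U, s • u = u → ∃ v ∈ U, normMul G M v = u) ∧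
    (∀ u ∈ U, normMul G M u = 1 → ∃ v ∈ U, s • v / v = u)

end Herbrand

namespace IsRestrictedProd

open Fermat.Agent.Lib.CFT.Herbrand

variable {G : Type} [Group G] {ι : Type} {M : ι → Type} [∀ i, CommGroup (M i)]
  [∀ i, MulDistribMulAction G (M i)] {J : Type} [CommGroup J] [MulDistribMulAction G J]
  {p : ∀ i, J →* M i} {U : ∀ i, Subgroup (M i)}

/-- **Index computation in the `S`-part of a restricted product.**  `JS` is the subgroup of
elements with `U`-components outside the finite set `S`, and `fJ`, `gJ` are endomorphisms of `JS`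
acting componentwise through `f i`, `g i`.  If `U i ∩ ker (f i) ⊆ g i (U i)` outside `S`, then
`[ker fJ : im gJ] = ∏_{i ∈ S} [ker (f i) : im (g i)]`. -/
theorem hIndexMul_eq_prod (h : IsRestrictedProd G J p U) (S : Finset ι) (JS : Subgroup J)
    (hJS : ∀ x, x ∈ JS ↔ ∀ i, i ∉ S → p i x ∈ U i)
    (fJ gJ : JS →* JS) (f g : ∀ i, M i →* M i)
    (hf : ∀ i (x : JS), p i (fJ x : J) = f i (p i x))
    (hg : ∀ i (x : JS), p i (gJ x : J) = g i (p i x))
    (hS : ∀ i, i ∉ S → ∀ u ∈ U i, f i u = 1 → ∃ v ∈ U i, g i v = u) :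
    hIndexMul fJ gJ = ∏ i ∈ S, hIndexMul (f i) (g i) := by
  classical
  unfold hIndexMul
  -- the map to the finite product of quotients
  let Q : S → Type := fun i => (f i).ker ⧸ ((g i).range).subgroupOf (f i).ker
  have hmem : ∀ (x : fJ.ker) (i : ι), p i ((x : JS) : J) ∈ (f i).ker := by
    intro x i
    rw [MonoidHom.mem_ker, ← hf i x.1, x.2]
    exact map_one _
  let φ : fJ.ker →* (∀ i : S, Q i) :=
    MonoidHom.mk' (fun x i => QuotientGroup.mk ⟨p i ((x : JS) : J), hmem x i⟩)
      (fun x y => by
        funext i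
        show (QuotientGroup.mk _ : Q i) = QuotientGroup.mk _ * QuotientGroup.mk _
        rw [← QuotientGroup.mk_mul]
        congr 1
        apply Subtype.ext
        show p i (((x * y : fJ.ker) : JS) : J) = _
        simp)
  have hφ : Function.Surjective φ := by
    intro q
    choose r hr using fun i : S => QuotientGroup.mk_surjective (q i)
    let m : ∀ i, M i := fun i => if hi : i ∈ S then ((r ⟨i, hi⟩ : (f i).ker) : M i) else 1
    have hmfin : {i | m i ∉ U i}.Finite := by
      refine S.finite_toSet.subset (fun i hi => ?_)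
      by_contra hiS
      apply hi
      have : i ∉ S := hiS
      simp only [m, dif_neg this]
      exact one_mem _
    obtain ⟨x, hx⟩ := h.glue m hmfin
    have hxJS : x ∈ JS := by
      rw [hJS]
      intro i hi
      rw [hx i]
      simp only [m, dif_neg hi]
      exact one_mem _
    have hxker : (⟨x, hxJS⟩ : JS) ∈ fJ.ker := by
      rw [MonoidHom.mem_ker]
      apply Subtype.ext
      apply h.ext'
      intro i
      rw [hf i ⟨x, hxJS⟩]
      show f i (p i x) = p i ((1 : JS) : J)
      rw [hx i, Subgroup.coe_one, map_one]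
      by_cases hi : i ∈ S
      · simp only [m, dif_pos hi]
        exact (r ⟨i, hi⟩).2
      · simp only [m, dif_neg hi]
        exact map_one _
    refine ⟨⟨⟨x, hxJS⟩, hxker⟩, ?_⟩
    funext i
    rw [← hr i]
    show (QuotientGroup.mk _ : Q i) = QuotientGroup.mk _
    congr 1
    apply Subtype.ext
    show p i x = r i
    rw [hx i]
    simp only [m, dif_pos i.2]
  have hker : ∀ x : fJ.ker, φ x = 1 ↔ (x : JS) ∈ gJ.range := by
    intro x
    constructor
    · intro hx
      have hloc : ∀ i, ∃ v : M i, (i ∉ S → v ∈ U i) ∧ g i v = p i ((x : JS) : J) := by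
        intro i
        by_cases hi : i ∈ S
        · have h0 : (QuotientGroup.mk ⟨p i ((x : JS) : J), hmem x i⟩ : Q ⟨i, hi⟩) = 1 :=
            congrFun hx ⟨i, hi⟩
          rw [QuotientGroup.eq_one_iff, Subgroup.mem_subgroupOf] at h0
          obtain ⟨v, hv⟩ := h0
          exact ⟨v, fun h' => absurd hi h', hv⟩
        · have h1 : p i ((x : JS) : J) ∈ U i := (hJS _).mp (x : JS).2 i hi
          obtain ⟨v, hvU, hv⟩ := hS i hi _ h1 (hmem x i)
          exact ⟨v, fun _ => hvU, hv⟩
      choose v hvU hv using hloc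
      obtain ⟨y, hy⟩ := h.glue v (S.finite_toSet.subset (fun i hi => by
        by_contra hiS
        exact hi (hvU i hiS)))
      have hyJS : y ∈ JS := by
        rw [hJS]
        intro i hi
        rw [hy i]
        exact hvU i hi
      refine ⟨⟨y, hyJS⟩, ?_⟩
      apply Subtype.ext
      apply h.ext'
      intro i
      rw [hg i ⟨y, hyJS⟩]
      show g i (p i y) = _
      rw [hy i, hv i]
    · rintro ⟨y, hy⟩
      funext i
      show (QuotientGroup.mk ⟨p i ((x : JS) : J), hmem x i⟩ : Q i) = 1
      rw [QuotientGroup.eq_one_iff, Subgroup.mem_subgroupOf]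
      refine ⟨p i (y : J), ?_⟩
      show g i (p i (y : J)) = p i ((x : JS) : J)
      rw [← hg i y, hy]
  rw [← card_eq_relIndex_of_surjective_mul _ _ φ hφ hker, Nat.card_pi,
    ← Finset.prod_coe_sort S (fun i => ((g i).range).relIndex (f i).ker)]
  exact Finset.prod_congr rfl (fun i _ => rfl)

section Cyclic

variable [Fintype G] (h : IsRestrictedProd G J p U) (s : G) (S : Finset ι) (JS : Subgroup J)
  (hJS : ∀ x, x ∈ JS ↔ ∀ i, i ∉ S → p i x ∈ U i) [MulDistribMulAction G JS]
  (hsmul : ∀ (g : G) (x : JS), ((g • x : JS) : J) = g • (x : J))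

omit [Fintype G] in
include h hsmul in
theorem proj_subOneMul (i : ι) (x : JS) :
    p i ((subOneMul G JS s x : JS) : J) = subOneMul G (M i) s (p i x) := by
  rw [subOneMul_apply, subOneMul_apply, Subgroup.coe_div, hsmul, map_div, h.equivariant]

include h hsmul in
theorem proj_normMul (i : ι) (x : JS) :
    p i ((normMul G JS x : JS) : J) = normMul G (M i) (p i x) := by
  rw [normMul_apply, normMul_apply, SubmonoidClass.coe_finsetProd, map_prod]
  refine Finset.prod_congr rfl (fun g _ => ?_)
  rw [hsmul, h.equivariant]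

include h hJS hsmul in
/-- **Herbrand indices of the `S`-part of a restricted product.** -/
theorem hIndexMul_sub (hU : ∀ i, i ∉ S → HerbrandTrivialOn G s (U i)) :
    hIndexMul (subOneMul G JS s) (normMul G JS) =
        ∏ i ∈ S, hIndexMul (subOneMul G (M i) s) (normMul G (M i)) ∧
      hIndexMul (normMul G JS) (subOneMul G JS s) =
        ∏ i ∈ S, hIndexMul (normMul G (M i)) (subOneMul G (M i) s) := by
  constructor
  · refine h.hIndexMul_eq_prod S JS hJS _ _ (fun i => subOneMul G (M i) s)
      (fun i => normMul G (M i)) (h.proj_subOneMul s JS hsmul) (h.proj_normMul JS hsmul) ?_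
    intro i hi u hu h1
    refine (hU i hi).1 u hu ?_
    rwa [subOneMul_apply, div_eq_one] at h1
  · refine h.hIndexMul_eq_prod S JS hJS _ _ (fun i => normMul G (M i))
      (fun i => subOneMul G (M i) s) (h.proj_normMul JS hsmul) (h.proj_subOneMul s JS hsmul) ?_
    intro i hi u hu h1
    obtain ⟨v, hv, hvu⟩ := (hU i hi).2 u hu h1
    exact ⟨v, hv, by rw [subOneMul_apply, hvu]⟩

include h hJS hsmul in
/-- **Herbrand quotient of the `S`-part of a restricted product**: it is the product of the
Herbrand quotients of the factors in `S`, provided the subgroups `U i`, `i ∉ S`, have trivial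
Tate cohomology. -/
theorem herbrandCycMul_sub (hU : ∀ i, i ∉ S → HerbrandTrivialOn G s (U i))
    (hfin : ∀ i ∈ S, CycFinMul G (M i) s) :
    CycFinMul G JS s ∧ herbrandCycMul G JS s = ∏ i ∈ S, herbrandCycMul G (M i) s := by
  obtain ⟨h1, h2⟩ := h.hIndexMul_sub s S JS hJS hsmul hU
  constructor
  · unfold CycFinMul IsFinMul
    rw [h1, h2]
    exact ⟨Finset.prod_ne_zero_iff.mpr fun i hi => (hfin i hi).1,
      Finset.prod_ne_zero_iff.mpr fun i hi => (hfin i hi).2⟩
  · unfold herbrandCycMul herbrandMul
    rw [h1, h2]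
    push_cast
    rw [Finset.prod_div_distrib]

end Cyclic

end IsRestrictedProd

end Fermat.Agent.Lib.CFT.Coh.RestrictedProd
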