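import Fermat.Agent.Lib.CFT.Coh.InfRes

/-!
# Explicit Shapiro lemma for group cohomology (P-CFT)

Mathlib's `groupCohomology.coindIso` is constructed abstractly (through projective resolutions and
`Ext`), so it is not known to be induced by the explicit cochain map "restrict to `S`, then
evaluate at `1`".  For compatibility with inflation and restriction one needs the explicit map

`shapiroMap S B n := groupCohomology.map S.subtype (coindEval S B) n :
    Hⁿ(G, Coind_S^G B) ⟶ Hⁿ(S, B)`.

Main results (`S` a subgroup of finite index of `G`, `B : Rep k S`):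

* `isIso_shapiroMap S n B : IsIso (shapiroMap S B n)` (dimension shifting along
  `0 ⟶ B ⟶ Fun(S, B) ⟶ B' ⟶ 0`, base case `H⁰` by hand), `shapiroIso`, `bijective_shapiroMap`;
* `map_comp_shapiroMap`: for `f : Res_S M ⟶ B` with adjunct `f' : M ⟶ Coind_S^G B`,
  `Hⁿ(f') ≫ shapiroMap = groupCohomology.map S.subtype f n`;
* `bijective_pi_map_of_total`: an additive functor to modules turns a finite biproduct bicone
  into a product (joint bijectivity of the images of the projections).
-/

set_option autoImplicit false

universe u

open CategoryTheory Rep groupCohomology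

namespace Fermat.Agent.Lib.CFT.Coh.ShapiroExplicit

open Fermat.Agent.Lib.CFT.Coh.InfRes

variable {k G : Type u} [CommRing k] [Group G] (S : Subgroup G)

/-- Evaluation at `1`, as a morphism of `S`-representations `Res_S Coind_S^G B ⟶ B`
(the counit of the adjunction between restriction and coinduction). -/
noncomputable def coindEval (B : Rep k S) : res S.subtype (coind S.subtype B) ⟶ B :=
  Rep.ofHom (ρ := (res S.subtype (coind S.subtype B)).ρ) (σ := B.ρ)
    ⟨{ toFun := fun F => F.1 1
       map_add' := fun _ _ => rfl
       map_smul' := fun _ _ => rfl },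
     fun s => by
      ext F
      have h := F.2 s 1
      simp only [Subgroup.coe_subtype, mul_one] at h
      show (F.1 (1 * (s : G))) = B.ρ s (F.1 1)
      rw [one_mul, h]⟩

@[simp]
lemma coindEval_apply (B : Rep k S) (F : (coind S.subtype B).V) :
    (coindEval S B).hom F = F.1 1 := rfl

/-- The explicit Shapiro map `Hⁿ(G, Coind_S^G B) ⟶ Hⁿ(S, B)`: restrict to `S`, then evaluate
at `1`. -/
noncomputable abbrev shapiroMap (B : Rep k S) (n : ℕ) :
    groupCohomology (coind S.subtype B) n ⟶ groupCohomology B n :=
  map S.subtype (coindEval S B) n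

/-- A `G`-invariant element of `Coind_S^G B` is a constant function. -/
lemma coind_invariant_apply (B : Rep k S) (F : (coind S.subtype B).V)
    (hF : F ∈ (coind S.subtype B).ρ.invariants) (g : G) : F.1 g = F.1 1 := by
  have h := congrArg (fun F' : (coind S.subtype B).V => F'.1 1) (hF g)
  have h2 : ((coind S.subtype B).ρ g F).1 1 = F.1 (1 * g) := rfl
  simp only [h2, one_mul] at h
  exact h

/-- The constant function with an `S`-invariant value, as an element of `Coind_S^G B`. -/
def constCoind (B : Rep k S) (b : B.V) (hb : b ∈ B.ρ.invariants) : (coind S.subtype B).V :=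
  ⟨fun _ => b, fun s _ => (hb s).symm⟩

lemma constCoind_mem_invariants (B : Rep k S) (b : B.V) (hb : b ∈ B.ρ.invariants) :
    constCoind S B b hb ∈ (coind S.subtype B).ρ.invariants := fun _ => rfl

/-- **Explicit Shapiro in degree `0`.** -/
theorem isIso_shapiroMap_zero (B : Rep k S) : IsIso (shapiroMap S B 0) := by
  rw [ConcreteCategory.isIso_iff_bijective]
  have key : ∀ x : H0 (coind S.subtype B),
      ((shortComplexH0 B).f ((H0Iso B).hom (shapiroMap S B 0 x)) : B.V) =
        (coindEval S B).hom ((shortComplexH0 (coind S.subtype B)).f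
          ((H0Iso (coind S.subtype B)).hom x)) :=
    fun x => map_H0Iso_hom_f_apply S.subtype (coindEval S B) x
  constructor
  · intro x y hxy
    have hx := key x
    rw [hxy, key y] at hx
    apply (ConcreteCategory.bijective_of_isIso (H0Iso (coind S.subtype B)).hom).1
    apply Subtype.ext
    apply Subtype.ext
    funext g
    rw [coind_invariant_apply S B _ ((H0Iso (coind S.subtype B)).hom x).2 g,
      coind_invariant_apply S B _ ((H0Iso (coind S.subtype B)).hom y).2 g]
    exact hx.symm
  · intro y
    let b : B.ρ.invariants := (H0Iso B).hom y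
    let F : (coind S.subtype B).ρ.invariants :=
      ⟨constCoind S B b.1 b.2, constCoind_mem_invariants S B b.1 b.2⟩
    refine ⟨(H0Iso (coind S.subtype B)).inv F, ?_⟩
    apply (ConcreteCategory.bijective_of_isIso (H0Iso B).hom).1
    apply Subtype.ext
    have h1 := key ((H0Iso (coind S.subtype B)).inv F)
    rw [Iso.inv_hom_id_apply] at h1
    exact h1

/-! ### Dimension shifting -/

instance coindFunctor_additive :
    (Rep.coindFunctor.{u} k S.subtype).Additive where
  map_add {X Y f g} := by
    ext x
    rfl

/-- Coinduction from a subgroup of finite index is exact. -/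
lemma shortExact_map_coind [S.FiniteIndex] {T : ShortComplex (Rep k S)}
    (hT : T.ShortExact) : (T.map (Rep.coindFunctor.{u} k S.subtype)).ShortExact := by
  classical
  exact hT.map_of_exact (Rep.coindFunctor.{u} k S.subtype)

/-- Transitivity of coinduction: `Coind_S^G (Fun(S, V))` is a right regular representation of `G`,
hence acyclic. -/
theorem isZero_groupCohomology_coind_rightReg (V : Type u) [AddCommGroup V] [Module k V] (n : ℕ) :
    Limits.IsZero (groupCohomology (coind S.subtype (rightReg k S V)) (n + 1)) := by
  let e : (coind S.subtype (rightReg k S V)).V ≃ₗ[k] (G → V) :=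
    { toFun := fun F g => (F.1 g : S → V) 1
      map_add' := fun _ _ => rfl
      map_smul' := fun _ _ => rfl
      invFun := fun f => ⟨fun g t => f (t * g), fun s g => by
        funext t
        show f (t * (S.subtype s * g)) = f ((t * s : S) * g)
        simp [mul_assoc]⟩
      left_inv := fun F => by
        apply Subtype.ext
        funext g t
        have := congrFun (F.2 t g) 1
        change (F.1 (t * g) : S → V) 1 = (F.1 g : S → V) (1 * t) at this
        rw [one_mul] at this
        exact this
      right_inv := fun f => by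
        funext g
        show f ((1 : S) * g) = f g
        simp }
  exact isZero_groupCohomology_of_equiv (B := V) (coind S.subtype (rightReg k S V)) e
    (fun γ m x => rfl) n

/-- Naturality of evaluation at `1`. -/
lemma coindEval_naturality {B B' : Rep k S} (f : B ⟶ B') :
    (resFunctor S.subtype).map (coindMap S.subtype f) ≫ coindEval S B' = coindEval S B ≫ f := by
  ext F
  rfl

/-- Naturality of the explicit Shapiro map in the coefficients. -/
lemma shapiroMap_naturality {B B' : Rep k S} (f : B ⟶ B') (n : ℕ) :
    map (MonoidHom.id G) (coindMap S.subtype f) n ≫ shapiroMap S B' n =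
      shapiroMap S B n ≫ map (MonoidHom.id S) f n := by
  rw [shapiroMap, shapiroMap, ← map_comp, ← map_comp]
  exact map_congr rfl (by rw [coindEval_naturality]; rfl) n

open Limits in
/-- The dimension shifting step for the explicit Shapiro map. -/
theorem isIso_shapiroMap_succ_of_shortExact [S.FiniteIndex] {X : ShortComplex (Rep k S)}
    (hX : X.ShortExact) (n : ℕ)
    (hS : IsZero (groupCohomology X.X₂ (n + 1)))
    (hG : IsZero (groupCohomology (coind S.subtype X.X₂) (n + 1)))
    (h2 : IsIso (shapiroMap S X.X₂ n)) (h3 : IsIso (shapiroMap S X.X₃ n)) :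
    IsIso (shapiroMap S X.X₁ (n + 1)) := by
  have hY : (X.map (Rep.coindFunctor.{u} k S.subtype)).ShortExact := shortExact_map_coind S hX
  have sq : δ hY n (n + 1) rfl ≫ shapiroMap S X.X₁ (n + 1) =
      shapiroMap S X.X₃ n ≫ δ hX n (n + 1) rfl :=
    δ_naturality_map S.subtype hY hX (coindEval S X.X₁) (coindEval S X.X₂) (coindEval S X.X₃)
      (coindEval_naturality S X.f) (coindEval_naturality S X.g) n (n + 1) rfl
  have nat : map (MonoidHom.id G) (coindMap S.subtype X.g) n ≫ shapiroMap S X.X₃ n =
      shapiroMap S X.X₂ n ≫ map (MonoidHom.id S) X.g n := shapiroMap_naturality S X.g n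
  have epiG : Epi (δ hY n (n + 1) rfl) := epi_δ_of_isZero hY n hG
  have epiS : Epi (δ hX n (n + 1) rfl) := epi_δ_of_isZero hX n hS
  have surjG : Function.Surjective (δ hY n (n + 1) rfl) := (ModuleCat.epi_iff_surjective _).1 epiG
  have surjS : Function.Surjective (δ hX n (n + 1) rfl) := (ModuleCat.epi_iff_surjective _).1 epiS
  have bij2 : Function.Bijective (shapiroMap S X.X₂ n) := ConcreteCategory.bijective_of_isIso _
  have bij3 : Function.Bijective (shapiroMap S X.X₃ n) := ConcreteCategory.bijective_of_isIso _
  have exS : ∀ y : groupCohomology X.X₃ n, δ hX n (n + 1) rfl y = 0 →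
      ∃ x : groupCohomology X.X₂ n, map (MonoidHom.id S) X.g n x = y := fun y hy =>
    (ShortComplex.moduleCat_exact_iff _).1
      (mapShortComplex₃_exact hX (rfl : n + 1 = n + 1)) y hy
  have zeroG : ∀ x : groupCohomology (coind S.subtype X.X₂) n,
      δ hY n (n + 1) rfl (map (MonoidHom.id G) (coindMap S.subtype X.g) n x) = 0 := fun x =>
    ConcreteCategory.congr_hom (mapShortComplex₃ hY (rfl : n + 1 = n + 1)).zero x
  have e1 : ∀ q, shapiroMap S X.X₁ (n + 1) (δ hY n (n + 1) rfl q) =
      δ hX n (n + 1) rfl (shapiroMap S X.X₃ n q) := fun q => ConcreteCategory.congr_hom sq q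
  have e2 : ∀ r, shapiroMap S X.X₃ n (map (MonoidHom.id G) (coindMap S.subtype X.g) n r) =
      map (MonoidHom.id S) X.g n (shapiroMap S X.X₂ n r) := fun r =>
    ConcreteCategory.congr_hom nat r
  rw [ConcreteCategory.isIso_iff_bijective]
  constructor
  · rw [injective_iff_map_eq_zero]
    intro x hx
    obtain ⟨q', rfl⟩ := surjG x
    have h1 : δ hX n (n + 1) rfl (shapiroMap S X.X₃ n q') = 0 := (e1 q').symm.trans hx
    obtain ⟨r, hr⟩ := exS _ h1
    obtain ⟨r', rfl⟩ := bij2.2 r
    have h4 : map (MonoidHom.id G) (coindMap S.subtype X.g) n r' = q' :=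
      bij3.1 ((e2 r').trans hr)
    rw [← h4]
    exact zeroG r'
  · intro y
    obtain ⟨q, rfl⟩ := surjS y
    obtain ⟨q', rfl⟩ := bij3.2 q
    exact ⟨δ hY n (n + 1) rfl q', e1 q'⟩

/-- **Explicit Shapiro lemma**: for a subgroup `S` of finite index in `G` and `B : Rep k S`, the
explicit map `Hⁿ(G, Coind_S^G B) ⟶ Hⁿ(S, B)` (restrict to `S`, evaluate at `1`) is an
isomorphism in every degree. -/
theorem isIso_shapiroMap [S.FiniteIndex] (n : ℕ) : ∀ B : Rep k S, IsIso (shapiroMap S B n) := by
  induction n with
  | zero => exact isIso_shapiroMap_zero S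
  | succ n ih =>
    intro B
    exact isIso_shapiroMap_succ_of_shortExact S (shiftSES_shortExact B) n
      (isZero_groupCohomology_rightReg k S B.V n)
      (isZero_groupCohomology_coind_rightReg S B.V n) (ih _) (ih _)

/-- The explicit Shapiro isomorphism. -/
noncomputable def shapiroIso [S.FiniteIndex] (B : Rep k S) (n : ℕ) :
    groupCohomology (coind S.subtype B) n ≅ groupCohomology B n :=
  haveI := isIso_shapiroMap S n B
  asIso (shapiroMap S B n)

@[simp]
lemma shapiroIso_hom [S.FiniteIndex] (B : Rep k S) (n : ℕ) :
    (shapiroIso S B n).hom = shapiroMap S B n := rfl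

lemma bijective_shapiroMap [S.FiniteIndex] (B : Rep k S) (n : ℕ) :
    Function.Bijective (shapiroMap S B n) :=
  haveI := isIso_shapiroMap S n B
  ConcreteCategory.bijective_of_isIso _

/-- The explicit Shapiro map composed with the map induced by the adjunct `M ⟶ Coind_S^G B` of a
morphism `f : Res_S M ⟶ B` is the map induced by `f` (and restriction to `S`). -/
lemma map_comp_shapiroMap {M : Rep k G} {B : Rep k S} (f' : M ⟶ coind S.subtype B)
    (f : res S.subtype M ⟶ B)
    (hf : (resFunctor S.subtype).map f' ≫ coindEval S B = f) (n : ℕ) :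
    map (MonoidHom.id G) f' n ≫ shapiroMap S B n = map S.subtype f n := by
  rw [shapiroMap, ← map_comp]
  exact map_congr rfl (by rw [hf]) n

section Additive

variable {C : Type*} [Category C] [Preadditive C] (F : C ⥤ ModuleCat.{u} k) [F.Additive]
  {ι : Type*} [Fintype ι] {A : ι → C}

/-- An additive functor to modules sends a finite biproduct (given by a bicone with the `total`
identity) to the product: the family of the images of the projections is jointly bijective. -/
theorem bijective_pi_map_of_total (b : Limits.Bicone A)
    (total : ∑ j : ι, b.π j ≫ b.ι j = 𝟙 b.pt) :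
    Function.Bijective (fun (x : F.obj b.pt) (i : ι) => F.map (b.π i) x) := by
  classical
  have htot : ∀ x : F.obj b.pt, ∑ j : ι, F.map (b.ι j) (F.map (b.π j) x) = x := by
    intro x
    have h := congrArg (fun f => F.map f) total
    simp only [F.map_sum, F.map_comp, F.map_id] at h
    have h3 : (∑ j : ι, F.map (b.π j) ≫ F.map (b.ι j)).hom x = x := by rw [h]; rfl
    rw [ModuleCat.hom_sum, LinearMap.sum_apply] at h3
    exact h3
  have hιπ : ∀ (i j : ι) (y : F.obj (A i)), F.map (b.π j) (F.map (b.ι i) y) =
      if h : i = j then (h ▸ y : F.obj (A j)) else 0 := by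
    intro i j y
    have h := b.ι_π i j
    by_cases hij : i = j
    · subst hij
      rw [dif_pos rfl] at h ⊢
      have h2 := congrArg (fun f => F.map f) h
      simp only [F.map_comp, eqToHom_refl, F.map_id] at h2
      exact ConcreteCategory.congr_hom h2 y
    · rw [dif_neg hij] at h ⊢
      have h2 := congrArg (fun f => F.map f) h
      simp only [F.map_comp, F.map_zero] at h2
      exact ConcreteCategory.congr_hom h2 y
  constructor
  · intro x y hxy
    rw [← htot x, ← htot y]
    refine Finset.sum_congr rfl fun j _ => ?_
    have hj : F.map (b.π j) x = F.map (b.π j) y := congrFun hxy j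
    rw [hj]
  · intro y
    refine ⟨∑ i : ι, F.map (b.ι i) (y i), funext fun j => ?_⟩
    show F.map (b.π j) (∑ i : ι, F.map (b.ι i) (y i)) = y j
    rw [map_sum]
    rw [Finset.sum_eq_single j]
    · rw [hιπ j j, dif_pos rfl]
    · intro i _ hij
      rw [hιπ i j, dif_neg hij]
    · intro h
      exact absurd (Finset.mem_univ j) h

end Additive

end Fermat.Agent.Lib.CFT.Coh.ShapiroExplicit
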