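import Fermat.Agent.Lib.CFT.Coh.InfRes

/-!
# Solvable induction for `H¹`-vanishing and `H²`-order bounds (P-CFT, add-on to Coh/InfRes)

Abstract form of the "cyclic layers ⟹ solvable groups" induction used for class formations
(local: `|H²(L/K, Lˣ)| ∣ [L:K]`; global: `H¹(G, C_L) = 0`, `|H²(G, C_L)| ∣ [L:K]`):
a property that holds for all cyclic layers of prime order propagates to all finite solvable
groups through the inflation-restriction sequences in degrees `1` and `2`.
-/

set_option autoImplicit false

universe u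

open CategoryTheory Rep groupCohomology

namespace Fermat.Agent.Lib.CFT.Coh.Solvable

open Fermat.Agent.Lib.CFT.Coh.InfRes

/-- A nontrivial finite solvable group has a normal subgroup of prime index. -/
theorem exists_normal_prime_index (Γ : Type*) [Group Γ] [Finite Γ] [Group.IsSolvable Γ] [Nontrivial Γ] :
    ∃ N : Subgroup Γ, N.Normal ∧ (Nat.card (Γ ⧸ N)).Prime := by
  have hC : commutator Γ < ⊤ := Group.IsSolvable.commutator_lt_top_of_nontrivial Γ
  obtain ⟨M, hM, hCM⟩ := (IsCoatomic.eq_top_or_exists_le_coatom (commutator Γ)).resolve_left hC.ne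
  have hcomm : ∀ a b : Γ, a * b * a⁻¹ * b⁻¹ ∈ M := fun a b =>
    hCM (Subgroup.commutator_mem_commutator (Subgroup.mem_top a) (Subgroup.mem_top b))
  have hN : M.Normal := ⟨fun m hm g => by
    have := M.mul_mem (hcomm g m) hm
    simpa [mul_assoc] using this⟩
  refine ⟨M, hN, ?_⟩
  have : IsMulCommutative (Γ ⧸ M) := ⟨⟨fun a b => by
    induction a using QuotientGroup.induction_on with | H a =>
    induction b using QuotientGroup.induction_on with | H b =>
    rw [← QuotientGroup.mk_mul, ← QuotientGroup.mk_mul, QuotientGroup.eq]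
    have := hcomm b⁻¹ a⁻¹
    simpa [mul_assoc] using this⟩⟩
  rw [← Group.is_simple_iff_prime_card]
  have : Nontrivial (Γ ⧸ M) := by
    rw [QuotientGroup.nontrivial_iff]
    exact hM.1
  refine ⟨fun H _ => ?_⟩
  have hle : M ≤ H.comap (QuotientGroup.mk' M) := by
    intro m hm
    rw [Subgroup.mem_comap]
    have : (QuotientGroup.mk' M) m = 1 := (QuotientGroup.eq_one_iff m).2 hm
    rw [this]
    exact H.one_mem
  have hsurj : Function.Surjective (QuotientGroup.mk' M) := QuotientGroup.mk'_surjective M
  rcases eq_or_lt_of_le hle with h | h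
  · left
    rw [← Subgroup.map_comap_eq_self_of_surjective hsurj H, ← h]
    ext x
    constructor
    · rintro ⟨m, hm, rfl⟩
      exact (Subgroup.mem_bot).2 ((QuotientGroup.eq_one_iff m).2 hm)
    · intro hx
      rw [Subgroup.mem_bot.1 hx]
      exact Subgroup.one_mem _
  · right
    have := hM.2 _ h
    rw [← Subgroup.map_comap_eq_self_of_surjective hsurj H, this, ← MonoidHom.range_eq_map,
      MonoidHom.range_eq_top.2 hsurj]

section Counting

/-- Counting along a left exact sequence `0 ⟶ X ⟶ Y ⟶ Z` of additive groups. -/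
theorem finite_and_card_dvd_of_exact {X Y Z : Type*} [AddCommGroup X] [AddCommGroup Y]
    [AddCommGroup Z] (f : X →+ Y) (g : Y →+ Z) (hf : Function.Injective f)
    (hfg : ∀ x, g (f x) = 0) (hex : ∀ y, g y = 0 → ∃ x, f x = y) [Finite X] [Finite Z] :
    Finite Y ∧ Nat.card Y ∣ Nat.card X * Nat.card Z := by
  have hker : g.ker = f.range := by
    ext y
    constructor
    · intro hy
      obtain ⟨x, hx⟩ := hex y hy
      exact ⟨x, hx⟩
    · rintro ⟨x, rfl⟩
      exact hfg x
  have e1 : X ≃ f.range := Equiv.ofInjective f hf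
  have hfinker : Finite g.ker := by
    rw [hker]
    exact Finite.of_equiv X e1
  have hfinrange : Finite g.range := Finite.of_injective (fun z : g.range => (z : Z))
    Subtype.val_injective
  have e2 : (Y ⧸ g.ker) ≃+ g.range := QuotientAddGroup.quotientKerEquivRange g
  have hfinq : Finite (Y ⧸ g.ker) := Finite.of_equiv _ e2.symm.toEquiv
  have hfinY : Finite Y := by
    have e3 : Y ≃ (Y ⧸ g.ker) × g.ker := AddSubgroup.addGroupEquivQuotientProdAddSubgroup
    exact Finite.of_equiv _ e3.symm
  refine ⟨hfinY, ?_⟩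
  have hcard : Nat.card Y = Nat.card (Y ⧸ g.ker) * Nat.card g.ker :=
    AddSubgroup.card_eq_card_quotient_mul_card_addSubgroup g.ker
  have h1 : Nat.card g.ker = Nat.card X := by
    rw [hker]
    exact (Nat.card_congr e1).symm
  have h2 : Nat.card (Y ⧸ g.ker) ∣ Nat.card Z := by
    rw [Nat.card_congr e2.toEquiv]
    exact AddSubgroup.card_addSubgroup_dvd_card g.range
  rw [hcard, h1, mul_comm]
  exact Nat.mul_dvd_mul_left _ h2

end Counting

section Induction

open Limits

variable {k : Type u} [CommRing k]
variable (P : ∀ (Γ : Type u) [Group Γ], Rep k Γ → Prop)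

lemma card_subgroup_lt_of_prime_index {Γ : Type*} [Group Γ] [Finite Γ] (N : Subgroup Γ)
    (hp : (Nat.card (Γ ⧸ N)).Prime) : Nat.card N < Nat.card Γ := by
  rw [Subgroup.card_eq_card_quotient_mul_card_subgroup N]
  have h1 : 0 < Nat.card N := Nat.card_pos
  have h2 := hp.two_le
  nlinarith

/-- `H¹` vanishes on finite solvable groups as soon as it vanishes on all layers of prime order:
if a class `P` of representations is stable under restriction to subgroups and
`H¹(Γ ⧸ N, A^N) = 0` whenever `P Γ A` and `N` is normal of prime index, then `H¹(Γ, A) = 0` for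
all finite solvable `Γ` and all `A` with `P Γ A`. -/
theorem isZero_H1_of_solvable
    (hres : ∀ (Γ : Type u) [Group Γ] (A : Rep k Γ) (N : Subgroup Γ), P Γ A →
      P N (res N.subtype A))
    (hcyc : ∀ (Γ : Type u) [Group Γ] [Finite Γ] (A : Rep k Γ) (N : Subgroup Γ) [N.Normal],
      P Γ A → (Nat.card (Γ ⧸ N)).Prime →
      IsZero (groupCohomology (A.quotientToInvariants N) 1))
    (Γ : Type u) [Group Γ] [Finite Γ] [Group.IsSolvable Γ] (A : Rep k Γ) (hA : P Γ A) :
    IsZero (groupCohomology A 1) := by
  suffices H : ∀ n, ∀ (Γ : Type u) [Group Γ] [Finite Γ] [Group.IsSolvable Γ] (A : Rep k Γ),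
      Nat.card Γ = n → P Γ A → IsZero (groupCohomology A 1) from H _ Γ A rfl hA
  intro n
  induction n using Nat.strong_induction_on with
  | _ n ih =>
    intro Γ _ _ _ A hn hA
    rcases subsingleton_or_nontrivial Γ with hs | hnt
    · exact isZero_groupCohomology_succ_of_subsingleton A 0
    · obtain ⟨N, hN, hp⟩ := exists_normal_prime_index Γ
      have hlt : Nat.card N < n := hn ▸ card_subgroup_lt_of_prime_index N hp
      have h1N : IsZero (groupCohomology (res N.subtype A) 1) :=
        ih (Nat.card N) hlt N (res N.subtype A) rfl (hres Γ A N hA)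
      have h1Q : IsZero (groupCohomology (A.quotientToInvariants N) 1) := hcyc Γ A N hA hp
      have hex := infResExact_one A N
      have sN := ModuleCat.isZero_iff_subsingleton.1 h1N
      have sQ := ModuleCat.isZero_iff_subsingleton.1 h1Q
      refine ModuleCat.isZero_iff_subsingleton.2 ⟨fun x y => ?_⟩
      obtain ⟨x', rfl⟩ := hex.2 x (Subsingleton.elim _ _)
      obtain ⟨y', rfl⟩ := hex.2 y (Subsingleton.elim _ _)
      rw [Subsingleton.elim x' y']

/-- `H²` is finite of order dividing the group order on finite solvable groups as soon as this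
holds on all layers of prime order and `H¹` vanishes. -/
theorem finite_and_card_H2_dvd_of_solvable
    (hres : ∀ (Γ : Type u) [Group Γ] (A : Rep k Γ) (N : Subgroup Γ), P Γ A →
      P N (res N.subtype A))
    (hH1 : ∀ (Γ : Type u) [Group Γ] [Finite Γ] [Group.IsSolvable Γ] (A : Rep k Γ), P Γ A →
      IsZero (groupCohomology A 1))
    (hcyc : ∀ (Γ : Type u) [Group Γ] [Finite Γ] (A : Rep k Γ) (N : Subgroup Γ) [N.Normal],
      P Γ A → (Nat.card (Γ ⧸ N)).Prime →
      Finite (groupCohomology (A.quotientToInvariants N) 2) ∧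
        Nat.card (groupCohomology (A.quotientToInvariants N) 2) ∣ Nat.card (Γ ⧸ N))
    (Γ : Type u) [Group Γ] [Finite Γ] [Group.IsSolvable Γ] (A : Rep k Γ) (hA : P Γ A) :
    Finite (groupCohomology A 2) ∧ Nat.card (groupCohomology A 2) ∣ Nat.card Γ := by
  suffices H : ∀ n, ∀ (Γ : Type u) [Group Γ] [Finite Γ] [Group.IsSolvable Γ] (A : Rep k Γ),
      Nat.card Γ = n → P Γ A →
      Finite (groupCohomology A 2) ∧ Nat.card (groupCohomology A 2) ∣ Nat.card Γ from
    H _ Γ A rfl hA
  intro n
  induction n using Nat.strong_induction_on with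
  | _ n ih =>
    intro Γ _ _ _ A hn hA
    rcases subsingleton_or_nontrivial Γ with hs | hnt
    · have s2 := ModuleCat.isZero_iff_subsingleton.1
        (isZero_groupCohomology_succ_of_subsingleton A 1)
      exact ⟨inferInstance, by rw [Nat.card_unique]; exact one_dvd _⟩
    · obtain ⟨N, hN, hp⟩ := exists_normal_prime_index Γ
      have hlt : Nat.card N < n := hn ▸ card_subgroup_lt_of_prime_index N hp
      obtain ⟨fN, dN⟩ := ih (Nat.card N) hlt N (res N.subtype A) rfl (hres Γ A N hA)
      obtain ⟨fQ, dQ⟩ := hcyc Γ A N hA hp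
      have hex := infResExact_two A N (hH1 N (res N.subtype A) (hres Γ A N hA))
      have hzero : ∀ x, rest A N 2 (infl A N 2 x) = 0 := fun x => by
        have := ConcreteCategory.congr_hom (infl_comp_rest A N 1) x
        exact this
      obtain ⟨fin, hdvd⟩ := finite_and_card_dvd_of_exact
        (infl A N 2).hom.toAddMonoidHom (rest A N 2).hom.toAddMonoidHom hex.1 hzero hex.2
      refine ⟨fin, hdvd.trans ?_⟩
      rw [Subgroup.card_eq_card_quotient_mul_card_subgroup N]
      exact Nat.mul_dvd_mul dQ dN

end Induction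

end Fermat.Agent.Lib.CFT.Coh.Solvable
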