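import Mathlib
import Fermat.Agent.Lib.CFT.Coh.RestrictedProd

/-!
# Elementary triviality predicates: transport and comparison with group cohomology

helper58 (P-CFT, Global/CohIdeles, part D2, generic half).  For the predicates `H1TrivialOn`,
`H2TrivialOn` of `Coh/RestrictedProd.lean`:

* `H1TrivialOn.transport`, `H2TrivialOn.transport`: transport along an isomorphism of groups and a
  compatible injective homomorphism of modules (e.g. from the units of a complete local ring with
  its decomposition group to their image in the units of the local field);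
* `isZero_H1_of_h1TrivialOn`, `isZero_H2_of_h2TrivialOn`: if `V` is a representation embedded
  equivariantly into `M` with image `U`, then the elementary predicate for `U` implies the
  vanishing of `Hⁿ(G, V)` (in particular for `V = Rep.of (ρ.subrepresentation N hN)`).
-/

set_option autoImplicit false

namespace Fermat.Agent.Lib.CFT.Coh.RestrictedProd

open groupCohomology

section Transport

variable {G G' : Type} [Group G] [Group G'] {M M' : Type} [CommGroup M] [CommGroup M']
  [MulDistribMulAction G M] [MulDistribMulAction G' M']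

/-- Transport of `H1TrivialOn` along `e : G' ≃* G` and an injective `e`-equivariant homomorphism
`φ : M →* M'` mapping `U` onto `U'`. -/
theorem H1TrivialOn.transport {U : Subgroup M} {U' : Subgroup M'} (h : H1TrivialOn G U)
    (e : G' ≃* G) (φ : M →* M') (hφ : Function.Injective φ)
    (hsmul : ∀ (g : G') (m : M), φ (e g • m) = g • φ m)
    (hU : ∀ m' : M', m' ∈ U' ↔ ∃ m ∈ U, φ m = m') : H1TrivialOn G' U' := by
  intro f' hf' hfU
  choose b hbU hb using fun g' => (hU (f' g')).mp (hfU g')
  let f : G → M := fun g => b (e.symm g)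
  have hf : IsMulCocycle₁ f := by
    intro g₁ g₂
    apply hφ
    show φ (b (e.symm (g₁ * g₂))) = φ (g₁ • b (e.symm g₂) * b (e.symm g₁))
    have h1 : φ (g₁ • b (e.symm g₂)) = e.symm g₁ • f' (e.symm g₂) := by
      rw [← hb, ← hsmul, e.apply_symm_apply]
    rw [hb, map_mul φ, h1, hb, map_mul e.symm]
    exact hf' (e.symm g₁) (e.symm g₂)
  obtain ⟨x, hxU, hx⟩ := h f hf (fun g => hbU _)
  refine ⟨φ x, (hU _).mpr ⟨x, hxU, rfl⟩, fun g' => ?_⟩
  rw [← hsmul, ← map_div, hx (e g')]
  show φ (b (e.symm (e g'))) = f' g'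
  rw [e.symm_apply_apply, hb]

/-- Transport of `H2TrivialOn` along `e : G' ≃* G` and an injective `e`-equivariant homomorphism
`φ : M →* M'` mapping `U` onto `U'`. -/
theorem H2TrivialOn.transport {U : Subgroup M} {U' : Subgroup M'} (h : H2TrivialOn G U)
    (e : G' ≃* G) (φ : M →* M') (hφ : Function.Injective φ)
    (hsmul : ∀ (g : G') (m : M), φ (e g • m) = g • φ m)
    (hU : ∀ m' : M', m' ∈ U' ↔ ∃ m ∈ U, φ m = m') : H2TrivialOn G' U' := by
  intro f' hf' hfU
  choose b hbU hb using fun gh : G' × G' => (hU (f' gh)).mp (hfU gh.1 gh.2)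
  let f : G × G → M := fun gh => b (e.symm gh.1, e.symm gh.2)
  have hf : IsMulCocycle₂ f := by
    intro g₁ g₂ g₃
    apply hφ
    show φ (b (e.symm (g₁ * g₂), e.symm g₃) * b (e.symm g₁, e.symm g₂)) =
      φ (g₁ • b (e.symm g₂, e.symm g₃) * b (e.symm g₁, e.symm (g₂ * g₃)))
    have h1 : φ (g₁ • b (e.symm g₂, e.symm g₃)) = e.symm g₁ • f' (e.symm g₂, e.symm g₃) := by
      rw [← hb, ← hsmul, e.apply_symm_apply]
    rw [map_mul φ, map_mul φ, h1, hb, hb, hb, map_mul e.symm, map_mul e.symm]
    exact hf' (e.symm g₁) (e.symm g₂) (e.symm g₃)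
  obtain ⟨x, hxU, hx⟩ := h f hf (fun g g' => hbU _)
  refine ⟨fun g' => φ (x (e g')), fun g' => (hU _).mpr ⟨_, hxU _, rfl⟩, fun g₁ g₂ => ?_⟩
  rw [← hsmul, ← map_div, ← map_mul φ, map_mul e, hx (e g₁) (e g₂)]
  show φ (b (e.symm (e g₁), e.symm (e g₂))) = f' (g₁, g₂)
  rw [e.symm_apply_apply, e.symm_apply_apply, hb]

end Transport

section Compare

variable {G : Type} [Group G] {M : Type} [CommGroup M] [MulDistribMulAction G M]

/-- If the representation `V` embeds equivariantly into `M` with image `U`, then `H1TrivialOn G U`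
implies `H¹(G, V) = 0`. -/
theorem isZero_H1_of_h1TrivialOn {U : Subgroup M} (h : H1TrivialOn G U) (V : Rep ℤ G)
    (ι : V.V →+ Additive M) (hι : Function.Injective ι)
    (hsmul : ∀ (g : G) (v : V.V), ι (V.ρ g v) = Additive.ofMul (g • (ι v).toMul))
    (hU : ∀ m : M, m ∈ U ↔ ∃ v : V.V, ι v = Additive.ofMul m) :
    CategoryTheory.Limits.IsZero (groupCohomology V 1) := by
  have : Subsingleton (groupCohomology V 1) := by
    refine subsingleton_of_forall_eq 0 (fun x => ?_)
    induction x using H1_induction_on with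
    | h c =>
      rw [H1π_eq_zero_iff]
      have hc := (mem_cocycles₁_iff (⇑c)).mp c.2
      let f : G → M := fun g => (ι (c g)).toMul
      have hf : IsMulCocycle₁ f := by
        intro g₁ g₂
        show (ι (c (g₁ * g₂))).toMul = g₁ • (ι (c g₂)).toMul * (ι (c g₁)).toMul
        rw [hc g₁ g₂, map_add, hsmul]
        rfl
      obtain ⟨x, hxU, hx⟩ := h f hf (fun g => (hU _).mpr ⟨c g, rfl⟩)
      obtain ⟨y, hy⟩ := (hU x).mp hxU
      refine ⟨y, ?_⟩
      funext g
      apply hι
      show ι (V.ρ g y - y) = ι (c g)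
      rw [map_sub, hsmul, hy]
      exact congrArg Additive.ofMul (hx g)
  exact ModuleCat.isZero_of_subsingleton _

/-- If the representation `V` embeds equivariantly into `M` with image `U`, then `H2TrivialOn G U`
implies `H²(G, V) = 0`. -/
theorem isZero_H2_of_h2TrivialOn {U : Subgroup M} (h : H2TrivialOn G U) (V : Rep ℤ G)
    (ι : V.V →+ Additive M) (hι : Function.Injective ι)
    (hsmul : ∀ (g : G) (v : V.V), ι (V.ρ g v) = Additive.ofMul (g • (ι v).toMul))
    (hU : ∀ m : M, m ∈ U ↔ ∃ v : V.V, ι v = Additive.ofMul m) :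
    CategoryTheory.Limits.IsZero (groupCohomology V 2) := by
  have : Subsingleton (groupCohomology V 2) := by
    refine subsingleton_of_forall_eq 0 (fun x => ?_)
    induction x using H2_induction_on with
    | h c =>
      rw [H2π_eq_zero_iff]
      have hc := (mem_cocycles₂_iff (⇑c)).mp c.2
      let f : G × G → M := fun gh => (ι (c gh)).toMul
      have hf : IsMulCocycle₂ f := by
        intro g₁ g₂ g₃
        show (ι (c (g₁ * g₂, g₃))).toMul * (ι (c (g₁, g₂))).toMul =
          g₁ • (ι (c (g₂, g₃))).toMul * (ι (c (g₁, g₂ * g₃))).toMul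
        have h1 := congrArg ι (hc g₁ g₂ g₃)
        rw [map_add, map_add, hsmul] at h1
        exact congrArg Additive.toMul h1
      obtain ⟨x, hxU, hx⟩ := h f hf (fun g g' => (hU _).mpr ⟨c (g, g'), rfl⟩)
      choose y hy using fun g => (hU (x g)).mp (hxU g)
      refine ⟨y, ?_⟩
      funext gh
      obtain ⟨g₁, g₂⟩ := gh
      apply hι
      show ι (V.ρ g₁ (y g₂) - y (g₁ * g₂) + y g₁) = ι (c (g₁, g₂))
      rw [map_add, map_sub, hsmul, hy, hy, hy]
      exact congrArg Additive.ofMul (hx g₁ g₂)
  exact ModuleCat.isZero_of_subsingleton _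

end Compare

end Fermat.Agent.Lib.CFT.Coh.RestrictedProd
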