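import Mathlib
import Fermat.Agent.Lib.CFT.Coh.MapBijective

/-!
# Transport of vanishing cohomology onto a stable subgroup

helper58 (P-CFT, Global/CohIdeles, part D2, generic half).  Let `e : G' ≃* G` be an isomorphism of
groups, `M` a multiplicative `G`-module, `M'` a multiplicative `G'`-module and `φ : M →* M'` an
injective `e`-equivariant homomorphism whose image is the `G'`-stable subgroup underlying the
submodule `N` of `Additive M'`.  Then `Hⁿ(G', N) ≅ Hⁿ(G, M)`; in particular the vanishing of the
latter implies the vanishing of the former (`isZero_subrep_of_mulEquiv`).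
-/

set_option autoImplicit false

namespace Fermat.Agent.Lib.CFT.Coh.SubrepTransport

open CategoryTheory CategoryTheory.Limits groupCohomology

variable {G G' : Type} [Group G] [Group G'] {M M' : Type} [CommGroup M] [CommGroup M']
  [MulDistribMulAction G M] [MulDistribMulAction G' M']
  (e : G' ≃* G) (φ : M →* M')
  (hsmul : ∀ (g : G') (m : M), φ (e g • m) = g • φ m)
  (N : Submodule ℤ (Additive M'))
  (hN : ∀ g : G', N ≤ N.comap (Representation.ofMulDistribMulAction G' M' g))
  (hNφ : ∀ x : Additive M', x ∈ N ↔ ∃ m : M, φ m = x.toMul)

/-- The comparison morphism from the restriction of `M` along `e` to the subrepresentation `N`. -/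
noncomputable def subrepHom :
    Rep.res e.toMonoidHom (Rep.ofMulDistribMulAction G M) ⟶
      Rep.of ((Representation.ofMulDistribMulAction G' M').subrepresentation N hN) :=
  Rep.ofHom ⟨((MonoidHom.toAdditive φ).codRestrict N
      (fun a => (hNφ _).2 ⟨a.toMul, rfl⟩)).toIntLinearMap, fun g => by
    ext a
    exact hsmul g a.toMul⟩

theorem subrepHom_apply_coe (a : Additive M) :
    (((subrepHom e φ hsmul N hN hNφ).hom a : N) : Additive M') = Additive.ofMul (φ a.toMul) :=
  rfl

theorem subrepHom_bijective (hφ : Function.Injective φ) :
    Function.Bijective (subrepHom e φ hsmul N hN hNφ).hom := by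
  constructor
  · intro a b hab
    have h1 := congrArg (fun y : N => ((y : Additive M')).toMul) hab
    exact congrArg Additive.ofMul (hφ h1)
  · intro y
    obtain ⟨m, hm⟩ := (hNφ y.1).1 y.2
    refine ⟨Additive.ofMul m, Subtype.ext ?_⟩
    exact congrArg Additive.ofMul hm

include e hsmul hNφ in
/-- Transport of the vanishing of cohomology along an isomorphism of groups and a compatible
isomorphism from a multiplicative module onto a stable subgroup of another. -/
theorem isZero_subrep_of_mulEquiv (hφ : Function.Injective φ) (n : ℕ)
    (h : IsZero (groupCohomology (Rep.ofMulDistribMulAction G M) n)) :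
    IsZero (groupCohomology
      (Rep.of ((Representation.ofMulDistribMulAction G' M').subrepresentation N hN)) n) := by
  have hiso : IsIso (groupCohomology.map e.toMonoidHom (subrepHom e φ hsmul N hN hNφ) n) :=
    MapBijective.isIso_map e.toMonoidHom (subrepHom e φ hsmul N hN hNφ) e.bijective
      (subrepHom_bijective e φ hsmul N hN hNφ hφ) n
  exact IsZero.of_iso h
    (asIso (groupCohomology.map e.toMonoidHom (subrepHom e φ hsmul N hN hNφ) n)).symm

end Fermat.Agent.Lib.CFT.Coh.SubrepTransport
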