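/-
P-CFT (helper43): Sylow reduction for cardinalities of cohomology groups.

If for every prime `p` dividing `|G|` some Sylow `p`-subgroup `P` has `|Ĥⁿ(P, A)|` finite and
dividing `|P|`, then `Ĥⁿ(G, A)` is finite of order dividing `|G|` (restriction to the Sylow
subgroups is jointly injective because `cor ∘ res = index`, helper29's `Coh/ResCorIndex`).
Same statement for Mathlib's `groupCohomology` in positive degrees.
-/
import Mathlib
import Fermat.Agent.Lib.CFT.Coh.ResCorIndex

set_option autoImplicit false
set_option linter.unusedSectionVars false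

universe u

open CategoryTheory CategoryTheory.Limits groupCohomology Rep

namespace Fermat.Agent.Lib.CFT.Coh.SylowCard

open Fermat.Agent.Lib.CFT.Coh.ResCor

noncomputable section

variable {R G : Type u} [CommRing R] [Group G] [Fintype G]

/-- **Joint injectivity of restrictions**: a Tate cohomology class which, for every prime `p`
dividing `|G|`, restricts to zero on some subgroup of index prime to `p`, is zero. -/
theorem eq_zero_of_forall_prime_tRes (A : Rep R G) (n : ℤ) (z : tateCohomology A n)
    (h : ∀ p : ℕ, p.Prime → p ∣ Fintype.card G →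
      ∃ (S : Subgroup G) (_ : Fintype S) (_ : Fintype (G ⧸ S)), ¬ p ∣ Fintype.card (G ⧸ S) ∧
        (tRes S A n).hom z = 0) : z = 0 := by
  -- the ideal of integers killing `z`
  let I : Ideal ℤ :=
    { carrier := {k | k • z = 0}
      add_mem' := fun {a b} ha hb => by
        simp only [Set.mem_ofPred_eq] at ha hb ⊢
        rw [add_smul, ha, hb, add_zero]
      zero_mem' := by simp
      smul_mem' := fun c {a} ha => by
        simp only [Set.mem_ofPred_eq, smul_eq_mul] at ha ⊢
        rw [mul_smul, ha, smul_zero] }
  have hI : ∀ k : ℤ, k ∈ I ↔ k • z = 0 := fun k => Iff.rfl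
  have hcard : (Fintype.card G : ℤ) ∈ I := by
    rw [hI, natCast_zsmul]; exact card_nsmul_tateCohomology A n z
  obtain ⟨d, hd⟩ : ∃ d : ℤ, I = Ideal.span {d} :=
    ⟨_, (IsPrincipalIdealRing.principal I).span_singleton_generator.symm⟩
  have hdI : d ∈ I := by rw [hd]; exact Ideal.mem_span_singleton_self d
  have hdvd : ∀ k ∈ I, d ∣ k := fun k hk => by
    rw [hd] at hk; exact Ideal.mem_span_singleton.1 hk
  have hd1 : d.natAbs = 1 := by
    by_contra hne
    obtain ⟨p, hp, hpd⟩ := Nat.exists_prime_and_dvd hne
    have hpd' : (p : ℤ) ∣ d := Int.natCast_dvd.2 hpd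
    have hpG : p ∣ Fintype.card G := by
      have := hpd'.trans (hdvd _ hcard)
      exact_mod_cast this
    obtain ⟨S, _, _, hpS, hS⟩ := h p hp hpG
    have hSI : (Fintype.card (G ⧸ S) : ℤ) ∈ I := by
      rw [hI, natCast_zsmul, ← tCor_tRes_apply S A n z, hS, map_zero]
    have := hpd'.trans (hdvd _ hSI)
    exact hpS (by exact_mod_cast this)
  have h1 : (1 : ℤ) ∈ I := by
    rcases Int.natAbs_eq d with h | h
    · rw [h, hd1] at hdI; simpa using hdI
    · rw [h, hd1] at hdI
      have := I.neg_mem hdI
      simpa using this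
  rw [hI, one_smul] at h1
  exact h1

/-- **Sylow reduction for cardinalities, Tate cohomology.** -/
theorem finite_and_card_dvd_of_sylow_tate (A : Rep R G) (n : ℤ)
    (h : ∀ p : ℕ, p.Prime → p ∣ Fintype.card G →
      ∃ (P : Subgroup G) (_ : Fintype P), Nat.card P = p ^ (Fintype.card G).factorization p ∧
        Finite (tateCohomology (res P.subtype A) n) ∧
        Nat.card (tateCohomology (res P.subtype A) n) ∣ Nat.card P) :
    Finite (tateCohomology A n) ∧ Nat.card (tateCohomology A n) ∣ Fintype.card G := by
  classical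
  -- choose the subgroups
  let ι := {p : ℕ // p ∈ (Fintype.card G).primeFactors}
  have hι : ∀ p : ι, (p : ℕ).Prime ∧ (p : ℕ) ∣ Fintype.card G := fun p =>
    ⟨Nat.prime_of_mem_primeFactors p.2, Nat.dvd_of_mem_primeFactors p.2⟩
  choose P hPfin hPcard hTfin hTdvd using fun p : ι => h p (hι p).1 (hι p).2
  let T : ι → Type u := fun p => tateCohomology (res (P p).subtype A) n
  have hTfin' : ∀ p, Finite (T p) := hTfin
  -- the joint restriction map
  let Φ : tateCohomology A n →+ (∀ p : ι, T p) :=
    AddMonoidHom.pi fun p => ((tRes (P p) A n).hom : _ →ₗ[R] _).toAddMonoidHom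
  have hΦ : Function.Injective Φ := by
    rw [injective_iff_map_eq_zero]
    intro z hz
    refine eq_zero_of_forall_prime_tRes A n z fun p hp hpG => ?_
    let q : ι := ⟨p, Nat.mem_primeFactors.mpr ⟨hp, hpG, Fintype.card_ne_zero⟩⟩
    refine ⟨P q, hPfin q, inferInstance, ?_, congrFun hz q⟩
    -- the index of `P q` is prime to `p`
    intro hdvd
    have hidx : Fintype.card (G ⧸ P q) * Nat.card (P q) = Fintype.card G := by
      rw [← Nat.card_eq_fintype_card, ← Nat.card_eq_fintype_card, ← Subgroup.index_eq_card,
        Subgroup.index_mul_card]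
    have hPc : Nat.card (P q) = p ^ (Fintype.card G).factorization p := hPcard q
    obtain ⟨c, hc⟩ := hdvd
    have h1 : p ^ ((Fintype.card G).factorization p + 1) ∣ Fintype.card G := by
      refine ⟨c, ?_⟩
      conv_lhs => rw [← hidx, hPc, hc]
      ring
    exact (Nat.pow_succ_factorization_not_dvd Fintype.card_ne_zero hp) h1
  have hfinPi : Finite (∀ p : ι, T p) := inferInstance
  have hfin : Finite (tateCohomology A n) := Finite.of_injective Φ hΦ
  refine ⟨hfin, ?_⟩
  have h1 : Nat.card (tateCohomology A n) ∣ Nat.card (∀ p : ι, T p) :=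
    AddSubgroup.card_dvd_of_injective Φ hΦ
  refine h1.trans ?_
  rw [Nat.card_pi]
  have h2 : (∏ p : ι, Nat.card (T p)) ∣ ∏ p : ι, (p : ℕ) ^ (Fintype.card G).factorization p :=
    Finset.prod_dvd_prod_of_dvd _ _ fun p _ => (hTdvd p).trans (by rw [hPcard p])
  refine h2.trans ?_
  have h3 : (∏ p : ι, (p : ℕ) ^ (Fintype.card G).factorization p) = Fintype.card G := by
    conv_rhs => rw [← Nat.prod_factorization_pow_eq_self (Fintype.card_ne_zero (α := G))]
    rw [Finsupp.prod, Nat.support_factorization]
    exact (Finset.prod_subtype _ (fun p => Iff.rfl)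
      (fun p => p ^ (Fintype.card G).factorization p)).symm
  rw [h3]

/-- **Sylow reduction for cardinalities, group cohomology in positive degrees.** -/
theorem finite_and_card_dvd_of_sylow (A : Rep R G) (n : ℕ) [NeZero n]
    (h : ∀ p : ℕ, p.Prime → p ∣ Fintype.card G →
      ∃ P : Subgroup G, Nat.card P = p ^ (Fintype.card G).factorization p ∧
        Finite (groupCohomology (res P.subtype A) n) ∧
        Nat.card (groupCohomology (res P.subtype A) n) ∣ Nat.card P) :
    Finite (groupCohomology A n) ∧ Nat.card (groupCohomology A n) ∣ Fintype.card G := by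
  classical
  have eG : tateCohomology A n ≃ groupCohomology A n :=
    ((TateCohomology.isoGroupCohomology n).app A).toLinearEquiv.toEquiv
  have key := finite_and_card_dvd_of_sylow_tate A (n : ℤ) (fun p hp hpG => by
    obtain ⟨P, hPc, hfin, hdvd⟩ := h p hp hpG
    let _ : Fintype P := Fintype.ofFinite P
    have eP : tateCohomology (res P.subtype A) n ≃ groupCohomology (res P.subtype A) n :=
      ((TateCohomology.isoGroupCohomology n).app (res P.subtype A)).toLinearEquiv.toEquiv
    exact ⟨P, inferInstance, hPc, Finite.of_equiv _ eP.symm, by rwa [Nat.card_congr eP]⟩)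
  have : Finite (tateCohomology A n) := key.1
  exact ⟨Finite.of_equiv _ eG, by rw [← Nat.card_congr eG]; exact key.2⟩

end

end Fermat.Agent.Lib.CFT.Coh.SylowCard
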