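/-
Tate cohomology of finite cyclic groups: cardinalities in all degrees in terms of the Herbrand
indices, and two-periodicity.
-/
import Fermat.Agent.Lib.CFT.Coh.TateLow
import Fermat.Agent.Lib.CFT.HerbrandRep

set_option autoImplicit false
set_option linter.unusedSectionVars false

namespace Fermat.Agent.Lib.CFT.Coh.TateCyclic

open CategoryTheory groupCohomology groupHomology Rep.FiniteCyclicGroup
open Fermat.Agent.Lib.CFT.Herbrand Fermat.Agent.Lib.CFT.Coh.TateLow

universe u

variable {k G : Type u} [CommRing k] [CommGroup G] [Fintype G] (A : Rep.{u} k G) (g : G)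
  (hg : ∀ x, x ∈ Subgroup.zpowers g)

include hg in
theorem ker_repSub_eq_invariants :
    (repSub A g).ker = A.ρ.invariants.toAddSubgroup := by
  ext x
  rw [AddMonoidHom.mem_ker, repSub_apply, sub_eq_zero]
  exact (Representation.mem_invariants_iff_of_forall_mem_zpowers A.ρ g hg x).symm

include hg in
theorem range_repSub_eq_coinvariantsKer :
    (repSub A g).range = (Representation.Coinvariants.ker A.ρ).toAddSubgroup := by
  ext x
  rw [Representation.FiniteCyclicGroup.coinvariantsKer_eq_range A.ρ g hg]
  constructor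
  · rintro ⟨a, rfl⟩
    exact ⟨a, by simp⟩
  · rintro ⟨a, rfl⟩
    exact ⟨a, by simp⟩

theorem ker_repNorm_eq : (repNorm A).ker = (LinearMap.ker A.ρ.norm).toAddSubgroup := by
  ext x
  simp [AddMonoidHom.mem_ker, Representation.norm]

theorem range_repNorm_eq : (repNorm A).range = (LinearMap.range A.ρ.norm).toAddSubgroup := by
  ext x
  simp [AddMonoidHom.mem_range, Representation.norm]

include hg in
/-- `|Ĥ⁰(G, A)| = [ker (ρ g - 1) : im N]`. -/
theorem card_tateCohomology_zero :
    Nat.card (tateCohomology A 0) = hIndex (repSub A g) (repNorm A) := by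
  unfold hIndex
  rw [ker_repSub_eq_invariants A g hg, range_repNorm_eq]
  refine card_eq_relIndex_of_surjective _ _
    ((π₀ A).hom : _ →ₗ[k] _).toAddMonoidHom (π₀_surjective A) ?_
  intro x
  exact π₀_eq_zero_iff A x

include hg in
/-- `|Ĥ⁻¹(G, A)| = [ker N : im (ρ g - 1)]`. -/
theorem card_tateCohomology_negOne :
    Nat.card (tateCohomology A (-1)) = hIndex (repNorm A) (repSub A g) := by
  unfold hIndex
  rw [ker_repNorm_eq, range_repSub_eq_coinvariantsKer A g hg]
  refine card_eq_relIndex_of_surjective _ _
    ((πm1 A).hom : _ →ₗ[k] _).toAddMonoidHom (πm1_surjective A) ?_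
  intro x
  exact πm1_eq_zero_iff A x

section Homology

variable [DecidableEq G]

theorem groupHomologyπEven_surjective (i : ℕ) [NeZero i] (hi : Even i) :
    Function.Surjective (groupHomologyπEven A g hg i hi) := by
  rw [← ModuleCat.epi_iff_surjective]
  unfold groupHomologyπEven
  have h0 : Epi ((subCompNormHom A g).moduleCatCyclesIso.inv) := inferInstance
  have h2 : Epi ((subCompNormHom A g).homologyπ ≫ (groupHomologyIsoEven A g hg i hi).inv) :=
    epi_comp _ _
  exact @epi_comp _ _ _ _ _ _ h0 _ h2

theorem groupHomologyπOdd_surjective (i : ℕ) (hi : Odd i) :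
    Function.Surjective (groupHomologyπOdd A g hg i hi) := by
  rw [← ModuleCat.epi_iff_surjective]
  unfold groupHomologyπOdd
  have h0 : Epi ((normHomCompSub A g).moduleCatCyclesIso.inv) := inferInstance
  have h2 : Epi ((normHomCompSub A g).homologyπ ≫ (groupHomologyIsoOdd A g hg i hi).inv) :=
    epi_comp _ _
  exact @epi_comp _ _ _ _ _ _ h0 _ h2

include hg in
/-- `|Hᵢ(G, A)| = [ker N : im (ρ g - 1)]` for even `i > 0`. -/
theorem card_groupHomology_even (i : ℕ) [NeZero i] (hi : Even i) :
    Nat.card (groupHomology A i) = hIndex (repNorm A) (repSub A g) := by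
  unfold hIndex
  rw [ker_repNorm_eq]
  refine card_eq_relIndex_of_surjective _ _
    ((groupHomologyπEven A g hg i hi).hom : _ →ₗ[k] _).toAddMonoidHom
    (groupHomologyπEven_surjective A g hg i hi) ?_
  intro x
  have h1 := groupHomologyπEven_eq_zero_iff A g hg i hi x
  rw [mem_range_repSub_iff]
  exact h1

include hg in
/-- `|Hᵢ(G, A)| = [ker (ρ g - 1) : im N]` for odd `i`. -/
theorem card_groupHomology_odd (i : ℕ) (hi : Odd i) :
    Nat.card (groupHomology A i) = hIndex (repSub A g) (repNorm A) := by
  unfold hIndex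
  have hK : (repSub A g).ker =
      (LinearMap.ker (Rep.applyAsHom A g - 𝟙 A).hom.toLinearMap).toAddSubgroup := by
    ext x
    exact mem_ker_repSub_iff A g x
  rw [hK, range_repNorm_eq]
  refine card_eq_relIndex_of_surjective _ _
    ((groupHomologyπOdd A g hg i hi).hom : _ →ₗ[k] _).toAddMonoidHom
    (groupHomologyπOdd_surjective A g hg i hi) ?_
  intro x
  exact groupHomologyπOdd_eq_zero_iff A g hg i hi x

end Homology

theorem card_tateCohomology_pos (n : ℕ) [NeZero n] :
    Nat.card (tateCohomology A n) = Nat.card (groupCohomology A n) :=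
  Nat.card_congr ((TateCohomology.isoGroupCohomology n).app A).toLinearEquiv.toEquiv

theorem card_tateCohomology_neg (m : ℤ) (n : ℕ) (hmn : m = -(n + 1)) [NeZero n] :
    Nat.card (tateCohomology A m) = Nat.card (groupHomology A n) :=
  Nat.card_congr ((TateCohomology.isoGroupHomology m n hmn).app A).toLinearEquiv.toEquiv

theorem int_cases (n : ℤ) :
    n = 0 ∨ n = -1 ∨ (∃ m : ℕ, m ≠ 0 ∧ n = (m : ℤ)) ∨ (∃ m : ℕ, m ≠ 0 ∧ n = -((m : ℤ) + 1)) := by
  rcases lt_trichotomy n 0 with h | h | h
  · rcases eq_or_lt_of_le (show n ≤ -1 by omega) with h1 | h1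
    · exact Or.inr (Or.inl h1)
    · exact Or.inr (Or.inr (Or.inr ⟨(-n - 1).toNat, by omega, by omega⟩))
  · exact Or.inl h
  · exact Or.inr (Or.inr (Or.inl ⟨n.toNat, by omega, by omega⟩))

include hg in
/-- For a finite cyclic group, `|Ĥⁿ(G, A)| = [ker (ρ g - 1) : im N]` for every even `n : ℤ`. -/
theorem card_tateCohomology_even (n : ℤ) (hn : Even n) :
    Nat.card (tateCohomology A n) = hIndex (repSub A g) (repNorm A) := by
  classical
  rcases int_cases n with rfl | rfl | ⟨m, hm, rfl⟩ | ⟨m, hm, rfl⟩
  · exact card_tateCohomology_zero A g hg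
  · exact absurd hn (by decide)
  · have : NeZero m := ⟨hm⟩
    have hn' : Even m := by exact_mod_cast hn
    rw [card_tateCohomology_pos A m, card_groupCohomology_even A g hg m hn']
  · have : NeZero m := ⟨hm⟩
    have hn' : Odd m := by
      have h2 : Even ((m : ℤ) + 1) := by simpa using hn.neg
      have h3 : Even (m + 1) := by exact_mod_cast h2
      rcases Nat.even_or_odd m with h | h
      · exact absurd h3 (by simpa [Nat.even_add_one] using h)
      · exact h
    rw [card_tateCohomology_neg A _ m rfl, card_groupHomology_odd A g hg m hn']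

include hg in
/-- For a finite cyclic group, `|Ĥⁿ(G, A)| = [ker N : im (ρ g - 1)]` for every odd `n : ℤ`. -/
theorem card_tateCohomology_odd (n : ℤ) (hn : Odd n) :
    Nat.card (tateCohomology A n) = hIndex (repNorm A) (repSub A g) := by
  classical
  rcases int_cases n with rfl | rfl | ⟨m, hm, rfl⟩ | ⟨m, hm, rfl⟩
  · exact absurd hn (by decide)
  · exact card_tateCohomology_negOne A g hg
  · have : NeZero m := ⟨hm⟩
    have hn' : Odd m := by exact_mod_cast hn
    rw [card_tateCohomology_pos A m, card_groupCohomology_odd A g hg m hn']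
  · have : NeZero m := ⟨hm⟩
    have hn' : Even m := by
      have h2 : Odd ((m : ℤ) + 1) := by simpa using hn.neg
      have h3 : Odd (m + 1) := by exact_mod_cast h2
      rcases Nat.even_or_odd m with h | h
      · exact h
      · exact absurd h3 (by simpa [Nat.odd_add_one] using h)
    rw [card_tateCohomology_neg A _ m rfl, card_groupHomology_even A g hg m hn']

include hg in
/-- Two-periodicity of the cardinalities of Tate cohomology of a finite cyclic group. -/
theorem card_tateCohomology_add_two (n : ℤ) :
    Nat.card (tateCohomology A (n + 2)) = Nat.card (tateCohomology A n) := by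
  rcases Int.even_or_odd n with h | h
  · rw [card_tateCohomology_even A g hg n h,
      card_tateCohomology_even A g hg (n + 2) (h.add (by decide))]
  · rw [card_tateCohomology_odd A g hg n h,
      card_tateCohomology_odd A g hg (n + 2) (h.add_even (by decide))]

include hg in
/-- The Herbrand quotient of `(ρ g - 1, N)` is `|Ĥ⁰(G, A)| / |Ĥ⁻¹(G, A)|`. -/
theorem herbrand_eq_card_tate :
    herbrand (repSub A g) (repNorm A) =
      (Nat.card (tateCohomology A 0) : ℚ) / (Nat.card (tateCohomology A (-1)) : ℚ) := by
  unfold herbrand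
  rw [card_tateCohomology_zero A g hg, card_tateCohomology_negOne A g hg]

include hg in
/-- The Herbrand quotient of `(ρ g - 1, N)` is `|Ĥⁿ(G, A)| / |Ĥⁿ⁺¹(G, A)|` for every even `n`. -/
theorem herbrand_eq_card_tate_even (n : ℤ) (hn : Even n) :
    herbrand (repSub A g) (repNorm A) =
      (Nat.card (tateCohomology A n) : ℚ) / (Nat.card (tateCohomology A (n + 1)) : ℚ) := by
  unfold herbrand
  rw [card_tateCohomology_even A g hg n hn, card_tateCohomology_odd A g hg (n + 1) hn.add_one]

end Fermat.Agent.Lib.CFT.Coh.TateCyclic
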